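import Mathlib
import Fermat.Prelude.Def_AlgebraicCurve_DivisorClassGroup
import Fermat.Agent.T1B.Hol31.Local

/-!
# T1B (S44), brick HOLLOG80 (helper80), abstract part: `p ∣ ord_v(ū)` at every place

The interface S5 HOL → brick H (helper13's `HolLog`, report 993): the reduction `ū` of the function
`f_P` (`p D = div f_P`, `P ∈ J⁰[p]`) has a divisor divisible by `p` at EVERY place of the function
field `k₁ / κ` of the component of the special fibre.

* `Place.mem_of_isIntegral` : the valuation ring of a place is integrally closed: an element of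
  `k` integral over a subring contained in `O_v` lies in `O_v`;
* `Place.ord_eq_zero_of_isUnit'`, `Place.ord_pow'`;
* `ord_dvd_of_local_pow` : **one chart.**  `ρ : R →+* k` with image in `O_v` (the place `v` has a
  CENTRE on `R`); if at every prime `𝔮 ⊇ ker ρ` one has `ū * ρ s = ρ r * b ^ p` with `s, r ∉ 𝔮`,
  `b ≠ 0`, then `p ∣ ord_v ū`;
* `ord_dvd_two_chart` : **two charts.**  `ρ_0(R_0)` integral over `κ[t]`, `ρ_1(R_1)` integral over
  `κ[t⁻¹]` (so every place has a centre on one of the charts);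
* `ord_dvd_of_pow_eq` : **the S5 form.**  `V` a valuation subring of `F`, charts `φ_j : R_j →+* V`,
  `res₁ : V →+* k` killing the nonunits, `I_j ⊂ F` invertible `R_j`-submodules with
  `I_j ^ p = R_j ∙ f`, `f = u * c ^ p`, `u ∈ Vˣ`: then `p ∣ ord_v (res₁ u)` for every place `v` of
  `k / κ`.
-/

set_option autoImplicit false
set_option linter.unusedSectionVars false

namespace Fermat.Agent.T1B.Hol80

open AlgebraicCurve Fermat.Agent.T1B.Hol31.Local

section PlaceLemmas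

variable {κ k : Type*} [Field κ] [Field k] [Algebra κ k] (v : Place κ k)

/-- An element of `k` which is integral over a subring `S` of `k` contained in `O_v` lies in `O_v`
(valuation rings are integrally closed). -/
theorem Place.mem_of_isIntegral {S : Subring k} (hS : ∀ x ∈ S, x ∈ v.toValuationSubring) {x : k}
    (hx : IsIntegral S x) : x ∈ v.toValuationSubring := by
  obtain ⟨P, hP, hPx⟩ := hx
  -- the inclusion `S → O_v`
  let g : ↥S →+* ↥v.toValuationSubring :=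
    { toFun := fun s => ⟨(s : k), hS _ s.2⟩
      map_one' := rfl
      map_mul' := fun _ _ => rfl
      map_zero' := rfl
      map_add' := fun _ _ => rfl }
  have hint : IsIntegral ↥v.toValuationSubring x := by
    refine ⟨P.map g, hP.map g, ?_⟩
    rw [Polynomial.eval₂_map]
    exact hPx
  obtain ⟨y, hy⟩ := (IsIntegrallyClosed.isIntegral_iff (R := ↥v.toValuationSubring) (K := k)).1 hint
  rw [← hy]
  exact y.2

/-- The same for integrality over `κ[t]`, `t ∈ O_v`. -/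
theorem Place.mem_of_isIntegral_adjoin {t : k} (ht : t ∈ v.toValuationSubring) {x : k}
    (hx : IsIntegral (Algebra.adjoin κ {t}) x) : x ∈ v.toValuationSubring := by
  have hle : ∀ y ∈ (Algebra.adjoin κ {t}).toSubring, y ∈ v.toValuationSubring := by
    intro y hy
    have hy' : y ∈ Algebra.adjoin κ {t} := hy
    refine Algebra.adjoin_induction (p := fun y _ => y ∈ v.toValuationSubring) ?_ ?_ ?_ ?_ hy'
    · intro z hz
      rw [Set.mem_singleton_iff.1 hz]; exact ht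
    · intro a
      exact v.algebraMap_mem' a
    · intro a b _ _ ha hb
      exact v.toValuationSubring.add_mem _ _ ha hb
    · intro a b _ _ ha hb
      exact v.toValuationSubring.mul_mem _ _ ha hb
  exact Place.mem_of_isIntegral v hle hx

theorem Place.ord_eq_zero_of_mem_of_inv_mem {x : k} (hx : x ∈ v.toValuationSubring)
    (hx' : x⁻¹ ∈ v.toValuationSubring) (h0 : x ≠ 0) : v.ord x = 0 := by
  have := v.ord_coe_unit ⟨⟨x, hx⟩, ⟨x⁻¹, hx'⟩, Subtype.ext (mul_inv_cancel₀ h0),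
    Subtype.ext (inv_mul_cancel₀ h0)⟩
  exact this

theorem Place.ord_pow' (x : k) (n : ℕ) : v.ord (x ^ n) = (n : ℤ) * v.ord x := by
  have := v.ord_zpow x (n : ℤ)
  rwa [zpow_natCast] at this

end PlaceLemmas

section OneChart

variable {κ k : Type*} [Field κ] [Field k] [Algebra κ k] (v : Place κ k)
variable {R : Type*} [CommRing R]

/-- `ρ` corestricted to the valuation ring of `v`. -/
def toPlaceRing (ρ : R →+* k) (hρ : ∀ x, ρ x ∈ v.toValuationSubring) :
    R →+* ↥v.toValuationSubring where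
  toFun x := ⟨ρ x, hρ x⟩
  map_one' := Subtype.ext (map_one ρ)
  map_mul' x y := Subtype.ext (map_mul ρ x y)
  map_zero' := Subtype.ext (map_zero ρ)
  map_add' x y := Subtype.ext (map_add ρ x y)

/-- The centre of the place `v` on `R`. -/
def centre (ρ : R →+* k) (hρ : ∀ x, ρ x ∈ v.toValuationSubring) : Ideal R :=
  (IsLocalRing.maximalIdeal ↥v.toValuationSubring).comap (toPlaceRing v ρ hρ)

instance centre_isPrime (ρ : R →+* k) (hρ : ∀ x, ρ x ∈ v.toValuationSubring) :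
    (centre v ρ hρ).IsPrime :=
  Ideal.comap_isPrime _ _

theorem ker_le_centre (ρ : R →+* k) (hρ : ∀ x, ρ x ∈ v.toValuationSubring) :
    RingHom.ker ρ ≤ centre v ρ hρ := by
  intro x hx
  show toPlaceRing v ρ hρ x ∈ IsLocalRing.maximalIdeal ↥v.toValuationSubring
  have : toPlaceRing v ρ hρ x = 0 := Subtype.ext ((RingHom.mem_ker).1 hx)
  rw [this]
  exact Ideal.zero_mem _

/-- Outside the centre, `ρ x` has order `0`. -/
theorem ord_eq_zero_of_notMem_centre (ρ : R →+* k) (hρ : ∀ x, ρ x ∈ v.toValuationSubring)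
    {x : R} (hx : x ∉ centre v ρ hρ) : v.ord (ρ x) = 0 := by
  have hu : IsUnit (toPlaceRing v ρ hρ x) := by
    by_contra hnu
    exact hx ((IsLocalRing.mem_maximalIdeal _).2 hnu)
  have := v.ord_coe_unit hu.unit
  rwa [IsUnit.unit_spec] at this

theorem ne_zero_of_notMem_centre (ρ : R →+* k) (hρ : ∀ x, ρ x ∈ v.toValuationSubring)
    {x : R} (hx : x ∉ centre v ρ hρ) : ρ x ≠ 0 := fun h0 =>
  hx (ker_le_centre v ρ hρ ((RingHom.mem_ker).2 h0))

/-- **One chart.**  If the place `v` has a centre on `R` and `ū` is, at every prime of `R`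
containing `ker ρ`, a unit times a `p`-th power, then `p ∣ ord_v ū`. -/
theorem ord_dvd_of_local_pow (ρ : R →+* k) (hρ : ∀ x, ρ x ∈ v.toValuationSubring) (p : ℕ)
    {ubar : k} (hu : ubar ≠ 0)
    (hloc : ∀ 𝔮 : Ideal R, 𝔮.IsPrime → RingHom.ker ρ ≤ 𝔮 →
      ∃ s r : R, s ∉ 𝔮 ∧ r ∉ 𝔮 ∧ ∃ b : k, b ≠ 0 ∧ ubar * ρ s = ρ r * b ^ p) :
    (p : ℤ) ∣ v.ord ubar := by
  obtain ⟨s, r, hs, hr, b, hb, heq⟩ :=
    hloc (centre v ρ hρ) (centre_isPrime v ρ hρ) (ker_le_centre v ρ hρ)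
  have h1 := congrArg v.ord heq
  rw [v.ord_mul hu (ne_zero_of_notMem_centre v ρ hρ hs),
    v.ord_mul (ne_zero_of_notMem_centre v ρ hρ hr) (pow_ne_zero p hb),
    ord_eq_zero_of_notMem_centre v ρ hρ hs, ord_eq_zero_of_notMem_centre v ρ hρ hr,
    Place.ord_pow', add_zero, zero_add] at h1
  exact ⟨v.ord b, h1⟩

end OneChart

section TwoChart

variable {κ k : Type*} [Field κ] [Field k] [Algebra κ k]
variable {R0 R1 : Type*} [CommRing R0] [CommRing R1]

/-- **Two charts.**  If `ρ_0(R_0)` is integral over `κ[t]` and `ρ_1(R_1)` is integral over `κ[t⁻¹]`,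
every place of `k / κ` has a centre on `R_0` or on `R_1`; hence if `ū` is locally (at every prime
of both charts containing `ker ρ_j`) a unit times a `p`-th power, `p ∣ ord_v ū` for EVERY place. -/
theorem ord_dvd_two_chart (ρ0 : R0 →+* k) (ρ1 : R1 →+* k) (t : k)
    (hint0 : ∀ x, IsIntegral (Algebra.adjoin κ {t}) (ρ0 x))
    (hint1 : ∀ x, IsIntegral (Algebra.adjoin κ {t⁻¹}) (ρ1 x))
    (p : ℕ) {ubar : k} (hu : ubar ≠ 0)
    (hloc0 : ∀ 𝔮 : Ideal R0, 𝔮.IsPrime → RingHom.ker ρ0 ≤ 𝔮 →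
      ∃ s r : R0, s ∉ 𝔮 ∧ r ∉ 𝔮 ∧ ∃ b : k, b ≠ 0 ∧ ubar * ρ0 s = ρ0 r * b ^ p)
    (hloc1 : ∀ 𝔮 : Ideal R1, 𝔮.IsPrime → RingHom.ker ρ1 ≤ 𝔮 →
      ∃ s r : R1, s ∉ 𝔮 ∧ r ∉ 𝔮 ∧ ∃ b : k, b ≠ 0 ∧ ubar * ρ1 s = ρ1 r * b ^ p)
    (v : Place κ k) : (p : ℤ) ∣ v.ord ubar := by
  rcases v.toValuationSubring.mem_or_inv_mem t with ht | ht
  · exact ord_dvd_of_local_pow v ρ0 (fun x => Place.mem_of_isIntegral_adjoin v ht (hint0 x)) p hu
      hloc0
  · exact ord_dvd_of_local_pow v ρ1 (fun x => Place.mem_of_isIntegral_adjoin v ht (hint1 x)) p hu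
      hloc1

end TwoChart

section S5

variable {F : Type*} [Field F] (V : ValuationSubring F)
variable {κ k : Type*} [Field κ] [Field k] [Algebra κ k]

/-- The local equation of S5 in the residue field: at a prime `𝔮 ⊇ ker (res₁ ∘ φ)` of the chart
`R`, `res₁ u * ρ s = ρ r * b ^ p` with `s, r ∉ 𝔮`, `b ≠ 0` (`ρ = res₁ ∘ φ`). -/
theorem exists_local_pow {R : Type*} [CommRing R] [Algebra R F]
    (φ : R →+* V) (hφ : ∀ x, algebraMap R F x = (φ x : F))
    {I J : Submodule R F} (hIJ : I * J = 1) (p : ℕ) (hp : p ≠ 0) {f : F} (hf : f ≠ 0)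
    (hI : I ^ p = Submodule.span R {f})
    (res₁ : V →+* k) (hres : ∀ x : ↥V, ¬ IsUnit x → res₁ x = 0)
    (u : (↥V)ˣ) (c : F) (hu : ((u : ↥V) : F) * c ^ p = f)
    (𝔮 : Ideal R) (h𝔮 : 𝔮.IsPrime) (hle : RingHom.ker (res₁.comp φ) ≤ 𝔮) :
    ∃ s r : R, s ∉ 𝔮 ∧ r ∉ 𝔮 ∧ ∃ b : k, b ≠ 0 ∧
      res₁ (u : ↥V) * (res₁.comp φ) s = (res₁.comp φ) r * b ^ p := by
  have hunit : ∀ x : R, x ∉ 𝔮 → IsUnit (φ x) := by
    intro x hx
    by_contra hnu
    exact hx (hle ((RingHom.mem_ker).2 (hres _ hnu)))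
  obtain ⟨a, -, s, r, hs, hr, hsr⟩ := exists_smul_eq_smul_pow hIJ p hf hI 𝔮
  obtain ⟨b, -, hb⟩ := exists_unit_pow_of_smul_eq V φ hφ hp hf (hunit s hs) (hunit r hr) hsr u hu
  refine ⟨s, r, hs, hr, res₁ (b : ↥V), (b.isUnit.map res₁).ne_zero, ?_⟩
  have := congrArg res₁ hb
  rwa [map_mul, map_mul, map_pow] at this

variable {R0 R1 : Type*} [CommRing R0] [CommRing R1] [Algebra R0 F] [Algebra R1 F]

/-- **HOLLOG, abstract form.**  `V` a valuation subring of `F` (the Gauss valuation ring of the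
component), charts `φ_j : R_j →+* V`, `res₁ : V →+* k` killing the nonunits, with values in a field
`k / κ` (the function field of the component of the special fibre) such that `res₁ (φ_0 R_0)` is
integral over `κ[t]` and `res₁ (φ_1 R_1)` is integral over `κ[t⁻¹]`.  If `I_j ⊂ F` are invertible
`R_j`-submodules with `I_j ^ p = R_j ∙ f` and `f = u * c ^ p`, `u ∈ Vˣ`, then the divisor of
`res₁ u` is divisible by `p`: `p ∣ ord_v (res₁ u)` for every place `v` of `k / κ`. -/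
theorem ord_dvd_of_pow_eq (φ0 : R0 →+* V) (hφ0 : ∀ x, algebraMap R0 F x = (φ0 x : F))
    (φ1 : R1 →+* V) (hφ1 : ∀ x, algebraMap R1 F x = (φ1 x : F))
    {I0 J0 : Submodule R0 F} (hIJ0 : I0 * J0 = 1) {I1 J1 : Submodule R1 F} (hIJ1 : I1 * J1 = 1)
    (p : ℕ) (hp : p ≠ 0) {f : F} (hf : f ≠ 0)
    (hI0 : I0 ^ p = Submodule.span R0 {f}) (hI1 : I1 ^ p = Submodule.span R1 {f})
    (res₁ : V →+* k) (hres : ∀ x : ↥V, ¬ IsUnit x → res₁ x = 0) (t : k)
    (hint0 : ∀ x, IsIntegral (Algebra.adjoin κ {t}) (res₁ (φ0 x)))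
    (hint1 : ∀ x, IsIntegral (Algebra.adjoin κ {t⁻¹}) (res₁ (φ1 x)))
    (u : (↥V)ˣ) (c : F) (hu : ((u : ↥V) : F) * c ^ p = f) (v : Place κ k) :
    (p : ℤ) ∣ v.ord (res₁ (u : ↥V)) :=
  ord_dvd_two_chart (res₁.comp φ0) (res₁.comp φ1) t hint0 hint1 p (u.isUnit.map res₁).ne_zero
    (fun 𝔮 h𝔮 hle => exists_local_pow V φ0 hφ0 hIJ0 p hp hf hI0 res₁ hres u c hu 𝔮 h𝔮 hle)
    (fun 𝔮 h𝔮 hle => exists_local_pow V φ1 hφ1 hIJ1 p hp hf hI1 res₁ hres u c hu 𝔮 h𝔮 hle) v

end S5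

end Fermat.Agent.T1B.Hol80
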