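import Mathlib
import Fermat.Agent.T1.Peu37.NodeClassGroup
import Fermat.Agent.T1B.Node45.Orbit

/-!
# T1B (S44), brick SLOPE80 (helper80): vertical elements at a node and their slope

Abstract local part of (R1) of report 997 (helper45: the residue vector `ρ(P) = (ord_e f̄_P mod p)_e`
of the `q`-dlog is CONSTANT on classes extending to the model, and its vanishing characterises `J⁰`).
On `Peu37.NodeClassGroup.NodeData A v₁ v₂ P₁ P₂ π x y K` (a local ring with node normal form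
`x y = π ^ K · unit`, `𝔪 = (π, x, y)`) and helper45's toolbox `Node45/Orbit`.

* `vertical_structure` : **(S-a)** an element `h` dividing a power of `π` is `π ^ m * x ^ a * unit`
  (if `v₁ h ≤ v₂ h`; then `v₁ h = m`, `v₂ h = m + a K`) or `π ^ m * y ^ a * unit` (if `v₂ h ≤ v₁ h`).
* `slope D h : ℤ := (v₂ h - v₁ h) / K` and `slope_mul_K` (exact division by `NodeData.dvd_sub`).
* `exists_slope_rep` : **(S-b)** for vertical `h` there are `c, d ∉ P₁` with
  `h * c = π ^ (v₁ h) * d`, where `c = x ^ b`, `d = unit` (resp. `c = 1`, `d = x ^ a * unit`) and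
  `a - b = slope h`: the reduction of `h / π ^ (v₁ h)` on the branch `X₁` is `x̄ ^ (slope h) · unit`.
-/

set_option autoImplicit false
set_option linter.unusedSectionVars false

namespace Fermat.Agent.T1B.Hol80

open Fermat.Agent.T1.Peu37.NodeClassGroup Fermat.Agent.T1B.Node45.Orbit

variable {A : Type*} [CommRing A] [IsDomain A] [IsLocalRing A] [IsNoetherianRing A]
variable {v₁ v₂ : A → ℕ} {P₁ P₂ : Ideal A} {π x y : A} {K : ℕ}

/-- Case `v₁ h₀ = 0` of the structure theorem: `h₀ = x ^ a * unit`, `v₂ h₀ = a K`. -/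
theorem vertical_structure_aux (D : NodeData A v₁ v₂ P₁ P₂ π x y K) {h g : A} {n : ℕ}
    (hg : h * g = π ^ n) (h1 : v₁ h = 0) :
    ∃ (a : ℕ) (w : A), IsUnit w ∧ h = x ^ a * w ∧ v₂ h = a * K := by
  have hpn : π ^ n ≠ 0 := pow_ne_zero n D.pi_ne
  have hh0 : h ≠ 0 := by
    rintro rfl
    rw [zero_mul] at hg
    exact hpn hg.symm
  obtain ⟨a, ha⟩ := D.dvd_of_v₁_eq_zero hg h1
  have ha' : v₂ h = a * K := by rw [ha, mul_comm]
  obtain ⟨w, hw⟩ := x_pow_dvd_of_le D a h hh0 (by rw [ha'])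
  have hxa : x ^ a ≠ 0 := pow_ne_zero a D.x_ne
  have hw0 : w ≠ 0 := by
    rintro rfl
    rw [mul_zero] at hw
    exact hh0 hw
  have e1 := D.v₁_mul (x ^ a) w hxa hw0
  have e2 := D.symm.v₁_mul (x ^ a) w hxa hw0
  rw [← hw, h1, D.v₁_pow D.x_ne, D.v₁_x, mul_zero, zero_add] at e1
  rw [← hw, ha', D.symm.v₁_pow D.x_ne, v₂_x D] at e2
  have hw1 : v₁ w = 0 := e1.symm
  have hw2 : v₂ w = 0 := by omega
  have hdvd : w ∣ π ^ n := ⟨x ^ a * g, by rw [← hg, hw]; ring⟩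
  exact ⟨a, w, D.isUnit_of_dvd_pow hw1 hw2 hdvd, hw, ha'⟩

/-- **(S-a) Structure of the vertical elements at a node.** -/
theorem vertical_structure (D : NodeData A v₁ v₂ P₁ P₂ π x y K) {h g : A} {n : ℕ}
    (hg : h * g = π ^ n) :
    (∃ (m a : ℕ) (w : A), IsUnit w ∧ h = π ^ m * (x ^ a * w) ∧ v₁ h = m ∧ v₂ h = m + a * K) ∨
    (∃ (m a : ℕ) (w : A), IsUnit w ∧ h = π ^ m * (y ^ a * w) ∧ v₂ h = m ∧ v₁ h = m + a * K) := by
  have hpn : π ^ n ≠ 0 := pow_ne_zero n D.pi_ne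
  have hh0 : h ≠ 0 := by
    rintro rfl
    rw [zero_mul] at hg
    exact hpn hg.symm
  have hg0 : g ≠ 0 := by
    rintro rfl
    rw [mul_zero] at hg
    exact hpn hg.symm
  obtain ⟨c, hc⟩ : ∃ c : ℕ, c = min (v₁ h) (v₂ h) := ⟨_, rfl⟩
  obtain ⟨h₀, hh⟩ := D.pow_dvd_of_le c h hh0 (hc ▸ min_le_left _ _) (hc ▸ min_le_right _ _)
  have hpc : π ^ c ≠ 0 := pow_ne_zero c D.pi_ne
  have hh₀ : h₀ ≠ 0 := by
    rintro rfl
    rw [mul_zero] at hh
    exact hh0 hh
  have e1 : v₁ h = c + v₁ h₀ := by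
    have := D.v₁_mul (π ^ c) h₀ hpc hh₀
    rw [D.v₁_pow D.pi_ne, D.v₁_pi, mul_one, ← hh] at this
    exact this
  have e2 : v₂ h = c + v₂ h₀ := by
    have := D.symm.v₁_mul (π ^ c) h₀ hpc hh₀
    rw [D.symm.v₁_pow D.pi_ne, D.symm.v₁_pi, mul_one, ← hh] at this
    exact this
  have e3 : n = v₁ h + v₁ g := by
    have := D.v₁_mul h g hh0 hg0
    rw [hg, D.v₁_pow D.pi_ne, D.v₁_pi, mul_one] at this
    exact this
  have hcn : c ≤ n := by omega
  have hg' : h₀ * g = π ^ (n - c) := by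
    have h4 : π ^ c * (h₀ * g) = π ^ c * π ^ (n - c) := by
      rw [← pow_add, Nat.add_sub_cancel' hcn, ← hg, hh]
      ring
    exact mul_left_cancel₀ hpc h4
  rcases Nat.le_total (v₁ h) (v₂ h) with hle | hle
  · left
    have h1 : v₁ h₀ = 0 := by
      rw [min_eq_left hle] at hc
      omega
    obtain ⟨a, w, hw, hh₀w, hv2⟩ := vertical_structure_aux D hg' h1
    exact ⟨c, a, w, hw, by rw [hh, hh₀w], by omega, by omega⟩
  · right
    have h2 : v₂ h₀ = 0 := by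
      rw [min_eq_right hle] at hc
      omega
    obtain ⟨a, w, hw, hh₀w, hv1⟩ := vertical_structure_aux D.symm hg' h2
    exact ⟨c, a, w, hw, by rw [hh, hh₀w], by omega, by omega⟩

/-- The slope of a vertical element at the node: `(v₂ h - v₁ h) / K`. -/
def slope (K : ℕ) (v₁ v₂ : A → ℕ) (h : A) : ℤ := ((v₂ h : ℤ) - (v₁ h : ℤ)) / (K : ℤ)

theorem slope_mul_K (D : NodeData A v₁ v₂ P₁ P₂ π x y K) {h g : A} {n : ℕ}
    (hg : h * g = π ^ n) : slope K v₁ v₂ h * (K : ℤ) = (v₂ h : ℤ) - (v₁ h : ℤ) :=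
  Int.ediv_mul_cancel (D.dvd_sub hg)

/-- **(S-b) The reduction of `h / π ^ (v₁ h)` on the branch `X₁` is `x̄ ^ (slope h) · unit`**:
there are `a b : ℕ` and a unit `w` with `h * x ^ b = π ^ (v₁ h) * (x ^ a * w)` and
`a - b = slope h` (`x ∉ P₁`). -/
theorem exists_slope_rep (D : NodeData A v₁ v₂ P₁ P₂ π x y K) {h g : A} {n : ℕ}
    (hg : h * g = π ^ n) :
    ∃ (a b : ℕ) (w : A), IsUnit w ∧ h * x ^ b = π ^ (v₁ h) * (x ^ a * w) ∧
      (a : ℤ) - (b : ℤ) = slope K v₁ v₂ h := by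
  have hK : (K : ℤ) ≠ 0 := by exact_mod_cast D.K_pos.ne'
  have hs := slope_mul_K D hg
  rcases vertical_structure D hg with ⟨m, a, w, hw, hh, h1, h2⟩ | ⟨m, a, w, hw, hh, h2, h1⟩
  · refine ⟨a, 0, w, hw, by rw [pow_zero, mul_one, h1]; exact hh, ?_⟩
    apply mul_right_cancel₀ hK
    rw [hs, h1, h2]
    push_cast
    ring
  · obtain ⟨ε, hε, hrel⟩ := D.rel
    refine ⟨0, a, ε ^ a * w, (hε.pow a).mul hw, ?_, ?_⟩
    · rw [h1, hh, pow_zero, one_mul, pow_add]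
      calc π ^ m * (y ^ a * w) * x ^ a = π ^ m * ((x * y) ^ a * w) := by ring
        _ = π ^ m * ((π ^ K * ε) ^ a * w) := by rw [hrel]
        _ = π ^ m * π ^ (a * K) * (ε ^ a * w) := by rw [mul_pow, ← pow_mul, mul_comm K a]; ring
    · apply mul_right_cancel₀ hK
      rw [hs, h1, h2]
      push_cast
      ring

end Fermat.Agent.T1B.Hol80
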