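import Mathlib
import Fermat.Agent.T1B.Hol31.Local

/-!
# T1B (S44), brick F8-S5 HOL (second seat: helper80), part (C1): global `Hol` for a two-chart

On top of helper31's local algebra `T1B/Hol31/Local.lean` (`regSpan`, `IsRegularAt`,
`exists_smul_eq_smul_pow`, `exists_unit_pow_of_smul_eq`, `isRegularAt_dlog_of_mul_eq`).

WHY an arbitrary residue map `res : V →+* k`: in the application `V` is the Gauss valuation ring of
the function field `F` of `X₀(M'p)` at a cusp, `k = κ̄((q))`, `res` = coefficientwise reduction of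
the `q`-expansion and `θ = q d/dq`.  The residue FIELD of `V` (the function field of the component
`X_i`) is NOT stable under `θ` (`θ` raises the weight by `2`), so `θ` cannot be a derivation of the
residue field of `V`; it is a derivation of `k = κ̄((q))`.

* `isRegularAt_dlog_res` : helper31's MAIN (`isRegularAt_dlog_residue`) for an arbitrary ring
  homomorphism `res : V →+* k` into a field of characteristic `p` with a derivation `θ`.
* `mem_regSpan_of_forall_isRegularAt` : LOCAL-GLOBAL: `ω ∈ k` regular at every maximal ideal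
  containing `ker ρ` lies in `regSpan ρ θ` (`= Ω(R) ⊆ k`).
* `Hol ρ0 ρ1 θ := regSpan ρ0 θ ⊓ regSpan ρ1 θ` : the global regular differentials of a two-chart
  (`g ∈ k` such that `g · dq/q` is regular on both charts); `mem_Hol_iff_forall_isRegularAt`.
* `dlog_mem_Hol` : **S5 HOL, two-chart form.**  `I_0 ⊂ F` an invertible `R_0`-submodule, `I_1 ⊂ F`
  an invertible `R_1`-submodule with `I_j ^ p = R_j ∙ f` for the SAME `f ≠ 0`, `V ⊇ R_0, R_1` a
  valuation subring whose nonunits are killed by `res`; if `f = u * c ^ p` with `u ∈ Vˣ` then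
  `θ (res u) / res u ∈ Hol`.
* `dlog_mem_Hol_of_const` : the same for the normalisation of S4 DELTA: `f = u * c` with `c` a
  CONSTANT (`C` a subfield of `F` with `θ (res e) = 0` for `e ∈ C ∩ V` and the same value group as
  `V`, `HasConstScaling`).
-/

set_option autoImplicit false

namespace Fermat.Agent.T1B.Hol80

open Fermat.Agent.T1B.Hol31.Local

/-! ### MAIN for an arbitrary residue map -/

section Res

variable {R F : Type*} [CommRing R] [Field F] [Algebra R F] (V : ValuationSubring F)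

/-- **S5 HOL, local form, arbitrary residue map** (helper31's `isRegularAt_dlog_residue` with
`IsLocalRing.residue` replaced by any ring homomorphism `res : V →+* k`, `k` a field of
characteristic `p` with a derivation `θ`). -/
theorem isRegularAt_dlog_res (φ : R →+* V) (hφ : ∀ x, algebraMap R F x = (φ x : F))
    {I J : Submodule R F} (hIJ : I * J = 1) (p : ℕ) (hp : p ≠ 0) {f : F} (hf : f ≠ 0)
    (hI : I ^ p = Submodule.span R {f}) (𝔮 : Ideal R) [𝔮.IsPrime]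
    (hunit : ∀ x : R, x ∉ 𝔮 → IsUnit (φ x))
    {k : Type*} [Field k] [CharP k p] (res : V →+* k) (θ : Derivation ℤ k k)
    (u : (↥V)ˣ) (c : F) (hu : ((u : ↥V) : F) * c ^ p = f) :
    IsRegularAt (res.comp φ) θ 𝔮 (θ (res (u : ↥V)) / res (u : ↥V)) := by
  obtain ⟨a, -, s, r, hs, hr, hsr⟩ := exists_smul_eq_smul_pow hIJ p hf hI 𝔮
  obtain ⟨b, -, hb⟩ := exists_unit_pow_of_smul_eq V φ hφ hp hf (hunit s hs) (hunit r hr) hsr u hu
  have hres := congrArg res hb
  rw [map_mul, map_mul, map_pow] at hres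
  have hne : ∀ w : ↥V, IsUnit w → res w ≠ 0 := fun w hw => (hw.map res).ne_zero
  exact isRegularAt_dlog_of_mul_eq (ρ := res.comp φ) p hs hr (hne _ (hunit s hs))
    (hne _ (hunit r hr)) (hne _ b.isUnit) hres

end Res

/-! ### Local-global principle for `regSpan` -/

section LocalGlobal

variable {R k : Type*} [CommRing R] [Field k]

/-- The ideal of denominators of `ω` with respect to `regSpan ρ θ`. -/
def denomIdeal (ρ : R →+* k) (θ : Derivation ℤ k k) (ω : k) : Ideal R where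
  carrier := {d | ρ d * ω ∈ regSpan ρ θ}
  zero_mem' := by
    show ρ 0 * ω ∈ regSpan ρ θ
    rw [map_zero, zero_mul]; exact zero_mem _
  add_mem' := by
    intro a b ha hb
    show ρ (a + b) * ω ∈ regSpan ρ θ
    rw [map_add, add_mul]; exact add_mem ha hb
  smul_mem' := by
    intro x d hd
    show ρ (x • d) * ω ∈ regSpan ρ θ
    rw [smul_eq_mul, map_mul, mul_assoc]
    exact mul_mem_regSpan ρ θ x hd

theorem mem_denomIdeal {ρ : R →+* k} {θ : Derivation ℤ k k} {ω : k} {d : R} :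
    d ∈ denomIdeal ρ θ ω ↔ ρ d * ω ∈ regSpan ρ θ := Iff.rfl

theorem ker_le_denomIdeal (ρ : R →+* k) (θ : Derivation ℤ k k) (ω : k) :
    RingHom.ker ρ ≤ denomIdeal ρ θ ω := by
  intro d hd
  rw [mem_denomIdeal, (RingHom.mem_ker).1 hd, zero_mul]
  exact zero_mem _

/-- **Local-global.**  If `ω` is regular at every maximal ideal of `R` containing `ker ρ`, then
`ω ∈ regSpan ρ θ`. -/
theorem mem_regSpan_of_forall_isRegularAt (ρ : R →+* k) (θ : Derivation ℤ k k) (ω : k)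
    (h : ∀ 𝔮 : Ideal R, 𝔮.IsMaximal → RingHom.ker ρ ≤ 𝔮 → IsRegularAt ρ θ 𝔮 ω) :
    ω ∈ regSpan ρ θ := by
  by_cases htop : denomIdeal ρ θ ω = ⊤
  · have h1 : (1 : R) ∈ denomIdeal ρ θ ω := by rw [htop]; exact Submodule.mem_top
    rwa [mem_denomIdeal, map_one, one_mul] at h1
  · exfalso
    obtain ⟨𝔮, h𝔮, hle⟩ := Ideal.exists_le_maximal _ htop
    obtain ⟨d, hd, hdω⟩ := h 𝔮 h𝔮 ((ker_le_denomIdeal ρ θ ω).trans hle)
    exact hd (hle hdω)

/-- Conversely an element of `regSpan ρ θ` is regular at every proper ideal. -/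
theorem isRegularAt_of_mem_regSpan {ρ : R →+* k} {θ : Derivation ℤ k k} {ω : k}
    (h : ω ∈ regSpan ρ θ) (𝔮 : Ideal R) (h𝔮 : 𝔮 ≠ ⊤) : IsRegularAt ρ θ 𝔮 ω :=
  isRegularAt_of_mem h𝔮 h

theorem mem_regSpan_iff_forall_isRegularAt (ρ : R →+* k) (θ : Derivation ℤ k k) (ω : k) :
    ω ∈ regSpan ρ θ ↔
      ∀ 𝔮 : Ideal R, 𝔮.IsPrime → RingHom.ker ρ ≤ 𝔮 → IsRegularAt ρ θ 𝔮 ω :=
  ⟨fun h 𝔮 h𝔮 _ => isRegularAt_of_mem_regSpan h 𝔮 h𝔮.ne_top,
    fun h => mem_regSpan_of_forall_isRegularAt ρ θ ω fun 𝔮 h𝔮 hle => h 𝔮 h𝔮.isPrime hle⟩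

end LocalGlobal

/-! ### `Hol` for a two-chart -/

section TwoChart

variable {R0 R1 k : Type*} [CommRing R0] [CommRing R1] [Field k]

/-- **The global regular differentials of a two-chart** (as functions: `g ∈ k` such that
`g · dq/q` is regular on both charts, `θ = q d/dq`): `Ω(R_0) ∩ Ω(R_1) ⊆ k`. -/
def Hol (ρ0 : R0 →+* k) (ρ1 : R1 →+* k) (θ : Derivation ℤ k k) : AddSubgroup k :=
  regSpan ρ0 θ ⊓ regSpan ρ1 θ

theorem mem_Hol {ρ0 : R0 →+* k} {ρ1 : R1 →+* k} {θ : Derivation ℤ k k} {ω : k} :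
    ω ∈ Hol ρ0 ρ1 θ ↔ ω ∈ regSpan ρ0 θ ∧ ω ∈ regSpan ρ1 θ := AddSubgroup.mem_inf

/-- `ω ∈ Hol` iff `ω` is regular at every prime of both charts containing the kernel of `ρ_j` (the
points of the component of the special fibre cut out by `ker ρ_j`). -/
theorem mem_Hol_iff_forall_isRegularAt {ρ0 : R0 →+* k} {ρ1 : R1 →+* k} {θ : Derivation ℤ k k}
    {ω : k} :
    ω ∈ Hol ρ0 ρ1 θ ↔
      (∀ 𝔮 : Ideal R0, 𝔮.IsPrime → RingHom.ker ρ0 ≤ 𝔮 → IsRegularAt ρ0 θ 𝔮 ω) ∧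
      (∀ 𝔮 : Ideal R1, 𝔮.IsPrime → RingHom.ker ρ1 ≤ 𝔮 → IsRegularAt ρ1 θ 𝔮 ω) := by
  rw [mem_Hol, mem_regSpan_iff_forall_isRegularAt, mem_regSpan_iff_forall_isRegularAt]

end TwoChart

/-! ### The two-chart form of S5 -/

section Main

variable {R0 R1 F : Type*} [CommRing R0] [CommRing R1] [Field F] [Algebra R0 F] [Algebra R1 F]
  (V : ValuationSubring F)

/-- One chart: `θ (res u) / res u ∈ regSpan (res ∘ φ) θ`. -/
theorem dlog_mem_regSpan {R : Type*} [CommRing R] [Algebra R F]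
    (φ : R →+* V) (hφ : ∀ x, algebraMap R F x = (φ x : F))
    {I J : Submodule R F} (hIJ : I * J = 1) (p : ℕ) (hp : p ≠ 0) {f : F} (hf : f ≠ 0)
    (hI : I ^ p = Submodule.span R {f})
    {k : Type*} [Field k] [CharP k p] (res : V →+* k) (hres : ∀ v : ↥V, ¬ IsUnit v → res v = 0)
    (θ : Derivation ℤ k k) (u : (↥V)ˣ) (c : F) (hu : ((u : ↥V) : F) * c ^ p = f) :
    θ (res (u : ↥V)) / res (u : ↥V) ∈ regSpan (res.comp φ) θ := by
  apply mem_regSpan_of_forall_isRegularAt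
  intro 𝔮 h𝔮 hle
  have := h𝔮.isPrime
  refine isRegularAt_dlog_res V φ hφ hIJ p hp hf hI 𝔮 (fun x hx => ?_) res θ u c hu
  by_contra hnu
  exact hx (hle ((RingHom.mem_ker).2 (hres _ hnu)))

/-- **S5 HOL, two-chart form.**  `R_0, R_1 ⊆ V ⊆ F` the two charts of the integral model inside a
valuation ring of the function field (`φ_j : R_j →+* V`), `res : V →+* k` killing the nonunits of `V`
(`k = κ̄((q))`, `char k = p`, `θ = q d/dq`); `I_j ⊂ F` invertible `R_j`-submodules (the two chart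
modules of a line module framed in `F`) with `I_j ^ p = R_j ∙ f` for the same `f ≠ 0`.  If
`f = u * c ^ p` with `u ∈ Vˣ`, then `θ (res u) / res u ∈ Hol`. -/
theorem dlog_mem_Hol (φ0 : R0 →+* V) (hφ0 : ∀ x, algebraMap R0 F x = (φ0 x : F))
    (φ1 : R1 →+* V) (hφ1 : ∀ x, algebraMap R1 F x = (φ1 x : F))
    {I0 J0 : Submodule R0 F} (hIJ0 : I0 * J0 = 1) {I1 J1 : Submodule R1 F} (hIJ1 : I1 * J1 = 1)
    (p : ℕ) (hp : p ≠ 0) {f : F} (hf : f ≠ 0)
    (hI0 : I0 ^ p = Submodule.span R0 {f}) (hI1 : I1 ^ p = Submodule.span R1 {f})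
    {k : Type*} [Field k] [CharP k p] (res : V →+* k) (hres : ∀ v : ↥V, ¬ IsUnit v → res v = 0)
    (θ : Derivation ℤ k k) (u : (↥V)ˣ) (c : F) (hu : ((u : ↥V) : F) * c ^ p = f) :
    θ (res (u : ↥V)) / res (u : ↥V) ∈ Hol (res.comp φ0) (res.comp φ1) θ :=
  mem_Hol.2 ⟨dlog_mem_regSpan V φ0 hφ0 hIJ0 p hp hf hI0 res hres θ u c hu,
    dlog_mem_regSpan V φ1 hφ1 hIJ1 p hp hf hI1 res hres θ u c hu⟩

end Main

/-! ### Normalisation by constants -/

section Const

variable {F : Type*} [Field F] (V : ValuationSubring F)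

/-- The value group of `V` is the value group of the subfield `C` of constants: every nonzero
`a ∈ F` is a constant times a unit of `V`. -/
def HasConstScaling (C : Subfield F) : Prop :=
  ∀ a : F, a ≠ 0 → ∃ c ∈ C, c ≠ 0 ∧ ∃ b : (↥V)ˣ, a = c * ((b : ↥V) : F)

/-- If every nonzero element of `F` is a power of one constant `ϖ` times a unit of `V`, then `C` has
constant scaling. -/
theorem hasConstScaling_of_uniformizer (C : Subfield F) {ϖ : F} (hϖ : ϖ ∈ C) (hϖ0 : ϖ ≠ 0)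
    (h : ∀ a : F, a ≠ 0 → ∃ n : ℤ, ∃ b : (↥V)ˣ, a = ϖ ^ n * ((b : ↥V) : F)) :
    HasConstScaling V C := by
  intro a ha
  obtain ⟨n, b, hab⟩ := h a ha
  exact ⟨ϖ ^ n, zpow_mem hϖ n, zpow_ne_zero n hϖ0, b, hab⟩

variable {R : Type*} [CommRing R] [Algebra R F]

/-- **Renormalisation.**  If `f = u₁ * c₁` with `u₁ ∈ Vˣ`, `c₁` a constant, and `f` is, up to a
unit of `V`, a `p`-th power (`w * f = a ^ p`, `w ∈ Vˣ`), then `f = u * c ^ p` with `c` a constant and
`u = u₁ * e`, `e` a constant unit of `V`. -/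
theorem exists_const_pow_normalisation {C : Subfield F} (hval : HasConstScaling V C) (p : ℕ)
    {f a : F} (ha : a ≠ 0) (w : (↥V)ˣ) (hw : ((w : ↥V) : F) * f = a ^ p)
    (u₁ : (↥V)ˣ) {c₁ : F} (hc₁ : c₁ ∈ C) (hu₁ : ((u₁ : ↥V) : F) * c₁ = f) :
    ∃ (e : (↥V)ˣ) (c : F), ((e : ↥V) : F) ∈ C ∧ c ∈ C ∧
      (((u₁ * e : (↥V)ˣ) : ↥V) : F) * c ^ p = f := by
  obtain ⟨c₀, hc₀, hc₀0, b, hab⟩ := hval a ha
  have hwF : ((w : ↥V) : F) ≠ 0 := fun h => w.ne_zero (Subtype.ext h)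
  have hu₁F : ((u₁ : ↥V) : F) ≠ 0 := fun h => u₁.ne_zero (Subtype.ext h)
  have hbF : ((b : ↥V) : F) ≠ 0 := fun h => b.ne_zero (Subtype.ext h)
  have hinv : ∀ x : (↥V)ˣ, (((x⁻¹ : (↥V)ˣ) : ↥V) : F) = ((x : ↥V) : F)⁻¹ := by
    intro x
    have h1 : ((x : ↥V) : F) * (((x⁻¹ : (↥V)ˣ) : ↥V) : F) = 1 := by
      exact_mod_cast congrArg Subtype.val x.mul_inv
    exact eq_inv_of_mul_eq_one_right h1
  -- `e = c₁ / c₀ ^ p = b ^ p / (w * u₁)`
  refine ⟨b ^ p * (w⁻¹ * u₁⁻¹), c₀, ?_, hc₀, ?_⟩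
  · have : ((((b ^ p * (w⁻¹ * u₁⁻¹) : (↥V)ˣ)) : ↥V) : F) = c₁ / c₀ ^ p := by
      push_cast
      rw [hinv, hinv, eq_div_iff (pow_ne_zero p hc₀0)]
      have h1 : a ^ p = c₀ ^ p * ((b : ↥V) : F) ^ p := by rw [hab, mul_pow]
      have h2 : ((w : ↥V) : F) * (((u₁ : ↥V) : F) * c₁) = c₀ ^ p * ((b : ↥V) : F) ^ p := by
        rw [hu₁, hw, h1]
      field_simp
      linear_combination (-1 : F) * h2
    rw [this]
    exact div_mem hc₁ (pow_mem hc₀ p)
  · push_cast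
    rw [hinv, hinv, ← hu₁]
    have h1 : a ^ p = c₀ ^ p * ((b : ↥V) : F) ^ p := by rw [hab, mul_pow]
    have h2 : ((w : ↥V) : F) * (((u₁ : ↥V) : F) * c₁) = c₀ ^ p * ((b : ↥V) : F) ^ p := by
      rw [hu₁, hw, h1]
    field_simp
    linear_combination (-1 : F) * h2

/-- `f` is, up to a unit of `V`, a `p`-th power as soon as `I ^ p = R ∙ f` for an invertible `I` and
the nonunits of `V` are killed by `res`. -/
theorem exists_unit_mul_eq_pow (φ : R →+* V) (hφ : ∀ x, algebraMap R F x = (φ x : F))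
    {I J : Submodule R F} (hIJ : I * J = 1) (p : ℕ) (hp : p ≠ 0) {f : F} (hf : f ≠ 0)
    (hI : I ^ p = Submodule.span R {f})
    {k : Type*} [Field k] (res : V →+* k) (hres : ∀ v : ↥V, ¬ IsUnit v → res v = 0) :
    ∃ (a : F) (w : (↥V)ˣ), a ≠ 0 ∧ ((w : ↥V) : F) * f = a ^ p := by
  have hprime : (RingHom.ker (res.comp φ)).IsPrime := RingHom.ker_isPrime _
  obtain ⟨a, -, s, r, hs, hr, hsr⟩ := exists_smul_eq_smul_pow hIJ p hf hI (RingHom.ker (res.comp φ))
  have hu : ∀ x : R, x ∉ RingHom.ker (res.comp φ) → IsUnit (φ x) := by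
    intro x hx
    by_contra hnu
    exact hx ((RingHom.mem_ker).2 (hres _ hnu))
  have hsu := hu s hs
  have hru := hu r hr
  rw [Algebra.smul_def, Algebra.smul_def, hφ, hφ] at hsr
  have hinv : ∀ x : (↥V)ˣ, (((x⁻¹ : (↥V)ˣ) : ↥V) : F) = ((x : ↥V) : F)⁻¹ := by
    intro x
    have h1 : ((x : ↥V) : F) * (((x⁻¹ : (↥V)ˣ) : ↥V) : F) = 1 := by
      exact_mod_cast congrArg Subtype.val x.mul_inv
    exact eq_inv_of_mul_eq_one_right h1
  have hr0 : ((φ r : ↥V) : F) ≠ 0 := fun h0 => hru.ne_zero (Subtype.ext h0)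
  have hs0 : ((φ s : ↥V) : F) ≠ 0 := fun h0 => hsu.ne_zero (Subtype.ext h0)
  refine ⟨a, hsu.unit * hru.unit⁻¹, ?_, ?_⟩
  · rintro rfl
    rw [zero_pow hp, mul_zero] at hsr
    exact (mul_ne_zero hs0 hf) hsr
  · push_cast
    rw [hinv, IsUnit.unit_spec, IsUnit.unit_spec]
    field_simp
    linear_combination hsr

/-- **S5 HOL, two-chart form, normalisation by a constant** (the normalisation of S4 DELTA):
as `dlog_mem_Hol`, but `f = u₁ * c₁` with `u₁ ∈ Vˣ` and `c₁` a CONSTANT: `C` is a subfield of `F`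
with the same value group as `V` (`HasConstScaling`) whose elements are killed by `θ ∘ res`. -/
theorem dlog_mem_Hol_of_const {R0 R1 : Type*} [CommRing R0] [CommRing R1] [Algebra R0 F]
    [Algebra R1 F] (φ0 : R0 →+* V) (hφ0 : ∀ x, algebraMap R0 F x = (φ0 x : F))
    (φ1 : R1 →+* V) (hφ1 : ∀ x, algebraMap R1 F x = (φ1 x : F))
    {I0 J0 : Submodule R0 F} (hIJ0 : I0 * J0 = 1) {I1 J1 : Submodule R1 F} (hIJ1 : I1 * J1 = 1)
    (p : ℕ) (hp : p ≠ 0) {f : F} (hf : f ≠ 0)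
    (hI0 : I0 ^ p = Submodule.span R0 {f}) (hI1 : I1 ^ p = Submodule.span R1 {f})
    {k : Type*} [Field k] [CharP k p] (res : V →+* k) (hres : ∀ v : ↥V, ¬ IsUnit v → res v = 0)
    (θ : Derivation ℤ k k) {C : Subfield F} (hC : ∀ e : ↥V, (e : F) ∈ C → θ (res e) = 0)
    (hval : HasConstScaling V C)
    (u₁ : (↥V)ˣ) {c₁ : F} (hc₁ : c₁ ∈ C) (hu₁ : ((u₁ : ↥V) : F) * c₁ = f) :
    θ (res (u₁ : ↥V)) / res (u₁ : ↥V) ∈ Hol (res.comp φ0) (res.comp φ1) θ := by
  obtain ⟨a, w, ha, hw⟩ := exists_unit_mul_eq_pow V φ0 hφ0 hIJ0 p hp hf hI0 res hres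
  obtain ⟨e, c, heC, -, hec⟩ := exists_const_pow_normalisation V hval p ha w hw u₁ hc₁ hu₁
  have h := dlog_mem_Hol V φ0 hφ0 φ1 hφ1 hIJ0 hIJ1 p hp hf hI0 hI1 res hres θ (u₁ * e) c hec
  have hu0 : res (u₁ : ↥V) ≠ 0 := (u₁.isUnit.map res).ne_zero
  have he0 : res (e : ↥V) ≠ 0 := (e.isUnit.map res).ne_zero
  have hθe : θ (res (e : ↥V)) = 0 := hC e heC
  have : θ (res ((u₁ * e : (↥V)ˣ) : ↥V)) / res ((u₁ * e : (↥V)ˣ) : ↥V) =
      θ (res (u₁ : ↥V)) / res (u₁ : ↥V) := by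
    rw [Units.val_mul, map_mul, Derivation.leibniz, hθe, smul_zero, zero_add, smul_eq_mul]
    field_simp
  rwa [this] at h

end Const

end Fermat.Agent.T1B.Hol80
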