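import Mathlib
import Fermat.Agent.T1B.Hol80.Slope
import Fermat.Agent.T1B.Hol80.PlaceOrd
import Fermat.Agent.T1B.Hol80.TwoChart
import Fermat.Agent.X0.FFDict

/-!
# T1B (S44), brick SLOPE80 (helper80), part 2: the node place and the twisted local equation

Local part of (R1) of report 997 at ONE node `e` of the component `X₁`.

Setting: `A` the local ring of the model at the node (`NodeData A v₁ v₂ P₁ P₂ π x y K`),
`ιA : A →+* F` its embedding in the function field, `O₁ ⊇ ιA(A)` the valuation ring of the branch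
`X₁`, `res₁ : O₁ →+* k` its residue map into the function field `k / κ` of `X₁`, and `v` a place of
`k / κ` CENTRED AT THE NODE (`NodePlace`): `ρA = res₁ ∘ ιA : A →+* k` has kernel `P₁`, image in `O_v`,
maps the maximal ideal into the maximal ideal of `O_v`, and `k = Frac ρA(A)`.

* `NodePlace.ord_x` : `ord_v (ρA x) = 1` (`x̄` is a uniformiser of `X₁` at the node);
* `NodePlace.ord_unit` : `ord_v (ρA w) = 0` for units `w` of `A`;
* `ord_res_unit_of_twisted` : **(S-c) the twisted local equation.**  If `α ^ p * π ^ N = f * h` with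
  `h ∈ A` vertical (`h h' = π ^ n`) and `f = u * c₀`, `u ∈ O₁ˣ`, `c₀` a constant, then
  `ord_v (res₁ u) = p * m - slope h` for some `m : ℤ`, `slope h = (v₂ h - v₁ h) / K`.
  (For `h` a unit this is `PlaceOrd`; the slope is the contribution of the vertical twist.)
-/

set_option autoImplicit false
set_option linter.unusedSectionVars false

namespace Fermat.Agent.T1B.Hol80

open AlgebraicCurve Fermat.Agent.T1.Peu37.NodeClassGroup Fermat.Agent.T1B.Node45.Orbit IsLocalRing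

variable {A : Type*} [CommRing A] [IsDomain A] [IsLocalRing A] [IsNoetherianRing A]
variable {v₁ v₂ : A → ℕ} {P₁ P₂ : Ideal A} {π x y : A} {K : ℕ}
variable {κ k : Type*} [Field κ] [Field k] [Algebra κ k]

/-- The place `v` of `k / κ` is centred at the node of `A` on the branch `P₁`, through
`ρA : A →+* k`. -/
structure NodePlace (P₁ : Ideal A) (ρA : A →+* k) (v : Place κ k) : Prop where
  ker : ∀ a : A, ρA a = 0 ↔ a ∈ P₁
  mem : ∀ a : A, ρA a ∈ v.toValuationSubring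
  pos : ∀ a ∈ maximalIdeal A, ρA a ≠ 0 → 1 ≤ v.ord (ρA a)
  frac : ∀ z : k, ∃ a b : A, ρA b ≠ 0 ∧ z * ρA b = ρA a

namespace NodePlace

variable {ρA : A →+* k} {v : Place κ k}

/-- Units of `A` have order `0`. -/
theorem ord_unit (H : NodePlace P₁ ρA v) {w : A} (hw : IsUnit w) : v.ord (ρA w) = 0 := by
  obtain ⟨w', hw'⟩ := hw.exists_right_inv
  have h1 : ρA w * ρA w' = 1 := by rw [← map_mul, hw', map_one]
  have h0 : ρA w ≠ 0 := left_ne_zero_of_mul_eq_one h1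
  have hinv : (ρA w)⁻¹ = ρA w' := (eq_inv_of_mul_eq_one_right h1).symm
  exact Place.ord_eq_zero_of_mem_of_inv_mem v (H.mem w) (hinv ▸ H.mem w') h0

/-- The order of an element of `O_v` is nonnegative. -/
theorem ord_nonneg (H : NodePlace P₁ ρA v) (a : A) : 0 ≤ v.ord (ρA a) :=
  Fermat.Agent.X0.FF.ord_nonneg_of_mem v (H.mem a)

variable (D : NodeData A v₁ v₂ P₁ P₂ π x y K)
include D

/-- `ρA x ≠ 0`. -/
theorem rho_x_ne (H : NodePlace P₁ ρA v) : ρA x ≠ 0 := fun h0 =>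
  x_not_mem_P₁ D ((H.ker x).1 h0)

theorem x_mem_max : x ∈ maximalIdeal A := by
  rw [D.max_eq]
  exact Ideal.subset_span (by simp)

theorem one_le_ord_x (H : NodePlace P₁ ρA v) : 1 ≤ v.ord (ρA x) :=
  H.pos x (x_mem_max D) (H.rho_x_ne D)

/-- Every element of `A` outside `P₁` is, modulo `P₁`, a power of `x` times a unit. -/
theorem exists_pow_mul_unit (H : NodePlace P₁ ρA v) :
    ∀ (n : ℕ) (a : A), a ∉ P₁ → v.ord (ρA a) ≤ n →
      ∃ (i : ℕ) (w : A), IsUnit w ∧ ρA a = ρA x ^ i * ρA w := by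
  intro n
  induction n with
  | zero =>
    intro a ha hn
    -- order `0`: `a` is a unit (otherwise `a ∈ 𝔪` has positive order)
    have ha0 : ρA a ≠ 0 := fun h0 => ha ((H.ker a).1 h0)
    by_cases hu : IsUnit a
    · exact ⟨0, a, hu, by rw [pow_zero, one_mul]⟩
    · exfalso
      have := H.pos a ((mem_maximalIdeal a).2 hu) ha0
      omega
  | succ n ih =>
    intro a ha hn
    have ha0 : ρA a ≠ 0 := fun h0 => ha ((H.ker a).1 h0)
    by_cases hu : IsUnit a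
    · exact ⟨0, a, hu, by rw [pow_zero, one_mul]⟩
    · -- `a ∈ 𝔪 = (π, x, y)`: `a ≡ x a₂` modulo `P₁`
      have ham : a ∈ maximalIdeal A := (mem_maximalIdeal a).2 hu
      rw [D.max_eq] at ham
      obtain ⟨a₁, a₂, a₃, hsum⟩ : ∃ a₁ a₂ a₃ : A, a₁ * π + a₂ * x + a₃ * y = a := by
        have := (Ideal.mem_span_insert.1 ham)
        obtain ⟨c₁, z, hz, rfl⟩ := this
        obtain ⟨c₂, z', hz', rfl⟩ := Ideal.mem_span_insert.1 hz
        obtain ⟨c₃, rfl⟩ := Ideal.mem_span_singleton'.1 hz'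
        exact ⟨c₁, c₂, c₃, by ring⟩
      have hπ0 : ρA π = 0 := (H.ker π).2 (pi_mem_P₁ D)
      have hy0 : ρA y = 0 := (H.ker y).2 (y_mem_P₁ D)
      have hρ : ρA a = ρA x * ρA a₂ := by
        rw [← hsum, map_add, map_add, map_mul, map_mul, map_mul, hπ0, hy0, mul_zero, mul_zero,
          zero_add, add_zero, mul_comm]
      have ha₂0 : ρA a₂ ≠ 0 := fun h0 => ha0 (by rw [hρ, h0, mul_zero])
      have ha₂ : a₂ ∉ P₁ := fun h => ha₂0 ((H.ker a₂).2 h)
      have hord : v.ord (ρA a) = v.ord (ρA x) + v.ord (ρA a₂) := by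
        rw [hρ, v.ord_mul (H.rho_x_ne D) ha₂0]
      have hx1 := H.one_le_ord_x D
      obtain ⟨i, w, hw, hiw⟩ := ih a₂ ha₂ (by omega)
      exact ⟨i + 1, w, hw, by rw [hρ, hiw, pow_succ]; ring⟩

/-- **`x̄` is a uniformiser at the node place.** -/
theorem ord_x (H : NodePlace P₁ ρA v) : v.ord (ρA x) = 1 := by
  obtain ⟨ϖ, hϖ⟩ := IsDiscreteValuationRing.exists_irreducible ↥v.toValuationSubring
  have hϖ1 : v.ord (ϖ : k) = 1 := v.ord_coe_irreducible hϖ
  obtain ⟨a, b, hb, hab⟩ := H.frac (ϖ : k)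
  have hϖ0 : (ϖ : k) ≠ 0 := fun h0 => hϖ.ne_zero (Subtype.ext h0)
  have ha0 : ρA a ≠ 0 := by rw [← hab]; exact mul_ne_zero hϖ0 hb
  have haP : a ∉ P₁ := fun h => ha0 ((H.ker a).2 h)
  have hbP : b ∉ P₁ := fun h => hb ((H.ker b).2 h)
  have hna := H.ord_nonneg a
  have hnb := H.ord_nonneg b
  obtain ⟨i, w, hw, hiw⟩ := H.exists_pow_mul_unit D (v.ord (ρA a)).toNat a haP (by omega)
  obtain ⟨j, w', hw', hjw⟩ := H.exists_pow_mul_unit D (v.ord (ρA b)).toNat b hbP (by omega)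
  have hx0 := H.rho_x_ne D
  have hw0 : ρA w ≠ 0 := by
    intro h0; rw [hiw, h0, mul_zero] at ha0; exact ha0 rfl
  have hw'0 : ρA w' ≠ 0 := by
    intro h0; rw [hjw, h0, mul_zero] at hb; exact hb rfl
  have e1 : v.ord (ρA a) = (i : ℤ) * v.ord (ρA x) := by
    rw [hiw, v.ord_mul (pow_ne_zero i hx0) hw0, Place.ord_pow', H.ord_unit hw, add_zero]
  have e2 : v.ord (ρA b) = (j : ℤ) * v.ord (ρA x) := by
    rw [hjw, v.ord_mul (pow_ne_zero j hx0) hw'0, Place.ord_pow', H.ord_unit hw', add_zero]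
  have e3 : v.ord (ρA a) = 1 + v.ord (ρA b) := by
    rw [← hab, v.ord_mul hϖ0 hb, hϖ1]
  have hx1 := H.one_le_ord_x D
  -- `(i - j) * ord x = 1`
  have e4 : ((i : ℤ) - j) * v.ord (ρA x) = 1 := by
    rw [sub_mul, ← e1, ← e2, e3]; ring
  have hdvd : v.ord (ρA x) ∣ 1 := ⟨(i : ℤ) - j, by rw [mul_comm]; exact e4.symm⟩
  have := Int.le_of_dvd one_pos hdvd
  omega

end NodePlace

/-! ### The twisted local equation -/

section Twisted

variable {F : Type*} [Field F] (O₁ : ValuationSubring F)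

/-- A ring homomorphism into `F` with values in `O₁`, corestricted. -/
def toO (ιA : A →+* F) (hιO : ∀ a, ιA a ∈ O₁) : A →+* ↥O₁ where
  toFun a := ⟨ιA a, hιO a⟩
  map_one' := Subtype.ext (map_one ιA)
  map_mul' a b := Subtype.ext (map_mul ιA a b)
  map_zero' := Subtype.ext (map_zero ιA)
  map_add' a b := Subtype.ext (map_add ιA a b)

@[simp] theorem coe_toO (ιA : A →+* F) (hιO : ∀ a, ιA a ∈ O₁) (a : A) :
    ((toO O₁ ιA hιO a : ↥O₁) : F) = ιA a := rfl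

variable {O₁}

theorem coe_units_inv (e : (↥O₁)ˣ) : (((e⁻¹ : (↥O₁)ˣ) : ↥O₁) : F) = ((e : ↥O₁) : F)⁻¹ := by
  have h1 : ((e : ↥O₁) : F) * (((e⁻¹ : (↥O₁)ˣ) : ↥O₁) : F) = 1 :=
    congrArg Subtype.val e.mul_inv
  exact eq_inv_of_mul_eq_one_right h1

theorem coe_units_ne_zero (e : (↥O₁)ˣ) : ((e : ↥O₁) : F) ≠ 0 := fun h0 =>
  e.ne_zero (Subtype.ext h0)

/-- **(S-c) The twisted local equation at a node.**  `α ^ p * π ^ N = f * h` with `h ∈ A` vertical,
`f = u * c₀` (`u ∈ O₁ˣ`, `c₀` constant).  Then `ord_v (res₁ u) = p * m - slope h`. -/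
theorem ord_res_unit_of_twisted (D : NodeData A v₁ v₂ P₁ P₂ π x y K)
    (ιA : A →+* F) (hιO : ∀ a, ιA a ∈ O₁) (res₁ : ↥O₁ →+* k)
    (hres : ∀ z : ↥O₁, ¬ IsUnit z → res₁ z = 0) {v : Place κ k}
    (H : NodePlace P₁ (res₁.comp (toO O₁ ιA hιO)) v)
    (p : ℕ) {f α : F} (hα : α ≠ 0) {h h' : A} {n N : ℕ} (hh : h * h' = π ^ n)
    (heq : α ^ p * (ιA π) ^ N = f * ιA h)
    {C : Subfield F} (hval : HasConstScaling O₁ C)
    (hC : ∀ e : (↥O₁)ˣ, ((e : ↥O₁) : F) ∈ C → v.ord (res₁ (e : ↥O₁)) = 0)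
    (hπC : ιA π ∈ C) (hπ0 : ιA π ≠ 0)
    (u : (↥O₁)ˣ) {c₀ : F} (hc₀ : c₀ ∈ C) (hu : ((u : ↥O₁) : F) * c₀ = f) :
    ∃ m : ℤ, v.ord (res₁ (u : ↥O₁)) = (p : ℤ) * m - slope K v₁ v₂ h := by
  obtain ⟨a, b, w, hw, hrep, hab⟩ := exists_slope_rep D hh
  obtain ⟨α₀, hα₀, hα₀0, β, hαβ⟩ := hval α hα
  set ρA := res₁.comp (toO O₁ ιA hιO) with hρA
  -- the units `X = ι x`, `W = ι w` of `O₁`
  have hXu : IsUnit (toO O₁ ιA hιO x) := by
    by_contra hnu
    exact H.rho_x_ne D (hres _ hnu)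
  have hWu : IsUnit (toO O₁ ιA hιO w) := hw.map _
  set X : (↥O₁)ˣ := hXu.unit with hX
  set W : (↥O₁)ˣ := hWu.unit with hW
  have hXF : ((X : ↥O₁) : F) = ιA x := by rw [hX, IsUnit.unit_spec]; rfl
  have hWF : ((W : ↥O₁) : F) = ιA w := by rw [hW, IsUnit.unit_spec]; rfl
  -- the relation in `F`
  have hrepF : ιA h * ιA x ^ b = ιA π ^ (v₁ h) * (ιA x ^ a * ιA w) := by
    have := congrArg ιA hrep
    simpa only [map_mul, map_pow] using this
  -- the constant unit `E`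
  set E : (↥O₁)ˣ := β ^ p * X ^ b * (u * X ^ a * W)⁻¹ with hE
  have hx0 : ιA x ≠ 0 := hXF ▸ coe_units_ne_zero X
  have hw0 : ιA w ≠ 0 := hWF ▸ coe_units_ne_zero W
  have hu0 := coe_units_ne_zero u
  have hβ0 := coe_units_ne_zero β
  have hEF : ((E : ↥O₁) : F) = c₀ * ιA π ^ (v₁ h) * (ιA π ^ N)⁻¹ * (α₀ ^ p)⁻¹ := by
    rw [hE]
    push_cast
    rw [coe_units_inv]
    push_cast
    rw [hXF, hWF]
    have h1 : α ^ p = α₀ ^ p * ((β : ↥O₁) : F) ^ p := by rw [hαβ, mul_pow]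
    have hπN : ιA π ^ N ≠ 0 := pow_ne_zero N hπ0
    have hα₀p : α₀ ^ p ≠ 0 := pow_ne_zero p hα₀0
    -- `β^p x^b α₀^p π^N = u c₀ π^{m₁} x^a w`
    have key : ((β : ↥O₁) : F) ^ p * ιA x ^ b * (α₀ ^ p * ιA π ^ N) =
        ((u : ↥O₁) : F) * ιA x ^ a * ιA w * (c₀ * ιA π ^ (v₁ h)) := by
      have e1 : f * (ιA h * ιA x ^ b) = α ^ p * ιA π ^ N * ιA x ^ b := by
        rw [← mul_assoc, ← heq]
      rw [hrepF, ← hu, h1] at e1
      linear_combination (-1 : F) * e1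
    field_simp
    linear_combination key
  have hEC : ((E : ↥O₁) : F) ∈ C := by
    rw [hEF]
    exact mul_mem (mul_mem (mul_mem hc₀ (pow_mem hπC _)) (inv_mem (pow_mem hπC _)))
      (inv_mem (pow_mem hα₀ _))
  have hEord := hC E hEC
  -- the identity in `O₁`
  have hid : (u : ↥O₁) * (X : ↥O₁) ^ a * (W : ↥O₁) * (E : ↥O₁) = (β : ↥O₁) ^ p * (X : ↥O₁) ^ b := by
    have : u * X ^ a * W * E = β ^ p * X ^ b := by
      rw [hE, mul_comm (β ^ p * X ^ b) _, mul_inv_cancel_left]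
    have := congrArg (fun e : (↥O₁)ˣ => (e : ↥O₁)) this
    simpa only [Units.val_mul, Units.val_pow_eq_pow_val] using this
  have hres_id := congrArg res₁ hid
  rw [map_mul, map_mul, map_mul, map_pow, map_mul, map_pow, map_pow] at hres_id
  have hXρ : res₁ (X : ↥O₁) = ρA x := by rw [hX, IsUnit.unit_spec]; rfl
  have hWρ : res₁ (W : ↥O₁) = ρA w := by rw [hW, IsUnit.unit_spec]; rfl
  rw [hXρ, hWρ] at hres_id
  -- orders
  have hne : ∀ e : (↥O₁)ˣ, res₁ (e : ↥O₁) ≠ 0 := fun e => (e.isUnit.map res₁).ne_zero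
  have hρx0 : ρA x ≠ 0 := H.rho_x_ne D
  have hρw0 : ρA w ≠ 0 := by
    have := H.ord_unit hw
    intro h0
    exact (hne W) (hWρ.trans h0)
  have hord := congrArg v.ord hres_id
  rw [v.ord_mul (mul_ne_zero (mul_ne_zero (hne u) (pow_ne_zero a hρx0)) hρw0) (hne E),
    v.ord_mul (mul_ne_zero (hne u) (pow_ne_zero a hρx0)) hρw0,
    v.ord_mul (hne u) (pow_ne_zero a hρx0),
    v.ord_mul (pow_ne_zero p (hne β)) (pow_ne_zero b hρx0),
    Place.ord_pow', Place.ord_pow', Place.ord_pow', H.ord_x D, H.ord_unit hw, hEord] at hord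
  refine ⟨v.ord (res₁ (β : ↥O₁)), ?_⟩
  rw [← hab]
  linarith

end Twisted

end Fermat.Agent.T1B.Hol80
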