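import Mathlib
import Fermat.Agent.T1B.Hol80.SlopePlace
import Fermat.Agent.T1B.NodeNF37.Local

/-!
# T1B (S44), brick SLOPE80 (helper80), part 3: the residue vector is constant (`hconst`)

Global wrapper of `SlopePlace.ord_res_unit_of_twisted` over the nodes of ONE chart `B ⊂ F`, in
helper37's vocabulary `NodeNF37/Local` (`iota`, `vv`, `PP`, `BranchHyp` on `Localization.AtPrime 𝔪`).

`I ⊂ F` an invertible `B`-submodule with `I ^ p = f · (vertical)`:
`π ^ n f ∈ I ^ p` and `π ^ n I ^ p ⊆ B f` (this is what "`P = [M_L]` for a line `M` on the integral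
model and `p P = 0`" gives on the frames of `M`).

* `exists_vertical_at` : at every prime `𝔪` of `B` there are a local generator `α ∈ I`, `s ∉ 𝔪` and
  `r, r' ∈ B` with `π ^ n α ^ p = r f` and `r r' = s ^ p π ^ (2 n)` (`r` is vertical at `𝔪`);
* `generator_ratio_mem` : two local generators of `I` (at two primes through the branch `O`) differ
  by a unit of `O`;
* `ord_mul_unit` : `ord O ϖ (x * u) = ord O ϖ x` for `u ∈ Oˣ`;
* `exists_const_residue` : **(hconst)** if all nodes `𝔪 e` (`e : E`) of the chart carry a `NodeData` of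
  the SAME thickness `K` and node places `v e`, then there is ONE integer `s` with
  `ord_{v e} (res₁ u) ≡ - s (mod p)` for all `e` (`f = u c₀`, `u ∈ O₁ˣ`, `c₀` constant).
-/

set_option autoImplicit false
set_option linter.unusedSectionVars false

namespace Fermat.Agent.T1B.Hol80

open AlgebraicCurve Fermat.Agent.T1.Peu37.NodeClassGroup Fermat.Agent.T1B.NodeNF37.Local
  Fermat.Agent.T1B.NodeNF37.UnifOrd Fermat.Agent.T1B.Hol31.Local

section Vertical

variable {B F : Type*} [CommRing B] [IsDomain B] [Field F] [Algebra B F]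

/-- **`I ^ p = f · (vertical)` locally.**  At a prime `𝔪` of `B`: a local generator `α` of `I` with
`π ^ n α ^ p = r f`, `r r' = s ^ p π ^ (2 n)`, `s ∉ 𝔪`. -/
theorem exists_vertical_at (hg : Function.Injective (algebraMap B F)) (π : B)
    {I J : Submodule B F} (hIJ : I * J = 1) (p : ℕ) {f : F} (hf : f ≠ 0) (n : ℕ)
    (h1 : algebraMap B F π ^ n * f ∈ I ^ p)
    (h2 : ∀ z ∈ I ^ p, ∃ r : B, algebraMap B F π ^ n * z = r • f)
    (𝔪 : Ideal B) [𝔪.IsPrime] :
    ∃ α ∈ I, α ≠ 0 ∧ ∃ s : B, s ∉ 𝔪 ∧ (∀ z ∈ I, ∃ r : B, s • z = r • α) ∧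
      ∃ r r' : B, algebraMap B F π ^ n * α ^ p = r • f ∧ r * r' = s ^ p * π ^ (2 * n) := by
  obtain ⟨α, hα, b, -, s, hs, -, hgen⟩ := exists_local_generator hIJ 𝔪
  have hs0 : algebraMap B F s ≠ 0 := by
    intro h0
    have : s = 0 := hg (by rw [h0, map_zero])
    exact hs (this ▸ 𝔪.zero_mem)
  -- `α ≠ 0`
  have hα0 : α ≠ 0 := by
    rintro rfl
    have hI0 : ∀ z ∈ I, z = 0 := by
      intro z hz
      obtain ⟨r, hr⟩ := hgen z hz
      rw [smul_zero, Algebra.smul_def] at hr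
      exact (mul_eq_zero.1 hr).resolve_left hs0
    have h1' : (1 : F) ∈ I * J := by rw [hIJ]; exact Submodule.one_le.mp le_rfl
    have : (1 : F) = 0 := by
      refine Submodule.mul_induction_on h1' ?_ ?_
      · intro a ha c _
        rw [hI0 a ha, zero_mul]
      · intro a c ha hc
        rw [ha, hc, add_zero]
    exact one_ne_zero this
  obtain ⟨r, hr⟩ := h2 (α ^ p) (Submodule.pow_mem_pow I hα p)
  obtain ⟨r', hr'⟩ := pow_smul_mem_span hgen p _ h1
  refine ⟨α, hα, hα0, s, hs, hgen, r, r', hr, ?_⟩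
  apply hg
  have hαp : α ^ p ≠ 0 := pow_ne_zero p hα0
  -- `(r f)(r' α^p) = (π^n α^p)(s^p π^n f)`
  have key : algebraMap B F r * algebraMap B F r' * (f * α ^ p) =
      algebraMap B F (s ^ p * π ^ (2 * n)) * (f * α ^ p) := by
    rw [Algebra.smul_def] at hr
    rw [Algebra.smul_def, Algebra.smul_def] at hr'
    have e1 : algebraMap B F r * f * (algebraMap B F r' * α ^ p) =
        algebraMap B F π ^ n * α ^ p * (algebraMap B F (s ^ p) * (algebraMap B F π ^ n * f)) := by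
      rw [← hr, ← hr']
    rw [map_mul, map_pow, map_pow]
    rw [map_pow] at e1
    rw [pow_mul', pow_two]
    linear_combination e1
  rw [map_mul]
  exact mul_right_cancel₀ (mul_ne_zero hf hαp) key

end Vertical

section Ord

variable {F : Type*} [Field F] {O : ValuationSubring F} {ϖ : F}

/-- Multiplying by a unit of `O` does not change the order. -/
theorem ord_mul_unit (h : IsUnifFor O ϖ) {z t : F} (hz : z ∈ O) (hz0 : z ≠ 0) (ht : t ∈ O)
    (ht' : t⁻¹ ∈ O) (ht0 : t ≠ 0) : ord O ϖ (z * t) = ord O ϖ z := by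
  rw [h.ord_mul hz ht hz0 ht0, (h.ord_eq_zero_iff ht ht0).2 ht', add_zero]

end Ord

section Global

variable {B F : Type*} [CommRing B] [IsDomain B] [IsNoetherianRing B] [Field F] [Algebra B F]
variable {κ k : Type*} [Field κ] [Field k] [Algebra κ k]

/-- Two local generators of `I` at two primes through the branch `O` differ by a unit of `O`. -/
theorem generator_ratio (hg : Function.Injective (algebraMap B F)) {π : B}
    {O : ValuationSubring F} {𝔪 𝔪' : Ideal B} [𝔪.IsPrime] [𝔪'.IsPrime]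
    (H : BranchHyp (algebraMap B F) 𝔪 O π) (H' : BranchHyp (algebraMap B F) 𝔪' O π)
    {I : Submodule B F} {α α' : F} (hα : α ∈ I) (hα' : α' ∈ I) (hα0 : α ≠ 0) {s s' : B}
    (hs : s ∉ 𝔪) (hs' : s' ∉ 𝔪')
    (hgen : ∀ z ∈ I, ∃ r : B, s • z = r • α) (hgen' : ∀ z ∈ I, ∃ r : B, s' • z = r • α') :
    ∃ t : F, t ∈ O ∧ t⁻¹ ∈ O ∧ t ≠ 0 ∧ α' = t * α := by
  obtain ⟨ρ, hρ⟩ := hgen α' hα'
  obtain ⟨ρ', hρ'⟩ := hgen' α hα
  rw [Algebra.smul_def, Algebra.smul_def] at hρ hρ'
  have hs0 := g_ne_zero (algebraMap B F) hg 𝔪 hs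
  have hs'0 := g_ne_zero (algebraMap B F) hg 𝔪' hs'
  have hsinv := inv_g_mem (algebraMap B F) hg 𝔪 H hs
  have hs'inv := inv_g_mem (algebraMap B F) hg 𝔪' H' hs'
  have hα'eq : α' = algebraMap B F ρ * (algebraMap B F s)⁻¹ * α := by
    field_simp
    linear_combination hρ
  have hα'0 : α' ≠ 0 := by
    rintro rfl
    rw [mul_zero] at hρ'
    exact (mul_ne_zero hs'0 hα0) hρ'
  have hαeq : α = algebraMap B F ρ' * (algebraMap B F s')⁻¹ * α' := by
    field_simp
    linear_combination hρ'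
  set t := algebraMap B F ρ * (algebraMap B F s)⁻¹ with ht
  set t' := algebraMap B F ρ' * (algebraMap B F s')⁻¹ with ht'
  have htO : t ∈ O := O.mul_mem _ _ (H.le ρ) hsinv
  have ht'O : t' ∈ O := O.mul_mem _ _ (H'.le ρ') hs'inv
  have htt' : t * t' = 1 := by
    have h1 : α' = t * t' * α' := by
      calc α' = t * α := hα'eq
        _ = t * (t' * α') := by rw [← hαeq]
        _ = t * t' * α' := by ring
    have h2 : (1 : F) * α' = t * t' * α' := by rw [one_mul]; exact h1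
    exact (mul_right_cancel₀ hα'0 h2).symm
  have ht0 : t ≠ 0 := left_ne_zero_of_mul_eq_one htt'
  refine ⟨t, htO, ?_, ht0, hα'eq⟩
  rw [eq_inv_of_mul_eq_one_right htt'] at ht'O
  exact ht'O

/-- **(hconst) The residue vector is constant.**  One chart `B ⊂ F`, branches `O₁, O₂` with
uniformiser `π`, nodes `𝔪 e` (`e : E`) all of the SAME thickness `K`, node places `v e` of the
component `X₁` (`NodePlace`); `I` an invertible `B`-submodule of `F` with `I ^ p = f · (vertical)`;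
`f = u c₀`, `u ∈ O₁ˣ`, `c₀` a constant.  Then there is ONE integer `s` such that
`ord_{v e} (res₁ u) = p m_e - s` at every node. -/
theorem exists_const_residue (hg : Function.Injective (algebraMap B F)) (π : B)
    (O₁ O₂ : ValuationSubring F) {E : Type*} (𝔪 : E → Ideal B) [∀ e, (𝔪 e).IsPrime]
    (H₁ : ∀ e, BranchHyp (algebraMap B F) (𝔪 e) O₁ π)
    (H₂ : ∀ e, BranchHyp (algebraMap B F) (𝔪 e) O₂ π)
    (K : ℕ) (x y : ∀ e, Localization.AtPrime (𝔪 e))
    (D : ∀ e, NodeData (Localization.AtPrime (𝔪 e))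
      (vv (algebraMap B F) hg (𝔪 e) O₁ π) (vv (algebraMap B F) hg (𝔪 e) O₂ π)
      (PP (algebraMap B F) hg (𝔪 e) (H₁ e)) (PP (algebraMap B F) hg (𝔪 e) (H₂ e))
      (algebraMap B (Localization.AtPrime (𝔪 e)) π) (x e) (y e) K)
    (res₁ : ↥O₁ →+* k) (hres : ∀ z : ↥O₁, ¬ IsUnit z → res₁ z = 0) (v : E → Place κ k)
    (HP : ∀ e, NodePlace (PP (algebraMap B F) hg (𝔪 e) (H₁ e))
      (res₁.comp (toO O₁ (iota (algebraMap B F) hg (𝔪 e))
        (iota_mem (algebraMap B F) hg (𝔪 e) (H₁ e)))) (v e))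
    {I J : Submodule B F} (hIJ : I * J = 1) (p : ℕ) {f : F} (hf : f ≠ 0) (n : ℕ)
    (h1 : algebraMap B F π ^ n * f ∈ I ^ p)
    (h2 : ∀ z ∈ I ^ p, ∃ r : B, algebraMap B F π ^ n * z = r • f)
    {C : Subfield F} (hval : HasConstScaling O₁ C)
    (hC : ∀ (e' : E) (c : (↥O₁)ˣ), ((c : ↥O₁) : F) ∈ C → (v e').ord (res₁ (c : ↥O₁)) = 0)
    (hπC : algebraMap B F π ∈ C)
    (u : (↥O₁)ˣ) {c₀ : F} (hc₀ : c₀ ∈ C) (hu : ((u : ↥O₁) : F) * c₀ = f) :
    ∃ s : ℤ, ∀ e, ∃ m : ℤ, (v e).ord (res₁ (u : ↥O₁)) = (p : ℤ) * m - s := by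
  classical
  rcases isEmpty_or_nonempty E with hE | ⟨⟨e₀⟩⟩
  · exact ⟨0, fun e => (hE.false e).elim⟩
  -- the local data at each node
  have hloc : ∀ e, ∃ α ∈ I, α ≠ 0 ∧ ∃ s : B, s ∉ 𝔪 e ∧ (∀ z ∈ I, ∃ r : B, s • z = r • α) ∧
      ∃ r r' : B, algebraMap B F π ^ n * α ^ p = r • f ∧ r * r' = s ^ p * π ^ (2 * n) :=
    fun e => exists_vertical_at hg π hIJ p hf n h1 h2 (𝔪 e)
  choose α hαI hα0 s hs hgen r r' hr hrr' using hloc
  have hπ0 : algebraMap B F π ≠ 0 := (H₁ e₀).unif.ne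
  have hπB : π ≠ 0 := fun h0 => hπ0 (by rw [h0, map_zero])
  have hr0 : ∀ e, r e ≠ 0 := by
    intro e h0
    have hs0 : s e ≠ 0 := fun h => hs e (h ▸ (𝔪 e).zero_mem)
    have := hrr' e
    rw [h0, zero_mul] at this
    exact (mul_ne_zero (pow_ne_zero p hs0) (pow_ne_zero _ hπB)) this.symm
  have hgr0 : ∀ e, algebraMap B F (r e) ≠ 0 := fun e h0 =>
    hr0 e (hg (by rw [h0, map_zero]))
  -- the orders of `r e` along the two branches do not depend on `e`
  have hordeq : ∀ (O : ValuationSubring F) (H : ∀ e, BranchHyp (algebraMap B F) (𝔪 e) O π) (e : E),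
      ord O (algebraMap B F π) (algebraMap B F (r e)) =
        ord O (algebraMap B F π) (algebraMap B F (r e₀)) := by
    intro O H e
    obtain ⟨t, htO, ht'O, ht0, hαt⟩ := generator_ratio hg (H e₀) (H e) (hαI e₀) (hαI e) (hα0 e₀)
      (hs e₀) (hs e) (hgen e₀) (hgen e)
    have hre : algebraMap B F (r e) = algebraMap B F (r e₀) * t ^ p := by
      have e1 := hr e
      have e2 := hr e₀
      rw [Algebra.smul_def] at e1 e2
      have : algebraMap B F (r e) * f = algebraMap B F (r e₀) * t ^ p * f := by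
        rw [← e1, hαt, mul_pow]
        linear_combination t ^ p * e2
      exact mul_right_cancel₀ hf this
    rw [hre]
    refine ord_mul_unit (H e₀).unif ((H e₀).le _) (hgr0 e₀) (O.pow_mem htO p) ?_
      (pow_ne_zero p ht0)
    rw [← inv_pow]
    exact O.pow_mem ht'O p
  -- the slope at `e₀`
  refine ⟨slope K (vv (algebraMap B F) hg (𝔪 e₀) O₁ π) (vv (algebraMap B F) hg (𝔪 e₀) O₂ π)
    (algebraMap B (Localization.AtPrime (𝔪 e₀)) (r e₀)), fun e => ?_⟩
  have hnoeth : IsNoetherianRing (Localization.AtPrime (𝔪 e)) :=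
    IsLocalization.isNoetherianRing (𝔪 e).primeCompl _ inferInstance
  -- the vertical element at `e`
  set φ := algebraMap B (Localization.AtPrime (𝔪 e)) with hφ
  have hU : IsUnit (φ (s e) ^ p) := (isUnit_algebraMap (𝔪 e) (hs e)).pow p
  obtain ⟨U', hU'⟩ := hU.exists_right_inv
  have hh : φ (r e) * (φ (r' e) * U') = φ π ^ (2 * n) := by
    have h3 : φ (r e) * φ (r' e) = φ (s e) ^ p * φ π ^ (2 * n) := by
      rw [← map_mul, hrr' e, map_mul, map_pow, map_pow]
    calc φ (r e) * (φ (r' e) * U') = (φ (r e) * φ (r' e)) * U' := by ring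
      _ = (φ (s e) ^ p * U') * φ π ^ (2 * n) := by rw [h3]; ring
      _ = φ π ^ (2 * n) := by rw [hU', one_mul]
  have heq : α e ^ p * (iota (algebraMap B F) hg (𝔪 e) (φ π)) ^ n =
      f * iota (algebraMap B F) hg (𝔪 e) (φ (r e)) := by
    rw [iota_algebraMap, iota_algebraMap]
    have e1 := hr e
    rw [Algebra.smul_def] at e1
    linear_combination e1
  obtain ⟨m, hm⟩ := ord_res_unit_of_twisted (D e) (iota (algebraMap B F) hg (𝔪 e))
    (iota_mem (algebraMap B F) hg (𝔪 e) (H₁ e)) res₁ hres (HP e) p (hα0 e) hh heq hval (hC e)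
    (by rw [iota_algebraMap]; exact hπC) (by rw [iota_algebraMap]; exact hπ0) u hc₀ hu
  refine ⟨m, ?_⟩
  rw [hm]
  congr 1
  -- the two slopes agree
  unfold slope vv
  simp only [hφ, iota_algebraMap]
  rw [hordeq O₁ H₁ e, hordeq O₂ H₂ e]

end Global

end Fermat.Agent.T1B.Hol80
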