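import Mathlib
import Fermat.Agent.T1B.NodeNF37.UnifOrd

/-!
# T1B (S44), brick SLOPE80 (helper80), part 4: vertical ideals of a chart (`hker`, ideal level)

One chart `B ⊂ F` of a model over a DVR with uniformiser `π`, whose special fibre is reduced with the
two components `O₁, O₂` (valuation subrings of `F` with uniformiser `π`), `B` being `π`-saturated in
`O₁ ⊓ O₂` (`ChartHyp`; = `sat0/sat1` of `ES/N34/NodalCore13.NodalTwoChartModel`).

* `mem_of_forall_maximal` : local-global principle for membership in an ideal, elementwise;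
* `Off π O 𝔪` : the branch `O` does not pass through `𝔪`;
* `exists_mul_eq_mul` : **(Div)** if `α` is vertical at `𝔪` and `z / α ∈ O_i` for every branch through
  `𝔪`, then `t z ∈ B α` for some `t ∉ 𝔪`;
* `vertIdeal b₁ b₂ = {z ∈ B | z ∈ π ^ b₁ O₁, z ∈ π ^ b₂ O₂}` (`P₁^(b₁) ∩ P₂^(b₂)`);
* `eq_vertIdeal` : **(A)** a locally principal ideal `d ∋ π ^ N` IS `vertIdeal a₁ a₂`, `a_i` the
  minimal orders;
* `eq_span_mul_pow` : **(B)** if `a₂ = a₁ + p (c K)` and every two-branch maximal ideal carries a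
  vertical `ξ` with orders `(0, K)`, then `d = (π ^ a₁) * (vertIdeal 0 (c K)) ^ p`.
-/

set_option autoImplicit false
set_option linter.unusedSectionVars false

namespace Fermat.Agent.T1B.Hol80

open Fermat.Agent.T1B.NodeNF37.UnifOrd

section LocalGlobal

variable {B : Type*} [CommRing B]

/-- Local-global principle, elementwise: `z ∈ I` as soon as for every maximal ideal `𝔪` some
`t ∉ 𝔪` multiplies `z` into `I`. -/
theorem mem_of_forall_maximal (I : Ideal B) (z : B)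
    (h : ∀ 𝔪 : Ideal B, 𝔪.IsMaximal → ∃ t : B, t ∉ 𝔪 ∧ t * z ∈ I) : z ∈ I := by
  by_contra hz
  let C : Ideal B :=
    { carrier := {t | t * z ∈ I}
      add_mem' := by
        intro a b ha hb
        show (a + b) * z ∈ I
        rw [add_mul]
        exact I.add_mem ha hb
      zero_mem' := by
        show (0 : B) * z ∈ I
        rw [zero_mul]
        exact I.zero_mem
      smul_mem' := by
        intro r a ha
        show (r • a) * z ∈ I
        rw [smul_eq_mul, mul_assoc]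
        exact I.mul_mem_left r ha }
  have hC : C ≠ ⊤ := by
    intro h1
    have h2 : (1 : B) ∈ C := h1 ▸ Submodule.mem_top
    have h3 : (1 : B) * z ∈ I := h2
    rw [one_mul] at h3
    exact hz h3
  obtain ⟨𝔪, h𝔪, hle⟩ := Ideal.exists_le_maximal C hC
  obtain ⟨t, ht, htz⟩ := h 𝔪 h𝔪
  exact ht (hle htz)

end LocalGlobal

section Chart

variable {B F : Type*} [CommRing B] [Field F] [Algebra B F]

/-- `z ∈ ϖ ^ n O`. -/
def InPow (O : ValuationSubring F) (ϖ : F) (n : ℕ) (z : F) : Prop := ∃ c ∈ O, z = ϖ ^ n * c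

theorem InPow.add {O : ValuationSubring F} {ϖ : F} {n : ℕ} {z w : F} (hz : InPow O ϖ n z)
    (hw : InPow O ϖ n w) : InPow O ϖ n (z + w) := by
  obtain ⟨c, hc, rfl⟩ := hz
  obtain ⟨c', hc', rfl⟩ := hw
  exact ⟨c + c', O.add_mem _ _ hc hc', by ring⟩

theorem InPow.zero (O : ValuationSubring F) (ϖ : F) (n : ℕ) : InPow O ϖ n 0 :=
  ⟨0, O.zero_mem, by rw [mul_zero]⟩

theorem InPow.mul_left {O : ValuationSubring F} {ϖ : F} {n : ℕ} {z : F} (hz : InPow O ϖ n z)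
    {r : F} (hr : r ∈ O) : InPow O ϖ n (r * z) := by
  obtain ⟨c, hc, rfl⟩ := hz
  exact ⟨r * c, O.mul_mem _ _ hr hc, by ring⟩

theorem InPow.mul {O : ValuationSubring F} {ϖ : F} {n m : ℕ} {z w : F} (hz : InPow O ϖ n z)
    (hw : InPow O ϖ m w) : InPow O ϖ (n + m) (z * w) := by
  obtain ⟨c, hc, rfl⟩ := hz
  obtain ⟨c', hc', rfl⟩ := hw
  exact ⟨c * c', O.mul_mem _ _ hc hc', by rw [pow_add]; ring⟩

theorem InPow.mono {O : ValuationSubring F} {ϖ : F} (hϖ : ϖ ∈ O) {n m : ℕ} (hnm : m ≤ n) {z : F}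
    (hz : InPow O ϖ n z) : InPow O ϖ m z := by
  obtain ⟨c, hc, rfl⟩ := hz
  refine ⟨ϖ ^ (n - m) * c, O.mul_mem _ _ (O.pow_mem hϖ _) hc, ?_⟩
  rw [← mul_assoc, ← pow_add, Nat.add_sub_cancel' hnm]

theorem inPow_zero_iff {O : ValuationSubring F} {ϖ : F} {z : F} : InPow O ϖ 0 z ↔ z ∈ O := by
  constructor
  · rintro ⟨c, hc, rfl⟩
    rw [pow_zero, one_mul]
    exact hc
  · intro hz
    exact ⟨z, hz, by rw [pow_zero, one_mul]⟩

/-- The chart hypotheses: `B ⊂ F` lies in both branches, `π` is a uniformiser of both, and `B` is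
`π`-saturated in `O₁ ⊓ O₂`. -/
structure ChartHyp (π : B) (O₁ O₂ : ValuationSubring F) : Prop where
  inj : Function.Injective (algebraMap B F)
  le₁ : ∀ b : B, algebraMap B F b ∈ O₁
  le₂ : ∀ b : B, algebraMap B F b ∈ O₂
  unif₁ : IsUnifFor O₁ (algebraMap B F π)
  unif₂ : IsUnifFor O₂ (algebraMap B F π)
  sat : ∀ (b : B) (z : F), z ∈ O₁ → z ∈ O₂ → algebraMap B F b = algebraMap B F π * z →
    ∃ b' : B, algebraMap B F b' = z

theorem ChartHyp.symm {π : B} {O₁ O₂ : ValuationSubring F} (H : ChartHyp π O₁ O₂) :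
    ChartHyp π O₂ O₁ :=
  ⟨H.inj, H.le₂, H.le₁, H.unif₂, H.unif₁, fun b z h2 h1 h => H.sat b z h1 h2 h⟩

/-- Full saturation. -/
theorem ChartHyp.sat_pow {π : B} {O₁ O₂ : ValuationSubring F} (H : ChartHyp π O₁ O₂) (N : ℕ) :
    ∀ (b : B) (z : F), z ∈ O₁ → z ∈ O₂ → algebraMap B F b = algebraMap B F π ^ N * z →
      ∃ b' : B, algebraMap B F b' = z := by
  induction N with
  | zero =>
    intro b z _ _ h
    exact ⟨b, by rw [h, pow_zero, one_mul]⟩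
  | succ N ih =>
    intro b z h1 h2 h
    have h' : algebraMap B F b = algebraMap B F π * (algebraMap B F π ^ N * z) := by
      rw [h, pow_succ]; ring
    obtain ⟨b₁, hb₁⟩ := H.sat b _ (O₁.mul_mem _ _ (H.unif₁.pow_mem N) h1)
      (O₂.mul_mem _ _ (H.unif₂.pow_mem N) h2) h'
    exact ih b₁ z h1 h2 hb₁

theorem ChartHyp.pi_ne {π : B} {O₁ O₂ : ValuationSubring F} (H : ChartHyp π O₁ O₂) : π ≠ 0 := by
  intro h0
  exact H.unif₁.ne (by rw [h0, map_zero])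

/-- The branch `O` does not pass through `𝔪`: some `e ∈ B ∖ 𝔪` lies in `π O`. -/
def Off (π : B) (O : ValuationSubring F) (𝔪 : Ideal B) : Prop :=
  ∃ e : B, e ∉ 𝔪 ∧ ∃ c ∈ O, algebraMap B F e = algebraMap B F π * c

/-- If the branch `O` passes through `𝔪`, the elements outside `𝔪` are units of `O`. -/
theorem inv_mem_of_not_off {π : B} {O : ValuationSubring F} (hle : ∀ b : B, algebraMap B F b ∈ O)
    (hu : IsUnifFor O (algebraMap B F π)) {𝔪 : Ideal B} (hoff : ¬ Off π O 𝔪) {s : B} (hs : s ∉ 𝔪) :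
    (algebraMap B F s)⁻¹ ∈ O := by
  by_contra hcon
  exact hoff ⟨s, hs, hu.unif _ (hle s) hcon⟩

/-- Outside the branch, or on it when `q ∈ O`: some `t ∉ 𝔪` multiplies `q` into `O`. -/
theorem exists_mul_mem {π : B} {O : ValuationSubring F}
    (hu : IsUnifFor O (algebraMap B F π)) {𝔪 : Ideal B} [𝔪.IsPrime] {q : F}
    (h : Off π O 𝔪 ∨ q ∈ O) : ∃ t : B, t ∉ 𝔪 ∧ algebraMap B F t * q ∈ O := by
  rcases h with ⟨e, he, c, hc, hec⟩ | hq
  · obtain ⟨k, hk⟩ := hu.arch q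
    refine ⟨e ^ k, fun hmem => he (Ideal.IsPrime.mem_of_pow_mem ‹_› k hmem), ?_⟩
    have : algebraMap B F (e ^ k) * q = c ^ k * (algebraMap B F π ^ k * q) := by
      rw [map_pow, hec, mul_pow]; ring
    rw [this]
    exact O.mul_mem _ _ (O.pow_mem hc k) hk
  · exact ⟨1, fun h1 => (Ideal.IsPrime.ne_top ‹_›) ((Ideal.eq_top_iff_one _).2 h1), by
      rw [map_one, one_mul]; exact hq⟩

/-- **(Div)** If `α` is vertical at `𝔪` (`s π ^ N = r₀ α`, `s ∉ 𝔪`) and `z / α ∈ O_i` for every branch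
`O_i` through `𝔪`, then `t z ∈ B α` for some `t ∉ 𝔪`. -/
theorem exists_mul_eq_mul {π : B} {O₁ O₂ : ValuationSubring F} (H : ChartHyp π O₁ O₂)
    (𝔪 : Ideal B) [𝔪.IsPrime] {α z : B} (hα : α ≠ 0) {s r₀ : B} {N : ℕ} (hs : s ∉ 𝔪)
    (hvert : s * π ^ N = r₀ * α)
    (h₁ : Off π O₁ 𝔪 ∨ algebraMap B F z / algebraMap B F α ∈ O₁)
    (h₂ : Off π O₂ 𝔪 ∨ algebraMap B F z / algebraMap B F α ∈ O₂) :
    ∃ t : B, t ∉ 𝔪 ∧ ∃ b : B, t * z = b * α := by
  have hgα : algebraMap B F α ≠ 0 := fun h0 => hα (H.inj (by rw [h0, map_zero]))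
  set q := algebraMap B F z / algebraMap B F α with hq
  obtain ⟨t₁, ht₁, hq₁⟩ := exists_mul_mem H.unif₁ h₁
  obtain ⟨t₂, ht₂, hq₂⟩ := exists_mul_mem H.unif₂ h₂
  have ht : s * t₁ * t₂ ∉ 𝔪 := fun hmem =>
    (Ideal.IsPrime.mem_or_mem ‹_› hmem).elim
      (fun h => (Ideal.IsPrime.mem_or_mem ‹_› h).elim hs ht₁) ht₂
  set q' := algebraMap B F (s * t₁ * t₂) * q with hq'
  have hq'1 : q' ∈ O₁ := by
    have : q' = algebraMap B F s * algebraMap B F t₂ * (algebraMap B F t₁ * q) := by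
      rw [hq', map_mul, map_mul]; ring
    rw [this]
    exact O₁.mul_mem _ _ (O₁.mul_mem _ _ (H.le₁ s) (H.le₁ t₂)) hq₁
  have hq'2 : q' ∈ O₂ := by
    have : q' = algebraMap B F s * algebraMap B F t₁ * (algebraMap B F t₂ * q) := by
      rw [hq', map_mul, map_mul]; ring
    rw [this]
    exact O₂.mul_mem _ _ (O₂.mul_mem _ _ (H.le₂ s) (H.le₂ t₁)) hq₂
  have hqα : q * algebraMap B F α = algebraMap B F z := by
    rw [hq, div_mul_cancel₀ _ hgα]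
  have hN : algebraMap B F (t₁ * t₂ * r₀ * z) = algebraMap B F π ^ N * q' := by
    have e1 : algebraMap B F s * algebraMap B F π ^ N = algebraMap B F r₀ * algebraMap B F α := by
      rw [← map_pow, ← map_mul, hvert, map_mul]
    rw [hq', map_mul, map_mul, map_mul, map_mul, map_mul, ← hqα]
    linear_combination (-(algebraMap B F t₁ * algebraMap B F t₂ * q)) * e1
  obtain ⟨b, hb⟩ := H.sat_pow N _ q' hq'1 hq'2 hN
  refine ⟨s * t₁ * t₂, ht, b, ?_⟩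
  apply H.inj
  have e2 : algebraMap B F (b * α) = q' * algebraMap B F α := by rw [map_mul, hb]
  rw [e2, hq', map_mul (algebraMap B F) (s * t₁ * t₂) z, ← hqα]
  ring

variable (π : B) (O₁ O₂ : ValuationSubring F)

/-- The vertical ideal `P₁^(b₁) ∩ P₂^(b₂) = {z ∈ B | z ∈ π ^ b₁ O₁, z ∈ π ^ b₂ O₂}`. -/
def vertIdeal (h₁ : ∀ b : B, algebraMap B F b ∈ O₁) (h₂ : ∀ b : B, algebraMap B F b ∈ O₂)
    (b₁ b₂ : ℕ) : Ideal B where
  carrier := {z | InPow O₁ (algebraMap B F π) b₁ (algebraMap B F z) ∧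
    InPow O₂ (algebraMap B F π) b₂ (algebraMap B F z)}
  add_mem' := by
    rintro a b ⟨ha1, ha2⟩ ⟨hb1, hb2⟩
    exact ⟨by rw [map_add]; exact ha1.add hb1, by rw [map_add]; exact ha2.add hb2⟩
  zero_mem' := ⟨by rw [map_zero]; exact InPow.zero _ _ _, by rw [map_zero]; exact InPow.zero _ _ _⟩
  smul_mem' := by
    rintro r a ⟨ha1, ha2⟩
    exact ⟨by rw [smul_eq_mul, map_mul]; exact ha1.mul_left (h₁ r),
      by rw [smul_eq_mul, map_mul]; exact ha2.mul_left (h₂ r)⟩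

variable {π O₁ O₂}

theorem mem_vertIdeal {h₁ : ∀ b : B, algebraMap B F b ∈ O₁} {h₂ : ∀ b : B, algebraMap B F b ∈ O₂}
    {b₁ b₂ : ℕ} {z : B} :
    z ∈ vertIdeal π O₁ O₂ h₁ h₂ b₁ b₂ ↔ InPow O₁ (algebraMap B F π) b₁ (algebraMap B F z) ∧
      InPow O₂ (algebraMap B F π) b₂ (algebraMap B F z) := Iff.rfl

/-- `π ^ max b₁ b₂ ∈ vertIdeal b₁ b₂`. -/
theorem pow_mem_vertIdeal (H : ChartHyp π O₁ O₂) (b₁ b₂ n : ℕ) (h1 : b₁ ≤ n) (h2 : b₂ ≤ n) :
    π ^ n ∈ vertIdeal π O₁ O₂ H.le₁ H.le₂ b₁ b₂ := by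
  rw [mem_vertIdeal, map_pow]
  exact ⟨InPow.mono H.unif₁.mem h1 ⟨1, O₁.one_mem, by rw [mul_one]⟩,
    InPow.mono H.unif₂.mem h2 ⟨1, O₂.one_mem, by rw [mul_one]⟩⟩

theorem vertIdeal_mul_le (H : ChartHyp π O₁ O₂) (b₁ b₂ c₁ c₂ : ℕ) :
    vertIdeal π O₁ O₂ H.le₁ H.le₂ b₁ b₂ * vertIdeal π O₁ O₂ H.le₁ H.le₂ c₁ c₂ ≤
      vertIdeal π O₁ O₂ H.le₁ H.le₂ (b₁ + c₁) (b₂ + c₂) := by
  rw [Ideal.mul_le]
  rintro x ⟨hx1, hx2⟩ y ⟨hy1, hy2⟩
  exact ⟨by rw [map_mul]; exact hx1.mul hy1, by rw [map_mul]; exact hx2.mul hy2⟩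

theorem vertIdeal_pow_le (H : ChartHyp π O₁ O₂) (b₁ b₂ n : ℕ) :
    vertIdeal π O₁ O₂ H.le₁ H.le₂ b₁ b₂ ^ n ≤ vertIdeal π O₁ O₂ H.le₁ H.le₂ (n * b₁) (n * b₂) := by
  induction n with
  | zero =>
    intro z _
    rw [mem_vertIdeal, zero_mul, zero_mul, inPow_zero_iff, inPow_zero_iff]
    exact ⟨H.le₁ z, H.le₂ z⟩
  | succ n ih =>
    rw [pow_succ]
    refine (Ideal.mul_mono_left ih).trans ?_
    have := vertIdeal_mul_le H (n * b₁) (n * b₂) b₁ b₂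
    rwa [show n * b₁ + b₁ = (n + 1) * b₁ by ring, show n * b₂ + b₂ = (n + 1) * b₂ by ring] at this

/-- An ideal is locally principal (elementwise form). -/
def LocPrincipal (d : Ideal B) : Prop :=
  ∀ 𝔪 : Ideal B, 𝔪.IsMaximal → ∃ α ∈ d, ∃ s : B, s ∉ 𝔪 ∧ ∀ z ∈ d, ∃ r : B, s * z = r * α

/-- On a branch through `𝔪`, a local generator `α` of `d` at `𝔪` has the minimal order: if `d ⊆ π ^ a O`
and some `z₀ ∈ d` is `π ^ a · unit`, then `α = π ^ a · unit`. -/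
theorem local_generator_order {O : ValuationSubring F} (hinj : Function.Injective (algebraMap B F))
    (hle : ∀ b : B, algebraMap B F b ∈ O) (hu : IsUnifFor O (algebraMap B F π)) {𝔪 : Ideal B}
    (hoff : ¬ Off π O 𝔪) {d : Ideal B} {a : ℕ}
    (hle_a : ∀ z ∈ d, InPow O (algebraMap B F π) a (algebraMap B F z))
    (hex : ∃ z ∈ d, ∃ u : F, u ∈ O ∧ u⁻¹ ∈ O ∧ u ≠ 0 ∧ algebraMap B F z = algebraMap B F π ^ a * u)
    {α : B} (hα : α ∈ d) {s : B} (hs : s ∉ 𝔪) (hgen : ∀ z ∈ d, ∃ r : B, s * z = r * α) :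
    ∃ c : F, c ∈ O ∧ c⁻¹ ∈ O ∧ c ≠ 0 ∧ algebraMap B F α = algebraMap B F π ^ a * c := by
  obtain ⟨z₀, hz₀, u, hu1, hu2, hu0, hz₀u⟩ := hex
  obtain ⟨c, hc, hαc⟩ := hle_a α hα
  obtain ⟨r, hr⟩ := hgen z₀ hz₀
  have hsinv := inv_mem_of_not_off hle hu hoff hs
  have hs0 : algebraMap B F s ≠ 0 := by
    intro h0
    have : s = 0 := hinj (by rw [h0, map_zero])
    exact hs (this ▸ 𝔪.zero_mem)
  have hπa : algebraMap B F π ^ a ≠ 0 := pow_ne_zero a hu.ne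
  have e1 : algebraMap B F s * u = algebraMap B F r * c := by
    have := congrArg (algebraMap B F) hr
    rw [map_mul, map_mul, hz₀u, hαc] at this
    apply mul_left_cancel₀ hπa
    linear_combination this
  have hc0 : c ≠ 0 := by
    rintro rfl
    rw [mul_zero] at e1
    exact (mul_ne_zero hs0 hu0) e1
  refine ⟨c, hc, ?_, hc0, hαc⟩
  have h3 : c * (algebraMap B F r * ((algebraMap B F s)⁻¹ * u⁻¹)) = 1 := by
    have h4 : c * (algebraMap B F r * ((algebraMap B F s)⁻¹ * u⁻¹)) =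
        (algebraMap B F r * c) * ((algebraMap B F s)⁻¹ * u⁻¹) := by ring
    rw [h4, ← e1]
    field_simp
  rw [← eq_inv_of_mul_eq_one_right h3]
  exact O.mul_mem _ _ (hle r) (O.mul_mem _ _ hsinv hu2)

/-- **(A) Structure of the vertical locally principal ideals**: `d = P₁^(a₁) ∩ P₂^(a₂)`. -/
theorem eq_vertIdeal [IsDomain B] (H : ChartHyp π O₁ O₂) (d : Ideal B) (hd : LocPrincipal d) {N : ℕ}
    (hN : π ^ N ∈ d) {a₁ a₂ : ℕ}
    (hle₁ : ∀ z ∈ d, InPow O₁ (algebraMap B F π) a₁ (algebraMap B F z))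
    (hex₁ : ∃ z ∈ d, ∃ u : F, u ∈ O₁ ∧ u⁻¹ ∈ O₁ ∧ u ≠ 0 ∧
      algebraMap B F z = algebraMap B F π ^ a₁ * u)
    (hle₂ : ∀ z ∈ d, InPow O₂ (algebraMap B F π) a₂ (algebraMap B F z))
    (hex₂ : ∃ z ∈ d, ∃ u : F, u ∈ O₂ ∧ u⁻¹ ∈ O₂ ∧ u ≠ 0 ∧
      algebraMap B F z = algebraMap B F π ^ a₂ * u) :
    d = vertIdeal π O₁ O₂ H.le₁ H.le₂ a₁ a₂ := by
  apply le_antisymm
  · intro z hz
    exact ⟨hle₁ z hz, hle₂ z hz⟩
  · intro z hz
    apply mem_of_forall_maximal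
    intro 𝔪 h𝔪
    have : 𝔪.IsPrime := h𝔪.isPrime
    obtain ⟨α, hα, s, hs, hgen⟩ := hd 𝔪 h𝔪
    obtain ⟨r₀, hr₀⟩ := hgen _ hN
    have hs0 : s ≠ 0 := fun h0 => hs (h0 ▸ 𝔪.zero_mem)
    have hα0 : α ≠ 0 := by
      rintro rfl
      rw [mul_zero] at hr₀
      exact (mul_ne_zero hs0 (pow_ne_zero N H.pi_ne)) hr₀
    have hgα : algebraMap B F α ≠ 0 := fun h0 => hα0 (H.inj (by rw [h0, map_zero]))
    have key : ∀ (O : ValuationSubring F) (hle : ∀ b : B, algebraMap B F b ∈ O)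
        (hu : IsUnifFor O (algebraMap B F π)) (a : ℕ)
        (hle_a : ∀ z ∈ d, InPow O (algebraMap B F π) a (algebraMap B F z))
        (hex : ∃ z ∈ d, ∃ u : F, u ∈ O ∧ u⁻¹ ∈ O ∧ u ≠ 0 ∧
          algebraMap B F z = algebraMap B F π ^ a * u)
        (hza : InPow O (algebraMap B F π) a (algebraMap B F z)),
        Off π O 𝔪 ∨ algebraMap B F z / algebraMap B F α ∈ O := by
      intro O hle hu a hle_a hex hza
      by_cases hoff : Off π O 𝔪
      · exact Or.inl hoff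
      · right
        obtain ⟨c, hc, hc', hc0, hαc⟩ := local_generator_order H.inj hle hu hoff hle_a hex hα hs hgen
        obtain ⟨cz, hcz, hzc⟩ := hza
        have : algebraMap B F z / algebraMap B F α = cz * c⁻¹ := by
          rw [hzc, hαc]
          have hπa : algebraMap B F π ^ a ≠ 0 := pow_ne_zero a hu.ne
          field_simp
        rw [this]
        exact O.mul_mem _ _ hcz hc'
    obtain ⟨t, ht, b, hb⟩ := exists_mul_eq_mul H 𝔪 hα0 hs hr₀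
      (key O₁ H.le₁ H.unif₁ a₁ hle₁ hex₁ hz.1) (key O₂ H.le₂ H.unif₂ a₂ hle₂ hex₂ hz.2)
    exact ⟨t, ht, by rw [hb]; exact d.mul_mem_left b hα⟩

/-- **(G3)** At a two-branch maximal ideal: an element `ξ ∈ B`, vertical at `𝔪`, with orders
`(0, K)` along `(O₁, O₂)`. -/
def HasNodeElt (π : B) (O₁ O₂ : ValuationSubring F) (K : ℕ) (𝔪 : Ideal B) : Prop :=
  ∃ ξ : B, ξ ≠ 0 ∧ (algebraMap B F ξ)⁻¹ ∈ O₁ ∧
    (∃ u : F, u ∈ O₂ ∧ u⁻¹ ∈ O₂ ∧ algebraMap B F ξ = algebraMap B F π ^ K * u) ∧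
    ∃ s : B, s ∉ 𝔪 ∧ ∃ (r : B) (N : ℕ), s * π ^ N = r * ξ

/-- **(B) The vertical `p`-th root.**  If `a₂ = a₁ + p (c K)` then `d = (π ^ a₁) * W ^ p` with
`W = vertIdeal 0 (c K)`. -/
theorem eq_span_mul_pow [IsDomain B] (H : ChartHyp π O₁ O₂) (d : Ideal B) (hd : LocPrincipal d)
    {N : ℕ} (hN : π ^ N ∈ d) {a₁ a₂ : ℕ}
    (hle₁ : ∀ z ∈ d, InPow O₁ (algebraMap B F π) a₁ (algebraMap B F z))
    (hex₁ : ∃ z ∈ d, ∃ u : F, u ∈ O₁ ∧ u⁻¹ ∈ O₁ ∧ u ≠ 0 ∧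
      algebraMap B F z = algebraMap B F π ^ a₁ * u)
    (hle₂ : ∀ z ∈ d, InPow O₂ (algebraMap B F π) a₂ (algebraMap B F z))
    (hex₂ : ∃ z ∈ d, ∃ u : F, u ∈ O₂ ∧ u⁻¹ ∈ O₂ ∧ u ≠ 0 ∧
      algebraMap B F z = algebraMap B F π ^ a₂ * u)
    {K : ℕ} (p c : ℕ) (ha : a₂ = a₁ + p * (c * K))
    (hnode : ∀ 𝔪 : Ideal B, 𝔪.IsMaximal → ¬ Off π O₁ 𝔪 → ¬ Off π O₂ 𝔪 → HasNodeElt π O₁ O₂ K 𝔪) :
    d = Ideal.span {π ^ a₁} * vertIdeal π O₁ O₂ H.le₁ H.le₂ 0 (c * K) ^ p := by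
  have hπF : algebraMap B F π ≠ 0 := H.unif₁.ne
  rw [eq_vertIdeal H d hd hN hle₁ hex₁ hle₂ hex₂]
  apply le_antisymm
  · -- `V(a₁, a₂) ⊆ (π ^ a₁) W ^ p`
    intro z hz
    obtain ⟨⟨c₁, hc₁, hzc₁⟩, ⟨c₂, hc₂, hzc₂⟩⟩ := hz
    have hc₁₂ : c₁ = algebraMap B F π ^ (p * (c * K)) * c₂ := by
      apply mul_left_cancel₀ (pow_ne_zero a₁ hπF)
      rw [← hzc₁, hzc₂, ha, pow_add]
      ring
    have hc₁2 : c₁ ∈ O₂ := by
      rw [hc₁₂]
      exact O₂.mul_mem _ _ (H.unif₂.pow_mem _) hc₂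
    obtain ⟨z', hz'⟩ := H.sat_pow a₁ z c₁ hc₁ hc₁2 hzc₁
    have hzz' : z = π ^ a₁ * z' := by
      apply H.inj
      rw [map_mul, map_pow, hz', hzc₁]
    rw [hzz']
    refine Ideal.mul_mem_mul (Ideal.mem_span_singleton_self _) ?_
    -- `z' ∈ W ^ p`, locally
    apply mem_of_forall_maximal
    intro 𝔪 h𝔪
    have : 𝔪.IsPrime := h𝔪.isPrime
    by_cases hoff₂ : Off π O₂ 𝔪
    · -- the branch `O₂` does not pass through `𝔪`
      obtain ⟨e, he, ce, hce, hee⟩ := hoff₂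
      have heW : e ^ (c * K) ∈ vertIdeal π O₁ O₂ H.le₁ H.le₂ 0 (c * K) := by
        rw [mem_vertIdeal, inPow_zero_iff]
        refine ⟨H.le₁ _, ce ^ (c * K), O₂.pow_mem hce _, ?_⟩
        rw [map_pow, hee, mul_pow]
      refine ⟨(e ^ (c * K)) ^ p, fun hmem => he ?_, ?_⟩
      · exact Ideal.IsPrime.mem_of_pow_mem ‹_› _ (Ideal.IsPrime.mem_of_pow_mem ‹_› _ hmem)
      · exact Ideal.mul_mem_right _ _ (Ideal.pow_mem_pow heW p)
    · by_cases hoff₁ : Off π O₁ 𝔪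
      · -- only the branch `O₂` passes through `𝔪`
        have hξW : π ^ (c * K) ∈ vertIdeal π O₁ O₂ H.le₁ H.le₂ 0 (c * K) :=
          pow_mem_vertIdeal H 0 (c * K) (c * K) (Nat.zero_le _) le_rfl
        have hα0 : (π ^ (c * K)) ^ p ≠ 0 := pow_ne_zero _ (pow_ne_zero _ H.pi_ne)
        have hvert : (1 : B) * π ^ (c * K * p) = 1 * (π ^ (c * K)) ^ p := by
          rw [one_mul, one_mul, pow_mul]
        have h1 : (1 : B) ∉ 𝔪 := fun h1 =>
          (Ideal.IsPrime.ne_top ‹_›) ((Ideal.eq_top_iff_one _).2 h1)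
        have h₂ : Off π O₂ 𝔪 ∨
            algebraMap B F z' / algebraMap B F ((π ^ (c * K)) ^ p) ∈ O₂ := by
          right
          have : algebraMap B F z' / algebraMap B F ((π ^ (c * K)) ^ p) = c₂ := by
            rw [hz', hc₁₂, map_pow, map_pow, ← pow_mul, mul_comm (c * K) p]
            exact mul_div_cancel_left₀ _ (pow_ne_zero _ hπF)
          rw [this]
          exact hc₂
        obtain ⟨t, ht, b, hb⟩ := exists_mul_eq_mul H 𝔪 hα0 h1 hvert (Or.inl hoff₁) h₂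
        exact ⟨t, ht, by rw [hb]; exact Ideal.mul_mem_left _ b (Ideal.pow_mem_pow hξW p)⟩
      · -- a node
        obtain ⟨ξ, hξ0, hξ1, ⟨u, hu, hu', hξu⟩, s, hs, r, M, hsr⟩ := hnode 𝔪 h𝔪 hoff₁ hoff₂
        have hgξ : algebraMap B F ξ ≠ 0 := fun h0 => hξ0 (H.inj (by rw [h0, map_zero]))
        have hu0 : u ≠ 0 := by
          rintro rfl
          rw [mul_zero] at hξu
          exact hgξ hξu
        have hξW : ξ ^ c ∈ vertIdeal π O₁ O₂ H.le₁ H.le₂ 0 (c * K) := by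
          rw [mem_vertIdeal, inPow_zero_iff]
          refine ⟨H.le₁ _, u ^ c, O₂.pow_mem hu _, ?_⟩
          rw [map_pow, hξu, mul_pow, ← pow_mul, mul_comm K c]
        have hα0 : (ξ ^ c) ^ p ≠ 0 := pow_ne_zero _ (pow_ne_zero _ hξ0)
        have hvert : s ^ (c * p) * π ^ (M * (c * p)) = r ^ (c * p) * (ξ ^ c) ^ p := by
          rw [← pow_mul ξ, ← mul_pow, ← hsr, mul_pow, ← pow_mul]
        have hs' : s ^ (c * p) ∉ 𝔪 := fun hmem => hs (Ideal.IsPrime.mem_of_pow_mem ‹_› _ hmem)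
        have h₁ : Off π O₁ 𝔪 ∨ algebraMap B F z' / algebraMap B F ((ξ ^ c) ^ p) ∈ O₁ := by
          right
          rw [div_eq_mul_inv, map_pow, map_pow, ← pow_mul, ← inv_pow, hz']
          exact O₁.mul_mem _ _ hc₁ (O₁.pow_mem hξ1 _)
        have h₂ : Off π O₂ 𝔪 ∨ algebraMap B F z' / algebraMap B F ((ξ ^ c) ^ p) ∈ O₂ := by
          right
          have : algebraMap B F z' / algebraMap B F ((ξ ^ c) ^ p) = c₂ * (u⁻¹) ^ (c * p) := by
            rw [hz', hc₁₂, map_pow, map_pow, ← pow_mul, hξu, mul_pow, ← pow_mul, inv_pow]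
            have e1 : p * (c * K) = K * (c * p) := by ring
            rw [e1]
            have h3 : (algebraMap B F π) ^ (K * (c * p)) ≠ 0 := pow_ne_zero _ hπF
            have h4 : u ^ (c * p) ≠ 0 := pow_ne_zero _ hu0
            field_simp
          rw [this]
          exact O₂.mul_mem _ _ hc₂ (O₂.pow_mem hu' _)
        obtain ⟨t, ht, b, hb⟩ := exists_mul_eq_mul H 𝔪 hα0 hs' hvert h₁ h₂
        exact ⟨t, ht, by rw [hb]; exact Ideal.mul_mem_left _ b (Ideal.pow_mem_pow hξW p)⟩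
  · -- `(π ^ a₁) W ^ p ⊆ V(a₁, a₂)`
    have h1 : Ideal.span {π ^ a₁} ≤ vertIdeal π O₁ O₂ H.le₁ H.le₂ a₁ a₁ := by
      rw [Ideal.span_singleton_le_iff_mem]
      exact pow_mem_vertIdeal H a₁ a₁ a₁ le_rfl le_rfl
    have h2 := vertIdeal_pow_le H 0 (c * K) p
    have h3 := vertIdeal_mul_le H a₁ a₁ (p * 0) (p * (c * K))
    rw [mul_zero, add_zero, ← ha] at h3
    exact (Ideal.mul_mono h1 h2).trans h3

/-- Existence of the minimal order of a nonzero ideal along a branch. -/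
theorem exists_min_order {O : ValuationSubring F} (hinj : Function.Injective (algebraMap B F))
    (hle : ∀ b : B, algebraMap B F b ∈ O) (hu : IsUnifFor O (algebraMap B F π)) (d : Ideal B)
    {z₁ : B} (hz₁ : z₁ ∈ d) (hz₁0 : z₁ ≠ 0) :
    ∃ a : ℕ, (∀ z ∈ d, InPow O (algebraMap B F π) a (algebraMap B F z)) ∧
      ∃ z ∈ d, ∃ u : F, u ∈ O ∧ u⁻¹ ∈ O ∧ u ≠ 0 ∧ algebraMap B F z = algebraMap B F π ^ a * u := by
  classical
  have hne : ∀ {z : B}, z ≠ 0 → algebraMap B F z ≠ 0 := fun hz h0 =>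
    hz (hinj (by rw [h0, map_zero]))
  have hex : ∃ n : ℕ, ∃ z ∈ d, z ≠ 0 ∧ ord O (algebraMap B F π) (algebraMap B F z) = n :=
    ⟨_, z₁, hz₁, hz₁0, rfl⟩
  refine ⟨Nat.find hex, ?_, ?_⟩
  · intro z hz
    by_cases hz0 : z = 0
    · rw [hz0, map_zero]
      exact InPow.zero _ _ _
    · have hmin : Nat.find hex ≤ ord O (algebraMap B F π) (algebraMap B F z) :=
        Nat.find_min' hex ⟨z, hz, hz0, rfl⟩
      obtain ⟨u, hu1, -, -, hzu⟩ := hu.exists_ord_repr (hle z) (hne hz0)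
      exact InPow.mono hu.mem hmin ⟨u, hu1, hzu⟩
  · obtain ⟨z, hz, hz0, hord⟩ := Nat.find_spec hex
    obtain ⟨u, hu1, hu2, hu0, hzu⟩ := hu.exists_ord_repr (hle z) (hne hz0)
    exact ⟨z, hz, u, hu1, hu2, hu0, by rw [← hord]; exact hzu⟩

end Chart

end Fermat.Agent.T1B.Hol80
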