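import Mathlib
import Fermat.Agent.T1B.Hol80.SlopeGlobal
import Fermat.Agent.T1B.Hol80.Vertical

/-!
# T1B (S44), brick SLOPE80 (helper80), part 5: the vertical `p`-th root (`hker`, frame level)

One chart `B ⊂ F` (`ChartHyp`), `I` an invertible `B`-submodule of `F` with
`I ^ p = f · (vertical)` (`π ^ n f ∈ I ^ p`, `π ^ n I ^ p ⊆ B f`).

* `vertPart π I p f n : Ideal B` : the vertical part `d = π ^ n I ^ p f⁻¹`;
  `pow_mem_vertPart`, `locPrincipal_vertPart`;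
* `hasNodeElt_of_nodeData` : helper37's `NodeData` on `Localization.AtPrime 𝔪` gives the element `ξ`
  of `Vertical.HasNodeElt` (numerator of `x`);
* `exists_vertical_root` : **(hker, frame level)** if the residue of the Gauss-normalised `f` has order
  divisible by `p` at ONE node `e₀` (and all two-branch maximal ideals are nodes of the same
  thickness `K`), then `I ^ p = (f π ^ a / π ^ n) · W ^ p` for a vertical ideal `W ⊂ B`
  (`π ^ M ∈ W`).  Consequently the line `L ⊗ W⁻¹` has the same generic fibre as `L` and its `p`-th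
  power is trivial ON THE MODEL, so its multidegree vanishes (`Mdeg` is torsion-free).
-/

set_option autoImplicit false
set_option linter.unusedSectionVars false

namespace Fermat.Agent.T1B.Hol80

open AlgebraicCurve Fermat.Agent.T1.Peu37.NodeClassGroup Fermat.Agent.T1B.NodeNF37.Local
  Fermat.Agent.T1B.NodeNF37.UnifOrd Fermat.Agent.T1B.Hol31.Local Fermat.Agent.T1B.Node45.Orbit

section VertPart

variable {B F : Type*} [CommRing B] [IsDomain B] [Field F] [Algebra B F]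

/-- The vertical part `d = π ^ n I ^ p f⁻¹` (an ideal of `B` when `π ^ n I ^ p ⊆ B f`). -/
def vertPart (π : B) (I : Submodule B F) (p : ℕ) (f : F) (n : ℕ) : Ideal B where
  carrier := {b | ∃ z ∈ I ^ p, algebraMap B F π ^ n * z = algebraMap B F b * f}
  add_mem' := by
    rintro a b ⟨z, hz, h⟩ ⟨w, hw, h'⟩
    exact ⟨z + w, Submodule.add_mem _ hz hw, by rw [mul_add, h, h', map_add, add_mul]⟩
  zero_mem' := ⟨0, Submodule.zero_mem _, by rw [mul_zero, map_zero, zero_mul]⟩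
  smul_mem' := by
    rintro r a ⟨z, hz, h⟩
    refine ⟨r • z, Submodule.smul_mem _ r hz, ?_⟩
    rw [smul_eq_mul, map_mul, Algebra.smul_def]
    linear_combination algebraMap B F r * h

theorem mem_vertPart {π : B} {I : Submodule B F} {p : ℕ} {f : F} {n : ℕ} {b : B} :
    b ∈ vertPart π I p f n ↔ ∃ z ∈ I ^ p, algebraMap B F π ^ n * z = algebraMap B F b * f :=
  Iff.rfl

theorem pow_mem_vertPart {π : B} {I : Submodule B F} {p : ℕ} {f : F} {n : ℕ}
    (h1 : algebraMap B F π ^ n * f ∈ I ^ p) : π ^ (2 * n) ∈ vertPart π I p f n :=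
  ⟨_, h1, by rw [map_pow, pow_mul', pow_two]; ring⟩

/-- A local generator `α` of `I` (`s • I ⊆ B α`) with `π ^ n α ^ p = r f` gives the local generator
`r` of the vertical part (`s ^ p • d ⊆ B r`). -/
theorem vertPart_local_generator (hg : Function.Injective (algebraMap B F)) {π : B}
    {I : Submodule B F} {p : ℕ} {f : F} (hf : f ≠ 0) {n : ℕ} {α : F} (hαI : α ∈ I) {s r : B}
    (hgen : ∀ z ∈ I, ∃ r : B, s • z = r • α)
    (hr : algebraMap B F π ^ n * α ^ p = r • f) :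
    r ∈ vertPart π I p f n ∧ ∀ b ∈ vertPart π I p f n, ∃ ρ : B, s ^ p * b = ρ * r := by
  rw [Algebra.smul_def] at hr
  refine ⟨⟨α ^ p, Submodule.pow_mem_pow I hαI p, hr⟩, ?_⟩
  rintro b ⟨z, hz, hzb⟩
  obtain ⟨ρ, hρ⟩ := pow_smul_mem_span hgen p z hz
  rw [Algebra.smul_def, Algebra.smul_def] at hρ
  refine ⟨ρ, hg ?_⟩
  apply mul_right_cancel₀ hf
  rw [map_mul, map_mul]
  linear_combination (-(algebraMap B F (s ^ p))) * hzb + algebraMap B F π ^ n * hρ +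
    algebraMap B F ρ * hr

/-- The vertical part of an invertible `I` with `I ^ p = f · (vertical)` is locally principal. -/
theorem locPrincipal_vertPart (hg : Function.Injective (algebraMap B F)) (π : B)
    {I J : Submodule B F} (hIJ : I * J = 1) (p : ℕ) {f : F} (hf : f ≠ 0) (n : ℕ)
    (h1 : algebraMap B F π ^ n * f ∈ I ^ p)
    (h2 : ∀ z ∈ I ^ p, ∃ r : B, algebraMap B F π ^ n * z = r • f) :
    LocPrincipal (vertPart π I p f n) := by
  intro 𝔪 h𝔪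
  have : 𝔪.IsPrime := h𝔪.isPrime
  obtain ⟨α, hαI, -, s, hs, hgen, r, -, hr, -⟩ := exists_vertical_at hg π hIJ p hf n h1 h2 𝔪
  obtain ⟨hrd, hrgen⟩ := vertPart_local_generator hg hf hαI hgen hr
  exact ⟨r, hrd, s ^ p, fun hmem => hs (Ideal.IsPrime.mem_of_pow_mem ‹_› p hmem), hrgen⟩

end VertPart

section NodeElt

variable {B F : Type*} [CommRing B] [IsDomain B] [Field F] [Algebra B F]

/-- helper37's node normal form on `Localization.AtPrime 𝔪` gives the element `ξ` (numerator of `x`):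
vertical at `𝔪`, with orders `(0, K)` along `(O₁, O₂)`. -/
theorem hasNodeElt_of_nodeData (hg : Function.Injective (algebraMap B F)) {π : B}
    {O₁ O₂ : ValuationSubring F} (𝔪 : Ideal B) [𝔪.IsPrime]
    (H₁ : BranchHyp (algebraMap B F) 𝔪 O₁ π) (H₂ : BranchHyp (algebraMap B F) 𝔪 O₂ π)
    {K : ℕ} {x y : Localization.AtPrime 𝔪}
    (D : NodeData (Localization.AtPrime 𝔪)
      (vv (algebraMap B F) hg 𝔪 O₁ π) (vv (algebraMap B F) hg 𝔪 O₂ π)
      (PP (algebraMap B F) hg 𝔪 H₁) (PP (algebraMap B F) hg 𝔪 H₂)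
      (algebraMap B (Localization.AtPrime 𝔪) π) x y K) :
    HasNodeElt π O₁ O₂ K 𝔪 := by
  set φ := algebraMap B (Localization.AtPrime 𝔪) with hφ
  obtain ⟨b, d, hd, hxb, hιx⟩ := exists_frac (algebraMap B F) hg 𝔪 x
  obtain ⟨b', d', hd', -, hιy⟩ := exists_frac (algebraMap B F) hg 𝔪 y
  obtain ⟨ε, hε, hrel⟩ := D.rel
  obtain ⟨bε, dε, hdε, hεb, hιε⟩ := exists_frac (algebraMap B F) hg 𝔪 ε
  have hbε : bε ∉ 𝔪 := by
    have hu : IsUnit (φ bε) := by
      rw [← hεb]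
      exact hε.mul (isUnit_algebraMap 𝔪 hdε)
    intro hmem
    have := (IsLocalization.AtPrime.isUnit_to_map_iff (Localization.AtPrime 𝔪) 𝔪 bε).1 hu
    exact this hmem
  have hx0 : x ≠ 0 := D.x_ne
  have hιx0 := iota_ne_zero (algebraMap B F) hg 𝔪 hx0
  have hιxO₁ := iota_mem (algebraMap B F) hg 𝔪 H₁ x
  have hιxO₂ := iota_mem (algebraMap B F) hg 𝔪 H₂ x
  have hd0 := g_ne_zero (algebraMap B F) hg 𝔪 hd
  have hgb : algebraMap B F b ≠ 0 := by
    rw [← hιx]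
    exact mul_ne_zero hιx0 hd0
  refine ⟨b, fun h0 => hgb (by rw [h0, map_zero]), ?_, ?_, bε * d * d', ?_, b' * dε, K, ?_⟩
  · -- `ord₁ ξ = 0`
    have h1 : (iota (algebraMap B F) hg 𝔪 x)⁻¹ ∈ O₁ :=
      (H₁.unif.ord_eq_zero_iff hιxO₁ hιx0).1 D.v₁_x
    rw [← hιx, mul_inv]
    exact O₁.mul_mem _ _ h1 (inv_g_mem (algebraMap B F) hg 𝔪 H₁ hd)
  · -- `ord₂ ξ = K`
    obtain ⟨u', hu'1, hu'2, hu'0, hxu'⟩ := H₂.unif.exists_ord_repr hιxO₂ hιx0
    have hK' : vv (algebraMap B F) hg 𝔪 O₂ π x = K := v₂_x D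
    have hK : ord O₂ (algebraMap B F π) (iota (algebraMap B F) hg 𝔪 x) = K := hK'
    rw [hK] at hxu'
    refine ⟨u' * algebraMap B F d, O₂.mul_mem _ _ hu'1 (H₂.le d), ?_, ?_⟩
    · rw [mul_inv]
      exact O₂.mul_mem _ _ hu'2 (inv_g_mem (algebraMap B F) hg 𝔪 H₂ hd)
    · rw [← hιx, hxu']
      ring
  · intro hmem
    rcases Ideal.IsPrime.mem_or_mem ‹_› hmem with h | h
    · rcases Ideal.IsPrime.mem_or_mem ‹_› h with h | h
      · exact hbε h
      · exact hd h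
    · exact hd' h
  · -- verticality
    apply hg
    have hrelF := congrArg (iota (algebraMap B F) hg 𝔪) hrel
    rw [map_mul, map_mul, map_pow, iota_algebraMap] at hrelF
    simp only [map_mul, map_pow]
    linear_combination (-(algebraMap B F d * algebraMap B F d' * algebraMap B F π ^ K)) * hιε -
      (algebraMap B F dε * algebraMap B F d * algebraMap B F d') * hrelF +
      (algebraMap B F b' * algebraMap B F dε) * hιx +
      (algebraMap B F dε * algebraMap B F d *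
        iota (algebraMap B F) hg 𝔪 x) * hιy

end NodeElt

section SubmoduleForm

variable {B F : Type*} [CommRing B] [Field F] [Algebra B F]

theorem coeSubmodule_pow' (W : Ideal B) (p : ℕ) :
    IsLocalization.coeSubmodule F (W ^ p) = IsLocalization.coeSubmodule F W ^ p := by
  induction p with
  | zero => rw [pow_zero, pow_zero, Ideal.one_eq_top, IsLocalization.coeSubmodule_top]
  | succ p ih => rw [pow_succ, pow_succ, IsLocalization.coeSubmodule_mul, ih]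

/-- The elementwise relations `π ^ n I ^ p = (π ^ a f) W ^ p` as an identity of submodules. -/
theorem span_mul_pow_eq_of_forall {π : B} {I : Submodule B F} {W : Ideal B} {p n a : ℕ} {f : F}
    (hA : ∀ z ∈ I ^ p, ∃ w ∈ W ^ p,
      algebraMap B F π ^ n * z = algebraMap B F (π ^ a * w) * f)
    (hB : ∀ w ∈ W ^ p, ∃ z ∈ I ^ p,
      algebraMap B F π ^ n * z = algebraMap B F (π ^ a * w) * f) :
    Submodule.span B {algebraMap B F π ^ n} * I ^ p =
      Submodule.span B {algebraMap B F π ^ a * f} * IsLocalization.coeSubmodule F W ^ p := by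
  rw [← coeSubmodule_pow']
  apply le_antisymm
  · intro x hx
    obtain ⟨z, hz, rfl⟩ := Submodule.mem_span_singleton_mul.1 hx
    obtain ⟨w, hw, hzw⟩ := hA z hz
    refine Submodule.mem_span_singleton_mul.2 ⟨algebraMap B F w,
      (IsLocalization.mem_coeSubmodule _ _).2 ⟨w, hw, rfl⟩, ?_⟩
    rw [hzw, map_mul, map_pow]
    ring
  · intro x hx
    obtain ⟨w', hw', rfl⟩ := Submodule.mem_span_singleton_mul.1 hx
    obtain ⟨w, hw, rfl⟩ := (IsLocalization.mem_coeSubmodule _ _).1 hw'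
    obtain ⟨z, hz, hzw⟩ := hB w hw
    refine Submodule.mem_span_singleton_mul.2 ⟨z, hz, ?_⟩
    rw [hzw, map_mul, map_pow]
    ring

/-- `W` is invertible (as a `B`-submodule of `F`) when `π ^ n I ^ p = c W ^ p` with `I` invertible,
`c ≠ 0`, `p ≠ 0`. -/
theorem exists_mul_eq_one_of_span_mul_pow_eq {I J X : Submodule B F} (hIJ : I * J = 1) {p : ℕ}
    (hp : p ≠ 0) {c e : F} (he : e ≠ 0)
    (h : Submodule.span B {e} * I ^ p = Submodule.span B {c} * X ^ p) :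
    ∃ Y : Submodule B F, X * Y = 1 := by
  refine ⟨X ^ (p - 1) * (Submodule.span B {c} * Submodule.span B {e⁻¹} * J ^ p), ?_⟩
  have h1 : X * X ^ (p - 1) = X ^ p := by
    rw [← pow_succ', Nat.sub_add_cancel (Nat.one_le_iff_ne_zero.2 hp)]
  calc X * (X ^ (p - 1) * (Submodule.span B {c} * Submodule.span B {e⁻¹} * J ^ p))
      = (Submodule.span B {c} * (X * X ^ (p - 1))) * (Submodule.span B {e⁻¹} * J ^ p) := by
        ac_rfl
    _ = (Submodule.span B {e} * I ^ p) * (Submodule.span B {e⁻¹} * J ^ p) := by rw [h1, ← h]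
    _ = (Submodule.span B {e} * Submodule.span B {e⁻¹}) * (I * J) ^ p := by
        rw [mul_pow]
        ac_rfl
    _ = 1 := by
        rw [hIJ, one_pow, mul_one, Submodule.span_mul_span, Set.singleton_mul_singleton,
          mul_inv_cancel₀ he, Submodule.one_eq_span]

end SubmoduleForm

section Root

variable {B F : Type*} [CommRing B] [IsDomain B] [IsNoetherianRing B] [Field F] [Algebra B F]
variable {κ k : Type*} [Field κ] [Field k] [Algebra κ k]

/-- **(hker, frame level) The vertical `p`-th root.**  One chart `B ⊂ F` (`ChartHyp`), all of whose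
two-branch maximal ideals are nodes `𝔪 e` of the same thickness `K` (`NodeData`); `I` an invertible
`B`-submodule of `F` with `I ^ p = f · (vertical)`, `f = u c₀` (`u ∈ O₁ˣ`, `c₀` constant).  If the order
of `res₁ u` at ONE node place `v₀` (over the node `e₀`) is divisible by `p`, then
`π ^ n I ^ p = (f π ^ a) · W ^ p` for a vertical ideal `W` of `B` (`π ^ M ∈ W`). -/
theorem exists_vertical_root (hg : Function.Injective (algebraMap B F)) (π : B)
    (O₁ O₂ : ValuationSubring F) (Hc : ChartHyp π O₁ O₂)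
    {E : Type*} (𝔪 : E → Ideal B) [∀ e, (𝔪 e).IsPrime]
    (H₁ : ∀ e, BranchHyp (algebraMap B F) (𝔪 e) O₁ π)
    (H₂ : ∀ e, BranchHyp (algebraMap B F) (𝔪 e) O₂ π)
    (hall : ∀ 𝔫 : Ideal B, 𝔫.IsMaximal → ¬ Off π O₁ 𝔫 → ¬ Off π O₂ 𝔫 → ∃ e, 𝔪 e = 𝔫)
    (K : ℕ) (x y : ∀ e, Localization.AtPrime (𝔪 e))
    (D : ∀ e, NodeData (Localization.AtPrime (𝔪 e))
      (vv (algebraMap B F) hg (𝔪 e) O₁ π) (vv (algebraMap B F) hg (𝔪 e) O₂ π)
      (PP (algebraMap B F) hg (𝔪 e) (H₁ e)) (PP (algebraMap B F) hg (𝔪 e) (H₂ e))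
      (algebraMap B (Localization.AtPrime (𝔪 e)) π) (x e) (y e) K)
    (res₁ : ↥O₁ →+* k) (hres : ∀ z : ↥O₁, ¬ IsUnit z → res₁ z = 0) (e₀ : E) (v₀ : Place κ k)
    (HP : NodePlace (PP (algebraMap B F) hg (𝔪 e₀) (H₁ e₀))
      (res₁.comp (toO O₁ (iota (algebraMap B F) hg (𝔪 e₀))
        (iota_mem (algebraMap B F) hg (𝔪 e₀) (H₁ e₀)))) v₀)
    {I J : Submodule B F} (hIJ : I * J = 1) (p : ℕ) {f : F} (hf : f ≠ 0) (n : ℕ)
    (h1 : algebraMap B F π ^ n * f ∈ I ^ p)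
    (h2 : ∀ z ∈ I ^ p, ∃ r : B, algebraMap B F π ^ n * z = r • f)
    {C : Subfield F} (hval : HasConstScaling O₁ C)
    (hC : ∀ c : (↥O₁)ˣ, ((c : ↥O₁) : F) ∈ C → v₀.ord (res₁ (c : ↥O₁)) = 0)
    (hπC : algebraMap B F π ∈ C)
    (u : (↥O₁)ˣ) {c₀ : F} (hc₀ : c₀ ∈ C) (hu : ((u : ↥O₁) : F) * c₀ = f)
    (hρ : (p : ℤ) ∣ v₀.ord (res₁ (u : ↥O₁))) :
    ∃ (W : Ideal B) (a M : ℕ), π ^ M ∈ W ∧
      (∀ z ∈ I ^ p, ∃ w ∈ W ^ p,
        algebraMap B F π ^ n * z = algebraMap B F (π ^ a * w) * f) ∧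
      ∀ w ∈ W ^ p, ∃ z ∈ I ^ p, algebraMap B F π ^ n * z = algebraMap B F (π ^ a * w) * f := by
  classical
  set d := vertPart π I p f n with hd_def
  have hN : π ^ (2 * n) ∈ d := pow_mem_vertPart h1
  have hd : LocPrincipal d := locPrincipal_vertPart hg π hIJ p hf n h1 h2
  have hπ0 : algebraMap B F π ≠ 0 := Hc.unif₁.ne
  have hπn0 : π ^ (2 * n) ≠ 0 := pow_ne_zero _ Hc.pi_ne
  obtain ⟨a₁, hle₁, hex₁⟩ := exists_min_order hg Hc.le₁ Hc.unif₁ d hN hπn0
  obtain ⟨a₂, hle₂, hex₂⟩ := exists_min_order hg Hc.le₂ Hc.unif₂ d hN hπn0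
  -- the final step, common to the two cases
  have fin : ∀ (W : Ideal B) (a : ℕ), d = Ideal.span {π ^ a} * W ^ p →
      (∀ z ∈ I ^ p, ∃ w ∈ W ^ p,
        algebraMap B F π ^ n * z = algebraMap B F (π ^ a * w) * f) ∧
      ∀ w ∈ W ^ p, ∃ z ∈ I ^ p, algebraMap B F π ^ n * z = algebraMap B F (π ^ a * w) * f := by
    intro W a hroot
    constructor
    · intro z hz
      obtain ⟨b, hb⟩ := h2 z hz
      have hbd : b ∈ d := ⟨z, hz, by rw [hb, Algebra.smul_def]⟩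
      rw [hroot] at hbd
      obtain ⟨w, hw, hwb⟩ := Ideal.mem_span_singleton_mul.1 hbd
      exact ⟨w, hw, by rw [hwb, hb, Algebra.smul_def]⟩
    · intro w hw
      have hmem : π ^ a * w ∈ d := by
        rw [hroot]
        exact Ideal.mul_mem_mul (Ideal.mem_span_singleton_self _) hw
      exact hmem
  -- the local data at the node `e₀`
  obtain ⟨α, hαI, hα0, s, hs, hgen, r, r', hr, hrr'⟩ :=
    exists_vertical_at hg π hIJ p hf n h1 h2 (𝔪 e₀)
  obtain ⟨hrd, hrgen⟩ := vertPart_local_generator hg hf hαI hgen hr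
  have hsp : s ^ p ∉ 𝔪 e₀ := fun hmem => hs (Ideal.IsPrime.mem_of_pow_mem inferInstance p hmem)
  have hoff₁ : ¬ Off π O₁ (𝔪 e₀) := fun ⟨e, he, c, hc, hec⟩ => (H₁ e₀).on e he ⟨c, hc, hec⟩
  have hoff₂ : ¬ Off π O₂ (𝔪 e₀) := fun ⟨e, he, c, hc, hec⟩ => (H₂ e₀).on e he ⟨c, hc, hec⟩
  obtain ⟨c₁, hc₁, hc₁', hc₁0, hrc₁⟩ :=
    local_generator_order hg Hc.le₁ Hc.unif₁ hoff₁ hle₁ hex₁ hrd hsp hrgen
  obtain ⟨c₂, hc₂, hc₂', hc₂0, hrc₂⟩ :=
    local_generator_order hg Hc.le₂ Hc.unif₂ hoff₂ hle₂ hex₂ hrd hsp hrgen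
  have hord₁ : ord O₁ (algebraMap B F π) (algebraMap B F r) = a₁ := by
    rw [hrc₁]
    exact Hc.unif₁.ord_pow_mul_unit hc₁ hc₁' hc₁0
  have hord₂ : ord O₂ (algebraMap B F π) (algebraMap B F r) = a₂ := by
    rw [hrc₂]
    exact Hc.unif₂.ord_pow_mul_unit hc₂ hc₂' hc₂0
  -- the node computation
  have hnoeth : IsNoetherianRing (Localization.AtPrime (𝔪 e₀)) :=
    IsLocalization.isNoetherianRing (𝔪 e₀).primeCompl _ inferInstance
  set φ := algebraMap B (Localization.AtPrime (𝔪 e₀)) with hφ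
  have hU : IsUnit (φ s ^ p) := (isUnit_algebraMap (𝔪 e₀) hs).pow p
  obtain ⟨U', hU'⟩ := hU.exists_right_inv
  have hh : φ r * (φ r' * U') = φ π ^ (2 * n) := by
    have h3 : φ r * φ r' = φ s ^ p * φ π ^ (2 * n) := by
      rw [← map_mul, hrr', map_mul, map_pow, map_pow]
    calc φ r * (φ r' * U') = (φ r * φ r') * U' := by ring
      _ = (φ s ^ p * U') * φ π ^ (2 * n) := by rw [h3]; ring
      _ = φ π ^ (2 * n) := by rw [hU', one_mul]
  have heq : α ^ p * (iota (algebraMap B F) hg (𝔪 e₀) (φ π)) ^ n =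
      f * iota (algebraMap B F) hg (𝔪 e₀) (φ r) := by
    rw [iota_algebraMap, iota_algebraMap]
    have e1 := hr
    rw [Algebra.smul_def] at e1
    linear_combination e1
  obtain ⟨m, hm⟩ := ord_res_unit_of_twisted (D e₀) (iota (algebraMap B F) hg (𝔪 e₀))
    (iota_mem (algebraMap B F) hg (𝔪 e₀) (H₁ e₀)) res₁ hres HP p hα0 hh heq hval hC
    (by rw [iota_algebraMap]; exact hπC) (by rw [iota_algebraMap]; exact hπ0) u hc₀ hu
  have hsl := slope_mul_K (D e₀) hh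
  have hv₁ : vv (algebraMap B F) hg (𝔪 e₀) O₁ π (φ r) = a₁ := by
    unfold vv
    rw [hφ, iota_algebraMap]
    exact hord₁
  have hv₂ : vv (algebraMap B F) hg (𝔪 e₀) O₂ π (φ r) = a₂ := by
    unfold vv
    rw [hφ, iota_algebraMap]
    exact hord₂
  rw [hv₁, hv₂] at hsl
  set σ := slope K (vv (algebraMap B F) hg (𝔪 e₀) O₁ π) (vv (algebraMap B F) hg (𝔪 e₀) O₂ π)
    (φ r) with hσ
  have hpσ : (p : ℤ) ∣ σ := by
    have e1 : σ = (p : ℤ) * m - v₀.ord (res₁ (u : ↥O₁)) := by rw [hm]; ring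
    rw [e1]
    exact dvd_sub (dvd_mul_right _ _) hρ
  obtain ⟨c', hc'⟩ := hpσ
  -- the nodes
  have hnode : ∀ 𝔫 : Ideal B, 𝔫.IsMaximal → ¬ Off π O₁ 𝔫 → ¬ Off π O₂ 𝔫 →
      HasNodeElt π O₁ O₂ K 𝔫 := by
    intro 𝔫 h𝔫 h1' h2'
    obtain ⟨e, rfl⟩ := hall 𝔫 h𝔫 h1' h2'
    exact hasNodeElt_of_nodeData hg (𝔪 e) (H₁ e) (H₂ e) (D e)
  have hnode' : ∀ 𝔫 : Ideal B, 𝔫.IsMaximal → ¬ Off π O₂ 𝔫 → ¬ Off π O₁ 𝔫 →
      HasNodeElt π O₂ O₁ K 𝔫 := by
    intro 𝔫 h𝔫 h2' h1'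
    obtain ⟨e, rfl⟩ := hall 𝔫 h𝔫 h1' h2'
    exact hasNodeElt_of_nodeData hg (𝔪 e) (H₂ e) (H₁ e) (D e).symm
  rcases le_or_gt 0 c' with hc0 | hc0
  · obtain ⟨c, rfl⟩ := Int.eq_ofNat_of_zero_le hc0
    have ha : a₂ = a₁ + p * (c * K) := by
      have e1 : (a₂ : ℤ) = a₁ + p * (c * K) := by
        rw [hc'] at hsl
        linarith
      exact_mod_cast e1
    have hroot := eq_span_mul_pow Hc d hd hN hle₁ hex₁ hle₂ hex₂ p c ha hnode
    exact ⟨vertIdeal π O₁ O₂ Hc.le₁ Hc.le₂ 0 (c * K), a₁, c * K,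
      pow_mem_vertIdeal Hc 0 (c * K) (c * K) (Nat.zero_le _) le_rfl,
      fin _ _ hroot⟩
  · obtain ⟨c, hc⟩ := Int.eq_ofNat_of_zero_le (show (0 : ℤ) ≤ -c' by omega)
    have ha : a₁ = a₂ + p * (c * K) := by
      have e1 : (a₁ : ℤ) = a₂ + p * (c * K) := by
        rw [hc'] at hsl
        have e2 : c' = -(c : ℤ) := by omega
        rw [e2] at hsl
        linarith
      exact_mod_cast e1
    have hroot := eq_span_mul_pow Hc.symm d hd hN hle₂ hex₂ hle₁ hex₁ p c ha hnode'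
    exact ⟨vertIdeal π O₂ O₁ Hc.symm.le₁ Hc.symm.le₂ 0 (c * K), a₂, c * K,
      pow_mem_vertIdeal Hc.symm 0 (c * K) (c * K) (Nat.zero_le _) le_rfl,
      fin _ _ hroot⟩

/-- **(hker, frame level), submodule form.**  Under the hypotheses of `exists_vertical_root` and
`p ≠ 0`: `(π ^ n) I ^ p = (π ^ a f) W ^ p` as `B`-submodules of `F`, with `W` an INVERTIBLE vertical
ideal of `B`.  Hence `L ⊗ W⁻¹` (frames `I W⁻¹`) has the generic fibre of `L` and a principal `p`-th power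
`(π ^ a f / π ^ n)` on the model. -/
theorem exists_vertical_root' (hg : Function.Injective (algebraMap B F)) (π : B)
    (O₁ O₂ : ValuationSubring F) (Hc : ChartHyp π O₁ O₂)
    {E : Type*} (𝔪 : E → Ideal B) [∀ e, (𝔪 e).IsPrime]
    (H₁ : ∀ e, BranchHyp (algebraMap B F) (𝔪 e) O₁ π)
    (H₂ : ∀ e, BranchHyp (algebraMap B F) (𝔪 e) O₂ π)
    (hall : ∀ 𝔫 : Ideal B, 𝔫.IsMaximal → ¬ Off π O₁ 𝔫 → ¬ Off π O₂ 𝔫 → ∃ e, 𝔪 e = 𝔫)
    (K : ℕ) (x y : ∀ e, Localization.AtPrime (𝔪 e))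
    (D : ∀ e, NodeData (Localization.AtPrime (𝔪 e))
      (vv (algebraMap B F) hg (𝔪 e) O₁ π) (vv (algebraMap B F) hg (𝔪 e) O₂ π)
      (PP (algebraMap B F) hg (𝔪 e) (H₁ e)) (PP (algebraMap B F) hg (𝔪 e) (H₂ e))
      (algebraMap B (Localization.AtPrime (𝔪 e)) π) (x e) (y e) K)
    (res₁ : ↥O₁ →+* k) (hres : ∀ z : ↥O₁, ¬ IsUnit z → res₁ z = 0) (e₀ : E) (v₀ : Place κ k)
    (HP : NodePlace (PP (algebraMap B F) hg (𝔪 e₀) (H₁ e₀))
      (res₁.comp (toO O₁ (iota (algebraMap B F) hg (𝔪 e₀))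
        (iota_mem (algebraMap B F) hg (𝔪 e₀) (H₁ e₀)))) v₀)
    {I J : Submodule B F} (hIJ : I * J = 1) (p : ℕ) (hp : p ≠ 0) {f : F} (hf : f ≠ 0) (n : ℕ)
    (h1 : algebraMap B F π ^ n * f ∈ I ^ p)
    (h2 : ∀ z ∈ I ^ p, ∃ r : B, algebraMap B F π ^ n * z = r • f)
    {C : Subfield F} (hval : HasConstScaling O₁ C)
    (hC : ∀ c : (↥O₁)ˣ, ((c : ↥O₁) : F) ∈ C → v₀.ord (res₁ (c : ↥O₁)) = 0)
    (hπC : algebraMap B F π ∈ C)
    (u : (↥O₁)ˣ) {c₀ : F} (hc₀ : c₀ ∈ C) (hu : ((u : ↥O₁) : F) * c₀ = f)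
    (hρ : (p : ℤ) ∣ v₀.ord (res₁ (u : ↥O₁))) :
    ∃ (W : Ideal B) (a M : ℕ), π ^ M ∈ W ∧
      Submodule.span B {algebraMap B F π ^ n} * I ^ p =
        Submodule.span B {algebraMap B F π ^ a * f} * IsLocalization.coeSubmodule F W ^ p ∧
      ∃ Y : Submodule B F, IsLocalization.coeSubmodule F W * Y = 1 := by
  obtain ⟨W, a, M, hM, hA, hB⟩ := exists_vertical_root hg π O₁ O₂ Hc 𝔪 H₁ H₂ hall K x y D res₁ hres
    e₀ v₀ HP hIJ p hf n h1 h2 hval hC hπC u hc₀ hu hρ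
  have hid := span_mul_pow_eq_of_forall hA hB
  exact ⟨W, a, M, hM, hid, exists_mul_eq_one_of_span_mul_pow_eq hIJ hp
    (pow_ne_zero n Hc.unif₁.ne) hid⟩

end Root

end Fermat.Agent.T1B.Hol80
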