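import Mathlib
import Fermat.Agent.T1B.Hol80.VerticalRoot
import Fermat.Agent.T1B.Brandt36.Rho

/-!
# T1B (S44), brick SLOPE80 (helper80), part 6: (R1) in the vocabulary of `Brandt36.lam`

Frame-level statements (R1a), (R1b) of helper45 (msg 12:54Z), in helper36's vocabulary
`Brandt36.lam V res vE p C f` (`V = O₁`, `res = res₁`, `vE = v` the node places):

* `exists_twisted_frame` : from `(π ^ n) I ^ p = (π ^ a f) W ^ p` with `W` invertible, `π ^ M ∈ W`:
  the frame `I'' = I W⁻¹` is invertible, has the generic fibre of `I`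
  (`I ≤ I''`, `π ^ M I'' ≤ I`) and `I'' ^ p = span {π ^ a f / π ^ n}` EXACTLY;
* `lam_const_of_frame` : **(R1a)** `lam f = fun _ => s`;
* `exists_twisted_frame_of_lam` : **(R1b)** if `lam f e₀ = 0` at ONE node then such an `I''` exists.
  Consequently `cls I''` is killed by `p` on the model, `Mdeg (cls I'') = 0` (torsion-free target),
  and it has the generic fibre of `cls I`.
-/

set_option autoImplicit false
set_option linter.unusedSectionVars false

namespace Fermat.Agent.T1B.Hol80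

open AlgebraicCurve Fermat.Agent.T1.Peu37.NodeClassGroup Fermat.Agent.T1B.NodeNF37.Local
  Fermat.Agent.T1B.NodeNF37.UnifOrd Fermat.Agent.T1B.Hol31.Local Fermat.Agent.T1B.Brandt36

section Twist

variable {B F : Type*} [CommRing B] [Field F] [Algebra B F]

/-- The twisted frame `I'' = I W⁻¹`. -/
theorem exists_twisted_frame {π : B} {I J : Submodule B F} (hIJ : I * J = 1) {W : Ideal B}
    {Y : Submodule B F} (hWY : IsLocalization.coeSubmodule F W * Y = 1) {M : ℕ} (hM : π ^ M ∈ W)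
    {p n a : ℕ} {f : F} (hπ : algebraMap B F π ≠ 0)
    (h : Submodule.span B {algebraMap B F π ^ n} * I ^ p =
      Submodule.span B {algebraMap B F π ^ a * f} * IsLocalization.coeSubmodule F W ^ p) :
    ∃ I'' J'' : Submodule B F, I'' * J'' = 1 ∧
      I'' ^ p = Submodule.span B {algebraMap B F π ^ a * f * (algebraMap B F π ^ n)⁻¹} ∧
      I ≤ I'' ∧ Submodule.span B {algebraMap B F π ^ M} * I'' ≤ I := by
  set Wc := IsLocalization.coeSubmodule F W with hWc
  have hW1 : Wc ≤ 1 := by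
    intro z hz
    obtain ⟨w, -, rfl⟩ := (IsLocalization.mem_coeSubmodule _ _).1 hz
    exact Submodule.mem_one.2 ⟨w, rfl⟩
  have h1Y : (1 : Submodule B F) ≤ Y := by
    calc (1 : Submodule B F) = Wc * Y := hWY.symm
      _ ≤ 1 * Y := mul_le_mul' hW1 le_rfl
      _ = Y := one_mul Y
  have hMW : Submodule.span B {algebraMap B F π ^ M} ≤ Wc := by
    rw [Submodule.span_singleton_le_iff_mem]
    exact (IsLocalization.mem_coeSubmodule _ _).2 ⟨π ^ M, hM, map_pow _ _ _⟩
  have hMY : Submodule.span B {algebraMap B F π ^ M} * Y ≤ 1 := by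
    calc Submodule.span B {algebraMap B F π ^ M} * Y ≤ Wc * Y := mul_le_mul' hMW le_rfl
      _ = 1 := hWY
  refine ⟨I * Y, J * Wc, ?_, ?_, ?_, ?_⟩
  · calc I * Y * (J * Wc) = (I * J) * (Wc * Y) := by ac_rfl
      _ = 1 := by rw [hIJ, hWY, one_mul]
  · have hn0 : algebraMap B F π ^ n ≠ 0 := pow_ne_zero n hπ
    have e1 : Submodule.span B {algebraMap B F π ^ n} * (I * Y) ^ p =
        Submodule.span B {algebraMap B F π ^ a * f} := by
      calc Submodule.span B {algebraMap B F π ^ n} * (I * Y) ^ p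
          = Submodule.span B {algebraMap B F π ^ n} * (I ^ p * Y ^ p) := by rw [mul_pow]
        _ = (Submodule.span B {algebraMap B F π ^ n} * I ^ p) * Y ^ p := (mul_assoc _ _ _).symm
        _ = (Submodule.span B {algebraMap B F π ^ a * f} * Wc ^ p) * Y ^ p := by rw [h]
        _ = Submodule.span B {algebraMap B F π ^ a * f} * (Wc ^ p * Y ^ p) := mul_assoc _ _ _
        _ = Submodule.span B {algebraMap B F π ^ a * f} * (Wc * Y) ^ p := by rw [mul_pow]
        _ = Submodule.span B {algebraMap B F π ^ a * f} := by rw [hWY, one_pow, mul_one]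
    calc (I * Y) ^ p = (Submodule.span B {(algebraMap B F π ^ n)⁻¹} *
          Submodule.span B {algebraMap B F π ^ n}) * (I * Y) ^ p := by
          rw [Submodule.span_mul_span, Set.singleton_mul_singleton, inv_mul_cancel₀ hn0,
            ← Submodule.one_eq_span, one_mul]
      _ = Submodule.span B {(algebraMap B F π ^ n)⁻¹} *
          (Submodule.span B {algebraMap B F π ^ n} * (I * Y) ^ p) := by ac_rfl
      _ = Submodule.span B {algebraMap B F π ^ a * f * (algebraMap B F π ^ n)⁻¹} := by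
          rw [e1, Submodule.span_mul_span, Set.singleton_mul_singleton, mul_comm]
  · calc I = I * 1 := (mul_one I).symm
      _ ≤ I * Y := mul_le_mul' le_rfl h1Y
  · calc Submodule.span B {algebraMap B F π ^ M} * (I * Y)
        = I * (Submodule.span B {algebraMap B F π ^ M} * Y) := by ac_rfl
      _ ≤ I * 1 := mul_le_mul' le_rfl hMY
      _ = I := mul_one I

end Twist

section Lam

variable {B F : Type*} [CommRing B] [IsDomain B] [IsNoetherianRing B] [Field F] [Algebra B F]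
variable {κ k : Type*} [Field κ] [Field k] [Algebra κ k]
variable {K₀ : Type*} [Field K₀] [Algebra K₀ F]

/-- **(R1a)** The residue vector `lam f` of a function `f` with `I ^ p = f · (vertical)` (`I` an
invertible frame on a chart all of whose nodes have the same thickness) is CONSTANT. -/
theorem lam_const_of_frame (hg : Function.Injective (algebraMap B F)) (π : B)
    (O₁ O₂ : ValuationSubring F) {E : Type*} (𝔪 : E → Ideal B) [∀ e, (𝔪 e).IsPrime]
    (H₁ : ∀ e, BranchHyp (algebraMap B F) (𝔪 e) O₁ π)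
    (H₂ : ∀ e, BranchHyp (algebraMap B F) (𝔪 e) O₂ π)
    (K : ℕ) (x y : ∀ e, Localization.AtPrime (𝔪 e))
    (D : ∀ e, NodeData (Localization.AtPrime (𝔪 e))
      (vv (algebraMap B F) hg (𝔪 e) O₁ π) (vv (algebraMap B F) hg (𝔪 e) O₂ π)
      (PP (algebraMap B F) hg (𝔪 e) (H₁ e)) (PP (algebraMap B F) hg (𝔪 e) (H₂ e))
      (algebraMap B (Localization.AtPrime (𝔪 e)) π) (x e) (y e) K)
    (res₁ : ↥O₁ →+* k) (hres : ∀ z : ↥O₁, ¬ IsUnit z → res₁ z = 0) (v : E → Place κ k)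
    (HP : ∀ e, NodePlace (PP (algebraMap B F) hg (𝔪 e) (H₁ e))
      (res₁.comp (toO O₁ (iota (algebraMap B F) hg (𝔪 e))
        (iota_mem (algebraMap B F) hg (𝔪 e) (H₁ e)))) (v e))
    {I J : Submodule B F} (hIJ : I * J = 1) (p : ℕ) {f : F} (hf : f ≠ 0) (n : ℕ)
    (h1 : algebraMap B F π ^ n * f ∈ I ^ p)
    (h2 : ∀ z ∈ I ^ p, ∃ r : B, algebraMap B F π ^ n * z = r • f)
    {C : Subfield F} (HR : RhoInputs (K₀ := K₀) O₁ res₁ v C)
    (hπC : algebraMap B F π ∈ C) :
    ∃ s : ℤ, lam O₁ res₁ v p C f = fun _ => (s : ZMod p) := by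
  obtain ⟨c₀, hc₀, hc₀0, u, hfu⟩ := HR.scal f hf
  have hu : ((u : ↥O₁) : F) * c₀ = f := by rw [hfu, mul_comm]
  obtain ⟨s, hs⟩ := exists_const_residue hg π O₁ O₂ 𝔪 H₁ H₂ K x y D res₁ hres v HP hIJ p hf n
    h1 h2 HR.scal (fun e' c hc => HR.ordC c hc e') hπC u hc₀ hu
  refine ⟨-s, ?_⟩
  rw [lam_eq HR hc₀ hc₀0 hfu]
  funext e
  obtain ⟨m, hm⟩ := hs e
  rw [resVec_apply, hm]
  push_cast
  rw [ZMod.natCast_self, zero_mul, zero_sub]

/-- **(R1b)** If moreover `lam f` vanishes at ONE node (and all two-branch maximal ideals of the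
chart are nodes of the same thickness `K`), then the twisted frame `I'' = I W⁻¹` (`W` a vertical
invertible ideal) is invertible, has the generic fibre of `I`, and
`I'' ^ p = span {π ^ a f / π ^ n}` exactly. -/
theorem exists_twisted_frame_of_lam (hg : Function.Injective (algebraMap B F)) (π : B)
    (O₁ O₂ : ValuationSubring F) (Hc : ChartHyp π O₁ O₂)
    {E : Type*} (𝔪 : E → Ideal B) [∀ e, (𝔪 e).IsPrime]
    (H₁ : ∀ e, BranchHyp (algebraMap B F) (𝔪 e) O₁ π)
    (H₂ : ∀ e, BranchHyp (algebraMap B F) (𝔪 e) O₂ π)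
    (hall : ∀ 𝔫 : Ideal B, 𝔫.IsMaximal → ¬ Off π O₁ 𝔫 → ¬ Off π O₂ 𝔫 → ∃ e, 𝔪 e = 𝔫)
    (K : ℕ) (x y : ∀ e, Localization.AtPrime (𝔪 e))
    (D : ∀ e, NodeData (Localization.AtPrime (𝔪 e))
      (vv (algebraMap B F) hg (𝔪 e) O₁ π) (vv (algebraMap B F) hg (𝔪 e) O₂ π)
      (PP (algebraMap B F) hg (𝔪 e) (H₁ e)) (PP (algebraMap B F) hg (𝔪 e) (H₂ e))
      (algebraMap B (Localization.AtPrime (𝔪 e)) π) (x e) (y e) K)
    (res₁ : ↥O₁ →+* k) (hres : ∀ z : ↥O₁, ¬ IsUnit z → res₁ z = 0) (v : E → Place κ k)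
    (e₀ : E)
    (HP : NodePlace (PP (algebraMap B F) hg (𝔪 e₀) (H₁ e₀))
      (res₁.comp (toO O₁ (iota (algebraMap B F) hg (𝔪 e₀))
        (iota_mem (algebraMap B F) hg (𝔪 e₀) (H₁ e₀)))) (v e₀))
    {I J : Submodule B F} (hIJ : I * J = 1) (p : ℕ) [NeZero p] {f : F} (hf : f ≠ 0) (n : ℕ)
    (h1 : algebraMap B F π ^ n * f ∈ I ^ p)
    (h2 : ∀ z ∈ I ^ p, ∃ r : B, algebraMap B F π ^ n * z = r • f)
    {C : Subfield F} (HR : RhoInputs (K₀ := K₀) O₁ res₁ v C)
    (hπC : algebraMap B F π ∈ C)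
    (h0 : lam O₁ res₁ v p C f e₀ = 0) :
    ∃ (I'' J'' : Submodule B F) (a M : ℕ), I'' * J'' = 1 ∧
      I'' ^ p = Submodule.span B {algebraMap B F π ^ a * f * (algebraMap B F π ^ n)⁻¹} ∧
      I ≤ I'' ∧ Submodule.span B {algebraMap B F π ^ M} * I'' ≤ I := by
  obtain ⟨c₀, hc₀, hc₀0, u, hfu⟩ := HR.scal f hf
  have hu : ((u : ↥O₁) : F) * c₀ = f := by rw [hfu, mul_comm]
  have hρ : (p : ℤ) ∣ (v e₀).ord (res₁ (u : ↥O₁)) := by
    rw [lam_eq HR hc₀ hc₀0 hfu, resVec_apply] at h0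
    exact (ZMod.intCast_zmod_eq_zero_iff_dvd _ _).1 h0
  obtain ⟨W, a, M, hM, hid, Y, hWY⟩ := exists_vertical_root' hg π O₁ O₂ Hc 𝔪 H₁ H₂ hall K x y D
    res₁ hres e₀ (v e₀) HP hIJ p (NeZero.ne p) hf n h1 h2 HR.scal
    (fun c hc => HR.ordC c hc e₀) hπC u hc₀ hu hρ
  obtain ⟨I'', J'', h3, h4, h5, h6⟩ := exists_twisted_frame hIJ hWY hM Hc.unif₁.ne hid
  exact ⟨I'', J'', a, M, h3, h4, h5, h6⟩

end Lam

end Fermat.Agent.T1B.Hol80
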