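import Mathlib
import Fermat.Agent.T1B.Hol80.R1Lam

/-!
# T1B (S44), brick SLOPE80 (helper80), part 8: (R1) with the WEAK node places `NodePlaceW`

helper36's base-field warning (msg 13:02Z): the charts live over a number-field DVR `O_L` with FINITE
residue field, while the residue vector `rho` lives at the places of `k₁ = FullC κ̄ M'` over
`κ̄ = Kap A`; so the field `frac` of `Hol80.NodePlace` (`k = Frac (ρA A)`) is FALSE in the
instantiation.  It was only used for `ord_v (ρA x) = 1`.  Here `frac` is replaced by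
`unif : ∃ g : A, ρA g ≠ 0 ∧ v.ord (ρA g) = 1` (a local parameter coming from the chart, e.g. `t - c`),
and ALL statements of `SlopePlace`, `SlopeGlobal`, `VerticalRoot`, `R1Lam` are re-proved for
`NodePlaceW` (same proofs; names suffixed `W`).  `NodePlace.toW` : the strong form implies the weak one.
-/

set_option autoImplicit false
set_option linter.unusedSectionVars false

namespace Fermat.Agent.T1B.Hol80

open AlgebraicCurve Fermat.Agent.T1.Peu37.NodeClassGroup Fermat.Agent.T1B.NodeNF37.Local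
  Fermat.Agent.T1B.NodeNF37.UnifOrd Fermat.Agent.T1B.Hol31.Local Fermat.Agent.T1B.Node45.Orbit
  Fermat.Agent.T1B.Brandt36 IsLocalRing

section Place

variable {A : Type*} [CommRing A] [IsDomain A] [IsLocalRing A] [IsNoetherianRing A]
variable {v₁ v₂ : A → ℕ} {P₁ P₂ : Ideal A} {π x y : A} {K : ℕ}
variable {κ k : Type*} [Field κ] [Field k] [Algebra κ k]

/-- The place `v` of `k / κ` is centred at the node of `A` on the branch `P₁`, through
`ρA : A →+* k` (weak form: `k` may be bigger than `Frac (ρA A)`, but some element of `A` is a local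
parameter at `v`). -/
structure NodePlaceW (P₁ : Ideal A) (ρA : A →+* k) (v : Place κ k) : Prop where
  ker : ∀ a : A, ρA a = 0 ↔ a ∈ P₁
  mem : ∀ a : A, ρA a ∈ v.toValuationSubring
  pos : ∀ a ∈ maximalIdeal A, ρA a ≠ 0 → 1 ≤ v.ord (ρA a)
  unif : ∃ g : A, ρA g ≠ 0 ∧ v.ord (ρA g) = 1

namespace NodePlaceW

variable {ρA : A →+* k} {v : Place κ k}

/-- Units of `A` have order `0`. -/
theorem ord_unit (H : NodePlaceW P₁ ρA v) {w : A} (hw : IsUnit w) : v.ord (ρA w) = 0 := by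
  obtain ⟨w', hw'⟩ := hw.exists_right_inv
  have h1 : ρA w * ρA w' = 1 := by rw [← map_mul, hw', map_one]
  have h0 : ρA w ≠ 0 := left_ne_zero_of_mul_eq_one h1
  have hinv : (ρA w)⁻¹ = ρA w' := (eq_inv_of_mul_eq_one_right h1).symm
  exact Place.ord_eq_zero_of_mem_of_inv_mem v (H.mem w) (hinv ▸ H.mem w') h0

/-- The order of an element of `O_v` is nonnegative. -/
theorem ord_nonneg (H : NodePlaceW P₁ ρA v) (a : A) : 0 ≤ v.ord (ρA a) :=
  Fermat.Agent.X0.FF.ord_nonneg_of_mem v (H.mem a)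

variable (D : NodeData A v₁ v₂ P₁ P₂ π x y K)
include D

/-- `ρA x ≠ 0`. -/
theorem rho_x_ne (H : NodePlaceW P₁ ρA v) : ρA x ≠ 0 := fun h0 =>
  x_not_mem_P₁ D ((H.ker x).1 h0)

theorem x_mem_max : x ∈ maximalIdeal A := by
  rw [D.max_eq]
  exact Ideal.subset_span (by simp)

theorem one_le_ord_x (H : NodePlaceW P₁ ρA v) : 1 ≤ v.ord (ρA x) :=
  H.pos x (x_mem_max D) (H.rho_x_ne D)

/-- Every element of `A` outside `P₁` is, modulo `P₁`, a power of `x` times a unit. -/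
theorem exists_pow_mul_unit (H : NodePlaceW P₁ ρA v) :
    ∀ (n : ℕ) (a : A), a ∉ P₁ → v.ord (ρA a) ≤ n →
      ∃ (i : ℕ) (w : A), IsUnit w ∧ ρA a = ρA x ^ i * ρA w := by
  intro n
  induction n with
  | zero =>
    intro a ha hn
    -- order `0`: `a` is a unit (otherwise `a ∈ 𝔪` has positive order)
    have ha0 : ρA a ≠ 0 := fun h0 => ha ((H.ker a).1 h0)
    by_cases hu : IsUnit a
    · exact ⟨0, a, hu, by rw [pow_zero, one_mul]⟩
    · exfalso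
      have := H.pos a ((mem_maximalIdeal a).2 hu) ha0
      omega
  | succ n ih =>
    intro a ha hn
    have ha0 : ρA a ≠ 0 := fun h0 => ha ((H.ker a).1 h0)
    by_cases hu : IsUnit a
    · exact ⟨0, a, hu, by rw [pow_zero, one_mul]⟩
    · -- `a ∈ 𝔪 = (π, x, y)`: `a ≡ x a₂` modulo `P₁`
      have ham : a ∈ maximalIdeal A := (mem_maximalIdeal a).2 hu
      rw [D.max_eq] at ham
      obtain ⟨a₁, a₂, a₃, hsum⟩ : ∃ a₁ a₂ a₃ : A, a₁ * π + a₂ * x + a₃ * y = a := by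
        have := (Ideal.mem_span_insert.1 ham)
        obtain ⟨c₁, z, hz, rfl⟩ := this
        obtain ⟨c₂, z', hz', rfl⟩ := Ideal.mem_span_insert.1 hz
        obtain ⟨c₃, rfl⟩ := Ideal.mem_span_singleton'.1 hz'
        exact ⟨c₁, c₂, c₃, by ring⟩
      have hπ0 : ρA π = 0 := (H.ker π).2 (pi_mem_P₁ D)
      have hy0 : ρA y = 0 := (H.ker y).2 (y_mem_P₁ D)
      have hρ : ρA a = ρA x * ρA a₂ := by
        rw [← hsum, map_add, map_add, map_mul, map_mul, map_mul, hπ0, hy0, mul_zero, mul_zero,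
          zero_add, add_zero, mul_comm]
      have ha₂0 : ρA a₂ ≠ 0 := fun h0 => ha0 (by rw [hρ, h0, mul_zero])
      have ha₂ : a₂ ∉ P₁ := fun h => ha₂0 ((H.ker a₂).2 h)
      have hord : v.ord (ρA a) = v.ord (ρA x) + v.ord (ρA a₂) := by
        rw [hρ, v.ord_mul (H.rho_x_ne D) ha₂0]
      have hx1 := H.one_le_ord_x D
      obtain ⟨i, w, hw, hiw⟩ := ih a₂ ha₂ (by omega)
      exact ⟨i + 1, w, hw, by rw [hρ, hiw, pow_succ]; ring⟩

/-- **`x̄` is a uniformiser at the node place.** -/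
theorem ord_x (H : NodePlaceW P₁ ρA v) : v.ord (ρA x) = 1 := by
  obtain ⟨g, hg0, hg1⟩ := H.unif
  have hgP : g ∉ P₁ := fun h => hg0 ((H.ker g).2 h)
  obtain ⟨i, w, hw, hiw⟩ := H.exists_pow_mul_unit D 1 g hgP (by omega)
  have hx0 := H.rho_x_ne D
  have hw0 : ρA w ≠ 0 := by
    intro h0; rw [hiw, h0, mul_zero] at hg0; exact hg0 rfl
  have e1 : v.ord (ρA g) = (i : ℤ) * v.ord (ρA x) := by
    rw [hiw, v.ord_mul (pow_ne_zero i hx0) hw0, Place.ord_pow', H.ord_unit hw, add_zero]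
  have hx1 := H.one_le_ord_x D
  rw [hg1] at e1
  have hdvd : v.ord (ρA x) ∣ 1 := ⟨(i : ℤ), by rw [mul_comm]; exact e1⟩
  have := Int.le_of_dvd one_pos hdvd
  omega

end NodePlaceW

/-- The strong form implies the weak one. -/
theorem NodePlace.toW {ρA : A →+* k} {v : Place κ k} (D : NodeData A v₁ v₂ P₁ P₂ π x y K)
    (H : NodePlace P₁ ρA v) : NodePlaceW P₁ ρA v :=
  ⟨H.ker, H.mem, H.pos, x, H.rho_x_ne D, H.ord_x D⟩

section Twisted

variable {F : Type*} [Field F] {O₁ : ValuationSubring F}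

/-- **(S-c) The twisted local equation at a node.**  `α ^ p * π ^ N = f * h` with `h ∈ A` vertical,
`f = u * c₀` (`u ∈ O₁ˣ`, `c₀` constant).  Then `ord_v (res₁ u) = p * m - slope h`. -/
theorem ord_res_unit_of_twistedW (D : NodeData A v₁ v₂ P₁ P₂ π x y K)
    (ιA : A →+* F) (hιO : ∀ a, ιA a ∈ O₁) (res₁ : ↥O₁ →+* k)
    (hres : ∀ z : ↥O₁, ¬ IsUnit z → res₁ z = 0) {v : Place κ k}
    (H : NodePlaceW P₁ (res₁.comp (toO O₁ ιA hιO)) v)
    (p : ℕ) {f α : F} (hα : α ≠ 0) {h h' : A} {n N : ℕ} (hh : h * h' = π ^ n)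
    (heq : α ^ p * (ιA π) ^ N = f * ιA h)
    {C : Subfield F} (hval : HasConstScaling O₁ C)
    (hC : ∀ e : (↥O₁)ˣ, ((e : ↥O₁) : F) ∈ C → v.ord (res₁ (e : ↥O₁)) = 0)
    (hπC : ιA π ∈ C) (hπ0 : ιA π ≠ 0)
    (u : (↥O₁)ˣ) {c₀ : F} (hc₀ : c₀ ∈ C) (hu : ((u : ↥O₁) : F) * c₀ = f) :
    ∃ m : ℤ, v.ord (res₁ (u : ↥O₁)) = (p : ℤ) * m - slope K v₁ v₂ h := by
  obtain ⟨a, b, w, hw, hrep, hab⟩ := exists_slope_rep D hh
  obtain ⟨α₀, hα₀, hα₀0, β, hαβ⟩ := hval α hα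
  set ρA := res₁.comp (toO O₁ ιA hιO) with hρA
  -- the units `X = ι x`, `W = ι w` of `O₁`
  have hXu : IsUnit (toO O₁ ιA hιO x) := by
    by_contra hnu
    exact H.rho_x_ne D (hres _ hnu)
  have hWu : IsUnit (toO O₁ ιA hιO w) := hw.map _
  set X : (↥O₁)ˣ := hXu.unit with hX
  set W : (↥O₁)ˣ := hWu.unit with hW
  have hXF : ((X : ↥O₁) : F) = ιA x := by rw [hX, IsUnit.unit_spec]; rfl
  have hWF : ((W : ↥O₁) : F) = ιA w := by rw [hW, IsUnit.unit_spec]; rfl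
  -- the relation in `F`
  have hrepF : ιA h * ιA x ^ b = ιA π ^ (v₁ h) * (ιA x ^ a * ιA w) := by
    have := congrArg ιA hrep
    simpa only [map_mul, map_pow] using this
  -- the constant unit `E`
  set E : (↥O₁)ˣ := β ^ p * X ^ b * (u * X ^ a * W)⁻¹ with hE
  have hx0 : ιA x ≠ 0 := hXF ▸ coe_units_ne_zero X
  have hw0 : ιA w ≠ 0 := hWF ▸ coe_units_ne_zero W
  have hu0 := coe_units_ne_zero u
  have hβ0 := coe_units_ne_zero β
  have hEF : ((E : ↥O₁) : F) = c₀ * ιA π ^ (v₁ h) * (ιA π ^ N)⁻¹ * (α₀ ^ p)⁻¹ := by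
    rw [hE]
    push_cast
    rw [coe_units_inv]
    push_cast
    rw [hXF, hWF]
    have h1 : α ^ p = α₀ ^ p * ((β : ↥O₁) : F) ^ p := by rw [hαβ, mul_pow]
    have hπN : ιA π ^ N ≠ 0 := pow_ne_zero N hπ0
    have hα₀p : α₀ ^ p ≠ 0 := pow_ne_zero p hα₀0
    -- `β^p x^b α₀^p π^N = u c₀ π^{m₁} x^a w`
    have key : ((β : ↥O₁) : F) ^ p * ιA x ^ b * (α₀ ^ p * ιA π ^ N) =
        ((u : ↥O₁) : F) * ιA x ^ a * ιA w * (c₀ * ιA π ^ (v₁ h)) := by
      have e1 : f * (ιA h * ιA x ^ b) = α ^ p * ιA π ^ N * ιA x ^ b := by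
        rw [← mul_assoc, ← heq]
      rw [hrepF, ← hu, h1] at e1
      linear_combination (-1 : F) * e1
    field_simp
    linear_combination key
  have hEC : ((E : ↥O₁) : F) ∈ C := by
    rw [hEF]
    exact mul_mem (mul_mem (mul_mem hc₀ (pow_mem hπC _)) (inv_mem (pow_mem hπC _)))
      (inv_mem (pow_mem hα₀ _))
  have hEord := hC E hEC
  -- the identity in `O₁`
  have hid : (u : ↥O₁) * (X : ↥O₁) ^ a * (W : ↥O₁) * (E : ↥O₁) = (β : ↥O₁) ^ p * (X : ↥O₁) ^ b := by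
    have : u * X ^ a * W * E = β ^ p * X ^ b := by
      rw [hE, mul_comm (β ^ p * X ^ b) _, mul_inv_cancel_left]
    have := congrArg (fun e : (↥O₁)ˣ => (e : ↥O₁)) this
    simpa only [Units.val_mul, Units.val_pow_eq_pow_val] using this
  have hres_id := congrArg res₁ hid
  rw [map_mul, map_mul, map_mul, map_pow, map_mul, map_pow, map_pow] at hres_id
  have hXρ : res₁ (X : ↥O₁) = ρA x := by rw [hX, IsUnit.unit_spec]; rfl
  have hWρ : res₁ (W : ↥O₁) = ρA w := by rw [hW, IsUnit.unit_spec]; rfl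
  rw [hXρ, hWρ] at hres_id
  -- orders
  have hne : ∀ e : (↥O₁)ˣ, res₁ (e : ↥O₁) ≠ 0 := fun e => (e.isUnit.map res₁).ne_zero
  have hρx0 : ρA x ≠ 0 := H.rho_x_ne D
  have hρw0 : ρA w ≠ 0 := by
    have := H.ord_unit hw
    intro h0
    exact (hne W) (hWρ.trans h0)
  have hord := congrArg v.ord hres_id
  rw [v.ord_mul (mul_ne_zero (mul_ne_zero (hne u) (pow_ne_zero a hρx0)) hρw0) (hne E),
    v.ord_mul (mul_ne_zero (hne u) (pow_ne_zero a hρx0)) hρw0,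
    v.ord_mul (hne u) (pow_ne_zero a hρx0),
    v.ord_mul (pow_ne_zero p (hne β)) (pow_ne_zero b hρx0),
    Place.ord_pow', Place.ord_pow', Place.ord_pow', H.ord_x D, H.ord_unit hw, hEord] at hord
  refine ⟨v.ord (res₁ (β : ↥O₁)), ?_⟩
  rw [← hab]
  linarith

end Twisted

end Place

section Global

variable {B F : Type*} [CommRing B] [IsDomain B] [IsNoetherianRing B] [Field F] [Algebra B F]
variable {κ k : Type*} [Field κ] [Field k] [Algebra κ k]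
variable {K₀ : Type*} [Field K₀] [Algebra K₀ F]

/-- **(hconst) The residue vector is constant.**  One chart `B ⊂ F`, branches `O₁, O₂` with
uniformiser `π`, nodes `𝔪 e` (`e : E`) all of the SAME thickness `K`, node places `v e` of the
component `X₁` (`NodePlaceW`); `I` an invertible `B`-submodule of `F` with `I ^ p = f · (vertical)`;
`f = u c₀`, `u ∈ O₁ˣ`, `c₀` a constant.  Then there is ONE integer `s` such that
`ord_{v e} (res₁ u) = p m_e - s` at every node. -/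
theorem exists_const_residueW (hg : Function.Injective (algebraMap B F)) (π : B)
    (O₁ O₂ : ValuationSubring F) {E : Type*} (𝔪 : E → Ideal B) [∀ e, (𝔪 e).IsPrime]
    (H₁ : ∀ e, BranchHyp (algebraMap B F) (𝔪 e) O₁ π)
    (H₂ : ∀ e, BranchHyp (algebraMap B F) (𝔪 e) O₂ π)
    (K : ℕ) (x y : ∀ e, Localization.AtPrime (𝔪 e))
    (D : ∀ e, NodeData (Localization.AtPrime (𝔪 e))
      (vv (algebraMap B F) hg (𝔪 e) O₁ π) (vv (algebraMap B F) hg (𝔪 e) O₂ π)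
      (PP (algebraMap B F) hg (𝔪 e) (H₁ e)) (PP (algebraMap B F) hg (𝔪 e) (H₂ e))
      (algebraMap B (Localization.AtPrime (𝔪 e)) π) (x e) (y e) K)
    (res₁ : ↥O₁ →+* k) (hres : ∀ z : ↥O₁, ¬ IsUnit z → res₁ z = 0) (v : E → Place κ k)
    (HP : ∀ e, NodePlaceW (PP (algebraMap B F) hg (𝔪 e) (H₁ e))
      (res₁.comp (toO O₁ (iota (algebraMap B F) hg (𝔪 e))
        (iota_mem (algebraMap B F) hg (𝔪 e) (H₁ e)))) (v e))
    {I J : Submodule B F} (hIJ : I * J = 1) (p : ℕ) {f : F} (hf : f ≠ 0) (n : ℕ)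
    (h1 : algebraMap B F π ^ n * f ∈ I ^ p)
    (h2 : ∀ z ∈ I ^ p, ∃ r : B, algebraMap B F π ^ n * z = r • f)
    {C : Subfield F} (hval : HasConstScaling O₁ C)
    (hC : ∀ (e' : E) (c : (↥O₁)ˣ), ((c : ↥O₁) : F) ∈ C → (v e').ord (res₁ (c : ↥O₁)) = 0)
    (hπC : algebraMap B F π ∈ C)
    (u : (↥O₁)ˣ) {c₀ : F} (hc₀ : c₀ ∈ C) (hu : ((u : ↥O₁) : F) * c₀ = f) :
    ∃ s : ℤ, ∀ e, ∃ m : ℤ, (v e).ord (res₁ (u : ↥O₁)) = (p : ℤ) * m - s := by
  classical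
  rcases isEmpty_or_nonempty E with hE | ⟨⟨e₀⟩⟩
  · exact ⟨0, fun e => (hE.false e).elim⟩
  -- the local data at each node
  have hloc : ∀ e, ∃ α ∈ I, α ≠ 0 ∧ ∃ s : B, s ∉ 𝔪 e ∧ (∀ z ∈ I, ∃ r : B, s • z = r • α) ∧
      ∃ r r' : B, algebraMap B F π ^ n * α ^ p = r • f ∧ r * r' = s ^ p * π ^ (2 * n) :=
    fun e => exists_vertical_at hg π hIJ p hf n h1 h2 (𝔪 e)
  choose α hαI hα0 s hs hgen r r' hr hrr' using hloc
  have hπ0 : algebraMap B F π ≠ 0 := (H₁ e₀).unif.ne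
  have hπB : π ≠ 0 := fun h0 => hπ0 (by rw [h0, map_zero])
  have hr0 : ∀ e, r e ≠ 0 := by
    intro e h0
    have hs0 : s e ≠ 0 := fun h => hs e (h ▸ (𝔪 e).zero_mem)
    have := hrr' e
    rw [h0, zero_mul] at this
    exact (mul_ne_zero (pow_ne_zero p hs0) (pow_ne_zero _ hπB)) this.symm
  have hgr0 : ∀ e, algebraMap B F (r e) ≠ 0 := fun e h0 =>
    hr0 e (hg (by rw [h0, map_zero]))
  -- the orders of `r e` along the two branches do not depend on `e`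
  have hordeq : ∀ (O : ValuationSubring F) (H : ∀ e, BranchHyp (algebraMap B F) (𝔪 e) O π) (e : E),
      ord O (algebraMap B F π) (algebraMap B F (r e)) =
        ord O (algebraMap B F π) (algebraMap B F (r e₀)) := by
    intro O H e
    obtain ⟨t, htO, ht'O, ht0, hαt⟩ := generator_ratio hg (H e₀) (H e) (hαI e₀) (hαI e) (hα0 e₀)
      (hs e₀) (hs e) (hgen e₀) (hgen e)
    have hre : algebraMap B F (r e) = algebraMap B F (r e₀) * t ^ p := by
      have e1 := hr e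
      have e2 := hr e₀
      rw [Algebra.smul_def] at e1 e2
      have : algebraMap B F (r e) * f = algebraMap B F (r e₀) * t ^ p * f := by
        rw [← e1, hαt, mul_pow]
        linear_combination t ^ p * e2
      exact mul_right_cancel₀ hf this
    rw [hre]
    refine ord_mul_unit (H e₀).unif ((H e₀).le _) (hgr0 e₀) (O.pow_mem htO p) ?_
      (pow_ne_zero p ht0)
    rw [← inv_pow]
    exact O.pow_mem ht'O p
  -- the slope at `e₀`
  refine ⟨slope K (vv (algebraMap B F) hg (𝔪 e₀) O₁ π) (vv (algebraMap B F) hg (𝔪 e₀) O₂ π)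
    (algebraMap B (Localization.AtPrime (𝔪 e₀)) (r e₀)), fun e => ?_⟩
  have hnoeth : IsNoetherianRing (Localization.AtPrime (𝔪 e)) :=
    IsLocalization.isNoetherianRing (𝔪 e).primeCompl _ inferInstance
  -- the vertical element at `e`
  set φ := algebraMap B (Localization.AtPrime (𝔪 e)) with hφ
  have hU : IsUnit (φ (s e) ^ p) := (isUnit_algebraMap (𝔪 e) (hs e)).pow p
  obtain ⟨U', hU'⟩ := hU.exists_right_inv
  have hh : φ (r e) * (φ (r' e) * U') = φ π ^ (2 * n) := by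
    have h3 : φ (r e) * φ (r' e) = φ (s e) ^ p * φ π ^ (2 * n) := by
      rw [← map_mul, hrr' e, map_mul, map_pow, map_pow]
    calc φ (r e) * (φ (r' e) * U') = (φ (r e) * φ (r' e)) * U' := by ring
      _ = (φ (s e) ^ p * U') * φ π ^ (2 * n) := by rw [h3]; ring
      _ = φ π ^ (2 * n) := by rw [hU', one_mul]
  have heq : α e ^ p * (iota (algebraMap B F) hg (𝔪 e) (φ π)) ^ n =
      f * iota (algebraMap B F) hg (𝔪 e) (φ (r e)) := by
    rw [iota_algebraMap, iota_algebraMap]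
    have e1 := hr e
    rw [Algebra.smul_def] at e1
    linear_combination e1
  obtain ⟨m, hm⟩ := ord_res_unit_of_twistedW (D e) (iota (algebraMap B F) hg (𝔪 e))
    (iota_mem (algebraMap B F) hg (𝔪 e) (H₁ e)) res₁ hres (HP e) p (hα0 e) hh heq hval (hC e)
    (by rw [iota_algebraMap]; exact hπC) (by rw [iota_algebraMap]; exact hπ0) u hc₀ hu
  refine ⟨m, ?_⟩
  rw [hm]
  congr 1
  -- the two slopes agree
  unfold slope vv
  simp only [hφ, iota_algebraMap]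
  rw [hordeq O₁ H₁ e, hordeq O₂ H₂ e]

/-- **(hker, frame level) The vertical `p`-th root.**  One chart `B ⊂ F` (`ChartHyp`), all of whose
two-branch maximal ideals are nodes `𝔪 e` of the same thickness `K` (`NodeData`); `I` an invertible
`B`-submodule of `F` with `I ^ p = f · (vertical)`, `f = u c₀` (`u ∈ O₁ˣ`, `c₀` constant).  If the order
of `res₁ u` at ONE node place `v₀` (over the node `e₀`) is divisible by `p`, then
`π ^ n I ^ p = (f π ^ a) · W ^ p` for a vertical ideal `W` of `B` (`π ^ M ∈ W`). -/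
theorem exists_vertical_rootW (hg : Function.Injective (algebraMap B F)) (π : B)
    (O₁ O₂ : ValuationSubring F) (Hc : ChartHyp π O₁ O₂)
    {E : Type*} (𝔪 : E → Ideal B) [∀ e, (𝔪 e).IsPrime]
    (H₁ : ∀ e, BranchHyp (algebraMap B F) (𝔪 e) O₁ π)
    (H₂ : ∀ e, BranchHyp (algebraMap B F) (𝔪 e) O₂ π)
    (hall : ∀ 𝔫 : Ideal B, 𝔫.IsMaximal → ¬ Off π O₁ 𝔫 → ¬ Off π O₂ 𝔫 → ∃ e, 𝔪 e = 𝔫)
    (K : ℕ) (x y : ∀ e, Localization.AtPrime (𝔪 e))
    (D : ∀ e, NodeData (Localization.AtPrime (𝔪 e))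
      (vv (algebraMap B F) hg (𝔪 e) O₁ π) (vv (algebraMap B F) hg (𝔪 e) O₂ π)
      (PP (algebraMap B F) hg (𝔪 e) (H₁ e)) (PP (algebraMap B F) hg (𝔪 e) (H₂ e))
      (algebraMap B (Localization.AtPrime (𝔪 e)) π) (x e) (y e) K)
    (res₁ : ↥O₁ →+* k) (hres : ∀ z : ↥O₁, ¬ IsUnit z → res₁ z = 0) (e₀ : E) (v₀ : Place κ k)
    (HP : NodePlaceW (PP (algebraMap B F) hg (𝔪 e₀) (H₁ e₀))
      (res₁.comp (toO O₁ (iota (algebraMap B F) hg (𝔪 e₀))
        (iota_mem (algebraMap B F) hg (𝔪 e₀) (H₁ e₀)))) v₀)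
    {I J : Submodule B F} (hIJ : I * J = 1) (p : ℕ) {f : F} (hf : f ≠ 0) (n : ℕ)
    (h1 : algebraMap B F π ^ n * f ∈ I ^ p)
    (h2 : ∀ z ∈ I ^ p, ∃ r : B, algebraMap B F π ^ n * z = r • f)
    {C : Subfield F} (hval : HasConstScaling O₁ C)
    (hC : ∀ c : (↥O₁)ˣ, ((c : ↥O₁) : F) ∈ C → v₀.ord (res₁ (c : ↥O₁)) = 0)
    (hπC : algebraMap B F π ∈ C)
    (u : (↥O₁)ˣ) {c₀ : F} (hc₀ : c₀ ∈ C) (hu : ((u : ↥O₁) : F) * c₀ = f)
    (hρ : (p : ℤ) ∣ v₀.ord (res₁ (u : ↥O₁))) :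
    ∃ (W : Ideal B) (a M : ℕ), π ^ M ∈ W ∧
      (∀ z ∈ I ^ p, ∃ w ∈ W ^ p,
        algebraMap B F π ^ n * z = algebraMap B F (π ^ a * w) * f) ∧
      ∀ w ∈ W ^ p, ∃ z ∈ I ^ p, algebraMap B F π ^ n * z = algebraMap B F (π ^ a * w) * f := by
  classical
  set d := vertPart π I p f n with hd_def
  have hN : π ^ (2 * n) ∈ d := pow_mem_vertPart h1
  have hd : LocPrincipal d := locPrincipal_vertPart hg π hIJ p hf n h1 h2
  have hπ0 : algebraMap B F π ≠ 0 := Hc.unif₁.ne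
  have hπn0 : π ^ (2 * n) ≠ 0 := pow_ne_zero _ Hc.pi_ne
  obtain ⟨a₁, hle₁, hex₁⟩ := exists_min_order hg Hc.le₁ Hc.unif₁ d hN hπn0
  obtain ⟨a₂, hle₂, hex₂⟩ := exists_min_order hg Hc.le₂ Hc.unif₂ d hN hπn0
  -- the final step, common to the two cases
  have fin : ∀ (W : Ideal B) (a : ℕ), d = Ideal.span {π ^ a} * W ^ p →
      (∀ z ∈ I ^ p, ∃ w ∈ W ^ p,
        algebraMap B F π ^ n * z = algebraMap B F (π ^ a * w) * f) ∧
      ∀ w ∈ W ^ p, ∃ z ∈ I ^ p, algebraMap B F π ^ n * z = algebraMap B F (π ^ a * w) * f := by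
    intro W a hroot
    constructor
    · intro z hz
      obtain ⟨b, hb⟩ := h2 z hz
      have hbd : b ∈ d := ⟨z, hz, by rw [hb, Algebra.smul_def]⟩
      rw [hroot] at hbd
      obtain ⟨w, hw, hwb⟩ := Ideal.mem_span_singleton_mul.1 hbd
      exact ⟨w, hw, by rw [hwb, hb, Algebra.smul_def]⟩
    · intro w hw
      have hmem : π ^ a * w ∈ d := by
        rw [hroot]
        exact Ideal.mul_mem_mul (Ideal.mem_span_singleton_self _) hw
      exact hmem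
  -- the local data at the node `e₀`
  obtain ⟨α, hαI, hα0, s, hs, hgen, r, r', hr, hrr'⟩ :=
    exists_vertical_at hg π hIJ p hf n h1 h2 (𝔪 e₀)
  obtain ⟨hrd, hrgen⟩ := vertPart_local_generator hg hf hαI hgen hr
  have hsp : s ^ p ∉ 𝔪 e₀ := fun hmem => hs (Ideal.IsPrime.mem_of_pow_mem inferInstance p hmem)
  have hoff₁ : ¬ Off π O₁ (𝔪 e₀) := fun ⟨e, he, c, hc, hec⟩ => (H₁ e₀).on e he ⟨c, hc, hec⟩
  have hoff₂ : ¬ Off π O₂ (𝔪 e₀) := fun ⟨e, he, c, hc, hec⟩ => (H₂ e₀).on e he ⟨c, hc, hec⟩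
  obtain ⟨c₁, hc₁, hc₁', hc₁0, hrc₁⟩ :=
    local_generator_order hg Hc.le₁ Hc.unif₁ hoff₁ hle₁ hex₁ hrd hsp hrgen
  obtain ⟨c₂, hc₂, hc₂', hc₂0, hrc₂⟩ :=
    local_generator_order hg Hc.le₂ Hc.unif₂ hoff₂ hle₂ hex₂ hrd hsp hrgen
  have hord₁ : ord O₁ (algebraMap B F π) (algebraMap B F r) = a₁ := by
    rw [hrc₁]
    exact Hc.unif₁.ord_pow_mul_unit hc₁ hc₁' hc₁0
  have hord₂ : ord O₂ (algebraMap B F π) (algebraMap B F r) = a₂ := by
    rw [hrc₂]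
    exact Hc.unif₂.ord_pow_mul_unit hc₂ hc₂' hc₂0
  -- the node computation
  have hnoeth : IsNoetherianRing (Localization.AtPrime (𝔪 e₀)) :=
    IsLocalization.isNoetherianRing (𝔪 e₀).primeCompl _ inferInstance
  set φ := algebraMap B (Localization.AtPrime (𝔪 e₀)) with hφ
  have hU : IsUnit (φ s ^ p) := (isUnit_algebraMap (𝔪 e₀) hs).pow p
  obtain ⟨U', hU'⟩ := hU.exists_right_inv
  have hh : φ r * (φ r' * U') = φ π ^ (2 * n) := by
    have h3 : φ r * φ r' = φ s ^ p * φ π ^ (2 * n) := by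
      rw [← map_mul, hrr', map_mul, map_pow, map_pow]
    calc φ r * (φ r' * U') = (φ r * φ r') * U' := by ring
      _ = (φ s ^ p * U') * φ π ^ (2 * n) := by rw [h3]; ring
      _ = φ π ^ (2 * n) := by rw [hU', one_mul]
  have heq : α ^ p * (iota (algebraMap B F) hg (𝔪 e₀) (φ π)) ^ n =
      f * iota (algebraMap B F) hg (𝔪 e₀) (φ r) := by
    rw [iota_algebraMap, iota_algebraMap]
    have e1 := hr
    rw [Algebra.smul_def] at e1
    linear_combination e1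
  obtain ⟨m, hm⟩ := ord_res_unit_of_twistedW (D e₀) (iota (algebraMap B F) hg (𝔪 e₀))
    (iota_mem (algebraMap B F) hg (𝔪 e₀) (H₁ e₀)) res₁ hres HP p hα0 hh heq hval hC
    (by rw [iota_algebraMap]; exact hπC) (by rw [iota_algebraMap]; exact hπ0) u hc₀ hu
  have hsl := slope_mul_K (D e₀) hh
  have hv₁ : vv (algebraMap B F) hg (𝔪 e₀) O₁ π (φ r) = a₁ := by
    unfold vv
    rw [hφ, iota_algebraMap]
    exact hord₁
  have hv₂ : vv (algebraMap B F) hg (𝔪 e₀) O₂ π (φ r) = a₂ := by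
    unfold vv
    rw [hφ, iota_algebraMap]
    exact hord₂
  rw [hv₁, hv₂] at hsl
  set σ := slope K (vv (algebraMap B F) hg (𝔪 e₀) O₁ π) (vv (algebraMap B F) hg (𝔪 e₀) O₂ π)
    (φ r) with hσ
  have hpσ : (p : ℤ) ∣ σ := by
    have e1 : σ = (p : ℤ) * m - v₀.ord (res₁ (u : ↥O₁)) := by rw [hm]; ring
    rw [e1]
    exact dvd_sub (dvd_mul_right _ _) hρ
  obtain ⟨c', hc'⟩ := hpσ
  -- the nodes
  have hnode : ∀ 𝔫 : Ideal B, 𝔫.IsMaximal → ¬ Off π O₁ 𝔫 → ¬ Off π O₂ 𝔫 →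
      HasNodeElt π O₁ O₂ K 𝔫 := by
    intro 𝔫 h𝔫 h1' h2'
    obtain ⟨e, rfl⟩ := hall 𝔫 h𝔫 h1' h2'
    exact hasNodeElt_of_nodeData hg (𝔪 e) (H₁ e) (H₂ e) (D e)
  have hnode' : ∀ 𝔫 : Ideal B, 𝔫.IsMaximal → ¬ Off π O₂ 𝔫 → ¬ Off π O₁ 𝔫 →
      HasNodeElt π O₂ O₁ K 𝔫 := by
    intro 𝔫 h𝔫 h2' h1'
    obtain ⟨e, rfl⟩ := hall 𝔫 h𝔫 h1' h2'
    exact hasNodeElt_of_nodeData hg (𝔪 e) (H₂ e) (H₁ e) (D e).symm
  rcases le_or_gt 0 c' with hc0 | hc0
  · obtain ⟨c, rfl⟩ := Int.eq_ofNat_of_zero_le hc0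
    have ha : a₂ = a₁ + p * (c * K) := by
      have e1 : (a₂ : ℤ) = a₁ + p * (c * K) := by
        rw [hc'] at hsl
        linarith
      exact_mod_cast e1
    have hroot := eq_span_mul_pow Hc d hd hN hle₁ hex₁ hle₂ hex₂ p c ha hnode
    exact ⟨vertIdeal π O₁ O₂ Hc.le₁ Hc.le₂ 0 (c * K), a₁, c * K,
      pow_mem_vertIdeal Hc 0 (c * K) (c * K) (Nat.zero_le _) le_rfl,
      fin _ _ hroot⟩
  · obtain ⟨c, hc⟩ := Int.eq_ofNat_of_zero_le (show (0 : ℤ) ≤ -c' by omega)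
    have ha : a₁ = a₂ + p * (c * K) := by
      have e1 : (a₁ : ℤ) = a₂ + p * (c * K) := by
        rw [hc'] at hsl
        have e2 : c' = -(c : ℤ) := by omega
        rw [e2] at hsl
        linarith
      exact_mod_cast e1
    have hroot := eq_span_mul_pow Hc.symm d hd hN hle₂ hex₂ hle₁ hex₁ p c ha hnode'
    exact ⟨vertIdeal π O₂ O₁ Hc.symm.le₁ Hc.symm.le₂ 0 (c * K), a₂, c * K,
      pow_mem_vertIdeal Hc.symm 0 (c * K) (c * K) (Nat.zero_le _) le_rfl,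
      fin _ _ hroot⟩

/-- **(hker, frame level), submodule form.**  Under the hypotheses of `exists_vertical_rootW` and
`p ≠ 0`: `(π ^ n) I ^ p = (π ^ a f) W ^ p` as `B`-submodules of `F`, with `W` an INVERTIBLE vertical
ideal of `B`.  Hence `L ⊗ W⁻¹` (frames `I W⁻¹`) has the generic fibre of `L` and a principal `p`-th power
`(π ^ a f / π ^ n)` on the model. -/
theorem exists_vertical_rootW' (hg : Function.Injective (algebraMap B F)) (π : B)
    (O₁ O₂ : ValuationSubring F) (Hc : ChartHyp π O₁ O₂)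
    {E : Type*} (𝔪 : E → Ideal B) [∀ e, (𝔪 e).IsPrime]
    (H₁ : ∀ e, BranchHyp (algebraMap B F) (𝔪 e) O₁ π)
    (H₂ : ∀ e, BranchHyp (algebraMap B F) (𝔪 e) O₂ π)
    (hall : ∀ 𝔫 : Ideal B, 𝔫.IsMaximal → ¬ Off π O₁ 𝔫 → ¬ Off π O₂ 𝔫 → ∃ e, 𝔪 e = 𝔫)
    (K : ℕ) (x y : ∀ e, Localization.AtPrime (𝔪 e))
    (D : ∀ e, NodeData (Localization.AtPrime (𝔪 e))
      (vv (algebraMap B F) hg (𝔪 e) O₁ π) (vv (algebraMap B F) hg (𝔪 e) O₂ π)
      (PP (algebraMap B F) hg (𝔪 e) (H₁ e)) (PP (algebraMap B F) hg (𝔪 e) (H₂ e))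
      (algebraMap B (Localization.AtPrime (𝔪 e)) π) (x e) (y e) K)
    (res₁ : ↥O₁ →+* k) (hres : ∀ z : ↥O₁, ¬ IsUnit z → res₁ z = 0) (e₀ : E) (v₀ : Place κ k)
    (HP : NodePlaceW (PP (algebraMap B F) hg (𝔪 e₀) (H₁ e₀))
      (res₁.comp (toO O₁ (iota (algebraMap B F) hg (𝔪 e₀))
        (iota_mem (algebraMap B F) hg (𝔪 e₀) (H₁ e₀)))) v₀)
    {I J : Submodule B F} (hIJ : I * J = 1) (p : ℕ) (hp : p ≠ 0) {f : F} (hf : f ≠ 0) (n : ℕ)
    (h1 : algebraMap B F π ^ n * f ∈ I ^ p)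
    (h2 : ∀ z ∈ I ^ p, ∃ r : B, algebraMap B F π ^ n * z = r • f)
    {C : Subfield F} (hval : HasConstScaling O₁ C)
    (hC : ∀ c : (↥O₁)ˣ, ((c : ↥O₁) : F) ∈ C → v₀.ord (res₁ (c : ↥O₁)) = 0)
    (hπC : algebraMap B F π ∈ C)
    (u : (↥O₁)ˣ) {c₀ : F} (hc₀ : c₀ ∈ C) (hu : ((u : ↥O₁) : F) * c₀ = f)
    (hρ : (p : ℤ) ∣ v₀.ord (res₁ (u : ↥O₁))) :
    ∃ (W : Ideal B) (a M : ℕ), π ^ M ∈ W ∧
      Submodule.span B {algebraMap B F π ^ n} * I ^ p =
        Submodule.span B {algebraMap B F π ^ a * f} * IsLocalization.coeSubmodule F W ^ p ∧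
      ∃ Y : Submodule B F, IsLocalization.coeSubmodule F W * Y = 1 := by
  obtain ⟨W, a, M, hM, hA, hB⟩ := exists_vertical_rootW hg π O₁ O₂ Hc 𝔪 H₁ H₂ hall K x y D res₁ hres
    e₀ v₀ HP hIJ p hf n h1 h2 hval hC hπC u hc₀ hu hρ
  have hid := span_mul_pow_eq_of_forall hA hB
  exact ⟨W, a, M, hM, hid, exists_mul_eq_one_of_span_mul_pow_eq hIJ hp
    (pow_ne_zero n Hc.unif₁.ne) hid⟩

/-- **(R1a)** The residue vector `lam f` of a function `f` with `I ^ p = f · (vertical)` (`I` an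
invertible frame on a chart all of whose nodes have the same thickness) is CONSTANT. -/
theorem lam_const_of_frameW (hg : Function.Injective (algebraMap B F)) (π : B)
    (O₁ O₂ : ValuationSubring F) {E : Type*} (𝔪 : E → Ideal B) [∀ e, (𝔪 e).IsPrime]
    (H₁ : ∀ e, BranchHyp (algebraMap B F) (𝔪 e) O₁ π)
    (H₂ : ∀ e, BranchHyp (algebraMap B F) (𝔪 e) O₂ π)
    (K : ℕ) (x y : ∀ e, Localization.AtPrime (𝔪 e))
    (D : ∀ e, NodeData (Localization.AtPrime (𝔪 e))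
      (vv (algebraMap B F) hg (𝔪 e) O₁ π) (vv (algebraMap B F) hg (𝔪 e) O₂ π)
      (PP (algebraMap B F) hg (𝔪 e) (H₁ e)) (PP (algebraMap B F) hg (𝔪 e) (H₂ e))
      (algebraMap B (Localization.AtPrime (𝔪 e)) π) (x e) (y e) K)
    (res₁ : ↥O₁ →+* k) (hres : ∀ z : ↥O₁, ¬ IsUnit z → res₁ z = 0) (v : E → Place κ k)
    (HP : ∀ e, NodePlaceW (PP (algebraMap B F) hg (𝔪 e) (H₁ e))
      (res₁.comp (toO O₁ (iota (algebraMap B F) hg (𝔪 e))
        (iota_mem (algebraMap B F) hg (𝔪 e) (H₁ e)))) (v e))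
    {I J : Submodule B F} (hIJ : I * J = 1) (p : ℕ) {f : F} (hf : f ≠ 0) (n : ℕ)
    (h1 : algebraMap B F π ^ n * f ∈ I ^ p)
    (h2 : ∀ z ∈ I ^ p, ∃ r : B, algebraMap B F π ^ n * z = r • f)
    {C : Subfield F} (HR : RhoInputs (K₀ := K₀) O₁ res₁ v C)
    (hπC : algebraMap B F π ∈ C) :
    ∃ s : ℤ, lam O₁ res₁ v p C f = fun _ => (s : ZMod p) := by
  obtain ⟨c₀, hc₀, hc₀0, u, hfu⟩ := HR.scal f hf
  have hu : ((u : ↥O₁) : F) * c₀ = f := by rw [hfu, mul_comm]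
  obtain ⟨s, hs⟩ := exists_const_residueW hg π O₁ O₂ 𝔪 H₁ H₂ K x y D res₁ hres v HP hIJ p hf n
    h1 h2 HR.scal (fun e' c hc => HR.ordC c hc e') hπC u hc₀ hu
  refine ⟨-s, ?_⟩
  rw [lam_eq HR hc₀ hc₀0 hfu]
  funext e
  obtain ⟨m, hm⟩ := hs e
  rw [resVec_apply, hm]
  push_cast
  rw [ZMod.natCast_self, zero_mul, zero_sub]

/-- **(R1b)** If moreover `lam f` vanishes at ONE node (and all two-branch maximal ideals of the
chart are nodes of the same thickness `K`), then the twisted frame `I'' = I W⁻¹` (`W` a vertical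
invertible ideal) is invertible, has the generic fibre of `I`, and
`I'' ^ p = span {π ^ a f / π ^ n}` exactly. -/
theorem exists_twisted_frame_of_lamW (hg : Function.Injective (algebraMap B F)) (π : B)
    (O₁ O₂ : ValuationSubring F) (Hc : ChartHyp π O₁ O₂)
    {E : Type*} (𝔪 : E → Ideal B) [∀ e, (𝔪 e).IsPrime]
    (H₁ : ∀ e, BranchHyp (algebraMap B F) (𝔪 e) O₁ π)
    (H₂ : ∀ e, BranchHyp (algebraMap B F) (𝔪 e) O₂ π)
    (hall : ∀ 𝔫 : Ideal B, 𝔫.IsMaximal → ¬ Off π O₁ 𝔫 → ¬ Off π O₂ 𝔫 → ∃ e, 𝔪 e = 𝔫)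
    (K : ℕ) (x y : ∀ e, Localization.AtPrime (𝔪 e))
    (D : ∀ e, NodeData (Localization.AtPrime (𝔪 e))
      (vv (algebraMap B F) hg (𝔪 e) O₁ π) (vv (algebraMap B F) hg (𝔪 e) O₂ π)
      (PP (algebraMap B F) hg (𝔪 e) (H₁ e)) (PP (algebraMap B F) hg (𝔪 e) (H₂ e))
      (algebraMap B (Localization.AtPrime (𝔪 e)) π) (x e) (y e) K)
    (res₁ : ↥O₁ →+* k) (hres : ∀ z : ↥O₁, ¬ IsUnit z → res₁ z = 0) (v : E → Place κ k)
    (e₀ : E)
    (HP : NodePlaceW (PP (algebraMap B F) hg (𝔪 e₀) (H₁ e₀))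
      (res₁.comp (toO O₁ (iota (algebraMap B F) hg (𝔪 e₀))
        (iota_mem (algebraMap B F) hg (𝔪 e₀) (H₁ e₀)))) (v e₀))
    {I J : Submodule B F} (hIJ : I * J = 1) (p : ℕ) [NeZero p] {f : F} (hf : f ≠ 0) (n : ℕ)
    (h1 : algebraMap B F π ^ n * f ∈ I ^ p)
    (h2 : ∀ z ∈ I ^ p, ∃ r : B, algebraMap B F π ^ n * z = r • f)
    {C : Subfield F} (HR : RhoInputs (K₀ := K₀) O₁ res₁ v C)
    (hπC : algebraMap B F π ∈ C)
    (h0 : lam O₁ res₁ v p C f e₀ = 0) :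
    ∃ (I'' J'' : Submodule B F) (a M : ℕ), I'' * J'' = 1 ∧
      I'' ^ p = Submodule.span B {algebraMap B F π ^ a * f * (algebraMap B F π ^ n)⁻¹} ∧
      I ≤ I'' ∧ Submodule.span B {algebraMap B F π ^ M} * I'' ≤ I := by
  obtain ⟨c₀, hc₀, hc₀0, u, hfu⟩ := HR.scal f hf
  have hu : ((u : ↥O₁) : F) * c₀ = f := by rw [hfu, mul_comm]
  have hρ : (p : ℤ) ∣ (v e₀).ord (res₁ (u : ↥O₁)) := by
    rw [lam_eq HR hc₀ hc₀0 hfu, resVec_apply] at h0
    exact (ZMod.intCast_zmod_eq_zero_iff_dvd _ _).1 h0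
  obtain ⟨W, a, M, hM, hid, Y, hWY⟩ := exists_vertical_rootW' hg π O₁ O₂ Hc 𝔪 H₁ H₂ hall K x y D
    res₁ hres e₀ (v e₀) HP hIJ p (NeZero.ne p) hf n h1 h2 HR.scal
    (fun c hc => HR.ordC c hc e₀) hπC u hc₀ hu hρ
  obtain ⟨I'', J'', h3, h4, h5, h6⟩ := exists_twisted_frame hIJ hWY hM Hc.unif₁.ne hid
  exact ⟨I'', J'', a, M, h3, h4, h5, h6⟩

end Global

end Fermat.Agent.T1B.Hol80
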