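import Mathlib
import Fermat.Agent.T1B.Hol80.R1W

/-!
# T1B (S44), brick SLOPE80 (helper80), part 9: the vertical `p`-th root on TWO charts

For the glue "frames → `PicX`" (helper2, `R1Asm2/FrameIso.lean`) one needs the vertical ideal on BOTH
charts, with the SAME scalar: `I_j ^ p = (g) W_j ^ p` (`j = 0, 1`), `W = (W_0, W_1)` an ideal pair.

* `MinOrders π O₁ O₂ d a₁ a₂` : `a_i` is the minimal order of the ideal `d` along `O_i`;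
* `exists_orders_of_lamW` : on a chart with a node place where `lam f` vanishes, the minimal orders of
  the vertical part satisfy `a₂ = a₁ + p (c K)` or `a₁ = a₂ + p (c K)`;
* `vertical_root_of_orders` : the explicit vertical root on ANY chart (`ChartHyp`, all two-branch
  points nodes of thickness `K`): `(π ^ n) I ^ p = (π ^ a₁ f) (vertIdeal 0 (c K)) ^ p`;
* `vertPart_transfer`, `MinOrders.transfer` : the minimal orders of the vertical parts on two charts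
  with compatible frames agree;
* `vertIdeal_transfer` : `(vertIdeal 0 b)_0` and `(vertIdeal 0 b)_1` agree on the overlap.
-/

set_option autoImplicit false
set_option linter.unusedSectionVars false

namespace Fermat.Agent.T1B.Hol80

open AlgebraicCurve Fermat.Agent.T1.Peu37.NodeClassGroup Fermat.Agent.T1B.NodeNF37.Local
  Fermat.Agent.T1B.NodeNF37.UnifOrd Fermat.Agent.T1B.Hol31.Local Fermat.Agent.T1B.Brandt36

section Orders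

variable {B F : Type*} [CommRing B] [Field F] [Algebra B F]

/-- `a_i` is the minimal order of the elements of `d` along `O_i` (`i = 1, 2`). -/
structure MinOrders (π : B) (O₁ O₂ : ValuationSubring F) (d : Ideal B) (a₁ a₂ : ℕ) : Prop where
  le₁ : ∀ z ∈ d, InPow O₁ (algebraMap B F π) a₁ (algebraMap B F z)
  ex₁ : ∃ z ∈ d, ∃ u : F, u ∈ O₁ ∧ u⁻¹ ∈ O₁ ∧ u ≠ 0 ∧
    algebraMap B F z = algebraMap B F π ^ a₁ * u
  le₂ : ∀ z ∈ d, InPow O₂ (algebraMap B F π) a₂ (algebraMap B F z)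
  ex₂ : ∃ z ∈ d, ∃ u : F, u ∈ O₂ ∧ u⁻¹ ∈ O₂ ∧ u ≠ 0 ∧
    algebraMap B F z = algebraMap B F π ^ a₂ * u

theorem MinOrders.symm {π : B} {O₁ O₂ : ValuationSubring F} {d : Ideal B} {a₁ a₂ : ℕ}
    (h : MinOrders π O₁ O₂ d a₁ a₂) : MinOrders π O₂ O₁ d a₂ a₁ :=
  ⟨h.le₂, h.ex₂, h.le₁, h.ex₁⟩

end Orders

section OneChart

variable {B F : Type*} [CommRing B] [IsDomain B] [IsNoetherianRing B] [Field F] [Algebra B F]
variable {κ k : Type*} [Field κ] [Field k] [Algebra κ k]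
variable {K₀ : Type*} [Field K₀] [Algebra K₀ F]

/-- **The explicit vertical root** on a chart all of whose two-branch maximal ideals are nodes of
thickness `K`: if the minimal orders of the vertical part satisfy `a₂ = a₁ + p (c K)` then
`(π ^ n) I ^ p = (π ^ a₁ f) W ^ p`, `W = vertIdeal 0 (c K)`, and `W` is invertible. -/
theorem vertical_root_of_orders (hg : Function.Injective (algebraMap B F)) (π : B)
    (O₁ O₂ : ValuationSubring F) (Hc : ChartHyp π O₁ O₂)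
    {E : Type*} (𝔪 : E → Ideal B) [∀ e, (𝔪 e).IsPrime]
    (H₁ : ∀ e, BranchHyp (algebraMap B F) (𝔪 e) O₁ π)
    (H₂ : ∀ e, BranchHyp (algebraMap B F) (𝔪 e) O₂ π)
    (hall : ∀ 𝔫 : Ideal B, 𝔫.IsMaximal → ¬ Off π O₁ 𝔫 → ¬ Off π O₂ 𝔫 → ∃ e, 𝔪 e = 𝔫)
    (K : ℕ) (x y : ∀ e, Localization.AtPrime (𝔪 e))
    (D : ∀ e, NodeData (Localization.AtPrime (𝔪 e))
      (vv (algebraMap B F) hg (𝔪 e) O₁ π) (vv (algebraMap B F) hg (𝔪 e) O₂ π)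
      (PP (algebraMap B F) hg (𝔪 e) (H₁ e)) (PP (algebraMap B F) hg (𝔪 e) (H₂ e))
      (algebraMap B (Localization.AtPrime (𝔪 e)) π) (x e) (y e) K)
    {I J : Submodule B F} (hIJ : I * J = 1) (p : ℕ) (hp : p ≠ 0) {f : F} (hf : f ≠ 0) (n : ℕ)
    (h1 : algebraMap B F π ^ n * f ∈ I ^ p)
    (h2 : ∀ z ∈ I ^ p, ∃ r : B, algebraMap B F π ^ n * z = r • f)
    {a₁ a₂ : ℕ} (hmin : MinOrders π O₁ O₂ (vertPart π I p f n) a₁ a₂) (c : ℕ)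
    (ha : a₂ = a₁ + p * (c * K)) :
    Submodule.span B {algebraMap B F π ^ n} * I ^ p =
        Submodule.span B {algebraMap B F π ^ a₁ * f} *
          IsLocalization.coeSubmodule F (vertIdeal π O₁ O₂ Hc.le₁ Hc.le₂ 0 (c * K)) ^ p ∧
      ∃ Y : Submodule B F,
        IsLocalization.coeSubmodule F (vertIdeal π O₁ O₂ Hc.le₁ Hc.le₂ 0 (c * K)) * Y = 1 := by
  set d := vertPart π I p f n with hd_def
  have hN : π ^ (2 * n) ∈ d := pow_mem_vertPart h1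
  have hd : LocPrincipal d := locPrincipal_vertPart hg π hIJ p hf n h1 h2
  have hnode : ∀ 𝔫 : Ideal B, 𝔫.IsMaximal → ¬ Off π O₁ 𝔫 → ¬ Off π O₂ 𝔫 →
      HasNodeElt π O₁ O₂ K 𝔫 := by
    intro 𝔫 h𝔫 h1' h2'
    obtain ⟨e, rfl⟩ := hall 𝔫 h𝔫 h1' h2'
    exact hasNodeElt_of_nodeData hg (𝔪 e) (H₁ e) (H₂ e) (D e)
  have hroot := eq_span_mul_pow Hc d hd hN hmin.le₁ hmin.ex₁ hmin.le₂ hmin.ex₂ p c ha hnode
  have hA : ∀ z ∈ I ^ p, ∃ w ∈ vertIdeal π O₁ O₂ Hc.le₁ Hc.le₂ 0 (c * K) ^ p,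
      algebraMap B F π ^ n * z = algebraMap B F (π ^ a₁ * w) * f := by
    intro z hz
    obtain ⟨b, hb⟩ := h2 z hz
    have hbd : b ∈ d := ⟨z, hz, by rw [hb, Algebra.smul_def]⟩
    rw [hroot] at hbd
    obtain ⟨w, hw, hwb⟩ := Ideal.mem_span_singleton_mul.1 hbd
    exact ⟨w, hw, by rw [hwb, hb, Algebra.smul_def]⟩
  have hB : ∀ w ∈ vertIdeal π O₁ O₂ Hc.le₁ Hc.le₂ 0 (c * K) ^ p, ∃ z ∈ I ^ p,
      algebraMap B F π ^ n * z = algebraMap B F (π ^ a₁ * w) * f := by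
    intro w hw
    have hmem : π ^ a₁ * w ∈ d := by
      rw [hroot]
      exact Ideal.mul_mem_mul (Ideal.mem_span_singleton_self _) hw
    exact hmem
  have hid := span_mul_pow_eq_of_forall hA hB
  exact ⟨hid, exists_mul_eq_one_of_span_mul_pow_eq hIJ hp (pow_ne_zero n Hc.unif₁.ne) hid⟩

/-- **The minimal orders of the vertical part** on a chart with a node place `v₀` at which `lam f`
vanishes: `a₂ = a₁ + p (c K)` or `a₁ = a₂ + p (c K)`. -/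
theorem exists_orders_of_lamW (hg : Function.Injective (algebraMap B F)) (π : B)
    (O₁ O₂ : ValuationSubring F) (Hc : ChartHyp π O₁ O₂)
    {E : Type*} (𝔪 : E → Ideal B) [∀ e, (𝔪 e).IsPrime]
    (H₁ : ∀ e, BranchHyp (algebraMap B F) (𝔪 e) O₁ π)
    (H₂ : ∀ e, BranchHyp (algebraMap B F) (𝔪 e) O₂ π)
    (K : ℕ) (x y : ∀ e, Localization.AtPrime (𝔪 e))
    (D : ∀ e, NodeData (Localization.AtPrime (𝔪 e))
      (vv (algebraMap B F) hg (𝔪 e) O₁ π) (vv (algebraMap B F) hg (𝔪 e) O₂ π)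
      (PP (algebraMap B F) hg (𝔪 e) (H₁ e)) (PP (algebraMap B F) hg (𝔪 e) (H₂ e))
      (algebraMap B (Localization.AtPrime (𝔪 e)) π) (x e) (y e) K)
    (res₁ : ↥O₁ →+* k) (hres : ∀ z : ↥O₁, ¬ IsUnit z → res₁ z = 0) (v : E → Place κ k)
    (e₀ : E)
    (HP : NodePlaceW (PP (algebraMap B F) hg (𝔪 e₀) (H₁ e₀))
      (res₁.comp (toO O₁ (iota (algebraMap B F) hg (𝔪 e₀))
        (iota_mem (algebraMap B F) hg (𝔪 e₀) (H₁ e₀)))) (v e₀))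
    {I J : Submodule B F} (hIJ : I * J = 1) (p : ℕ) [NeZero p] {f : F} (hf : f ≠ 0) (n : ℕ)
    (h1 : algebraMap B F π ^ n * f ∈ I ^ p)
    (h2 : ∀ z ∈ I ^ p, ∃ r : B, algebraMap B F π ^ n * z = r • f)
    {C : Subfield F} (HR : RhoInputs (K₀ := K₀) O₁ res₁ v C)
    (hπC : algebraMap B F π ∈ C)
    (h0 : lam O₁ res₁ v p C f e₀ = 0) :
    ∃ a₁ a₂ c : ℕ, MinOrders π O₁ O₂ (vertPart π I p f n) a₁ a₂ ∧
      (a₂ = a₁ + p * (c * K) ∨ a₁ = a₂ + p * (c * K)) := by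
  classical
  obtain ⟨c₀, hc₀, hc₀0, u, hfu⟩ := HR.scal f hf
  have hu : ((u : ↥O₁) : F) * c₀ = f := by rw [hfu, mul_comm]
  have hρ : (p : ℤ) ∣ (v e₀).ord (res₁ (u : ↥O₁)) := by
    rw [lam_eq HR hc₀ hc₀0 hfu, resVec_apply] at h0
    exact (ZMod.intCast_zmod_eq_zero_iff_dvd _ _).1 h0
  set d := vertPart π I p f n with hd_def
  have hN : π ^ (2 * n) ∈ d := pow_mem_vertPart h1
  have hπ0 : algebraMap B F π ≠ 0 := Hc.unif₁.ne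
  have hπn0 : π ^ (2 * n) ≠ 0 := pow_ne_zero _ Hc.pi_ne
  obtain ⟨a₁, hle₁, hex₁⟩ := exists_min_order hg Hc.le₁ Hc.unif₁ d hN hπn0
  obtain ⟨a₂, hle₂, hex₂⟩ := exists_min_order hg Hc.le₂ Hc.unif₂ d hN hπn0
  obtain ⟨α, hαI, hα0, s, hs, hgen, r, r', hr, hrr'⟩ :=
    exists_vertical_at hg π hIJ p hf n h1 h2 (𝔪 e₀)
  obtain ⟨hrd, hrgen⟩ := vertPart_local_generator hg hf hαI hgen hr
  have hsp : s ^ p ∉ 𝔪 e₀ := fun hmem => hs (Ideal.IsPrime.mem_of_pow_mem inferInstance p hmem)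
  have hoff₁ : ¬ Off π O₁ (𝔪 e₀) := fun ⟨e, he, c, hc, hec⟩ => (H₁ e₀).on e he ⟨c, hc, hec⟩
  have hoff₂ : ¬ Off π O₂ (𝔪 e₀) := fun ⟨e, he, c, hc, hec⟩ => (H₂ e₀).on e he ⟨c, hc, hec⟩
  obtain ⟨c₁, hc₁, hc₁', hc₁0, hrc₁⟩ :=
    local_generator_order hg Hc.le₁ Hc.unif₁ hoff₁ hle₁ hex₁ hrd hsp hrgen
  obtain ⟨c₂, hc₂, hc₂', hc₂0, hrc₂⟩ :=
    local_generator_order hg Hc.le₂ Hc.unif₂ hoff₂ hle₂ hex₂ hrd hsp hrgen
  have hord₁ : ord O₁ (algebraMap B F π) (algebraMap B F r) = a₁ := by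
    rw [hrc₁]
    exact Hc.unif₁.ord_pow_mul_unit hc₁ hc₁' hc₁0
  have hord₂ : ord O₂ (algebraMap B F π) (algebraMap B F r) = a₂ := by
    rw [hrc₂]
    exact Hc.unif₂.ord_pow_mul_unit hc₂ hc₂' hc₂0
  have hnoeth : IsNoetherianRing (Localization.AtPrime (𝔪 e₀)) :=
    IsLocalization.isNoetherianRing (𝔪 e₀).primeCompl _ inferInstance
  set φ := algebraMap B (Localization.AtPrime (𝔪 e₀)) with hφ
  have hU : IsUnit (φ s ^ p) := (isUnit_algebraMap (𝔪 e₀) hs).pow p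
  obtain ⟨U', hU'⟩ := hU.exists_right_inv
  have hh : φ r * (φ r' * U') = φ π ^ (2 * n) := by
    have h3 : φ r * φ r' = φ s ^ p * φ π ^ (2 * n) := by
      rw [← map_mul, hrr', map_mul, map_pow, map_pow]
    calc φ r * (φ r' * U') = (φ r * φ r') * U' := by ring
      _ = (φ s ^ p * U') * φ π ^ (2 * n) := by rw [h3]; ring
      _ = φ π ^ (2 * n) := by rw [hU', one_mul]
  have heq : α ^ p * (iota (algebraMap B F) hg (𝔪 e₀) (φ π)) ^ n =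
      f * iota (algebraMap B F) hg (𝔪 e₀) (φ r) := by
    rw [iota_algebraMap, iota_algebraMap]
    have e1 := hr
    rw [Algebra.smul_def] at e1
    linear_combination e1
  obtain ⟨m, hm⟩ := ord_res_unit_of_twistedW (D e₀) (iota (algebraMap B F) hg (𝔪 e₀))
    (iota_mem (algebraMap B F) hg (𝔪 e₀) (H₁ e₀)) res₁ hres HP p hα0 hh heq HR.scal
    (fun c hc => HR.ordC c hc e₀)
    (by rw [iota_algebraMap]; exact hπC) (by rw [iota_algebraMap]; exact hπ0) u hc₀ hu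
  have hsl := slope_mul_K (D e₀) hh
  have hv₁ : vv (algebraMap B F) hg (𝔪 e₀) O₁ π (φ r) = a₁ := by
    unfold vv
    rw [hφ, iota_algebraMap]
    exact hord₁
  have hv₂ : vv (algebraMap B F) hg (𝔪 e₀) O₂ π (φ r) = a₂ := by
    unfold vv
    rw [hφ, iota_algebraMap]
    exact hord₂
  rw [hv₁, hv₂] at hsl
  set σ := slope K (vv (algebraMap B F) hg (𝔪 e₀) O₁ π) (vv (algebraMap B F) hg (𝔪 e₀) O₂ π)
    (φ r) with hσ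
  have hpσ : (p : ℤ) ∣ σ := by
    have e1 : σ = (p : ℤ) * m - (v e₀).ord (res₁ (u : ↥O₁)) := by rw [hm]; ring
    rw [e1]
    exact dvd_sub (dvd_mul_right _ _) hρ
  obtain ⟨c', hc'⟩ := hpσ
  rcases le_or_gt 0 c' with hc0 | hc0
  · obtain ⟨c, rfl⟩ := Int.eq_ofNat_of_zero_le hc0
    refine ⟨a₁, a₂, c, ⟨hle₁, hex₁, hle₂, hex₂⟩, Or.inl ?_⟩
    have e1 : (a₂ : ℤ) = a₁ + p * (c * K) := by
      rw [hc'] at hsl
      linarith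
    exact_mod_cast e1
  · obtain ⟨c, hc⟩ := Int.eq_ofNat_of_zero_le (show (0 : ℤ) ≤ -c' by omega)
    refine ⟨a₁, a₂, c, ⟨hle₁, hex₁, hle₂, hex₂⟩, Or.inr ?_⟩
    have e1 : (a₁ : ℤ) = a₂ + p * (c * K) := by
      rw [hc'] at hsl
      have e2 : c' = -(c : ℤ) := by omega
      rw [e2] at hsl
      linarith
    exact_mod_cast e1

end OneChart

section Transfer

variable {B₀ B₁ F : Type*} [CommRing B₀] [CommRing B₁] [Field F] [Algebra B₀ F] [Algebra B₁ F]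

/-- Powers of compatible frames are compatible. -/
theorem pow_frame_transfer (t : B₀)
    (hov : ∀ x : B₁, ∃ (k : ℕ) (b : B₀),
      algebraMap B₀ F b = algebraMap B₀ F t ^ k * algebraMap B₁ F x)
    {I₀ : Submodule B₀ F} {I₁ : Submodule B₁ F}
    (hfr : ∀ z ∈ I₁, ∃ k : ℕ, algebraMap B₀ F t ^ k * z ∈ I₀) (p : ℕ) :
    ∀ z ∈ I₁ ^ p, ∃ k : ℕ, algebraMap B₀ F t ^ k * z ∈ I₀ ^ p := by
  induction p with
  | zero =>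
    intro z hz
    rw [pow_zero] at hz
    obtain ⟨x, rfl⟩ := Submodule.mem_one.1 hz
    obtain ⟨k, b, hb⟩ := hov x
    exact ⟨k, by rw [pow_zero, ← hb]; exact Submodule.mem_one.2 ⟨b, rfl⟩⟩
  | succ p ih =>
    intro z hz
    rw [pow_succ] at hz
    refine Submodule.mul_induction_on hz ?_ ?_
    · intro a ha b hb
      obtain ⟨k₁, h₁⟩ := ih a ha
      obtain ⟨k₂, h₂⟩ := hfr b hb
      refine ⟨k₁ + k₂, ?_⟩
      have : algebraMap B₀ F t ^ (k₁ + k₂) * (a * b) =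
          (algebraMap B₀ F t ^ k₁ * a) * (algebraMap B₀ F t ^ k₂ * b) := by
        rw [pow_add]; ring
      rw [this, pow_succ]
      exact Submodule.mul_mem_mul h₁ h₂
    · rintro z w ⟨k, hk⟩ ⟨k', hk'⟩
      refine ⟨k + k', ?_⟩
      have : algebraMap B₀ F t ^ (k + k') * (z + w) =
          (t ^ k') • (algebraMap B₀ F t ^ k * z) + (t ^ k) • (algebraMap B₀ F t ^ k' * w) := by
        rw [Algebra.smul_def, Algebra.smul_def, map_pow, map_pow, pow_add]; ring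
      rw [this]
      exact Submodule.add_mem _ (Submodule.smul_mem _ _ hk) (Submodule.smul_mem _ _ hk')

/-- The vertical parts of compatible frames on two charts are compatible. -/
theorem vertPart_transfer {π₀ : B₀} {π₁ : B₁} (hπ : algebraMap B₀ F π₀ = algebraMap B₁ F π₁)
    (t : B₀)
    (hov : ∀ x : B₁, ∃ (k : ℕ) (b : B₀),
      algebraMap B₀ F b = algebraMap B₀ F t ^ k * algebraMap B₁ F x)
    {I₀ : Submodule B₀ F} {I₁ : Submodule B₁ F}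
    (hfr : ∀ z ∈ I₁, ∃ k : ℕ, algebraMap B₀ F t ^ k * z ∈ I₀) (p : ℕ) (f : F) (n : ℕ) :
    ∀ b ∈ vertPart π₁ I₁ p f n, ∃ (m : ℕ) (b₀ : B₀), b₀ ∈ vertPart π₀ I₀ p f n ∧
      algebraMap B₀ F b₀ = algebraMap B₀ F t ^ m * algebraMap B₁ F b := by
  rintro b ⟨z, hz, hzb⟩
  obtain ⟨k, hk⟩ := pow_frame_transfer t hov hfr p z hz
  obtain ⟨k', b₀, hb₀⟩ := hov b
  refine ⟨k + k', t ^ k * b₀, ⟨(t ^ k') • (algebraMap B₀ F t ^ k * z),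
    Submodule.smul_mem _ _ hk, ?_⟩, ?_⟩
  · rw [Algebra.smul_def, map_mul, map_pow, map_pow, hb₀, hπ]
    linear_combination (algebraMap B₀ F t ^ k' * algebraMap B₀ F t ^ k) * hzb
  · rw [map_mul, map_pow, hb₀, pow_add]
    ring

/-- **The minimal orders of the vertical parts on two charts with compatible frames agree.** -/
theorem MinOrders.transfer {π₀ : B₀} {π₁ : B₁} (hπ : algebraMap B₀ F π₀ = algebraMap B₁ F π₁)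
    (t : B₀) (s : B₁) (hts : algebraMap B₀ F t * algebraMap B₁ F s = 1)
    {O₁ O₂ : ValuationSubring F}
    (ht₁ : algebraMap B₀ F t ∈ O₁) (hs₁ : algebraMap B₁ F s ∈ O₁)
    (ht₂ : algebraMap B₀ F t ∈ O₂) (hs₂ : algebraMap B₁ F s ∈ O₂)
    (hov₀ : ∀ x : B₁, ∃ (k : ℕ) (b : B₀),
      algebraMap B₀ F b = algebraMap B₀ F t ^ k * algebraMap B₁ F x)
    (hov₁ : ∀ x : B₀, ∃ (k : ℕ) (b : B₁),
      algebraMap B₁ F b = algebraMap B₁ F s ^ k * algebraMap B₀ F x)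
    {I₀ : Submodule B₀ F} {I₁ : Submodule B₁ F}
    (hfr₀ : ∀ z ∈ I₁, ∃ k : ℕ, algebraMap B₀ F t ^ k * z ∈ I₀)
    (hfr₁ : ∀ z ∈ I₀, ∃ k : ℕ, algebraMap B₁ F s ^ k * z ∈ I₁)
    {p : ℕ} {f : F} {n : ℕ} {a₁ a₂ : ℕ}
    (h : MinOrders π₀ O₁ O₂ (vertPart π₀ I₀ p f n) a₁ a₂) :
    MinOrders π₁ O₁ O₂ (vertPart π₁ I₁ p f n) a₁ a₂ := by
  have ht0 : algebraMap B₀ F t ≠ 0 := left_ne_zero_of_mul_eq_one hts
  have hs0 : algebraMap B₁ F s ≠ 0 := right_ne_zero_of_mul_eq_one hts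
  have hst : ∀ m : ℕ, algebraMap B₁ F s ^ m * algebraMap B₀ F t ^ m = 1 := by
    intro m
    rw [← mul_pow, mul_comm, hts, one_pow]
  have keyle : ∀ (O : ValuationSubring F) (a : ℕ), algebraMap B₁ F s ∈ O →
      (∀ z ∈ vertPart π₀ I₀ p f n, InPow O (algebraMap B₀ F π₀) a (algebraMap B₀ F z)) →
      ∀ z ∈ vertPart π₁ I₁ p f n, InPow O (algebraMap B₁ F π₁) a (algebraMap B₁ F z) := by
    intro O a hsO hle z hz
    obtain ⟨m, b₀, hb₀, hb₀z⟩ := vertPart_transfer hπ t hov₀ hfr₀ p f n z hz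
    obtain ⟨c, hc, hbc⟩ := hle b₀ hb₀
    refine ⟨algebraMap B₁ F s ^ m * c, O.mul_mem _ _ (O.pow_mem hsO m) hc, ?_⟩
    rw [← hπ]
    calc algebraMap B₁ F z = (algebraMap B₁ F s ^ m * algebraMap B₀ F t ^ m) * algebraMap B₁ F z := by
          rw [hst, one_mul]
      _ = algebraMap B₁ F s ^ m * (algebraMap B₀ F t ^ m * algebraMap B₁ F z) := by ring
      _ = algebraMap B₁ F s ^ m * (algebraMap B₀ F π₀ ^ a * c) := by rw [← hb₀z, hbc]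
      _ = algebraMap B₀ F π₀ ^ a * (algebraMap B₁ F s ^ m * c) := by ring
  have keyex : ∀ (O : ValuationSubring F) (a : ℕ), algebraMap B₀ F t ∈ O → algebraMap B₁ F s ∈ O →
      (∃ z ∈ vertPart π₀ I₀ p f n, ∃ u : F, u ∈ O ∧ u⁻¹ ∈ O ∧ u ≠ 0 ∧
        algebraMap B₀ F z = algebraMap B₀ F π₀ ^ a * u) →
      ∃ z ∈ vertPart π₁ I₁ p f n, ∃ u : F, u ∈ O ∧ u⁻¹ ∈ O ∧ u ≠ 0 ∧
        algebraMap B₁ F z = algebraMap B₁ F π₁ ^ a * u := by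
    rintro O a htO hsO ⟨z, hz, u, hu, hu', hu0, hzu⟩
    have hts' : algebraMap B₁ F s * algebraMap B₀ F t = 1 := by rw [mul_comm]; exact hts
    obtain ⟨m, b₁, hb₁, hb₁z⟩ := vertPart_transfer hπ.symm s hov₁ hfr₁ p f n z hz
    refine ⟨b₁, hb₁, algebraMap B₁ F s ^ m * u, O.mul_mem _ _ (O.pow_mem hsO m) hu, ?_,
      mul_ne_zero (pow_ne_zero m hs0) hu0, ?_⟩
    · have : (algebraMap B₁ F s ^ m * u)⁻¹ = algebraMap B₀ F t ^ m * u⁻¹ := by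
        rw [mul_inv]
        congr 1
        exact (eq_inv_of_mul_eq_one_right (hst m)).symm
      rw [this]
      exact O.mul_mem _ _ (O.pow_mem htO m) hu'
    · rw [hb₁z, hzu, ← hπ]
      ring
  exact ⟨keyle O₁ a₁ hs₁ h.le₁, keyex O₁ a₁ ht₁ hs₁ h.ex₁, keyle O₂ a₂ hs₂ h.le₂,
    keyex O₂ a₂ ht₂ hs₂ h.ex₂⟩

/-- The vertical ideals `vertIdeal b₁ b₂` of two charts agree on the overlap. -/
theorem vertIdeal_transfer {π₀ : B₀} {π₁ : B₁} (hπ : algebraMap B₀ F π₀ = algebraMap B₁ F π₁)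
    (t : B₀) {O₁ O₂ : ValuationSubring F}
    (ht₁ : algebraMap B₀ F t ∈ O₁) (ht₂ : algebraMap B₀ F t ∈ O₂)
    (hov₀ : ∀ x : B₁, ∃ (k : ℕ) (b : B₀),
      algebraMap B₀ F b = algebraMap B₀ F t ^ k * algebraMap B₁ F x)
    (h₁₀ : ∀ b : B₀, algebraMap B₀ F b ∈ O₁) (h₂₀ : ∀ b : B₀, algebraMap B₀ F b ∈ O₂)
    (h₁₁ : ∀ b : B₁, algebraMap B₁ F b ∈ O₁) (h₂₁ : ∀ b : B₁, algebraMap B₁ F b ∈ O₂)
    (b₁ b₂ : ℕ) :
    ∀ w ∈ vertIdeal π₁ O₁ O₂ h₁₁ h₂₁ b₁ b₂, ∃ (m : ℕ) (w₀ : B₀),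
      w₀ ∈ vertIdeal π₀ O₁ O₂ h₁₀ h₂₀ b₁ b₂ ∧
      algebraMap B₀ F w₀ = algebraMap B₀ F t ^ m * algebraMap B₁ F w := by
  rintro w ⟨⟨c₁, hc₁, hw₁⟩, ⟨c₂, hc₂, hw₂⟩⟩
  obtain ⟨k, w₀, hw₀⟩ := hov₀ w
  refine ⟨k, w₀, ⟨⟨algebraMap B₀ F t ^ k * c₁, O₁.mul_mem _ _ (O₁.pow_mem ht₁ k) hc₁, ?_⟩,
    ⟨algebraMap B₀ F t ^ k * c₂, O₂.mul_mem _ _ (O₂.pow_mem ht₂ k) hc₂, ?_⟩⟩, hw₀⟩
  · rw [hw₀, hw₁, hπ]; ring
  · rw [hw₀, hw₂, hπ]; ring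

end Transfer

section TwoCharts

variable {B₀ B₁ F : Type*} [CommRing B₀] [IsDomain B₀] [IsNoetherianRing B₀]
  [CommRing B₁] [IsDomain B₁] [IsNoetherianRing B₁] [Field F] [Algebra B₀ F] [Algebra B₁ F]
variable {κ k : Type*} [Field κ] [Field k] [Algebra κ k]
variable {K₀ : Type*} [Field K₀] [Algebra K₀ F]

/-- **(R1b) on two charts.**  Charts `B₀, B₁ ⊂ F` (overlap `B₀[1/t] = B₁[1/s]`, `t s = 1`, `t` a unit
of both branches), both satisfying `ChartHyp` with all two-branch points nodes of the same thickness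
`K`; compatible invertible frames `I₀, I₁` with `I_j ^ p = f · (vertical)`; a node place `v e₀` on
chart `0` with `lam f e₀ = 0`.  Then there are vertical ideals `W₀ ⊂ B₀`, `W₁ ⊂ B₁`, INVERTIBLE,
compatible on the overlap, and ONE exponent `a` with
`(π ^ n) I_j ^ p = (π ^ a f) W_j ^ p` for `j = 0, 1`. -/
theorem exists_vertical_root_twoChart
    (hg₀ : Function.Injective (algebraMap B₀ F)) (π₀ : B₀)
    (O₁ O₂ : ValuationSubring F) (Hc₀ : ChartHyp π₀ O₁ O₂)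
    {E₀ : Type*} (𝔪₀ : E₀ → Ideal B₀) [∀ e, (𝔪₀ e).IsPrime]
    (H₁₀ : ∀ e, BranchHyp (algebraMap B₀ F) (𝔪₀ e) O₁ π₀)
    (H₂₀ : ∀ e, BranchHyp (algebraMap B₀ F) (𝔪₀ e) O₂ π₀)
    (hall₀ : ∀ 𝔫 : Ideal B₀, 𝔫.IsMaximal → ¬ Off π₀ O₁ 𝔫 → ¬ Off π₀ O₂ 𝔫 → ∃ e, 𝔪₀ e = 𝔫)
    (K : ℕ) (x₀ y₀ : ∀ e, Localization.AtPrime (𝔪₀ e))
    (D₀ : ∀ e, NodeData (Localization.AtPrime (𝔪₀ e))
      (vv (algebraMap B₀ F) hg₀ (𝔪₀ e) O₁ π₀) (vv (algebraMap B₀ F) hg₀ (𝔪₀ e) O₂ π₀)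
      (PP (algebraMap B₀ F) hg₀ (𝔪₀ e) (H₁₀ e)) (PP (algebraMap B₀ F) hg₀ (𝔪₀ e) (H₂₀ e))
      (algebraMap B₀ (Localization.AtPrime (𝔪₀ e)) π₀) (x₀ e) (y₀ e) K)
    (res₁ : ↥O₁ →+* k) (hres : ∀ z : ↥O₁, ¬ IsUnit z → res₁ z = 0) (v : E₀ → Place κ k)
    (e₀ : E₀)
    (HP : NodePlaceW (PP (algebraMap B₀ F) hg₀ (𝔪₀ e₀) (H₁₀ e₀))
      (res₁.comp (toO O₁ (iota (algebraMap B₀ F) hg₀ (𝔪₀ e₀))
        (iota_mem (algebraMap B₀ F) hg₀ (𝔪₀ e₀) (H₁₀ e₀)))) (v e₀))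
    {I₀ J₀ : Submodule B₀ F} (hIJ₀ : I₀ * J₀ = 1) (p : ℕ) [NeZero p] {f : F} (hf : f ≠ 0) (n : ℕ)
    (h1₀ : algebraMap B₀ F π₀ ^ n * f ∈ I₀ ^ p)
    (h2₀ : ∀ z ∈ I₀ ^ p, ∃ r : B₀, algebraMap B₀ F π₀ ^ n * z = r • f)
    {C : Subfield F} (HR : RhoInputs (K₀ := K₀) O₁ res₁ v C)
    (hπC : algebraMap B₀ F π₀ ∈ C)
    (h0 : lam O₁ res₁ v p C f e₀ = 0)
    -- chart 1
    (hg₁ : Function.Injective (algebraMap B₁ F)) (π₁ : B₁) (Hc₁ : ChartHyp π₁ O₁ O₂)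
    {E₁ : Type*} (𝔪₁ : E₁ → Ideal B₁) [∀ e, (𝔪₁ e).IsPrime]
    (H₁₁ : ∀ e, BranchHyp (algebraMap B₁ F) (𝔪₁ e) O₁ π₁)
    (H₂₁ : ∀ e, BranchHyp (algebraMap B₁ F) (𝔪₁ e) O₂ π₁)
    (hall₁ : ∀ 𝔫 : Ideal B₁, 𝔫.IsMaximal → ¬ Off π₁ O₁ 𝔫 → ¬ Off π₁ O₂ 𝔫 → ∃ e, 𝔪₁ e = 𝔫)
    (x₁ y₁ : ∀ e, Localization.AtPrime (𝔪₁ e))
    (D₁ : ∀ e, NodeData (Localization.AtPrime (𝔪₁ e))
      (vv (algebraMap B₁ F) hg₁ (𝔪₁ e) O₁ π₁) (vv (algebraMap B₁ F) hg₁ (𝔪₁ e) O₂ π₁)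
      (PP (algebraMap B₁ F) hg₁ (𝔪₁ e) (H₁₁ e)) (PP (algebraMap B₁ F) hg₁ (𝔪₁ e) (H₂₁ e))
      (algebraMap B₁ (Localization.AtPrime (𝔪₁ e)) π₁) (x₁ e) (y₁ e) K)
    {I₁ J₁ : Submodule B₁ F} (hIJ₁ : I₁ * J₁ = 1)
    (h1₁ : algebraMap B₁ F π₁ ^ n * f ∈ I₁ ^ p)
    (h2₁ : ∀ z ∈ I₁ ^ p, ∃ r : B₁, algebraMap B₁ F π₁ ^ n * z = r • f)
    -- overlap
    (hπ : algebraMap B₀ F π₀ = algebraMap B₁ F π₁)
    (t : B₀) (s : B₁) (hts : algebraMap B₀ F t * algebraMap B₁ F s = 1)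
    (hov₀ : ∀ x : B₁, ∃ (k : ℕ) (b : B₀),
      algebraMap B₀ F b = algebraMap B₀ F t ^ k * algebraMap B₁ F x)
    (hov₁ : ∀ x : B₀, ∃ (k : ℕ) (b : B₁),
      algebraMap B₁ F b = algebraMap B₁ F s ^ k * algebraMap B₀ F x)
    (hfr₀ : ∀ z ∈ I₁, ∃ k : ℕ, algebraMap B₀ F t ^ k * z ∈ I₀)
    (hfr₁ : ∀ z ∈ I₀, ∃ k : ℕ, algebraMap B₁ F s ^ k * z ∈ I₁) :
    ∃ (W₀ : Ideal B₀) (W₁ : Ideal B₁) (a M : ℕ), π₀ ^ M ∈ W₀ ∧ π₁ ^ M ∈ W₁ ∧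
      Submodule.span B₀ {algebraMap B₀ F π₀ ^ n} * I₀ ^ p =
        Submodule.span B₀ {algebraMap B₀ F π₀ ^ a * f} * IsLocalization.coeSubmodule F W₀ ^ p ∧
      Submodule.span B₁ {algebraMap B₁ F π₁ ^ n} * I₁ ^ p =
        Submodule.span B₁ {algebraMap B₁ F π₁ ^ a * f} * IsLocalization.coeSubmodule F W₁ ^ p ∧
      (∃ Y₀ : Submodule B₀ F, IsLocalization.coeSubmodule F W₀ * Y₀ = 1) ∧
      (∃ Y₁ : Submodule B₁ F, IsLocalization.coeSubmodule F W₁ * Y₁ = 1) ∧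
      (∀ w ∈ W₁, ∃ (m : ℕ) (w₀ : B₀), w₀ ∈ W₀ ∧
        algebraMap B₀ F w₀ = algebraMap B₀ F t ^ m * algebraMap B₁ F w) ∧
      (∀ w ∈ W₀, ∃ (m : ℕ) (w₁ : B₁), w₁ ∈ W₁ ∧
        algebraMap B₁ F w₁ = algebraMap B₁ F s ^ m * algebraMap B₀ F w) := by
  have hp : p ≠ 0 := NeZero.ne p
  have hts' : algebraMap B₁ F s * algebraMap B₀ F t = 1 := by rw [mul_comm]; exact hts
  have ht₁ := Hc₀.le₁ t
  have ht₂ := Hc₀.le₂ t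
  have hs₁ := Hc₁.le₁ s
  have hs₂ := Hc₁.le₂ s
  obtain ⟨a₁, a₂, c, hmin₀, hor⟩ := exists_orders_of_lamW hg₀ π₀ O₁ O₂ Hc₀ 𝔪₀ H₁₀ H₂₀ K x₀ y₀ D₀
    res₁ hres v e₀ HP hIJ₀ p hf n h1₀ h2₀ HR hπC h0
  have hmin₁ : MinOrders π₁ O₁ O₂ (vertPart π₁ I₁ p f n) a₁ a₂ :=
    hmin₀.transfer hπ t s hts ht₁ hs₁ ht₂ hs₂ hov₀ hov₁ hfr₀ hfr₁
  rcases hor with ha | ha
  · obtain ⟨hid₀, hY₀⟩ := vertical_root_of_orders hg₀ π₀ O₁ O₂ Hc₀ 𝔪₀ H₁₀ H₂₀ hall₀ K x₀ y₀ D₀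
      hIJ₀ p hp hf n h1₀ h2₀ hmin₀ c ha
    obtain ⟨hid₁, hY₁⟩ := vertical_root_of_orders hg₁ π₁ O₁ O₂ Hc₁ 𝔪₁ H₁₁ H₂₁ hall₁ K x₁ y₁ D₁
      hIJ₁ p hp hf n h1₁ h2₁ hmin₁ c ha
    exact ⟨_, _, a₁, c * K, pow_mem_vertIdeal Hc₀ 0 (c * K) (c * K) (Nat.zero_le _) le_rfl,
      pow_mem_vertIdeal Hc₁ 0 (c * K) (c * K) (Nat.zero_le _) le_rfl, hid₀, hid₁, hY₀, hY₁,
      vertIdeal_transfer hπ t ht₁ ht₂ hov₀ Hc₀.le₁ Hc₀.le₂ Hc₁.le₁ Hc₁.le₂ 0 (c * K),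
      vertIdeal_transfer hπ.symm s hs₁ hs₂ hov₁ Hc₁.le₁ Hc₁.le₂ Hc₀.le₁ Hc₀.le₂ 0 (c * K)⟩
  · have hall₀' : ∀ 𝔫 : Ideal B₀, 𝔫.IsMaximal → ¬ Off π₀ O₂ 𝔫 → ¬ Off π₀ O₁ 𝔫 →
        ∃ e, 𝔪₀ e = 𝔫 := fun 𝔫 h h2 h1 => hall₀ 𝔫 h h1 h2
    have hall₁' : ∀ 𝔫 : Ideal B₁, 𝔫.IsMaximal → ¬ Off π₁ O₂ 𝔫 → ¬ Off π₁ O₁ 𝔫 →
        ∃ e, 𝔪₁ e = 𝔫 := fun 𝔫 h h2 h1 => hall₁ 𝔫 h h1 h2
    obtain ⟨hid₀, hY₀⟩ := vertical_root_of_orders hg₀ π₀ O₂ O₁ Hc₀.symm 𝔪₀ H₂₀ H₁₀ hall₀' K y₀ x₀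
      (fun e => (D₀ e).symm) hIJ₀ p hp hf n h1₀ h2₀ hmin₀.symm c ha
    obtain ⟨hid₁, hY₁⟩ := vertical_root_of_orders hg₁ π₁ O₂ O₁ Hc₁.symm 𝔪₁ H₂₁ H₁₁ hall₁' K y₁ x₁
      (fun e => (D₁ e).symm) hIJ₁ p hp hf n h1₁ h2₁ hmin₁.symm c ha
    exact ⟨_, _, a₂, c * K,
      pow_mem_vertIdeal Hc₀.symm 0 (c * K) (c * K) (Nat.zero_le _) le_rfl,
      pow_mem_vertIdeal Hc₁.symm 0 (c * K) (c * K) (Nat.zero_le _) le_rfl, hid₀, hid₁, hY₀, hY₁,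
      vertIdeal_transfer hπ t ht₂ ht₁ hov₀ Hc₀.le₂ Hc₀.le₁ Hc₁.le₂ Hc₁.le₁ 0 (c * K),
      vertIdeal_transfer hπ.symm s hs₂ hs₁ hov₁ Hc₁.le₂ Hc₁.le₁ Hc₀.le₂ Hc₀.le₁ 0 (c * K)⟩

end TwoCharts

end Fermat.Agent.T1B.Hol80
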