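import Mathlib
import Fermat.Agent.T1B.Hol80.TwoChartRoot

/-!
# T1B (S44), brick SLOPE80 (helper80), part 11: (R1) against the TOP-LEVEL residue vector `rho`

The frames of (R1) live over a DISCRETE level (`F₁ = FK N L`, `O₁` the Gauss valuation ring of the
number-field level `L`, uniformiser `π`), whereas `Brandt36.rho` / `lam` live at the top level
(`F₂ = Fbar N` over `ℚ̄`, `V₂ = gaussVal A e`, NOT discrete).  The landed (R1) theorems take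
`HR : RhoInputs O₁ res₁ v C` at the level of the frames, whose fields `const`, `constC` are irrelevant
there and not available at level `L`.  This file removes that hypothesis:

* `exists_orders_of_dvdW`, `exists_vertical_root_twoChart_of_dvd` : PRIMITIVE forms of
  `exists_orders_of_lamW`, `exists_vertical_root_twoChart` (hypothesis `p ∣ ord_{v₀} (res₁ u)` for
  `f = u c₀`, plus `hordC` at the one place `v₀`; `HasConstScaling` is derived from the uniformiser);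
* `valHom ψ O₁ V₂ hO : O₁ →+* V₂` for a field map `ψ : F₁ →+* F₂` with `ψ (O₁) ⊆ V₂`;
  `lam_map_eq` : `lam V₂ res₂ vE p C₂ (ψ f) = resVec vE p (res₂ (ψ u))` for `f = c₀ u` at level 1;
  `ordC_valHom` : `ordC` at level 1 from the top level;
* `lam_const_of_frame_top` : **(R1a) with the top-level `lam`**;
* `exists_vertical_root_twoChart_top` : **(R1b) on two charts with the top-level `lam`**.
-/

set_option autoImplicit false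
set_option linter.unusedSectionVars false

namespace Fermat.Agent.T1B.Hol80

open AlgebraicCurve Fermat.Agent.T1.Peu37.NodeClassGroup Fermat.Agent.T1B.NodeNF37.Local
  Fermat.Agent.T1B.NodeNF37.UnifOrd Fermat.Agent.T1B.Hol31.Local Fermat.Agent.T1B.Brandt36

section Unif

variable {F : Type*} [Field F]

/-- A valuation subring with a uniformiser `ϖ`: every nonzero `a ∈ F` is `ϖ ^ n * b`, `n : ℤ`, `b` a
unit (copy of `Hol80.exists_zpow_mul_unit` of `Inst.lean`, to keep the import closure small). -/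
theorem exists_zpow_mul_unit_of_isUnifFor {V : ValuationSubring F} {ϖ : F} (h : IsUnifFor V ϖ)
    {a : F} (ha : a ≠ 0) : ∃ n : ℤ, ∃ b : (↥V)ˣ, a = ϖ ^ n * ((b : ↥V) : F) := by
  rcases V.mem_or_inv_mem a with hmem | hmem
  · obtain ⟨n, u, hu, hu', hau⟩ := h.exists_repr hmem ha
    have hu0 : u ≠ 0 := by
      rintro rfl; rw [mul_zero] at hau; exact ha hau
    exact ⟨n, ⟨⟨u, hu⟩, ⟨u⁻¹, hu'⟩, Subtype.ext (mul_inv_cancel₀ hu0),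
      Subtype.ext (inv_mul_cancel₀ hu0)⟩, by rw [zpow_natCast]; exact hau⟩
  · obtain ⟨n, u, hu, hu', hau⟩ := h.exists_repr hmem (inv_ne_zero ha)
    have hu0 : u ≠ 0 := by
      rintro rfl; rw [mul_zero] at hau; exact (inv_ne_zero ha) hau
    refine ⟨-n, ⟨⟨u⁻¹, hu'⟩, ⟨u, hu⟩, Subtype.ext (inv_mul_cancel₀ hu0),
      Subtype.ext (mul_inv_cancel₀ hu0)⟩, ?_⟩
    show a = ϖ ^ (-(n : ℤ)) * u⁻¹
    rw [zpow_neg, zpow_natCast, ← mul_inv, ← hau, inv_inv]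

/-- A valuation subring with a uniformiser lying in `C` has constant scaling. -/
theorem hasConstScaling_of_isUnifFor {V : ValuationSubring F} {ϖ : F} (h : IsUnifFor V ϖ)
    (C : Subfield F) (hϖ : ϖ ∈ C) : HasConstScaling V C :=
  hasConstScaling_of_uniformizer V C hϖ h.ne (fun _ ha => exists_zpow_mul_unit_of_isUnifFor h ha)

end Unif

section OneChartP

variable {B F : Type*} [CommRing B] [IsDomain B] [IsNoetherianRing B] [Field F] [Algebra B F]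
variable {κ k : Type*} [Field κ] [Field k] [Algebra κ k]

/-- **The minimal orders of the vertical part** on a chart with a node place `v₀` at which the order of `res₁ u` (`f = u c₀`) is divisible by `p`: `a₂ = a₁ + p (c K)` or `a₁ = a₂ + p (c K)`. -/
theorem exists_orders_of_dvdW (hg : Function.Injective (algebraMap B F)) (π : B)
    (O₁ O₂ : ValuationSubring F) (Hc : ChartHyp π O₁ O₂)
    {E : Type*} (𝔪 : E → Ideal B) [∀ e, (𝔪 e).IsPrime]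
    (H₁ : ∀ e, BranchHyp (algebraMap B F) (𝔪 e) O₁ π)
    (H₂ : ∀ e, BranchHyp (algebraMap B F) (𝔪 e) O₂ π)
    (K : ℕ) (x y : ∀ e, Localization.AtPrime (𝔪 e))
    (D : ∀ e, NodeData (Localization.AtPrime (𝔪 e))
      (vv (algebraMap B F) hg (𝔪 e) O₁ π) (vv (algebraMap B F) hg (𝔪 e) O₂ π)
      (PP (algebraMap B F) hg (𝔪 e) (H₁ e)) (PP (algebraMap B F) hg (𝔪 e) (H₂ e))
      (algebraMap B (Localization.AtPrime (𝔪 e)) π) (x e) (y e) K)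
    (res₁ : ↥O₁ →+* k) (hres : ∀ z : ↥O₁, ¬ IsUnit z → res₁ z = 0) (v₀ : Place κ k)
    (e₀ : E)
    (HP : NodePlaceW (PP (algebraMap B F) hg (𝔪 e₀) (H₁ e₀))
      (res₁.comp (toO O₁ (iota (algebraMap B F) hg (𝔪 e₀))
        (iota_mem (algebraMap B F) hg (𝔪 e₀) (H₁ e₀)))) v₀)
    {I J : Submodule B F} (hIJ : I * J = 1) (p : ℕ) [NeZero p] {f : F} (hf : f ≠ 0) (n : ℕ)
    (h1 : algebraMap B F π ^ n * f ∈ I ^ p)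
    (h2 : ∀ z ∈ I ^ p, ∃ r : B, algebraMap B F π ^ n * z = r • f)
    {C : Subfield F} (hπC : algebraMap B F π ∈ C)
    (hordC : ∀ c : (↥O₁)ˣ, ((c : ↥O₁) : F) ∈ C → v₀.ord (res₁ (c : ↥O₁)) = 0)
    (u : (↥O₁)ˣ) {c₀ : F} (hc₀ : c₀ ∈ C) (hu : ((u : ↥O₁) : F) * c₀ = f)
    (hρ : (p : ℤ) ∣ v₀.ord (res₁ (u : ↥O₁))) :
    ∃ a₁ a₂ c : ℕ, MinOrders π O₁ O₂ (vertPart π I p f n) a₁ a₂ ∧
      (a₂ = a₁ + p * (c * K) ∨ a₁ = a₂ + p * (c * K)) := by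
  classical
  have hscal : HasConstScaling O₁ C := hasConstScaling_of_isUnifFor Hc.unif₁ C hπC
  set d := vertPart π I p f n with hd_def
  have hN : π ^ (2 * n) ∈ d := pow_mem_vertPart h1
  have hπ0 : algebraMap B F π ≠ 0 := Hc.unif₁.ne
  have hπn0 : π ^ (2 * n) ≠ 0 := pow_ne_zero _ Hc.pi_ne
  obtain ⟨a₁, hle₁, hex₁⟩ := exists_min_order hg Hc.le₁ Hc.unif₁ d hN hπn0
  obtain ⟨a₂, hle₂, hex₂⟩ := exists_min_order hg Hc.le₂ Hc.unif₂ d hN hπn0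
  obtain ⟨α, hαI, hα0, s, hs, hgen, r, r', hr, hrr'⟩ :=
    exists_vertical_at hg π hIJ p hf n h1 h2 (𝔪 e₀)
  obtain ⟨hrd, hrgen⟩ := vertPart_local_generator hg hf hαI hgen hr
  have hsp : s ^ p ∉ 𝔪 e₀ := fun hmem => hs (Ideal.IsPrime.mem_of_pow_mem inferInstance p hmem)
  have hoff₁ : ¬ Off π O₁ (𝔪 e₀) := fun ⟨e, he, c, hc, hec⟩ => (H₁ e₀).on e he ⟨c, hc, hec⟩
  have hoff₂ : ¬ Off π O₂ (𝔪 e₀) := fun ⟨e, he, c, hc, hec⟩ => (H₂ e₀).on e he ⟨c, hc, hec⟩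
  obtain ⟨c₁, hc₁, hc₁', hc₁0, hrc₁⟩ :=
    local_generator_order hg Hc.le₁ Hc.unif₁ hoff₁ hle₁ hex₁ hrd hsp hrgen
  obtain ⟨c₂, hc₂, hc₂', hc₂0, hrc₂⟩ :=
    local_generator_order hg Hc.le₂ Hc.unif₂ hoff₂ hle₂ hex₂ hrd hsp hrgen
  have hord₁ : ord O₁ (algebraMap B F π) (algebraMap B F r) = a₁ := by
    rw [hrc₁]
    exact Hc.unif₁.ord_pow_mul_unit hc₁ hc₁' hc₁0
  have hord₂ : ord O₂ (algebraMap B F π) (algebraMap B F r) = a₂ := by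
    rw [hrc₂]
    exact Hc.unif₂.ord_pow_mul_unit hc₂ hc₂' hc₂0
  have hnoeth : IsNoetherianRing (Localization.AtPrime (𝔪 e₀)) :=
    IsLocalization.isNoetherianRing (𝔪 e₀).primeCompl _ inferInstance
  set φ := algebraMap B (Localization.AtPrime (𝔪 e₀)) with hφ
  have hU : IsUnit (φ s ^ p) := (isUnit_algebraMap (𝔪 e₀) hs).pow p
  obtain ⟨U', hU'⟩ := hU.exists_right_inv
  have hh : φ r * (φ r' * U') = φ π ^ (2 * n) := by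
    have h3 : φ r * φ r' = φ s ^ p * φ π ^ (2 * n) := by
      rw [← map_mul, hrr', map_mul, map_pow, map_pow]
    calc φ r * (φ r' * U') = (φ r * φ r') * U' := by ring
      _ = (φ s ^ p * U') * φ π ^ (2 * n) := by rw [h3]; ring
      _ = φ π ^ (2 * n) := by rw [hU', one_mul]
  have heq : α ^ p * (iota (algebraMap B F) hg (𝔪 e₀) (φ π)) ^ n =
      f * iota (algebraMap B F) hg (𝔪 e₀) (φ r) := by
    rw [iota_algebraMap, iota_algebraMap]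
    have e1 := hr
    rw [Algebra.smul_def] at e1
    linear_combination e1
  obtain ⟨m, hm⟩ := ord_res_unit_of_twistedW (D e₀) (iota (algebraMap B F) hg (𝔪 e₀))
    (iota_mem (algebraMap B F) hg (𝔪 e₀) (H₁ e₀)) res₁ hres HP p hα0 hh heq hscal
    hordC
    (by rw [iota_algebraMap]; exact hπC) (by rw [iota_algebraMap]; exact hπ0) u hc₀ hu
  have hsl := slope_mul_K (D e₀) hh
  have hv₁ : vv (algebraMap B F) hg (𝔪 e₀) O₁ π (φ r) = a₁ := by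
    unfold vv
    rw [hφ, iota_algebraMap]
    exact hord₁
  have hv₂ : vv (algebraMap B F) hg (𝔪 e₀) O₂ π (φ r) = a₂ := by
    unfold vv
    rw [hφ, iota_algebraMap]
    exact hord₂
  rw [hv₁, hv₂] at hsl
  set σ := slope K (vv (algebraMap B F) hg (𝔪 e₀) O₁ π) (vv (algebraMap B F) hg (𝔪 e₀) O₂ π)
    (φ r) with hσ
  have hpσ : (p : ℤ) ∣ σ := by
    have e1 : σ = (p : ℤ) * m - v₀.ord (res₁ (u : ↥O₁)) := by rw [hm]; ring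
    rw [e1]
    exact dvd_sub (dvd_mul_right _ _) hρ
  obtain ⟨c', hc'⟩ := hpσ
  rcases le_or_gt 0 c' with hc0 | hc0
  · obtain ⟨c, rfl⟩ := Int.eq_ofNat_of_zero_le hc0
    refine ⟨a₁, a₂, c, ⟨hle₁, hex₁, hle₂, hex₂⟩, Or.inl ?_⟩
    have e1 : (a₂ : ℤ) = a₁ + p * (c * K) := by
      rw [hc'] at hsl
      linarith
    exact_mod_cast e1
  · obtain ⟨c, hc⟩ := Int.eq_ofNat_of_zero_le (show (0 : ℤ) ≤ -c' by omega)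
    refine ⟨a₁, a₂, c, ⟨hle₁, hex₁, hle₂, hex₂⟩, Or.inr ?_⟩
    have e1 : (a₁ : ℤ) = a₂ + p * (c * K) := by
      rw [hc'] at hsl
      have e2 : c' = -(c : ℤ) := by omega
      rw [e2] at hsl
      linarith
    exact_mod_cast e1

end OneChartP

section TwoChartsP

variable {B₀ B₁ F : Type*} [CommRing B₀] [IsDomain B₀] [IsNoetherianRing B₀]
  [CommRing B₁] [IsDomain B₁] [IsNoetherianRing B₁] [Field F] [Algebra B₀ F] [Algebra B₁ F]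
variable {κ k : Type*} [Field κ] [Field k] [Algebra κ k]

/-- **(R1b) on two charts.**  Charts `B₀, B₁ ⊂ F` (overlap `B₀[1/t] = B₁[1/s]`, `t s = 1`, `t` a unit
of both branches), both satisfying `ChartHyp` with all two-branch points nodes of the same thickness
`K`; compatible invertible frames `I₀, I₁` with `I_j ^ p = f · (vertical)`; a node place `v₀` on
chart `0` (over the node `e₀`) with `p ∣ ord_{v₀} (res₁ u)`, `f = u c₀`.  Then there are vertical ideals `W₀ ⊂ B₀`, `W₁ ⊂ B₁`, INVERTIBLE,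
compatible on the overlap, and ONE exponent `a` with
`(π ^ n) I_j ^ p = (π ^ a f) W_j ^ p` for `j = 0, 1`. -/
theorem exists_vertical_root_twoChart_of_dvd
    (hg₀ : Function.Injective (algebraMap B₀ F)) (π₀ : B₀)
    (O₁ O₂ : ValuationSubring F) (Hc₀ : ChartHyp π₀ O₁ O₂)
    {E₀ : Type*} (𝔪₀ : E₀ → Ideal B₀) [∀ e, (𝔪₀ e).IsPrime]
    (H₁₀ : ∀ e, BranchHyp (algebraMap B₀ F) (𝔪₀ e) O₁ π₀)
    (H₂₀ : ∀ e, BranchHyp (algebraMap B₀ F) (𝔪₀ e) O₂ π₀)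
    (hall₀ : ∀ 𝔫 : Ideal B₀, 𝔫.IsMaximal → ¬ Off π₀ O₁ 𝔫 → ¬ Off π₀ O₂ 𝔫 → ∃ e, 𝔪₀ e = 𝔫)
    (K : ℕ) (x₀ y₀ : ∀ e, Localization.AtPrime (𝔪₀ e))
    (D₀ : ∀ e, NodeData (Localization.AtPrime (𝔪₀ e))
      (vv (algebraMap B₀ F) hg₀ (𝔪₀ e) O₁ π₀) (vv (algebraMap B₀ F) hg₀ (𝔪₀ e) O₂ π₀)
      (PP (algebraMap B₀ F) hg₀ (𝔪₀ e) (H₁₀ e)) (PP (algebraMap B₀ F) hg₀ (𝔪₀ e) (H₂₀ e))
      (algebraMap B₀ (Localization.AtPrime (𝔪₀ e)) π₀) (x₀ e) (y₀ e) K)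
    (res₁ : ↥O₁ →+* k) (hres : ∀ z : ↥O₁, ¬ IsUnit z → res₁ z = 0) (v₀ : Place κ k)
    (e₀ : E₀)
    (HP : NodePlaceW (PP (algebraMap B₀ F) hg₀ (𝔪₀ e₀) (H₁₀ e₀))
      (res₁.comp (toO O₁ (iota (algebraMap B₀ F) hg₀ (𝔪₀ e₀))
        (iota_mem (algebraMap B₀ F) hg₀ (𝔪₀ e₀) (H₁₀ e₀)))) v₀)
    {I₀ J₀ : Submodule B₀ F} (hIJ₀ : I₀ * J₀ = 1) (p : ℕ) [NeZero p] {f : F} (hf : f ≠ 0) (n : ℕ)
    (h1₀ : algebraMap B₀ F π₀ ^ n * f ∈ I₀ ^ p)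
    (h2₀ : ∀ z ∈ I₀ ^ p, ∃ r : B₀, algebraMap B₀ F π₀ ^ n * z = r • f)
    {C : Subfield F} (hπC : algebraMap B₀ F π₀ ∈ C)
    (hordC : ∀ c : (↥O₁)ˣ, ((c : ↥O₁) : F) ∈ C → v₀.ord (res₁ (c : ↥O₁)) = 0)
    (u : (↥O₁)ˣ) {c₀ : F} (hc₀ : c₀ ∈ C) (hu : ((u : ↥O₁) : F) * c₀ = f)
    (hρ : (p : ℤ) ∣ v₀.ord (res₁ (u : ↥O₁)))
    -- chart 1
    (hg₁ : Function.Injective (algebraMap B₁ F)) (π₁ : B₁) (Hc₁ : ChartHyp π₁ O₁ O₂)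
    {E₁ : Type*} (𝔪₁ : E₁ → Ideal B₁) [∀ e, (𝔪₁ e).IsPrime]
    (H₁₁ : ∀ e, BranchHyp (algebraMap B₁ F) (𝔪₁ e) O₁ π₁)
    (H₂₁ : ∀ e, BranchHyp (algebraMap B₁ F) (𝔪₁ e) O₂ π₁)
    (hall₁ : ∀ 𝔫 : Ideal B₁, 𝔫.IsMaximal → ¬ Off π₁ O₁ 𝔫 → ¬ Off π₁ O₂ 𝔫 → ∃ e, 𝔪₁ e = 𝔫)
    (x₁ y₁ : ∀ e, Localization.AtPrime (𝔪₁ e))
    (D₁ : ∀ e, NodeData (Localization.AtPrime (𝔪₁ e))
      (vv (algebraMap B₁ F) hg₁ (𝔪₁ e) O₁ π₁) (vv (algebraMap B₁ F) hg₁ (𝔪₁ e) O₂ π₁)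
      (PP (algebraMap B₁ F) hg₁ (𝔪₁ e) (H₁₁ e)) (PP (algebraMap B₁ F) hg₁ (𝔪₁ e) (H₂₁ e))
      (algebraMap B₁ (Localization.AtPrime (𝔪₁ e)) π₁) (x₁ e) (y₁ e) K)
    {I₁ J₁ : Submodule B₁ F} (hIJ₁ : I₁ * J₁ = 1)
    (h1₁ : algebraMap B₁ F π₁ ^ n * f ∈ I₁ ^ p)
    (h2₁ : ∀ z ∈ I₁ ^ p, ∃ r : B₁, algebraMap B₁ F π₁ ^ n * z = r • f)
    -- overlap
    (hπ : algebraMap B₀ F π₀ = algebraMap B₁ F π₁)
    (t : B₀) (s : B₁) (hts : algebraMap B₀ F t * algebraMap B₁ F s = 1)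
    (hov₀ : ∀ x : B₁, ∃ (k : ℕ) (b : B₀),
      algebraMap B₀ F b = algebraMap B₀ F t ^ k * algebraMap B₁ F x)
    (hov₁ : ∀ x : B₀, ∃ (k : ℕ) (b : B₁),
      algebraMap B₁ F b = algebraMap B₁ F s ^ k * algebraMap B₀ F x)
    (hfr₀ : ∀ z ∈ I₁, ∃ k : ℕ, algebraMap B₀ F t ^ k * z ∈ I₀)
    (hfr₁ : ∀ z ∈ I₀, ∃ k : ℕ, algebraMap B₁ F s ^ k * z ∈ I₁) :
    ∃ (W₀ : Ideal B₀) (W₁ : Ideal B₁) (a M : ℕ), π₀ ^ M ∈ W₀ ∧ π₁ ^ M ∈ W₁ ∧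
      Submodule.span B₀ {algebraMap B₀ F π₀ ^ n} * I₀ ^ p =
        Submodule.span B₀ {algebraMap B₀ F π₀ ^ a * f} * IsLocalization.coeSubmodule F W₀ ^ p ∧
      Submodule.span B₁ {algebraMap B₁ F π₁ ^ n} * I₁ ^ p =
        Submodule.span B₁ {algebraMap B₁ F π₁ ^ a * f} * IsLocalization.coeSubmodule F W₁ ^ p ∧
      (∃ Y₀ : Submodule B₀ F, IsLocalization.coeSubmodule F W₀ * Y₀ = 1) ∧
      (∃ Y₁ : Submodule B₁ F, IsLocalization.coeSubmodule F W₁ * Y₁ = 1) ∧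
      (∀ w ∈ W₁, ∃ (m : ℕ) (w₀ : B₀), w₀ ∈ W₀ ∧
        algebraMap B₀ F w₀ = algebraMap B₀ F t ^ m * algebraMap B₁ F w) ∧
      (∀ w ∈ W₀, ∃ (m : ℕ) (w₁ : B₁), w₁ ∈ W₁ ∧
        algebraMap B₁ F w₁ = algebraMap B₁ F s ^ m * algebraMap B₀ F w) := by
  have hp : p ≠ 0 := NeZero.ne p
  have hts' : algebraMap B₁ F s * algebraMap B₀ F t = 1 := by rw [mul_comm]; exact hts
  have ht₁ := Hc₀.le₁ t
  have ht₂ := Hc₀.le₂ t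
  have hs₁ := Hc₁.le₁ s
  have hs₂ := Hc₁.le₂ s
  obtain ⟨a₁, a₂, c, hmin₀, hor⟩ := exists_orders_of_dvdW hg₀ π₀ O₁ O₂ Hc₀ 𝔪₀ H₁₀ H₂₀ K x₀ y₀ D₀
    res₁ hres v₀ e₀ HP hIJ₀ p hf n h1₀ h2₀ hπC hordC u hc₀ hu hρ
  have hmin₁ : MinOrders π₁ O₁ O₂ (vertPart π₁ I₁ p f n) a₁ a₂ :=
    hmin₀.transfer hπ t s hts ht₁ hs₁ ht₂ hs₂ hov₀ hov₁ hfr₀ hfr₁
  rcases hor with ha | ha
  · obtain ⟨hid₀, hY₀⟩ := vertical_root_of_orders hg₀ π₀ O₁ O₂ Hc₀ 𝔪₀ H₁₀ H₂₀ hall₀ K x₀ y₀ D₀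
      hIJ₀ p hp hf n h1₀ h2₀ hmin₀ c ha
    obtain ⟨hid₁, hY₁⟩ := vertical_root_of_orders hg₁ π₁ O₁ O₂ Hc₁ 𝔪₁ H₁₁ H₂₁ hall₁ K x₁ y₁ D₁
      hIJ₁ p hp hf n h1₁ h2₁ hmin₁ c ha
    exact ⟨_, _, a₁, c * K, pow_mem_vertIdeal Hc₀ 0 (c * K) (c * K) (Nat.zero_le _) le_rfl,
      pow_mem_vertIdeal Hc₁ 0 (c * K) (c * K) (Nat.zero_le _) le_rfl, hid₀, hid₁, hY₀, hY₁,
      vertIdeal_transfer hπ t ht₁ ht₂ hov₀ Hc₀.le₁ Hc₀.le₂ Hc₁.le₁ Hc₁.le₂ 0 (c * K),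
      vertIdeal_transfer hπ.symm s hs₁ hs₂ hov₁ Hc₁.le₁ Hc₁.le₂ Hc₀.le₁ Hc₀.le₂ 0 (c * K)⟩
  · have hall₀' : ∀ 𝔫 : Ideal B₀, 𝔫.IsMaximal → ¬ Off π₀ O₂ 𝔫 → ¬ Off π₀ O₁ 𝔫 →
        ∃ e, 𝔪₀ e = 𝔫 := fun 𝔫 h h2 h1 => hall₀ 𝔫 h h1 h2
    have hall₁' : ∀ 𝔫 : Ideal B₁, 𝔫.IsMaximal → ¬ Off π₁ O₂ 𝔫 → ¬ Off π₁ O₁ 𝔫 →
        ∃ e, 𝔪₁ e = 𝔫 := fun 𝔫 h h2 h1 => hall₁ 𝔫 h h1 h2
    obtain ⟨hid₀, hY₀⟩ := vertical_root_of_orders hg₀ π₀ O₂ O₁ Hc₀.symm 𝔪₀ H₂₀ H₁₀ hall₀' K y₀ x₀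
      (fun e => (D₀ e).symm) hIJ₀ p hp hf n h1₀ h2₀ hmin₀.symm c ha
    obtain ⟨hid₁, hY₁⟩ := vertical_root_of_orders hg₁ π₁ O₂ O₁ Hc₁.symm 𝔪₁ H₂₁ H₁₁ hall₁' K y₁ x₁
      (fun e => (D₁ e).symm) hIJ₁ p hp hf n h1₁ h2₁ hmin₁.symm c ha
    exact ⟨_, _, a₂, c * K,
      pow_mem_vertIdeal Hc₀.symm 0 (c * K) (c * K) (Nat.zero_le _) le_rfl,
      pow_mem_vertIdeal Hc₁.symm 0 (c * K) (c * K) (Nat.zero_le _) le_rfl, hid₀, hid₁, hY₀, hY₁,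
      vertIdeal_transfer hπ t ht₂ ht₁ hov₀ Hc₀.le₂ Hc₀.le₁ Hc₁.le₂ Hc₁.le₁ 0 (c * K),
      vertIdeal_transfer hπ.symm s hs₂ hs₁ hov₁ Hc₁.le₂ Hc₁.le₁ Hc₀.le₂ Hc₀.le₁ 0 (c * K)⟩

end TwoChartsP

section Top

variable {F₁ F₂ : Type*} [Field F₁] [Field F₂]

/-- A field map `ψ : F₁ →+* F₂` with `ψ (O₁) ⊆ V₂`, restricted to the valuation subrings. -/
def valHom (ψ : F₁ →+* F₂) (O₁ : ValuationSubring F₁) (V₂ : ValuationSubring F₂)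
    (hO : ∀ x ∈ O₁, ψ x ∈ V₂) : ↥O₁ →+* ↥V₂ where
  toFun := fun x : ↥O₁ => ⟨ψ (x : F₁), hO _ x.2⟩
  map_one' := Subtype.ext (map_one ψ)
  map_mul' a b := Subtype.ext (map_mul ψ (a : F₁) (b : F₁))
  map_zero' := Subtype.ext (map_zero ψ)
  map_add' a b := Subtype.ext (map_add ψ (a : F₁) (b : F₁))

@[simp] theorem coe_valHom (ψ : F₁ →+* F₂) (O₁ : ValuationSubring F₁) (V₂ : ValuationSubring F₂)
    (hO : ∀ x ∈ O₁, ψ x ∈ V₂) (x : ↥O₁) : ((valHom ψ O₁ V₂ hO x : ↥V₂) : F₂) = ψ (x : F₁) := rfl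

variable {K₂ : Type*} [Field K₂] [Algebra K₂ F₂]
variable {κ k : Type*} [Field κ] [Field k] [Algebra κ k]
variable {ψ : F₁ →+* F₂} {O₁ : ValuationSubring F₁} {V₂ : ValuationSubring F₂}
  {res₂ : ↥V₂ →+* k} {ι : Type*} {vE : ι → Place κ k} {p : ℕ} {C₂ : Subfield F₂}

/-- **`lam` at the top level of a function of level 1**, through a level-1 normalisation. -/
theorem lam_map_eq (H₂ : RhoInputs (K₀ := K₂) V₂ res₂ vE C₂) (hO : ∀ x ∈ O₁, ψ x ∈ V₂)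
    {f c₀ : F₁} (u : (↥O₁)ˣ) (hc₀ : ψ c₀ ∈ C₂) (hc₀0 : c₀ ≠ 0)
    (hf : f = c₀ * ((u : ↥O₁) : F₁)) :
    lam V₂ res₂ vE p C₂ (ψ f) = resVec vE p (res₂ (valHom ψ O₁ V₂ hO (u : ↥O₁))) := by
  have h := lam_eq (p := p) H₂ (f := ψ f) (c := ψ c₀) (u := Units.map (valHom ψ O₁ V₂ hO).toMonoidHom u) hc₀
    ((map_ne_zero ψ).2 hc₀0) (by rw [hf, map_mul]; rfl)
  exact h

/-- `ordC` at level 1 from the top level. -/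
theorem ordC_valHom (H₂ : RhoInputs (K₀ := K₂) V₂ res₂ vE C₂) (hO : ∀ x ∈ O₁, ψ x ∈ V₂)
    (c : (↥O₁)ˣ) (hc : ψ ((c : ↥O₁) : F₁) ∈ C₂) (e : ι) :
    (vE e).ord ((res₂.comp (valHom ψ O₁ V₂ hO)) (c : ↥O₁)) = 0 :=
  H₂.ordC (Units.map (valHom ψ O₁ V₂ hO).toMonoidHom c) hc e

end Top

section TopOneChart

variable {B F₁ F₂ : Type*} [CommRing B] [IsDomain B] [IsNoetherianRing B] [Field F₁] [Field F₂]
  [Algebra B F₁]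
variable {K₂ : Type*} [Field K₂] [Algebra K₂ F₂]
variable {κ k : Type*} [Field κ] [Field k] [Algebra κ k]

/-- **(R1a) with the top-level `lam`.**  The chart `B ⊂ F₁` lives at a discrete level, its nodes
`𝔪 e` are indexed by the top-level family of node places `vE : ι → Place κ k`; `ψ : F₁ →+* F₂` the
map to the top-level function field, `ψ (O₁) ⊆ V₂`, `res₁ = res₂ ∘ ψ`.  Then `lam (ψ f)` is CONSTANT
for every `f` with `I ^ p = f · (vertical)`, `I` an invertible frame. -/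
theorem lam_const_of_frame_top (hg : Function.Injective (algebraMap B F₁)) (π : B)
    (O₁ O₂ : ValuationSubring F₁) {ι : Type*} (𝔪 : ι → Ideal B) [∀ e, (𝔪 e).IsPrime]
    (H₁ : ∀ e, BranchHyp (algebraMap B F₁) (𝔪 e) O₁ π)
    (H₂ : ∀ e, BranchHyp (algebraMap B F₁) (𝔪 e) O₂ π)
    (K : ℕ) (x y : ∀ e, Localization.AtPrime (𝔪 e))
    (D : ∀ e, NodeData (Localization.AtPrime (𝔪 e))
      (vv (algebraMap B F₁) hg (𝔪 e) O₁ π) (vv (algebraMap B F₁) hg (𝔪 e) O₂ π)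
      (PP (algebraMap B F₁) hg (𝔪 e) (H₁ e)) (PP (algebraMap B F₁) hg (𝔪 e) (H₂ e))
      (algebraMap B (Localization.AtPrime (𝔪 e)) π) (x e) (y e) K)
    (ψ : F₁ →+* F₂) (V₂ : ValuationSubring F₂) (hO : ∀ z ∈ O₁, ψ z ∈ V₂)
    (res₂ : ↥V₂ →+* k)
    (hres : ∀ z : ↥O₁, ¬ IsUnit z → (res₂.comp (valHom ψ O₁ V₂ hO)) z = 0)
    (vE : ι → Place κ k)
    (HP : ∀ e, NodePlaceW (PP (algebraMap B F₁) hg (𝔪 e) (H₁ e))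
      ((res₂.comp (valHom ψ O₁ V₂ hO)).comp (toO O₁ (iota (algebraMap B F₁) hg (𝔪 e))
        (iota_mem (algebraMap B F₁) hg (𝔪 e) (H₁ e)))) (vE e))
    {I J : Submodule B F₁} (hIJ : I * J = 1) (p : ℕ) {f : F₁} (hf : f ≠ 0) (n : ℕ)
    (h1 : algebraMap B F₁ π ^ n * f ∈ I ^ p)
    (h2 : ∀ z ∈ I ^ p, ∃ r : B, algebraMap B F₁ π ^ n * z = r • f)
    {C₂ : Subfield F₂} (HR : RhoInputs (K₀ := K₂) V₂ res₂ vE C₂)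
    (hπC : ψ (algebraMap B F₁ π) ∈ C₂) :
    ∃ s : ℤ, lam V₂ res₂ vE p C₂ (ψ f) = fun _ => (s : ZMod p) := by
  classical
  rcases isEmpty_or_nonempty ι with hE | ⟨⟨e₀⟩⟩
  · exact ⟨0, funext fun e => (hE.false e).elim⟩
  have hunif := (H₁ e₀).unif
  have hscal : HasConstScaling O₁ (C₂.comap ψ) :=
    hasConstScaling_of_isUnifFor hunif (C₂.comap ψ) (Subfield.mem_comap.2 hπC)
  obtain ⟨c₀, hc₀, hc₀0, u, hfu⟩ := hscal f hf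
  have hu : ((u : ↥O₁) : F₁) * c₀ = f := by rw [hfu, mul_comm]
  obtain ⟨s, hs⟩ := exists_const_residueW hg π O₁ O₂ 𝔪 H₁ H₂ K x y D
    (res₂.comp (valHom ψ O₁ V₂ hO)) hres vE HP hIJ p hf n h1 h2 hscal
    (fun e' c hc => ordC_valHom HR hO c (Subfield.mem_comap.1 hc) e') (Subfield.mem_comap.2 hπC)
    u hc₀ hu
  refine ⟨-s, ?_⟩
  rw [lam_map_eq HR hO u (Subfield.mem_comap.1 hc₀) hc₀0 hfu]
  funext e
  obtain ⟨m, hm⟩ := hs e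
  rw [resVec_apply]
  have hm' : (vE e).ord (res₂ (valHom ψ O₁ V₂ hO (u : ↥O₁))) = (p : ℤ) * m - s := hm
  rw [hm']
  push_cast
  rw [ZMod.natCast_self, zero_mul, zero_sub]

end TopOneChart

section TopTwoCharts

variable {B₀ B₁ F₁ F₂ : Type*} [CommRing B₀] [IsDomain B₀] [IsNoetherianRing B₀]
  [CommRing B₁] [IsDomain B₁] [IsNoetherianRing B₁] [Field F₁] [Field F₂]
  [Algebra B₀ F₁] [Algebra B₁ F₁]
variable {K₂ : Type*} [Field K₂] [Algebra K₂ F₂]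
variable {κ k : Type*} [Field κ] [Field k] [Algebra κ k]

/-- **(R1b) on two charts, with the top-level `lam`.**  Charts `B₀, B₁ ⊂ F` (overlap `B₀[1/t] = B₁[1/s]`, `t s = 1`, `t` a unit
of both branches), both satisfying `ChartHyp` with all two-branch points nodes of the same thickness
`K`; compatible invertible frames `I₀, I₁` with `I_j ^ p = f · (vertical)`; a top-level node place
`vE e₀'` over the node `e₀` of chart `0` with `lam (ψ f) e₀' = 0` (TOP-LEVEL `lam`).  Then there are vertical ideals `W₀ ⊂ B₀`, `W₁ ⊂ B₁`, INVERTIBLE,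
compatible on the overlap, and ONE exponent `a` with
`(π ^ n) I_j ^ p = (π ^ a f) W_j ^ p` for `j = 0, 1`. -/
theorem exists_vertical_root_twoChart_top
    (hg₀ : Function.Injective (algebraMap B₀ F₁)) (π₀ : B₀)
    (O₁ O₂ : ValuationSubring F₁) (Hc₀ : ChartHyp π₀ O₁ O₂)
    {E₀ : Type*} (𝔪₀ : E₀ → Ideal B₀) [∀ e, (𝔪₀ e).IsPrime]
    (H₁₀ : ∀ e, BranchHyp (algebraMap B₀ F₁) (𝔪₀ e) O₁ π₀)
    (H₂₀ : ∀ e, BranchHyp (algebraMap B₀ F₁) (𝔪₀ e) O₂ π₀)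
    (hall₀ : ∀ 𝔫 : Ideal B₀, 𝔫.IsMaximal → ¬ Off π₀ O₁ 𝔫 → ¬ Off π₀ O₂ 𝔫 → ∃ e, 𝔪₀ e = 𝔫)
    (K : ℕ) (x₀ y₀ : ∀ e, Localization.AtPrime (𝔪₀ e))
    (D₀ : ∀ e, NodeData (Localization.AtPrime (𝔪₀ e))
      (vv (algebraMap B₀ F₁) hg₀ (𝔪₀ e) O₁ π₀) (vv (algebraMap B₀ F₁) hg₀ (𝔪₀ e) O₂ π₀)
      (PP (algebraMap B₀ F₁) hg₀ (𝔪₀ e) (H₁₀ e)) (PP (algebraMap B₀ F₁) hg₀ (𝔪₀ e) (H₂₀ e))
      (algebraMap B₀ (Localization.AtPrime (𝔪₀ e)) π₀) (x₀ e) (y₀ e) K)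
    (ψ : F₁ →+* F₂) (V₂ : ValuationSubring F₂) (hO : ∀ z ∈ O₁, ψ z ∈ V₂)
    (res₂ : ↥V₂ →+* k)
    (hres : ∀ z : ↥O₁, ¬ IsUnit z → (res₂.comp (valHom ψ O₁ V₂ hO)) z = 0)
    {ι : Type*} (vE : ι → Place κ k) (e₀' : ι)
    (e₀ : E₀)
    (HP : NodePlaceW (PP (algebraMap B₀ F₁) hg₀ (𝔪₀ e₀) (H₁₀ e₀))
      ((res₂.comp (valHom ψ O₁ V₂ hO)).comp (toO O₁ (iota (algebraMap B₀ F₁) hg₀ (𝔪₀ e₀))
        (iota_mem (algebraMap B₀ F₁) hg₀ (𝔪₀ e₀) (H₁₀ e₀)))) (vE e₀'))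
    {I₀ J₀ : Submodule B₀ F₁} (hIJ₀ : I₀ * J₀ = 1) (p : ℕ) [NeZero p] {f : F₁} (hf : f ≠ 0) (n : ℕ)
    (h1₀ : algebraMap B₀ F₁ π₀ ^ n * f ∈ I₀ ^ p)
    (h2₀ : ∀ z ∈ I₀ ^ p, ∃ r : B₀, algebraMap B₀ F₁ π₀ ^ n * z = r • f)
    {C₂ : Subfield F₂} (HR : RhoInputs (K₀ := K₂) V₂ res₂ vE C₂)
    (hπC : ψ (algebraMap B₀ F₁ π₀) ∈ C₂)
    (h0 : lam V₂ res₂ vE p C₂ (ψ f) e₀' = 0)
    -- chart 1
    (hg₁ : Function.Injective (algebraMap B₁ F₁)) (π₁ : B₁) (Hc₁ : ChartHyp π₁ O₁ O₂)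
    {E₁ : Type*} (𝔪₁ : E₁ → Ideal B₁) [∀ e, (𝔪₁ e).IsPrime]
    (H₁₁ : ∀ e, BranchHyp (algebraMap B₁ F₁) (𝔪₁ e) O₁ π₁)
    (H₂₁ : ∀ e, BranchHyp (algebraMap B₁ F₁) (𝔪₁ e) O₂ π₁)
    (hall₁ : ∀ 𝔫 : Ideal B₁, 𝔫.IsMaximal → ¬ Off π₁ O₁ 𝔫 → ¬ Off π₁ O₂ 𝔫 → ∃ e, 𝔪₁ e = 𝔫)
    (x₁ y₁ : ∀ e, Localization.AtPrime (𝔪₁ e))
    (D₁ : ∀ e, NodeData (Localization.AtPrime (𝔪₁ e))
      (vv (algebraMap B₁ F₁) hg₁ (𝔪₁ e) O₁ π₁) (vv (algebraMap B₁ F₁) hg₁ (𝔪₁ e) O₂ π₁)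
      (PP (algebraMap B₁ F₁) hg₁ (𝔪₁ e) (H₁₁ e)) (PP (algebraMap B₁ F₁) hg₁ (𝔪₁ e) (H₂₁ e))
      (algebraMap B₁ (Localization.AtPrime (𝔪₁ e)) π₁) (x₁ e) (y₁ e) K)
    {I₁ J₁ : Submodule B₁ F₁} (hIJ₁ : I₁ * J₁ = 1)
    (h1₁ : algebraMap B₁ F₁ π₁ ^ n * f ∈ I₁ ^ p)
    (h2₁ : ∀ z ∈ I₁ ^ p, ∃ r : B₁, algebraMap B₁ F₁ π₁ ^ n * z = r • f)
    -- overlap
    (hπ : algebraMap B₀ F₁ π₀ = algebraMap B₁ F₁ π₁)
    (t : B₀) (s : B₁) (hts : algebraMap B₀ F₁ t * algebraMap B₁ F₁ s = 1)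
    (hov₀ : ∀ x : B₁, ∃ (k : ℕ) (b : B₀),
      algebraMap B₀ F₁ b = algebraMap B₀ F₁ t ^ k * algebraMap B₁ F₁ x)
    (hov₁ : ∀ x : B₀, ∃ (k : ℕ) (b : B₁),
      algebraMap B₁ F₁ b = algebraMap B₁ F₁ s ^ k * algebraMap B₀ F₁ x)
    (hfr₀ : ∀ z ∈ I₁, ∃ k : ℕ, algebraMap B₀ F₁ t ^ k * z ∈ I₀)
    (hfr₁ : ∀ z ∈ I₀, ∃ k : ℕ, algebraMap B₁ F₁ s ^ k * z ∈ I₁) :
    ∃ (W₀ : Ideal B₀) (W₁ : Ideal B₁) (a M : ℕ), π₀ ^ M ∈ W₀ ∧ π₁ ^ M ∈ W₁ ∧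
      Submodule.span B₀ {algebraMap B₀ F₁ π₀ ^ n} * I₀ ^ p =
        Submodule.span B₀ {algebraMap B₀ F₁ π₀ ^ a * f} * IsLocalization.coeSubmodule F₁ W₀ ^ p ∧
      Submodule.span B₁ {algebraMap B₁ F₁ π₁ ^ n} * I₁ ^ p =
        Submodule.span B₁ {algebraMap B₁ F₁ π₁ ^ a * f} * IsLocalization.coeSubmodule F₁ W₁ ^ p ∧
      (∃ Y₀ : Submodule B₀ F₁, IsLocalization.coeSubmodule F₁ W₀ * Y₀ = 1) ∧
      (∃ Y₁ : Submodule B₁ F₁, IsLocalization.coeSubmodule F₁ W₁ * Y₁ = 1) ∧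
      (∀ w ∈ W₁, ∃ (m : ℕ) (w₀ : B₀), w₀ ∈ W₀ ∧
        algebraMap B₀ F₁ w₀ = algebraMap B₀ F₁ t ^ m * algebraMap B₁ F₁ w) ∧
      (∀ w ∈ W₀, ∃ (m : ℕ) (w₁ : B₁), w₁ ∈ W₁ ∧
        algebraMap B₁ F₁ w₁ = algebraMap B₁ F₁ s ^ m * algebraMap B₀ F₁ w) := by
  have hunif := Hc₀.unif₁
  have hscal : HasConstScaling O₁ (C₂.comap ψ) :=
    hasConstScaling_of_isUnifFor hunif (C₂.comap ψ) (Subfield.mem_comap.2 hπC)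
  obtain ⟨c₀, hc₀, hc₀0, u, hfu⟩ := hscal f hf
  have hu : ((u : ↥O₁) : F₁) * c₀ = f := by rw [hfu, mul_comm]
  have hρ : (p : ℤ) ∣ (vE e₀').ord ((res₂.comp (valHom ψ O₁ V₂ hO)) (u : ↥O₁)) := by
    rw [lam_map_eq HR hO u (Subfield.mem_comap.1 hc₀) hc₀0 hfu, resVec_apply] at h0
    exact (ZMod.intCast_zmod_eq_zero_iff_dvd _ _).1 h0
  exact exists_vertical_root_twoChart_of_dvd hg₀ π₀ O₁ O₂ Hc₀ 𝔪₀ H₁₀ H₂₀ hall₀ K x₀ y₀ D₀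
    (res₂.comp (valHom ψ O₁ V₂ hO)) hres (vE e₀') e₀ HP hIJ₀ p hf n h1₀ h2₀
    (Subfield.mem_comap.2 hπC)
    (fun c hc => ordC_valHom HR hO c (Subfield.mem_comap.1 hc) e₀') u hc₀ hu hρ
    hg₁ π₁ Hc₁ 𝔪₁ H₁₁ H₂₁ hall₁ x₁ y₁ D₁ hIJ₁ h1₁ h2₁ hπ t s hts hov₀ hov₁ hfr₀ hfr₁

end TopTwoCharts

end Fermat.Agent.T1B.Hol80
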