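import Mathlib
import Fermat.Agent.T1B.Hol80.R1Rho

/-!
# T1B (S44), brick SLOPE80 (helper80), part 12: the chart-level hypotheses of (R1), bundled and
transported along ring isomorphisms

* `nodeData_of_equiv` : transport of `NodeClassGroup.NodeData` along a ring isomorphism of local rings;
* `IsNodeAt hg π O₁ O₂ K 𝔫` : the prime `𝔫` of the chart `B ⊂ F` is a node of thickness `K`
  (`BranchHyp` on both branches + `NodeData` on `B_𝔫`);
* `NodalChartHyp π O₁ O₂ K` : `ChartHyp` + every two-branch maximal ideal is a node of thickness `K`;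
* `NodalChartHyp.of_equiv` : transport along `σ : B ≃+* B'` compatible with the maps to `F`
  (from a `Subalgebra` chart to `O ⊗[W] B_j`);
* `exists_vertical_root_twoChart_bundled`, `lam_const_of_frame_bundled` : (R1b), (R1a) with the
  top-level `lam`, taking `NodalChartHyp` for the charts.
-/

set_option autoImplicit false
set_option linter.unusedSectionVars false

namespace Fermat.Agent.T1B.Hol80

open AlgebraicCurve Fermat.Agent.T1.Peu37.NodeClassGroup Fermat.Agent.T1B.NodeNF37.Local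
  Fermat.Agent.T1B.NodeNF37.UnifOrd Fermat.Agent.T1B.Hol31.Local Fermat.Agent.T1B.Brandt36
  IsLocalRing

section NodeDataEquiv

variable {A A' : Type*} [CommRing A] [CommRing A'] [IsLocalRing A] [IsLocalRing A']

theorem maximalIdeal_comap_ringEquiv (τ : A ≃+* A') :
    (maximalIdeal A').comap (τ : A →+* A') = maximalIdeal A := by
  ext a
  rw [Ideal.mem_comap, mem_maximalIdeal, mem_maximalIdeal, mem_nonunits_iff, mem_nonunits_iff]
  exact not_congr (isUnit_map_iff τ a)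

/-- Transport of `NodeData` along a ring isomorphism. -/
theorem nodeData_of_equiv (τ : A ≃+* A') {v₁' v₂' : A' → ℕ} {P₁' P₂' : Ideal A'} {π' x' y' : A'}
    {K : ℕ} (D : NodeData A' v₁' v₂' P₁' P₂' π' x' y' K) :
    NodeData A (fun a => v₁' (τ a)) (fun a => v₂' (τ a))
      (P₁'.comap (τ : A →+* A')) (P₂'.comap (τ : A →+* A'))
      (τ.symm π') (τ.symm x') (τ.symm y') K where
  v₁_mul f g hf hg := by
    show v₁' (τ (f * g)) = _
    rw [map_mul]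
    exact D.v₁_mul _ _ ((map_ne_zero_iff τ τ.injective).2 hf) ((map_ne_zero_iff τ τ.injective).2 hg)
  v₂_mul f g hf hg := by
    show v₂' (τ (f * g)) = _
    rw [map_mul]
    exact D.v₂_mul _ _ ((map_ne_zero_iff τ τ.injective).2 hf) ((map_ne_zero_iff τ τ.injective).2 hg)
  v₁_pi := by
    show v₁' (τ (τ.symm π')) = 1
    rw [τ.apply_symm_apply]; exact D.v₁_pi
  v₂_pi := by
    show v₂' (τ (τ.symm π')) = 1
    rw [τ.apply_symm_apply]; exact D.v₂_pi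
  v₁_x := by
    show v₁' (τ (τ.symm x')) = 0
    rw [τ.apply_symm_apply]; exact D.v₁_x
  v₂_y := by
    show v₂' (τ (τ.symm y')) = 0
    rw [τ.apply_symm_apply]; exact D.v₂_y
  pi_ne := (map_ne_zero_iff τ.symm τ.symm.injective).2 D.pi_ne
  rel := by
    obtain ⟨ε, hε, h⟩ := D.rel
    refine ⟨τ.symm ε, hε.map τ.symm, ?_⟩
    rw [← map_mul, h, map_mul, map_pow]
  sat f hf h1 h2 := by
    obtain ⟨c, hc⟩ := D.sat (τ f) ((map_ne_zero_iff τ τ.injective).2 hf) h1 h2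
    refine ⟨τ.symm c, ?_⟩
    rw [← map_mul, ← hc, τ.symm_apply_apply]
  mem_P₁ f hf := by
    rw [Ideal.mem_comap]
    exact D.mem_P₁ (τ f) ((map_ne_zero_iff τ τ.injective).2 hf)
  mem_P₂ f hf := by
    rw [Ideal.mem_comap]
    exact D.mem_P₂ (τ f) ((map_ne_zero_iff τ τ.injective).2 hf)
  prime₁ := by
    have := D.prime₁
    exact Ideal.comap_isPrime _ _
  prime₂ := by
    have := D.prime₂
    exact Ideal.comap_isPrime _ _
  max_eq := by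
    rw [← maximalIdeal_comap_ringEquiv τ, D.max_eq]
    ext a
    rw [Ideal.mem_comap]
    show τ a ∈ _ ↔ _
    constructor
    · intro h
      obtain ⟨c₁, z, hz, e1⟩ := Ideal.mem_span_insert.1 h
      obtain ⟨c₂, z', hz', e2⟩ := Ideal.mem_span_insert.1 hz
      obtain ⟨c₃, e3⟩ := Ideal.mem_span_singleton'.1 hz'
      have : a = τ.symm c₁ * τ.symm π' + (τ.symm c₂ * τ.symm x' + τ.symm c₃ * τ.symm y') := by
        rw [← map_mul, ← map_mul, ← map_mul, ← map_add, ← map_add, e3, ← e2, ← e1,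
          τ.symm_apply_apply]
      rw [this]
      refine Ideal.add_mem _ (Ideal.mul_mem_left _ _ (Ideal.subset_span (by simp))) ?_
      exact Ideal.add_mem _ (Ideal.mul_mem_left _ _ (Ideal.subset_span (by simp)))
        (Ideal.mul_mem_left _ _ (Ideal.subset_span (by simp)))
    · intro h
      obtain ⟨c₁, z, hz, e1⟩ := Ideal.mem_span_insert.1 h
      obtain ⟨c₂, z', hz', e2⟩ := Ideal.mem_span_insert.1 hz
      obtain ⟨c₃, e3⟩ := Ideal.mem_span_singleton'.1 hz'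
      have : τ a = τ c₁ * π' + (τ c₂ * x' + τ c₃ * y') := by
        rw [e1, e2, ← e3, map_add, map_add, map_mul, map_mul, map_mul, τ.apply_symm_apply,
          τ.apply_symm_apply, τ.apply_symm_apply]
      rw [this]
      refine Ideal.add_mem _ (Ideal.mul_mem_left _ _ (Ideal.subset_span (by simp))) ?_
      exact Ideal.add_mem _ (Ideal.mul_mem_left _ _ (Ideal.subset_span (by simp)))
        (Ideal.mul_mem_left _ _ (Ideal.subset_span (by simp)))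
  K_pos := D.K_pos

end NodeDataEquiv

section Bundle

variable {B F : Type*} [CommRing B] [IsDomain B] [Field F] [Algebra B F]

/-- The prime `𝔫` of the chart `B ⊂ F` is a NODE of thickness `K` for the branches `O₁, O₂`. -/
def IsNodeAt (hg : Function.Injective (algebraMap B F)) (π : B) (O₁ O₂ : ValuationSubring F) (K : ℕ)
    (𝔫 : Ideal B) [𝔫.IsPrime] : Prop :=
  ∃ (H₁ : BranchHyp (algebraMap B F) 𝔫 O₁ π) (H₂ : BranchHyp (algebraMap B F) 𝔫 O₂ π)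
    (x y : Localization.AtPrime 𝔫),
    NodeData (Localization.AtPrime 𝔫)
      (vv (algebraMap B F) hg 𝔫 O₁ π) (vv (algebraMap B F) hg 𝔫 O₂ π)
      (PP (algebraMap B F) hg 𝔫 H₁) (PP (algebraMap B F) hg 𝔫 H₂)
      (algebraMap B (Localization.AtPrime 𝔫) π) x y K

/-- **All chart-level hypotheses of (R1) for one chart**: `ChartHyp`, and every two-branch maximal
ideal is a node of thickness `K`. -/
structure NodalChartHyp (π : B) (O₁ O₂ : ValuationSubring F) (K : ℕ) : Prop where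
  chart : ChartHyp π O₁ O₂
  node : ∀ (𝔫 : Ideal B) [𝔫.IsMaximal], ¬ Off π O₁ 𝔫 → ¬ Off π O₂ 𝔫 →
    IsNodeAt chart.inj π O₁ O₂ K 𝔫

end Bundle

section Transport

variable {B B' F : Type*} [CommRing B] [IsDomain B] [CommRing B'] [IsDomain B'] [Field F]
  [Algebra B F] [Algebra B' F]
variable (σ : B ≃+* B') (hσ : ∀ b, algebraMap B' F (σ b) = algebraMap B F b)
include hσ

theorem algebraMap_symm_of_compat (b' : B') : algebraMap B F (σ.symm b') = algebraMap B' F b' := by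
  rw [← hσ, σ.apply_symm_apply]

/-- Transport of `ChartHyp`. -/
theorem ChartHyp.of_equiv {π' : B'} {O₁ O₂ : ValuationSubring F} (H : ChartHyp π' O₁ O₂) :
    ChartHyp (σ.symm π') O₁ O₂ where
  inj := by
    intro a b h
    rw [← hσ, ← hσ] at h
    exact σ.injective (H.inj h)
  le₁ b := by rw [← hσ]; exact H.le₁ _
  le₂ b := by rw [← hσ]; exact H.le₂ _
  unif₁ := by rw [algebraMap_symm_of_compat σ hσ]; exact H.unif₁
  unif₂ := by rw [algebraMap_symm_of_compat σ hσ]; exact H.unif₂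
  sat b z h1 h2 h := by
    rw [algebraMap_symm_of_compat σ hσ, ← hσ] at h
    obtain ⟨b', hb'⟩ := H.sat (σ b) z h1 h2 h
    exact ⟨σ.symm b', by rw [algebraMap_symm_of_compat σ hσ]; exact hb'⟩

/-- Transport of `Off`. -/
theorem off_comap_iff {π' : B'} {O : ValuationSubring F} (𝔫' : Ideal B') :
    Off (σ.symm π') O (𝔫'.comap (σ : B →+* B')) ↔ Off π' O 𝔫' := by
  constructor
  · rintro ⟨e, he, c, hc, hec⟩
    refine ⟨σ e, fun h => he (Ideal.mem_comap.2 h), c, hc, ?_⟩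
    rw [hσ, hec, algebraMap_symm_of_compat σ hσ]
  · rintro ⟨e, he, c, hc, hec⟩
    refine ⟨σ.symm e, fun h => he ?_, c, hc, ?_⟩
    · have := Ideal.mem_comap.1 h
      rwa [RingEquiv.coe_toRingHom, σ.apply_symm_apply] at this
    · rw [algebraMap_symm_of_compat σ hσ, algebraMap_symm_of_compat σ hσ, hec]

/-- Transport of `BranchHyp`. -/
theorem branchHyp_of_equiv {π' : B'} {O : ValuationSubring F} {𝔫' : Ideal B'}
    (H : BranchHyp (algebraMap B' F) 𝔫' O π') :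
    BranchHyp (algebraMap B F) (𝔫'.comap (σ : B →+* B')) O (σ.symm π') where
  le b := by rw [← hσ]; exact H.le _
  unif := by rw [algebraMap_symm_of_compat σ hσ]; exact H.unif
  on e he := by
    rw [algebraMap_symm_of_compat σ hσ, ← hσ]
    exact H.on (σ e) (fun h => he (Ideal.mem_comap.2 h))

omit hσ in
theorem primeCompl_map_eq (𝔫 : Ideal B) [𝔫.IsPrime] (𝔫' : Ideal B') [𝔫'.IsPrime]
    (h : 𝔫 = 𝔫'.comap (σ : B →+* B')) :
    𝔫.primeCompl.map σ.toMonoidHom = 𝔫'.primeCompl := by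
  subst h
  ext y
  constructor
  · rintro ⟨x, hx, rfl⟩
    exact fun h => hx (Ideal.mem_comap.2 h)
  · intro hy
    refine ⟨σ.symm y, fun h => hy ?_, σ.apply_symm_apply y⟩
    have := Ideal.mem_comap.1 h
    rwa [RingEquiv.coe_toRingHom, σ.apply_symm_apply] at this

omit hσ in
/-- The isomorphism of the localisations induced by `σ`. -/
noncomputable def locEquiv (𝔫 : Ideal B) [𝔫.IsPrime] (𝔫' : Ideal B') [𝔫'.IsPrime]
    (h : 𝔫 = 𝔫'.comap (σ : B →+* B')) : Localization.AtPrime 𝔫 ≃+* Localization.AtPrime 𝔫' :=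
  IsLocalization.ringEquivOfRingEquiv _ _ σ (primeCompl_map_eq σ 𝔫 𝔫' h)

omit hσ in
theorem locEquiv_algebraMap (𝔫 : Ideal B) [𝔫.IsPrime] (𝔫' : Ideal B') [𝔫'.IsPrime]
    (h : 𝔫 = 𝔫'.comap (σ : B →+* B')) (b : B) :
    locEquiv σ 𝔫 𝔫' h (algebraMap B (Localization.AtPrime 𝔫) b) =
      algebraMap B' (Localization.AtPrime 𝔫') (σ b) :=
  IsLocalization.ringEquivOfRingEquiv_eq _ b

theorem iota_locEquiv (hg : Function.Injective (algebraMap B F))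
    (hg' : Function.Injective (algebraMap B' F))
    (𝔫 : Ideal B) [𝔫.IsPrime] (𝔫' : Ideal B') [𝔫'.IsPrime]
    (h : 𝔫 = 𝔫'.comap (σ : B →+* B')) (a : Localization.AtPrime 𝔫) :
    iota (algebraMap B' F) hg' 𝔫' (locEquiv σ 𝔫 𝔫' h a) = iota (algebraMap B F) hg 𝔫 a := by
  have key : (iota (algebraMap B' F) hg' 𝔫').comp (locEquiv σ 𝔫 𝔫' h : _ →+* _) =
      iota (algebraMap B F) hg 𝔫 := by
    apply IsLocalization.ringHom_ext 𝔫.primeCompl
    ext b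
    simp only [RingHom.comp_apply, RingEquiv.coe_toRingHom]
    rw [locEquiv_algebraMap, iota_algebraMap, iota_algebraMap, hσ]
  exact RingHom.congr_fun key a

/-- Transport of `IsNodeAt`. -/
theorem IsNodeAt.of_equiv (hg : Function.Injective (algebraMap B F))
    (hg' : Function.Injective (algebraMap B' F)) {π' : B'} {O₁ O₂ : ValuationSubring F} {K : ℕ}
    (𝔫 : Ideal B) [𝔫.IsPrime] (𝔫' : Ideal B') [𝔫'.IsPrime]
    (h : 𝔫 = 𝔫'.comap (σ : B →+* B')) (H : IsNodeAt hg' π' O₁ O₂ K 𝔫') :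
    IsNodeAt hg (σ.symm π') O₁ O₂ K 𝔫 := by
  obtain ⟨H₁', H₂', x', y', D'⟩ := H
  have H₁ : BranchHyp (algebraMap B F) 𝔫 O₁ (σ.symm π') := by
    rw [h]; exact branchHyp_of_equiv σ hσ H₁'
  have H₂ : BranchHyp (algebraMap B F) 𝔫 O₂ (σ.symm π') := by
    rw [h]; exact branchHyp_of_equiv σ hσ H₂'
  set τ := locEquiv σ 𝔫 𝔫' h with hτ
  have hπ : algebraMap B F (σ.symm π') = algebraMap B' F π' := algebraMap_symm_of_compat σ hσ π'
  have e1 : ∀ O : ValuationSubring F, vv (algebraMap B F) hg 𝔫 O (σ.symm π') =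
      fun a => vv (algebraMap B' F) hg' 𝔫' O π' (τ a) := by
    intro O
    funext a
    unfold vv
    rw [iota_locEquiv σ hσ hg hg' 𝔫 𝔫' h, hπ]
  have e2 : ∀ (O : ValuationSubring F) (HB : BranchHyp (algebraMap B F) 𝔫 O (σ.symm π'))
      (HB' : BranchHyp (algebraMap B' F) 𝔫' O π'),
      PP (algebraMap B F) hg 𝔫 HB = (PP (algebraMap B' F) hg' 𝔫' HB').comap (τ : _ →+* _) := by
    intro O HB HB'
    ext a
    rw [Ideal.mem_comap, mem_PP, mem_PP, RingEquiv.coe_toRingHom,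
      iota_locEquiv σ hσ hg hg' 𝔫 𝔫' h, hπ]
  have e3 : algebraMap B (Localization.AtPrime 𝔫) (σ.symm π') =
      τ.symm (algebraMap B' (Localization.AtPrime 𝔫') π') := by
    apply τ.injective
    rw [τ.apply_symm_apply, hτ, locEquiv_algebraMap, σ.apply_symm_apply]
  refine ⟨H₁, H₂, τ.symm x', τ.symm y', ?_⟩
  rw [e1 O₁, e1 O₂, e2 O₁ H₁ H₁', e2 O₂ H₂ H₂', e3]
  exact nodeData_of_equiv τ D'

/-- **Transport of `NodalChartHyp` along a ring isomorphism compatible with the maps to `F`.** -/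
theorem NodalChartHyp.of_equiv {π' : B'} {O₁ O₂ : ValuationSubring F} {K : ℕ}
    (H : NodalChartHyp π' O₁ O₂ K) : NodalChartHyp (σ.symm π') O₁ O₂ K where
  chart := H.chart.of_equiv σ hσ
  node 𝔫 h𝔫 hoff₁ hoff₂ := by
    set 𝔫' : Ideal B' := 𝔫.comap (σ.symm : B' →+* B) with h𝔫'
    have hmax : 𝔫'.IsMaximal := Ideal.comap_isMaximal_of_surjective _ σ.symm.surjective
    have h : 𝔫 = 𝔫'.comap (σ : B →+* B') := by
      ext a
      rw [Ideal.mem_comap, h𝔫', Ideal.mem_comap, RingEquiv.coe_toRingHom, RingEquiv.coe_toRingHom,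
        σ.symm_apply_apply]
    have hoff₁' : ¬ Off π' O₁ 𝔫' := fun hh => hoff₁ (by rw [h]; exact (off_comap_iff σ hσ 𝔫').2 hh)
    have hoff₂' : ¬ Off π' O₂ 𝔫' := fun hh => hoff₂ (by rw [h]; exact (off_comap_iff σ hσ 𝔫').2 hh)
    exact IsNodeAt.of_equiv σ hσ _ H.chart.inj 𝔫 𝔫' h (H.node 𝔫' hoff₁' hoff₂')

end Transport

section Bundled

variable {B₀ B₁ F₁ F₂ : Type*} [CommRing B₀] [IsDomain B₀] [IsNoetherianRing B₀]
  [CommRing B₁] [IsDomain B₁] [IsNoetherianRing B₁] [Field F₁] [Field F₂]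
  [Algebra B₀ F₁] [Algebra B₁ F₁]
variable {K₂ : Type*} [Field K₂] [Algebra K₂ F₂]
variable {κ k : Type*} [Field κ] [Field k] [Algebra κ k]

/-- **(R1b) on two charts, top-level `lam`, bundled chart hypotheses.**  `hN₀`, `hN₁` : `NodalChartHyp`
for the two charts (same `K`); `𝔫₀` a two-branch maximal ideal of chart `0` with a node place
`vE e₀'` over it (`NodePlaceW`) at which the TOP-LEVEL `lam (ψ f)` vanishes. -/
theorem exists_vertical_root_twoChart_bundled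
    {π₀ : B₀} {π₁ : B₁} {O₁ O₂ : ValuationSubring F₁} {K : ℕ}
    (hN₀ : NodalChartHyp π₀ O₁ O₂ K) (hN₁ : NodalChartHyp π₁ O₁ O₂ K)
    (ψ : F₁ →+* F₂) (V₂ : ValuationSubring F₂) (hO : ∀ z ∈ O₁, ψ z ∈ V₂)
    (res₂ : ↥V₂ →+* k)
    (hres : ∀ z : ↥O₁, ¬ IsUnit z → (res₂.comp (valHom ψ O₁ V₂ hO)) z = 0)
    {ι : Type*} (vE : ι → Place κ k) (e₀' : ι)
    (𝔫₀ : Ideal B₀) [h𝔫₀ : 𝔫₀.IsMaximal] (hoff₁ : ¬ Off π₀ O₁ 𝔫₀) (hoff₂ : ¬ Off π₀ O₂ 𝔫₀)
    (H₁ : BranchHyp (algebraMap B₀ F₁) 𝔫₀ O₁ π₀)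
    (HP : NodePlaceW (PP (algebraMap B₀ F₁) hN₀.chart.inj 𝔫₀ H₁)
      ((res₂.comp (valHom ψ O₁ V₂ hO)).comp (toO O₁ (iota (algebraMap B₀ F₁) hN₀.chart.inj 𝔫₀)
        (iota_mem (algebraMap B₀ F₁) hN₀.chart.inj 𝔫₀ H₁))) (vE e₀'))
    {I₀ J₀ : Submodule B₀ F₁} (hIJ₀ : I₀ * J₀ = 1) (p : ℕ) [NeZero p] {f : F₁} (hf : f ≠ 0) (n : ℕ)
    (h1₀ : algebraMap B₀ F₁ π₀ ^ n * f ∈ I₀ ^ p)
    (h2₀ : ∀ z ∈ I₀ ^ p, ∃ r : B₀, algebraMap B₀ F₁ π₀ ^ n * z = r • f)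
    {C₂ : Subfield F₂} (HR : RhoInputs (K₀ := K₂) V₂ res₂ vE C₂)
    (hπC : ψ (algebraMap B₀ F₁ π₀) ∈ C₂)
    (h0 : lam V₂ res₂ vE p C₂ (ψ f) e₀' = 0)
    {I₁ J₁ : Submodule B₁ F₁} (hIJ₁ : I₁ * J₁ = 1)
    (h1₁ : algebraMap B₁ F₁ π₁ ^ n * f ∈ I₁ ^ p)
    (h2₁ : ∀ z ∈ I₁ ^ p, ∃ r : B₁, algebraMap B₁ F₁ π₁ ^ n * z = r • f)
    (hπ : algebraMap B₀ F₁ π₀ = algebraMap B₁ F₁ π₁)
    (t : B₀) (s : B₁) (hts : algebraMap B₀ F₁ t * algebraMap B₁ F₁ s = 1)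
    (hov₀ : ∀ x : B₁, ∃ (k : ℕ) (b : B₀),
      algebraMap B₀ F₁ b = algebraMap B₀ F₁ t ^ k * algebraMap B₁ F₁ x)
    (hov₁ : ∀ x : B₀, ∃ (k : ℕ) (b : B₁),
      algebraMap B₁ F₁ b = algebraMap B₁ F₁ s ^ k * algebraMap B₀ F₁ x)
    (hfr₀ : ∀ z ∈ I₁, ∃ k : ℕ, algebraMap B₀ F₁ t ^ k * z ∈ I₀)
    (hfr₁ : ∀ z ∈ I₀, ∃ k : ℕ, algebraMap B₁ F₁ s ^ k * z ∈ I₁) :
    ∃ (W₀ : Ideal B₀) (W₁ : Ideal B₁) (a M : ℕ), π₀ ^ M ∈ W₀ ∧ π₁ ^ M ∈ W₁ ∧
      Submodule.span B₀ {algebraMap B₀ F₁ π₀ ^ n} * I₀ ^ p =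
        Submodule.span B₀ {algebraMap B₀ F₁ π₀ ^ a * f} * IsLocalization.coeSubmodule F₁ W₀ ^ p ∧
      Submodule.span B₁ {algebraMap B₁ F₁ π₁ ^ n} * I₁ ^ p =
        Submodule.span B₁ {algebraMap B₁ F₁ π₁ ^ a * f} * IsLocalization.coeSubmodule F₁ W₁ ^ p ∧
      (∃ Y₀ : Submodule B₀ F₁, IsLocalization.coeSubmodule F₁ W₀ * Y₀ = 1) ∧
      (∃ Y₁ : Submodule B₁ F₁, IsLocalization.coeSubmodule F₁ W₁ * Y₁ = 1) ∧
      (∀ w ∈ W₁, ∃ (m : ℕ) (w₀ : B₀), w₀ ∈ W₀ ∧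
        algebraMap B₀ F₁ w₀ = algebraMap B₀ F₁ t ^ m * algebraMap B₁ F₁ w) ∧
      (∀ w ∈ W₀, ∃ (m : ℕ) (w₁ : B₁), w₁ ∈ W₁ ∧
        algebraMap B₁ F₁ w₁ = algebraMap B₁ F₁ s ^ m * algebraMap B₀ F₁ w) := by
  classical
  -- the index types: the two-branch maximal ideals
  let E₀ := {𝔫 : Ideal B₀ // 𝔫.IsMaximal ∧ ¬ Off π₀ O₁ 𝔫 ∧ ¬ Off π₀ O₂ 𝔫}
  let E₁ := {𝔫 : Ideal B₁ // 𝔫.IsMaximal ∧ ¬ Off π₁ O₁ 𝔫 ∧ ¬ Off π₁ O₂ 𝔫}
  have hp₀ : ∀ e : E₀, (e.1).IsPrime := fun e => e.2.1.isPrime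
  have hp₁ : ∀ e : E₁, (e.1).IsPrime := fun e => e.2.1.isPrime
  have hnode₀ : ∀ e : E₀, ∃ (H₁ : BranchHyp (algebraMap B₀ F₁) e.1 O₁ π₀)
      (H₂ : BranchHyp (algebraMap B₀ F₁) e.1 O₂ π₀) (x y : Localization.AtPrime e.1),
      NodeData (Localization.AtPrime e.1)
        (vv (algebraMap B₀ F₁) hN₀.chart.inj e.1 O₁ π₀) (vv (algebraMap B₀ F₁) hN₀.chart.inj e.1 O₂ π₀)
        (PP (algebraMap B₀ F₁) hN₀.chart.inj e.1 H₁) (PP (algebraMap B₀ F₁) hN₀.chart.inj e.1 H₂)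
        (algebraMap B₀ (Localization.AtPrime e.1) π₀) x y K := fun e => by
    have := e.2.1
    exact hN₀.node e.1 e.2.2.1 e.2.2.2
  have hnode₁ : ∀ e : E₁, ∃ (H₁ : BranchHyp (algebraMap B₁ F₁) e.1 O₁ π₁)
      (H₂ : BranchHyp (algebraMap B₁ F₁) e.1 O₂ π₁) (x y : Localization.AtPrime e.1),
      NodeData (Localization.AtPrime e.1)
        (vv (algebraMap B₁ F₁) hN₁.chart.inj e.1 O₁ π₁) (vv (algebraMap B₁ F₁) hN₁.chart.inj e.1 O₂ π₁)
        (PP (algebraMap B₁ F₁) hN₁.chart.inj e.1 H₁) (PP (algebraMap B₁ F₁) hN₁.chart.inj e.1 H₂)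
        (algebraMap B₁ (Localization.AtPrime e.1) π₁) x y K := fun e => by
    have := e.2.1
    exact hN₁.node e.1 e.2.2.1 e.2.2.2
  choose H₁₀ H₂₀ x₀ y₀ D₀ using hnode₀
  choose H₁₁ H₂₁ x₁ y₁ D₁ using hnode₁
  exact exists_vertical_root_twoChart_top hN₀.chart.inj π₀ O₁ O₂ hN₀.chart
    (fun e : E₀ => e.1) H₁₀ H₂₀ (fun 𝔫 h h1 h2 => ⟨⟨𝔫, h, h1, h2⟩, rfl⟩) K x₀ y₀ D₀
    ψ V₂ hO res₂ hres vE e₀' ⟨𝔫₀, h𝔫₀, hoff₁, hoff₂⟩ HP hIJ₀ p hf n h1₀ h2₀ HR hπC h0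
    hN₁.chart.inj π₁ hN₁.chart (fun e : E₁ => e.1) H₁₁ H₂₁
    (fun 𝔫 h h1 h2 => ⟨⟨𝔫, h, h1, h2⟩, rfl⟩) x₁ y₁ D₁ hIJ₁ h1₁ h2₁ hπ t s hts hov₀ hov₁ hfr₀ hfr₁

end Bundled

section BundledOne

variable {B F₁ F₂ : Type*} [CommRing B] [IsDomain B] [IsNoetherianRing B] [Field F₁] [Field F₂]
  [Algebra B F₁]
variable {K₂ : Type*} [Field K₂] [Algebra K₂ F₂]
variable {κ k : Type*} [Field κ] [Field k] [Algebra κ k]

/-- **(R1a), top-level `lam`, bundled chart hypotheses.**  `hN : NodalChartHyp` for the chart; the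
top-level node places `vE e` lie over two-branch maximal ideals `𝔪 e` of the chart. -/
theorem lam_const_of_frame_bundled {π : B} {O₁ O₂ : ValuationSubring F₁} {K : ℕ}
    (hN : NodalChartHyp π O₁ O₂ K)
    {ι : Type*} (𝔪 : ι → Ideal B) [h𝔪 : ∀ e, (𝔪 e).IsMaximal]
    (hoff₁ : ∀ e, ¬ Off π O₁ (𝔪 e)) (hoff₂ : ∀ e, ¬ Off π O₂ (𝔪 e))
    (ψ : F₁ →+* F₂) (V₂ : ValuationSubring F₂) (hO : ∀ z ∈ O₁, ψ z ∈ V₂)
    (res₂ : ↥V₂ →+* k)
    (hres : ∀ z : ↥O₁, ¬ IsUnit z → (res₂.comp (valHom ψ O₁ V₂ hO)) z = 0)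
    (vE : ι → Place κ k)
    (H₁ : ∀ e, BranchHyp (algebraMap B F₁) (𝔪 e) O₁ π)
    (HP : ∀ e, NodePlaceW (PP (algebraMap B F₁) hN.chart.inj (𝔪 e) (H₁ e))
      ((res₂.comp (valHom ψ O₁ V₂ hO)).comp (toO O₁ (iota (algebraMap B F₁) hN.chart.inj (𝔪 e))
        (iota_mem (algebraMap B F₁) hN.chart.inj (𝔪 e) (H₁ e)))) (vE e))
    {I J : Submodule B F₁} (hIJ : I * J = 1) (p : ℕ) {f : F₁} (hf : f ≠ 0) (n : ℕ)
    (h1 : algebraMap B F₁ π ^ n * f ∈ I ^ p)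
    (h2 : ∀ z ∈ I ^ p, ∃ r : B, algebraMap B F₁ π ^ n * z = r • f)
    {C₂ : Subfield F₂} (HR : RhoInputs (K₀ := K₂) V₂ res₂ vE C₂)
    (hπC : ψ (algebraMap B F₁ π) ∈ C₂) :
    ∃ s : ℤ, lam V₂ res₂ vE p C₂ (ψ f) = fun _ => (s : ZMod p) := by
  classical
  have hnode : ∀ e : ι, ∃ (H₁ : BranchHyp (algebraMap B F₁) (𝔪 e) O₁ π)
      (H₂ : BranchHyp (algebraMap B F₁) (𝔪 e) O₂ π) (x y : Localization.AtPrime (𝔪 e)),
      NodeData (Localization.AtPrime (𝔪 e))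
        (vv (algebraMap B F₁) hN.chart.inj (𝔪 e) O₁ π) (vv (algebraMap B F₁) hN.chart.inj (𝔪 e) O₂ π)
        (PP (algebraMap B F₁) hN.chart.inj (𝔪 e) H₁) (PP (algebraMap B F₁) hN.chart.inj (𝔪 e) H₂)
        (algebraMap B (Localization.AtPrime (𝔪 e)) π) x y K := fun e =>
    hN.node (𝔪 e) (hoff₁ e) (hoff₂ e)
  choose H₁' H₂ x y D using hnode
  exact lam_const_of_frame_top hN.chart.inj π O₁ O₂ 𝔪 H₁' H₂ K x y D ψ V₂ hO res₂ hres vE HP
    hIJ p hf n h1 h2 HR hπC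

end BundledOne

end Fermat.Agent.T1B.Hol80
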