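import Mathlib
import Fermat.Agent.T1B.Hol80.TwoChart
import Fermat.Agent.T1B.NodalFacts23.Good
import Fermat.Agent.T1B.NodeNF37.UnifOrd
import Fermat.Agent.ES.N34.GaussEmb22
import Fermat.Agent.IG.PR.Theta20

/-!
# T1B (S44), brick F8-S5 HOL (second seat: helper80), part (C2): the concrete instantiation

The hypotheses of `Hol80.dlog_mem_Hol_of_const` at the nodal two-chart model
`ES.N34.NodalCore13.NodalTwoChartModel R F π t B0 B1 O1 O2` (charts `B_j ⊆ F`, components
`V_i = NodalFacts23.comp O1 O2 i`, `P_j i = B_j ∩ π V_i = (nodalGood M).P_j i`).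

## Part A (nodal model, any residue map)
* `incl0 M i : B0 →+* V_i`, `incl1 M i : B1 →+* V_i` : the inclusions; `algebraMap_eq_incl0/1`.
* `isUnifFor_comp M i` : `π` is a uniformiser of `V_i` (`NodeNF37.UnifOrd.IsUnifFor`).
* `hasConstScaling_comp M i C (hπ : π ∈ C)` : every nonzero `a ∈ F` is `c * b`, `c ∈ C`, `b ∈ V_iˣ`.
* `ker_res_incl0/1` : if `res v = 0 ↔ ¬ IsUnit v` then `ker (res ∘ incl_j) = (nodalGood M).P_j i`;
  hence `mem_Hol_nodal_iff` : `ω ∈ Hol` iff `ω` is regular at every prime `𝔮 ⊇ P_j i` of `B_j`, `j = 0, 1`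
  (helper31's pointwise definition of `Hol_i`).
* `nodal_dlog_mem_Hol` : **S5 HOL at the nodal model.**

## Part B (Gauss pull-back, `θ = q d/dq`)
* `thetaDer κ : Derivation ℤ κ((q)) κ((q))` with `thetaDer κ g = theta g` (`IG/PR/Theta20`).
* `charP_laurent` : `CharP κ((q)) p`.
* for `hV : GaussEmb22.IsGaussPullback O ι V` : `redOf_eq_zero_iff_not_isUnit`, `theta_redOf_const`
  (`θ (redOf hV e) = 0` for `e ∈ V` a constant, i.e. `e ∈ (algebraMap K F).fieldRange`).
* `gauss_dlog_mem_Hol` : **S5 HOL for a nodal model over a DVR `O ⊂ K` whose component `V_i` is a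
  Gauss pull-back**: `f = u₁ * c₁`, `c₁ ∈ K` constant, `u₁ ∈ V_iˣ` ⇒
  `θ (redOf u₁) / redOf u₁ ∈ Hol (redOf ∘ incl0) (redOf ∘ incl1) θ`.
-/

set_option autoImplicit false
set_option linter.unusedSectionVars false

universe u

noncomputable section

namespace Fermat.Agent.T1B.Hol80

open Fermat.Agent.ES.N34.NodalCore13 Fermat.Agent.T1B.NodalFacts23 Fermat.Agent.T1B.RedN3
open Fermat.Agent.T1B.NodeNF37.UnifOrd Fermat.Agent.T1B.Hol31.Local
open Fermat.Agent.T1.Coh60 (algebra0 algebra1 isScalarTower0 isScalarTower1)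

/-! ### Part A: the nodal model -/

section Nodal

variable {R F : Type u} [CommRing R] [Field F] [Algebra R F]
variable {π : R} {t : F} {B0 B1 : Subalgebra R F} {O1 O2 : ValuationSubring F}

/-- The inclusion of the chart `B0` into the component valuation ring `V_i`. -/
def incl0 (M : NodalTwoChartModel R F π t B0 B1 O1 O2) (i : Fin 2) : ↥B0 →+* ↥(comp O1 O2 i) where
  toFun x := ⟨(x : F), le_comp0 M i _ x.2⟩
  map_one' := rfl
  map_mul' _ _ := rfl
  map_zero' := rfl
  map_add' _ _ := rfl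

/-- The inclusion of the chart `B1` into the component valuation ring `V_i`. -/
def incl1 (M : NodalTwoChartModel R F π t B0 B1 O1 O2) (i : Fin 2) : ↥B1 →+* ↥(comp O1 O2 i) where
  toFun x := ⟨(x : F), le_comp1 M i _ x.2⟩
  map_one' := rfl
  map_mul' _ _ := rfl
  map_zero' := rfl
  map_add' _ _ := rfl

@[simp] theorem coe_incl0 (M : NodalTwoChartModel R F π t B0 B1 O1 O2) (i : Fin 2) (x : ↥B0) :
    ((incl0 M i x : ↥(comp O1 O2 i)) : F) = (x : F) := rfl

@[simp] theorem coe_incl1 (M : NodalTwoChartModel R F π t B0 B1 O1 O2) (i : Fin 2) (x : ↥B1) :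
    ((incl1 M i x : ↥(comp O1 O2 i)) : F) = (x : F) := rfl

theorem algebraMap_eq_incl0 (M : NodalTwoChartModel R F π t B0 B1 O1 O2) (i : Fin 2) (x : ↥B0) :
    algebraMap ↥B0 F x = ((incl0 M i x : ↥(comp O1 O2 i)) : F) := rfl

theorem algebraMap_eq_incl1 (M : NodalTwoChartModel R F π t B0 B1 O1 O2) (i : Fin 2) (x : ↥B1) :
    algebraMap ↥B1 F x = ((incl1 M i x : ↥(comp O1 O2 i)) : F) := rfl

theorem arch_comp (M : NodalTwoChartModel R F π t B0 B1 O1 O2) (i : Fin 2) :
    ∀ x : F, ∃ k : ℕ, algebraMap R F π ^ k * x ∈ comp O1 O2 i := by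
  fin_cases i
  · exact M.arch1
  · exact M.arch2

/-- `π` is a uniformiser of the component valuation ring `V_i`. -/
theorem isUnifFor_comp (M : NodalTwoChartModel R F π t B0 B1 O1 O2) (i : Fin 2) :
    IsUnifFor (comp O1 O2 i) (algebraMap R F π) :=
  ⟨M.pi_ne, pi_nonunit_comp M i, unif_comp M i, arch_comp M i⟩

/-- A unit of a valuation subring from an element and its inverse. -/
def unitOfMem (V : ValuationSubring F) {x : F} (hx : x ∈ V) (hx' : x⁻¹ ∈ V) (h0 : x ≠ 0) :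
    (↥V)ˣ :=
  ⟨⟨x, hx⟩, ⟨x⁻¹, hx'⟩, Subtype.ext (mul_inv_cancel₀ h0), Subtype.ext (inv_mul_cancel₀ h0)⟩

@[simp] theorem coe_unitOfMem (V : ValuationSubring F) {x : F} (hx : x ∈ V) (hx' : x⁻¹ ∈ V)
    (h0 : x ≠ 0) : (((unitOfMem V hx hx' h0 : (↥V)ˣ) : ↥V) : F) = x := rfl

/-- A valuation subring with a uniformiser `ϖ` (elementary form): every nonzero `a ∈ F` is
`ϖ ^ n * b`, `n : ℤ`, `b` a unit. -/
theorem exists_zpow_mul_unit {V : ValuationSubring F} {ϖ : F} (h : IsUnifFor V ϖ) {a : F}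
    (ha : a ≠ 0) : ∃ n : ℤ, ∃ b : (↥V)ˣ, a = ϖ ^ n * ((b : ↥V) : F) := by
  rcases V.mem_or_inv_mem a with hmem | hmem
  · obtain ⟨n, u, hu, hu', hau⟩ := h.exists_repr hmem ha
    have hu0 : u ≠ 0 := by
      rintro rfl; rw [mul_zero] at hau; exact ha hau
    exact ⟨n, unitOfMem V hu hu' hu0, by rw [zpow_natCast, coe_unitOfMem]; exact hau⟩
  · obtain ⟨n, u, hu, hu', hau⟩ := h.exists_repr hmem (inv_ne_zero ha)
    have hu0 : u ≠ 0 := by
      rintro rfl; rw [mul_zero] at hau; exact (inv_ne_zero ha) hau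
    refine ⟨-n, unitOfMem V hu' (by rwa [inv_inv]) (inv_ne_zero hu0), ?_⟩
    rw [coe_unitOfMem, zpow_neg, zpow_natCast, ← mul_inv, ← hau, inv_inv]

/-- The value group of `V_i` is the value group of any subfield of constants containing `π`. -/
theorem hasConstScaling_comp (M : NodalTwoChartModel R F π t B0 B1 O1 O2) (i : Fin 2)
    (C : Subfield F) (hπ : algebraMap R F π ∈ C) : HasConstScaling (comp O1 O2 i) C :=
  hasConstScaling_of_uniformizer _ C hπ M.pi_ne
    (fun _ ha => exists_zpow_mul_unit (isUnifFor_comp M i) ha)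

/-- An element `x` of `V` is a nonunit iff it lies in `ϖ V`. -/
theorem not_isUnit_iff_of_isUnifFor {V : ValuationSubring F} {ϖ : F} (h : IsUnifFor V ϖ)
    (v : ↥V) : ¬ IsUnit v ↔ ∃ c ∈ V, (v : F) = ϖ * c := by
  constructor
  · intro hnu
    by_cases hinv : (v : F)⁻¹ ∈ V
    · by_cases h0 : (v : F) = 0
      · exact ⟨0, V.zero_mem, by rw [h0, mul_zero]⟩
      · exact absurd (unitOfMem V v.2 hinv h0).isUnit hnu
    · exact h.unif _ v.2 hinv
  · rintro ⟨c, hc, hvc⟩ hu
    obtain ⟨w, hw⟩ := hu.exists_right_inv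
    have hwF : (v : F) * (w : F) = 1 := by exact_mod_cast congrArg Subtype.val hw
    apply h.nonunit
    have : ϖ⁻¹ = c * (w : F) := by
      rw [hvc, mul_assoc] at hwF
      exact inv_eq_of_mul_eq_one_right hwF
    rw [this]
    exact V.mul_mem _ _ hc w.2

section Ker

variable {k : Type*} [Field k]

/-- `ker (res ∘ incl0) = P_0 i` when the kernel of `res` is the set of nonunits of `V_i`. -/
theorem ker_res_incl0 (M : NodalTwoChartModel R F π t B0 B1 O1 O2) (i : Fin 2)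
    (res : ↥(comp O1 O2 i) →+* k) (hres : ∀ v : ↥(comp O1 O2 i), res v = 0 ↔ ¬ IsUnit v) :
    letI := algebra0 B0 B1
    letI := algebra1 B0 B1
    haveI := isScalarTower0 B0 B1
    haveI := isScalarTower1 B0 B1
    RingHom.ker (res.comp (incl0 M i)) = (nodalGood M).P0 i := by
  ext x
  rw [RingHom.mem_ker, RingHom.comp_apply, hres,
    not_isUnit_iff_of_isUnifFor (isUnifFor_comp M i)]
  exact Iff.rfl

/-- `ker (res ∘ incl1) = P_1 i` when the kernel of `res` is the set of nonunits of `V_i`. -/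
theorem ker_res_incl1 (M : NodalTwoChartModel R F π t B0 B1 O1 O2) (i : Fin 2)
    (res : ↥(comp O1 O2 i) →+* k) (hres : ∀ v : ↥(comp O1 O2 i), res v = 0 ↔ ¬ IsUnit v) :
    letI := algebra0 B0 B1
    letI := algebra1 B0 B1
    haveI := isScalarTower0 B0 B1
    haveI := isScalarTower1 B0 B1
    RingHom.ker (res.comp (incl1 M i)) = (nodalGood M).P1 i := by
  ext x
  rw [RingHom.mem_ker, RingHom.comp_apply, hres,
    not_isUnit_iff_of_isUnifFor (isUnifFor_comp M i)]
  exact Iff.rfl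

/-- **`Hol_i` pointwise**: `ω ∈ Hol` iff `ω` is regular at every prime `𝔮 ⊇ P_j i` of the chart
`B_j`, `j = 0, 1`. -/
theorem mem_Hol_nodal_iff (M : NodalTwoChartModel R F π t B0 B1 O1 O2) (i : Fin 2)
    (res : ↥(comp O1 O2 i) →+* k) (hres : ∀ v : ↥(comp O1 O2 i), res v = 0 ↔ ¬ IsUnit v)
    (θ : Derivation ℤ k k) (ω : k) :
    letI := algebra0 B0 B1
    letI := algebra1 B0 B1
    haveI := isScalarTower0 B0 B1
    haveI := isScalarTower1 B0 B1
    ω ∈ Hol (res.comp (incl0 M i)) (res.comp (incl1 M i)) θ ↔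
      (∀ 𝔮 : Ideal ↥B0, 𝔮.IsPrime → (nodalGood M).P0 i ≤ 𝔮 →
        IsRegularAt (res.comp (incl0 M i)) θ 𝔮 ω) ∧
      (∀ 𝔮 : Ideal ↥B1, 𝔮.IsPrime → (nodalGood M).P1 i ≤ 𝔮 →
        IsRegularAt (res.comp (incl1 M i)) θ 𝔮 ω) := by
  rw [mem_Hol_iff_forall_isRegularAt, ker_res_incl0 M i res hres, ker_res_incl1 M i res hres]

end Ker

/-- **S5 HOL at the nodal two-chart model.**  `I_j ⊂ F` invertible `B_j`-submodules with
`I_j ^ p = B_j ∙ f` for the same `f ≠ 0`; `res : V_i →+* k` killing the nonunits, `char k = p`, `θ` a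
derivation of `k`; `C ∋ π` a subfield of constants (`θ (res e) = 0` for `e ∈ C ∩ V_i`).  If
`f = u₁ * c₁` with `u₁ ∈ V_iˣ` and `c₁ ∈ C`, then `θ (res u₁) / res u₁ ∈ Hol_i`. -/
theorem nodal_dlog_mem_Hol (M : NodalTwoChartModel R F π t B0 B1 O1 O2) (i : Fin 2)
    {I0 J0 : Submodule ↥B0 F} (hIJ0 : I0 * J0 = 1) {I1 J1 : Submodule ↥B1 F} (hIJ1 : I1 * J1 = 1)
    (p : ℕ) (hp : p ≠ 0) {f : F} (hf : f ≠ 0)
    (hI0 : I0 ^ p = Submodule.span ↥B0 {f}) (hI1 : I1 ^ p = Submodule.span ↥B1 {f})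
    {k : Type*} [Field k] [CharP k p] (res : ↥(comp O1 O2 i) →+* k)
    (hres : ∀ v : ↥(comp O1 O2 i), ¬ IsUnit v → res v = 0)
    (θ : Derivation ℤ k k) {C : Subfield F} (hπ : algebraMap R F π ∈ C)
    (hC : ∀ e : ↥(comp O1 O2 i), (e : F) ∈ C → θ (res e) = 0)
    (u₁ : (↥(comp O1 O2 i))ˣ) {c₁ : F} (hc₁ : c₁ ∈ C)
    (hu₁ : ((u₁ : ↥(comp O1 O2 i)) : F) * c₁ = f) :
    θ (res (u₁ : ↥(comp O1 O2 i))) / res (u₁ : ↥(comp O1 O2 i)) ∈
      Hol (res.comp (incl0 M i)) (res.comp (incl1 M i)) θ :=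
  dlog_mem_Hol_of_const (comp O1 O2 i) (incl0 M i) (algebraMap_eq_incl0 M i)
    (incl1 M i) (algebraMap_eq_incl1 M i) hIJ0 hIJ1 p hp hf hI0 hI1 res hres θ hC
    (hasConstScaling_comp M i C hπ) u₁ hc₁ hu₁

end Nodal

/-! ### Part B: Gauss pull-backs and `θ = q d/dq` -/

section Theta

open Fermat.Agent.IG.PR.Theta20

/-- A derivation (over `ℤ`) of a field from an additive map with the Leibniz rule. -/
def derOfAddHom {k : Type*} [Field k] (D : k →+ k)
    (h : ∀ a b : k, D (a * b) = D a * b + a * D b) : Derivation ℤ k k where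
  toFun := D
  map_add' := map_add D
  map_smul' n x := by
    rw [RingHom.id_apply]
    exact map_zsmul D n x
  map_one_eq_zero' := by
    show D 1 = 0
    have h1 := h 1 1
    rw [mul_one, mul_one, one_mul] at h1
    linear_combination (-1 : k) * h1
  leibniz' a b := by
    show D (a * b) = a • D b + b • D a
    rw [h, smul_eq_mul, smul_eq_mul]; ring

@[simp] theorem derOfAddHom_apply {k : Type*} [Field k] (D : k →+ k)
    (h : ∀ a b : k, D (a * b) = D a * b + a * D b) (x : k) : derOfAddHom D h x = D x := rfl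

/-- The `ℤ`-derivations of a field (with the generic `ℤ`-algebra structure `Ring.toIntAlgebra`; for
`k = κ((q))` instance search would otherwise pick `HahnSeries.powerSeriesAlgebra`). -/
abbrev FieldDer (k : Type*) [Field k] : Type _ := Derivation ℤ k k

variable (κ : Type*) [Field κ]

/-- `θ = q d/dq` as a derivation of `κ((q))`. -/
def thetaDer : FieldDer (LaurentSeries κ) :=
  derOfAddHom (k := LaurentSeries κ) (theta (R := κ)) theta_mul

@[simp] theorem thetaDer_apply (g : LaurentSeries κ) : thetaDer κ g = theta g := rfl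

/-- `κ((q))` has the characteristic of `κ`. -/
theorem charP_laurent (p : ℕ) [CharP κ p] : CharP (LaurentSeries κ) p :=
  charP_of_injective_ringHom (f := (HahnSeries.C : κ →+* LaurentSeries κ))
    HahnSeries.C_injective p

end Theta

section Gauss

open Fermat.Agent.ES.N34.GaussEmb22 Fermat.Agent.RED.PUR.GaussGen8 Fermat.Agent.IG.PR.Theta20

variable {K : Type*} [Field K] {O : ValuationSubring K} [IsDiscreteValuationRing ↥O]
  {F : Type*} [Field F] [Algebra K F]
  {ι : F →ₐ[K] LaurentSeries K} {V : ValuationSubring F}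

/-- The kernel of `redOf` is the set of nonunits of `V`. -/
theorem redOf_eq_zero_iff_not_isUnit (hV : IsGaussPullback O ι V) (v : ↥V) :
    redOf hV v = 0 ↔ ¬ IsUnit v := by
  rw [redOf_eq_zero_iff, ValuationSubring.valuation_eq_one_iff]
  exact ⟨fun h => h.ne, fun h => lt_of_le_of_ne (V.valuation_le_one v) h⟩

/-- `redOf` of a constant of `O` is a constant series. -/
theorem redOf_const (hV : IsGaussPullback O ι V) (c : ↥O) :
    redOf hV ⟨algebraMap K F (c : K), Fermat.Agent.ES.N34.GaussEmb22.algebraMap_mem hV c⟩ = HahnSeries.C (res0 O c) := by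
  rw [redOf_apply]
  have : toGauss hV ⟨algebraMap K F (c : K), Fermat.Agent.ES.N34.GaussEmb22.algebraMap_mem hV c⟩ = constG O c :=
    Subtype.ext (map_algebraMap (c : K))
  rw [this, gaussRed_constG]

/-- **Constants are killed by `θ ∘ redOf`.** -/
theorem theta_redOf_const (hV : IsGaussPullback O ι V) (e : ↥V)
    (he : (e : F) ∈ (algebraMap K F).fieldRange) :
    thetaDer (Res O) (redOf hV e) = 0 := by
  obtain ⟨c, hc⟩ := he
  rw [thetaDer_apply]
  by_cases hcO : c ∈ O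
  · have : e = ⟨algebraMap K F ((⟨c, hcO⟩ : ↥O) : K), Fermat.Agent.ES.N34.GaussEmb22.algebraMap_mem hV ⟨c, hcO⟩⟩ :=
      Subtype.ext hc.symm
    rw [this, redOf_const, theta_C]
  · -- then `c⁻¹ ∈ 𝔪_O`, and `redOf e * 0 = 1`: impossible
    exfalso
    have hcinv : c⁻¹ ∈ O := (O.mem_or_inv_mem c).resolve_left hcO
    have hc0 : c ≠ 0 := fun h0 => hcO (h0 ▸ O.zero_mem)
    set d : ↥O := ⟨c⁻¹, hcinv⟩ with hd
    have hdnu : ¬ IsUnit d := by
      intro hu
      obtain ⟨w, hw⟩ := hu.exists_right_inv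
      have hwK : c⁻¹ * (w : K) = 1 := congrArg Subtype.val hw
      have : (w : K) = c := by
        have := eq_inv_of_mul_eq_one_right hwK
        rwa [inv_inv] at this
      exact hcO (this ▸ w.2)
    have hres0 : res0 O d = 0 := by
      rw [IsLocalRing.residue_eq_zero_iff]
      exact hdnu
    have hmul : e * ⟨algebraMap K F ((d : ↥O) : K), Fermat.Agent.ES.N34.GaussEmb22.algebraMap_mem hV d⟩ = 1 := by
      apply Subtype.ext
      show (e : F) * algebraMap K F c⁻¹ = 1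
      rw [← hc, ← map_mul, mul_inv_cancel₀ hc0, map_one]
    have h1 := congrArg (redOf hV) hmul
    rw [map_mul, redOf_const, hres0, map_zero, mul_zero, map_one] at h1
    exact zero_ne_one h1

end Gauss

section GaussNodal

open Fermat.Agent.ES.N34.GaussEmb22 Fermat.Agent.RED.PUR.GaussGen8 Fermat.Agent.IG.PR.Theta20

variable {K F : Type u} [Field K] [Field F] [Algebra K F] {O : ValuationSubring K}
  [IsDiscreteValuationRing ↥O] [Algebra ↥O F] [IsScalarTower ↥O K F]
  {π : ↥O} {t : F} {B0 B1 : Subalgebra ↥O F} {O1 O2 : ValuationSubring F}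
  {ι : F →ₐ[K] LaurentSeries K}

/-- **S5 HOL for a nodal model over `O ⊂ K` whose `i`-th component valuation ring is the Gauss
pull-back along `ι : F → K((q))`**: with `res = redOf hV : V_i →+* κ((q))`, `θ = q d/dq`.  `I_j ⊂ F`
invertible `B_j`-submodules with `I_j ^ p = B_j ∙ f`, `f = u₁ * c₁`, `u₁ ∈ V_iˣ`, `c₁ ∈ K` a constant:
then `θ (redOf u₁) / redOf u₁ ∈ Hol_i`. -/
theorem gauss_dlog_mem_Hol (M : NodalTwoChartModel ↥O F π t B0 B1 O1 O2) (i : Fin 2)
    (hV : IsGaussPullback O ι (comp O1 O2 i))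
    {I0 J0 : Submodule ↥B0 F} (hIJ0 : I0 * J0 = 1) {I1 J1 : Submodule ↥B1 F} (hIJ1 : I1 * J1 = 1)
    (p : ℕ) (hp : p ≠ 0) [CharP (Res O) p] {f : F} (hf : f ≠ 0)
    (hI0 : I0 ^ p = Submodule.span ↥B0 {f}) (hI1 : I1 ^ p = Submodule.span ↥B1 {f})
    (u₁ : (↥(comp O1 O2 i))ˣ) (c₁ : K)
    (hu₁ : ((u₁ : ↥(comp O1 O2 i)) : F) * algebraMap K F c₁ = f) :
    thetaDer (Res O) (redOf hV (u₁ : ↥(comp O1 O2 i))) / redOf hV (u₁ : ↥(comp O1 O2 i)) ∈
      Hol ((redOf hV).comp (incl0 M i)) ((redOf hV).comp (incl1 M i)) (thetaDer (Res O)) := by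
  have : CharP (LaurentSeries (Res O)) p := charP_laurent (Res O) p
  refine nodal_dlog_mem_Hol M i hIJ0 hIJ1 p hp hf hI0 hI1 (redOf hV)
    (fun v hv => (redOf_eq_zero_iff_not_isUnit hV v).2 hv) (thetaDer (Res O))
    (C := (algebraMap K F).fieldRange) ?_ (fun e he => theta_redOf_const hV e he) u₁
    ⟨c₁, rfl⟩ hu₁
  exact ⟨(π : K), (IsScalarTower.algebraMap_apply ↥O K F π).symm⟩

end GaussNodal

end Fermat.Agent.T1B.Hol80
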