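import Mathlib
import Fermat.Agent.T1B.Hol80.Inst
import Fermat.Agent.T1B.Hecke3.Delta
import Fermat.Agent.T1B.Hecke3.GaussVal

/-!
# T1B (S44), brick F8-S5 HOL (second seat: helper80), part (C4): `delta x ∈ Hol`

S5 HOL in the vocabulary of helper3's S4 DELTA (`T1B/Hecke3/{Delta,GaussVal}.lean`), for an ARBITRARY
valuation subring `A` of `K` (not necessarily discrete; e.g. `A ⊂ ℚ̄`):

* `V := gaussVal A e H.norm` the Gauss valuation ring of the expansion `e : F →+* K((q))`,
  `gaussResV A e H : V →+* κ((q))` its residue map (`= gaussRes` on the same carrier),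
  `gaussResV_eq_zero_iff` (kernel = nonunits), `theta_gaussResV_const` (constants are killed by `θ`),
  `hasConstScaling_gaussVal` (value group of `V` = value group of the constants);
* `dl_mem_Hol` : `R_0, R_1` rings with maps `φ_j : R_j →+* V` (the charts of an integral model),
  `I_j ⊂ F` invertible `R_j`-submodules with `I_j ^ p = R_j ∙ f`, `f ≠ 0`:
  `dl A (e f) ∈ Hol (gaussResV ∘ φ0) (gaussResV ∘ φ1) θ`;
* `delta_mem_Hol` : **for `x ∈ Pic⁰[p]` presented by `(D, f)`, `p D = div f`, with `f` as above: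
  `delta A e p H x ∈ Hol`.**
-/

set_option autoImplicit false
set_option linter.unusedSectionVars false

noncomputable section

namespace Fermat.Agent.T1B.Hol80

open Fermat.Agent.T1B.Hecke3 Fermat.Agent.IG.PR.Theta20 AlgebraicCurve

section GaussV

variable {K : Type*} [Field K] {F : Type*} [Field F]
variable (A : ValuationSubring K) (e : F →+* LaurentSeries K)
  (H : ∀ f : F, f ≠ 0 → Normalisable A (e f))

/-- The identity `gaussVal → gaussSub` (same carrier). -/
def gaussValToSub : ↥(gaussVal A e H) →+* ↥(gaussSub A e) where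
  toFun x := ⟨(x : F), (mem_gaussVal_iff A e H _).1 x.2⟩
  map_one' := rfl
  map_mul' _ _ := rfl
  map_zero' := rfl
  map_add' _ _ := rfl

@[simp] theorem coe_gaussValToSub (x : ↥(gaussVal A e H)) :
    ((gaussValToSub A e H x : ↥(gaussSub A e)) : F) = (x : F) := rfl

/-- The residue map of the Gauss valuation ring. -/
def gaussResV : ↥(gaussVal A e H) →+* LaurentSeries (Kap A) :=
  (gaussRes A e).comp (gaussValToSub A e H)

theorem gaussResV_apply (x : ↥(gaussVal A e H)) :
    gaussResV A e H x = gaussRes A e (gaussValToSub A e H x) := rfl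

variable {A e H}

/-- The kernel of the residue map is the set of nonunits. -/
theorem gaussResV_eq_zero_iff (v : ↥(gaussVal A e H)) : gaussResV A e H v = 0 ↔ ¬ IsUnit v := by
  constructor
  · intro h0 hu
    exact (hu.map (gaussResV A e H)).ne_zero h0
  · intro hnu
    by_contra hne
    apply hnu
    have hu : IsUnit (gaussValToSub A e H v) := (isUnit_iff_gaussRes_ne_zero _).2 hne
    obtain ⟨w, hw⟩ := hu.exists_right_inv
    have hwF : (v : F) * (w : F) = 1 := congrArg Subtype.val hw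
    refine ⟨⟨v, ⟨(w : F), (mem_gaussVal_iff A e H _).2 w.2⟩, Subtype.ext hwF, ?_⟩, rfl⟩
    exact Subtype.ext (by rw [mul_comm] at hwF; exact hwF)

/-- The residue of a constant of `A`. -/
theorem gaussRes_const (ι : K →+* F) (hι : ∀ c : K, e (ι c) = HahnSeries.C c) (c : ↥A)
    (h : ι (c : K) ∈ gaussSub A e) :
    gaussRes A e ⟨ι (c : K), h⟩ = HahnSeries.C (IsLocalRing.residue ↥A c) := by
  have hrep : IsIntRep A e (ι (c : K)) (HahnSeries.C c) 1 := by
    refine ⟨by rw [map_one]; exact one_ne_zero, ?_⟩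
    rw [hι, map_one, mul_one]
    show _ = embA A (HahnSeries.C c)
    rw [coeffMap_C']
    rfl
  rw [gaussRes_eq (f := ⟨ι (c : K), h⟩) hrep, map_one, div_one]
  show redA A (HahnSeries.C c) = _
  rw [coeffMap_C']

theorem const_mem_gaussSub (ι : K →+* F) (hι : ∀ c : K, e (ι c) = HahnSeries.C c) (c : ↥A) :
    ι (c : K) ∈ gaussSub A e := by
  refine ⟨HahnSeries.C c, 1, by rw [map_one]; exact one_ne_zero, ?_⟩
  rw [hι, map_one, mul_one]
  show _ = embA A (HahnSeries.C c)
  rw [coeffMap_C']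
  rfl

/-- **Constants are killed by `θ ∘ gaussResV`.** -/
theorem theta_gaussResV_const (ι : K →+* F) (hι : ∀ c : K, e (ι c) = HahnSeries.C c)
    (x : ↥(gaussVal A e H)) (hx : (x : F) ∈ ι.fieldRange) :
    thetaDer (Kap A) (gaussResV A e H x) = 0 := by
  obtain ⟨c, hc⟩ := hx
  rw [thetaDer_apply, gaussResV_apply]
  by_cases hcA : c ∈ A
  · have : gaussValToSub A e H x = ⟨ι ((⟨c, hcA⟩ : ↥A) : K), const_mem_gaussSub ι hι ⟨c, hcA⟩⟩ :=
      Subtype.ext hc.symm
    rw [this, gaussRes_const ι hι, theta_C]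
  · exfalso
    have hcinv : c⁻¹ ∈ A := (A.mem_or_inv_mem c).resolve_left hcA
    have hc0 : c ≠ 0 := fun h0 => hcA (h0 ▸ A.zero_mem)
    set d : ↥A := ⟨c⁻¹, hcinv⟩ with hd
    have hdnu : ¬ IsUnit d := by
      intro hu
      obtain ⟨w, hw⟩ := hu.exists_right_inv
      have hwK : c⁻¹ * (w : K) = 1 := congrArg Subtype.val hw
      have : (w : K) = c := by
        have := eq_inv_of_mul_eq_one_right hwK
        rwa [inv_inv] at this
      exact hcA (this ▸ w.2)
    have hres0 : IsLocalRing.residue ↥A d = 0 := by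
      rw [IsLocalRing.residue_eq_zero_iff]
      exact hdnu
    have hmul : gaussValToSub A e H x * ⟨ι ((d : ↥A) : K), const_mem_gaussSub ι hι d⟩ = 1 := by
      apply Subtype.ext
      show (x : F) * ι c⁻¹ = 1
      rw [← hc, ← map_mul, mul_inv_cancel₀ hc0, map_one]
    have h1 := congrArg (gaussRes A e) hmul
    rw [map_mul, gaussRes_const ι hι, hres0, map_zero, mul_zero, map_one] at h1
    exact zero_ne_one h1

/-- **The value group of the Gauss valuation ring is the value group of the constants.** -/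
theorem hasConstScaling_gaussVal (ι : K →+* F) (hι : ∀ c : K, e (ι c) = HahnSeries.C c) :
    HasConstScaling (gaussVal A e H) ι.fieldRange := by
  intro a ha
  obtain ⟨c, hc, u, hu, hune, -⟩ := exists_const_mul_unit ι hι (H a ha)
  have hιc : ι c ≠ 0 := (map_ne_zero_iff ι ι.injective).2 hc
  have huV : (u : F) ∈ gaussVal A e H := (mem_gaussVal_iff A e H _).2 u.2
  have hunit : IsUnit (⟨(u : F), huV⟩ : ↥(gaussVal A e H)) := by
    by_contra hnu
    exact hune ((gaussResV_eq_zero_iff (H := H) ⟨(u : F), huV⟩).2 hnu)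
  refine ⟨(ι c)⁻¹, inv_mem ⟨c, rfl⟩, inv_ne_zero hιc, hunit.unit, ?_⟩
  rw [IsUnit.unit_spec]
  show a = (ι c)⁻¹ * (u : F)
  rw [hu, inv_mul_cancel_left₀ hιc]

end GaussV

section Main

variable {K : Type*} [Field K] {F : Type*} [Field F]
variable {A : ValuationSubring K} {e : F →+* LaurentSeries K}
  (H : ∀ f : F, f ≠ 0 → Normalisable A (e f))
variable {R0 R1 : Type*} [CommRing R0] [CommRing R1] [Algebra R0 F] [Algebra R1 F]

/-- **S5 HOL for `dl`** (any valuation subring `A` of `K`): if `R_j ∙ f` is the `p`-th power of an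
invertible `R_j`-submodule of `F` for the two charts `R_0, R_1 ⊆ V = gaussVal A e`, then
`dl A (e f)` is a global regular differential. -/
theorem dl_mem_Hol (ι : K →+* F) (hι : ∀ c : K, e (ι c) = HahnSeries.C c)
    (φ0 : R0 →+* ↥(gaussVal A e H)) (hφ0 : ∀ x, algebraMap R0 F x = (φ0 x : F))
    (φ1 : R1 →+* ↥(gaussVal A e H)) (hφ1 : ∀ x, algebraMap R1 F x = (φ1 x : F))
    {I0 J0 : Submodule R0 F} (hIJ0 : I0 * J0 = 1) {I1 J1 : Submodule R1 F} (hIJ1 : I1 * J1 = 1)
    (p : ℕ) (hp : p ≠ 0) [CharP (Kap A) p] {f : F} (hf : f ≠ 0)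
    (hI0 : I0 ^ p = Submodule.span R0 {f}) (hI1 : I1 ^ p = Submodule.span R1 {f}) :
    dl A (e f) ∈ Hol ((gaussResV A e H).comp φ0) ((gaussResV A e H).comp φ1)
      (thetaDer (Kap A)) := by
  have : CharP (LaurentSeries (Kap A)) p := charP_laurent (Kap A) p
  obtain ⟨c, hc, u, hu, hune, hdl⟩ := exists_const_mul_unit ι hι (H f hf)
  have hιc : ι c ≠ 0 := (map_ne_zero_iff ι ι.injective).2 hc
  have huV : (u : F) ∈ gaussVal A e H := (mem_gaussVal_iff A e H _).2 u.2
  have hunit : IsUnit (⟨(u : F), huV⟩ : ↥(gaussVal A e H)) := by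
    by_contra hnu
    exact hune ((gaussResV_eq_zero_iff (H := H) ⟨(u : F), huV⟩).2 hnu)
  have hfu : ((hunit.unit : (↥(gaussVal A e H))ˣ) : ↥(gaussVal A e H)) * (ι c)⁻¹ = f := by
    rw [IsUnit.unit_spec]
    show (u : F) * (ι c)⁻¹ = f
    rw [hu, mul_comm, inv_mul_cancel_left₀ hιc]
  have key := dlog_mem_Hol_of_const (gaussVal A e H) φ0 hφ0 φ1 hφ1 hIJ0 hIJ1 p hp hf hI0 hI1
    (gaussResV A e H) (fun v hv => (gaussResV_eq_zero_iff v).2 hv) (thetaDer (Kap A))
    (C := ι.fieldRange) (fun x hx => theta_gaussResV_const ι hι x hx)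
    (hasConstScaling_gaussVal ι hι) hunit.unit (inv_mem ⟨c, rfl⟩) hfu
  rw [hdl, dlog, ← thetaDer_apply, ← div_eq_mul_inv]
  rw [IsUnit.unit_spec] at key
  exact key

variable [Algebra K F]

/-- **S5 HOL for `delta`**: for a `p`-torsion class `x = cls D`, `p D = div f`, such that `R_j ∙ f`
is the `p`-th power of an invertible `R_j`-submodule of `F` (`j = 0, 1`; in the application: `x` is
the generic fibre of a line module `M` on the integral model with `M ^ p` trivial, i.e.
`x ∈ J⁰_L[p]`), `delta x` is a global regular differential on the component of the special fibre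
belonging to the expansion `e`. -/
theorem delta_mem_Hol {p : ℕ} (HD : DeltaInputs A e p)
    (φ0 : R0 →+* ↥(gaussVal A e HD.norm)) (hφ0 : ∀ x, algebraMap R0 F x = (φ0 x : F))
    (φ1 : R1 →+* ↥(gaussVal A e HD.norm)) (hφ1 : ∀ x, algebraMap R1 F x = (φ1 x : F))
    (hp : p ≠ 0) (x : Pic0.torsion K F p) {D : Divisor.degZero (K := K) (F := F)} {f : F}
    (h : IsPData (K := K) p (x : Pic0 K F) D f)
    {I0 J0 : Submodule R0 F} (hIJ0 : I0 * J0 = 1) {I1 J1 : Submodule R1 F} (hIJ1 : I1 * J1 = 1)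
    (hI0 : I0 ^ p = Submodule.span R0 {f}) (hI1 : I1 ^ p = Submodule.span R1 {f}) :
    delta A e p HD x ∈ Hol ((gaussResV A e HD.norm).comp φ0) ((gaussResV A e HD.norm).comp φ1)
      (thetaDer (Kap A)) := by
  have := HD.charP
  rw [delta_eq HD x h]
  exact dl_mem_Hol HD.norm (algebraMap K F) HD.e_const φ0 hφ0 φ1 hφ1 hIJ0 hIJ1 p hp h.2.1 hI0 hI1

end Main

end Fermat.Agent.T1B.Hol80
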