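import Mathlib
import Fermat.Agent.T1B.Hol80.PlaceOrd
import Fermat.Agent.T1B.Hol80.DeltaHol
import Fermat.Agent.T1B.Hol13.Iface

/-!
# T1B (S44), brick HOLLOG80 (helper80): S5 HOL delivers helper13's `HolLog`

`Hol13.HolLog κ N p w` (`T1B/Hol13/Iface.lean`, the source of brick H):
`w = dlog ū` for a nonzero `ū ∈ modularFunctionFieldFullC κ N ⊆ κ((q))` with `p ∣ ord_v ū` at every
place `v` of `modularFunctionFieldFullC κ N / κ`.

Setting (helper3's `Hecke3/GaussVal`): `A` a valuation subring of `K`, `e : F →+* K((q))` an expansion,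
`V = gaussVal A e H`, `gaussResV A e H : V →+* κ((q))`, `κ = Kap A`.  HYPOTHESES supplied by other bricks:
* `hrange` : the residues of the Gauss-integral functions are modular functions of level `N` over
  `κ` (`range (gaussResV) ⊆ modularFunctionFieldFullC κ N`: S3 GAUSS / W3);
* `hint0`, `hint1` : the reduced charts are integral over `κ[t̄]`, `κ[t̄⁻¹]`.

* `resK` : `gaussResV` corestricted to `modularFunctionFieldFullC κ N`;
* `holLog_dl_of_pow_eq` : **`HolLog κ N p (dl A (e f))`** whenever `R_j ∙ f = I_j ^ p` for invertible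
  `R_j`-submodules `I_j ⊂ F` (`j = 0, 1`);
* `holLog_delta` : the same for `delta A e p HD x`, `x ∈ Pic⁰[p]` presented by `(D, f)`.
-/

set_option autoImplicit false
set_option linter.unusedSectionVars false

noncomputable section

namespace Fermat.Agent.T1B.Hol80

open Fermat.Agent.T1B.Hecke3 Fermat.Agent.T1B.Hol13 ModularCurve AlgebraicCurve

variable {K : Type*} [Field K] {F : Type*} [Field F]
variable {A : ValuationSubring K} {e : F →+* LaurentSeries K}
  (H : ∀ f : F, f ≠ 0 → Normalisable A (e f))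

/-- The residue map of the Gauss valuation ring with values in the modular function field of the
special fibre. -/
def resK (N : ℕ)
    (hrange : ∀ x : ↥(gaussVal A e H), gaussResV A e H x ∈ modularFunctionFieldFullC (Kap A) N) :
    ↥(gaussVal A e H) →+* ↥(modularFunctionFieldFullC (Kap A) N) where
  toFun x := ⟨gaussResV A e H x, hrange x⟩
  map_one' := Subtype.ext (map_one _)
  map_mul' x y := Subtype.ext (map_mul _ x y)
  map_zero' := Subtype.ext (map_zero _)
  map_add' x y := Subtype.ext (map_add _ x y)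

@[simp] theorem coe_resK (N : ℕ)
    (hrange : ∀ x : ↥(gaussVal A e H), gaussResV A e H x ∈ modularFunctionFieldFullC (Kap A) N)
    (x : ↥(gaussVal A e H)) :
    ((resK H N hrange x : ↥(modularFunctionFieldFullC (Kap A) N)) : LaurentSeries (Kap A)) =
      gaussResV A e H x := rfl

variable {R0 R1 : Type*} [CommRing R0] [CommRing R1] [Algebra R0 F] [Algebra R1 F]

/-- **S5 HOL delivers `HolLog`** (form for `dl`). -/
theorem holLog_dl_of_pow_eq (ι : K →+* F) (hι : ∀ c : K, e (ι c) = HahnSeries.C c)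
    (N p : ℕ) (hp : p ≠ 0) [CharP (Kap A) p]
    (hrange : ∀ x : ↥(gaussVal A e H), gaussResV A e H x ∈ modularFunctionFieldFullC (Kap A) N)
    (φ0 : R0 →+* ↥(gaussVal A e H)) (hφ0 : ∀ x, algebraMap R0 F x = (φ0 x : F))
    (φ1 : R1 →+* ↥(gaussVal A e H)) (hφ1 : ∀ x, algebraMap R1 F x = (φ1 x : F))
    (t : ↥(modularFunctionFieldFullC (Kap A) N))
    (hint0 : ∀ x, IsIntegral (Algebra.adjoin (Kap A) {t}) (resK H N hrange (φ0 x)))
    (hint1 : ∀ x, IsIntegral (Algebra.adjoin (Kap A) {t⁻¹}) (resK H N hrange (φ1 x)))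
    {I0 J0 : Submodule R0 F} (hIJ0 : I0 * J0 = 1) {I1 J1 : Submodule R1 F} (hIJ1 : I1 * J1 = 1)
    {f : F} (hf : f ≠ 0)
    (hI0 : I0 ^ p = Submodule.span R0 {f}) (hI1 : I1 ^ p = Submodule.span R1 {f}) :
    HolLog (Kap A) N p (dl A (e f)) := by
  have hres : ∀ x : ↥(gaussVal A e H), ¬ IsUnit x → resK H N hrange x = 0 := fun x hx =>
    Subtype.ext ((gaussResV_eq_zero_iff x).2 hx)
  -- `f = u' * c₀ ^ p`, `u'` a unit of `V`, `c₀` a constant
  obtain ⟨a, w, ha, hw⟩ := exists_unit_mul_eq_pow (gaussVal A e H) φ0 hφ0 hIJ0 p hp hf hI0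
    (resK H N hrange) hres
  obtain ⟨c₀, ⟨c₀', rfl⟩, hc₀0, b, hab⟩ := hasConstScaling_gaussVal (H := H) ι hι a ha
  have hc₀'0 : c₀' ≠ 0 := fun h0 => hc₀0 (by rw [h0, map_zero])
  have hinv : ∀ x : (↥(gaussVal A e H))ˣ,
      (((x⁻¹ : (↥(gaussVal A e H))ˣ) : ↥(gaussVal A e H)) : F) =
        ((x : ↥(gaussVal A e H)) : F)⁻¹ := by
    intro x
    have h1 : ((x : ↥(gaussVal A e H)) : F) *
        (((x⁻¹ : (↥(gaussVal A e H))ˣ) : ↥(gaussVal A e H)) : F) = 1 :=
      congrArg Subtype.val x.mul_inv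
    exact eq_inv_of_mul_eq_one_right h1
  have hwF : ((w : ↥(gaussVal A e H)) : F) ≠ 0 := fun h0 => w.ne_zero (Subtype.ext h0)
  set u' : (↥(gaussVal A e H))ˣ := w⁻¹ * b ^ p with hu'
  have hu'F : ((u' : ↥(gaussVal A e H)) : F) =
      ((w : ↥(gaussVal A e H)) : F)⁻¹ * ((b : ↥(gaussVal A e H)) : F) ^ p := by
    rw [hu']
    push_cast
    rw [hinv]
  have hfu : ((u' : ↥(gaussVal A e H)) : F) * (ι c₀') ^ p = f := by
    rw [hu'F]
    have h1 : a ^ p = (ι c₀') ^ p * ((b : ↥(gaussVal A e H)) : F) ^ p := by rw [hab, mul_pow]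
    have h2 : f = ((w : ↥(gaussVal A e H)) : F)⁻¹ * a ^ p := by
      rw [← hw, inv_mul_cancel_left₀ hwF]
    rw [h2, h1]; ring
  -- the divisor of the residue is divisible by `p`
  have hord := ord_dvd_of_pow_eq (κ := Kap A) (gaussVal A e H) φ0 hφ0 φ1 hφ1 hIJ0 hIJ1 p hp hf
    hI0 hI1 (resK H N hrange) hres t hint0 hint1 u' (ι c₀') hfu
  -- `dl A (e f) = dlog (residue of u')`
  have hne : gaussRes A e (gaussValToSub A e H (u' : ↥(gaussVal A e H))) ≠ 0 :=
    (u'.isUnit.map (gaussResV A e H)).ne_zero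
  have hdl : dl A (e f) = dlog (gaussRes A e (gaussValToSub A e H (u' : ↥(gaussVal A e H)))) := by
    refine dl_eq_dlog_gaussRes_of_eq p ι hι (pow_ne_zero p hc₀'0) hne
      (g := 1) (by rw [map_one]; exact normalisable_one) ?_
    rw [one_pow, mul_one, map_pow, coe_gaussValToSub, mul_comm]
    exact hfu.symm
  refine ⟨resK H N hrange (u' : ↥(gaussVal A e H)), ?_, ?_, hord⟩
  · exact (u'.isUnit.map (resK H N hrange)).ne_zero
  · rw [hdl]
    rfl

variable [Algebra K F]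

/-- **S5 HOL delivers `HolLog`** (form for `delta`). -/
theorem holLog_delta {p : ℕ} (HD : DeltaInputs A e p) (N : ℕ) (hp : p ≠ 0)
    (hrange : ∀ x : ↥(gaussVal A e HD.norm),
      gaussResV A e HD.norm x ∈ modularFunctionFieldFullC (Kap A) N)
    (φ0 : R0 →+* ↥(gaussVal A e HD.norm)) (hφ0 : ∀ x, algebraMap R0 F x = (φ0 x : F))
    (φ1 : R1 →+* ↥(gaussVal A e HD.norm)) (hφ1 : ∀ x, algebraMap R1 F x = (φ1 x : F))
    (t : ↥(modularFunctionFieldFullC (Kap A) N))
    (hint0 : ∀ x, IsIntegral (Algebra.adjoin (Kap A) {t}) (resK HD.norm N hrange (φ0 x)))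
    (hint1 : ∀ x, IsIntegral (Algebra.adjoin (Kap A) {t⁻¹}) (resK HD.norm N hrange (φ1 x)))
    (x : Pic0.torsion K F p) {D : Divisor.degZero (K := K) (F := F)} {f : F}
    (h : IsPData (K := K) p (x : Pic0 K F) D f)
    {I0 J0 : Submodule R0 F} (hIJ0 : I0 * J0 = 1) {I1 J1 : Submodule R1 F} (hIJ1 : I1 * J1 = 1)
    (hI0 : I0 ^ p = Submodule.span R0 {f}) (hI1 : I1 ^ p = Submodule.span R1 {f}) :
    HolLog (Kap A) N p (delta A e p HD x) := by
  have := HD.charP
  rw [delta_eq HD x h]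
  exact holLog_dl_of_pow_eq HD.norm (algebraMap K F) HD.e_const N p hp hrange φ0 hφ0 φ1 hφ1 t
    hint0 hint1 hIJ0 hIJ1 h.2.1 hI0 hI1

end Fermat.Agent.T1B.Hol80
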