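import Mathlib

/-!
# T1B (S44), brick HOLLOG80 (helper80): the hypotheses `hint0`, `hint1` of `holLog_dl_of_pow_eq`

Integrality passes to residues: if `x ∈ B` is integral over `R[t]` and `ρ : B →+* k` maps `R` into the
constants `κ ⊆ k`, then `ρ x` is integral over `κ[ρ t]`.

* `isIntegral_adjoin_map` : the statement above;
* `isIntegral_adjoin_map_of_forall` : chart form (every element of `B` integral over `R[t]`).
-/

set_option autoImplicit false

namespace Fermat.Agent.T1B.Hol80

section

variable {R B κ k : Type*} [CommRing R] [CommRing B] [Algebra R B] [Field κ] [Field k] [Algebra κ k]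

/-- `ρ` maps `R[t]` into `κ[ρ t]`. -/
theorem map_mem_adjoin_of_mem_adjoin (ρ : B →+* k)
    (hρ : ∀ r : R, ∃ c : κ, ρ (algebraMap R B r) = algebraMap κ k c) (t : B) {y : B}
    (hy : y ∈ Algebra.adjoin R {t}) : ρ y ∈ Algebra.adjoin κ {ρ t} := by
  induction hy using Algebra.adjoin_induction with
  | mem y hy =>
    rw [Set.mem_singleton_iff] at hy
    rw [hy]
    exact Algebra.subset_adjoin (Set.mem_singleton _)
  | algebraMap r =>
    obtain ⟨c, hc⟩ := hρ r
    rw [hc]
    exact Subalgebra.algebraMap_mem _ c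
  | add y z _ _ hy hz =>
    rw [map_add]
    exact Subalgebra.add_mem _ hy hz
  | mul y z _ _ hy hz =>
    rw [map_mul]
    exact Subalgebra.mul_mem _ hy hz

/-- **Integrality passes to residues.** -/
theorem isIntegral_adjoin_map (ρ : B →+* k)
    (hρ : ∀ r : R, ∃ c : κ, ρ (algebraMap R B r) = algebraMap κ k c) (t : B) {x : B}
    (hx : IsIntegral (Algebra.adjoin R {t}) x) : IsIntegral (Algebra.adjoin κ {ρ t}) (ρ x) := by
  let φ : ↥(Algebra.adjoin R {t}) →+* ↥(Algebra.adjoin κ {ρ t}) :=
    RingHom.codRestrict (ρ.comp (Algebra.adjoin R {t}).val.toRingHom) (Algebra.adjoin κ {ρ t})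
      (fun y => map_mem_adjoin_of_mem_adjoin ρ hρ t y.2)
  exact IsIntegral.map_of_comp_eq φ ρ (by ext y; rfl) hx

/-- Chart form, with the parameter named in `k`. -/
theorem isIntegral_adjoin_map_of_forall (ρ : B →+* k)
    (hρ : ∀ r : R, ∃ c : κ, ρ (algebraMap R B r) = algebraMap κ k c) (t : B)
    (hint : ∀ x : B, IsIntegral (Algebra.adjoin R {t}) x) {τ : k} (hτ : ρ t = τ) (x : B) :
    IsIntegral (Algebra.adjoin κ {τ}) (ρ x) := by
  subst hτ
  exact isIntegral_adjoin_map ρ hρ t (hint x)

end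

end Fermat.Agent.T1B.Hol80
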