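import Mathlib
import Fermat.Agent.T1B.Hol31.HubAsmDiv
import Fermat.Agent.T1B.Hol80.HolLog

/-!
# T1B (S44), brick HOLLOG80 (helper80): `δ_hol` at ONE finite level of the hub

Per-level statement of the `δ_hol` assembly (`Hol80/DeltaHolAsm.lean` is the union over the levels):
hub vocabulary of helper31's `Hol31.HubAsmDiv` (`c0 : TwoChart W B0 B1 B01`, `O` the DVR `A ∩ L`,
`L ⊆ ℚ̄`, `P00 ≤ PicX c0 O` with `ExtInjective00`, `E : ChartIso (c0.baseChange L) t`).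

For a `p`-torsion class `z ∈ J0L c0 O L P00` (the generic fibre of a class of `P00`) and a class
`x ∈ J₀(M)(ℚ̄)[p]` attached to `z` by the dictionary (JSpec-F: `cls (framePair E hN φ) = x` for a framed
line `(N, φ)` with `mk N = z`): `delta A e p HD x ∈ HolLog`, for ANY detector `(A, e, HD)` whose Gauss
ring contains the two integral charts.

* `holLog_delta_of_level_of_exists` : JSpec-F in existence form (`∃ N hN φ, mk N = z ∧ cls = x`);
* `holLog_delta_of_level` : JSpec-F in universal form (`∀ N hN φ, mk N = z → cls = x`).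
-/

set_option autoImplicit false
set_option linter.unusedSectionVars false
set_option linter.style.haveILetI false

open TensorProduct

namespace Fermat.Agent.T1B.Hol80

open Fermat.Agent.Jac Fermat.Agent.Jac.LineOps39 Fermat.Agent.Jac.JGroup85Pic
open Fermat.Agent.Jac.JSmooth85Alg
open Fermat.Agent.Jac.BaseChange75 Fermat.Agent.T1.RedIface75 Fermat.Agent.T1B.RedN3
open Fermat.Agent.T1.Dict59 Fermat.Agent.T1.Adapt96 Fermat.Agent.T1B.Hol31.DictExt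
open HahnSeries AlgebraicCurve ModularCurve IntermediateField
open Fermat.Agent.RED.Interface4 Fermat.Agent.T1B.Hecke3 Fermat.Agent.T1B.Hol13
open scoped Fermat.Agent.Jac.BaseChange75

set_option synthInstance.maxHeartbeats 400000
set_option maxHeartbeats 1000000

variable {M : ℕ} [NeZero M] {L : IntermediateField ℚ Qbar} {t : FK M L}
  {W B0 B1 B01 : Type} [CommRing W] [CommRing B0] [CommRing B1] [CommRing B01]
  [Algebra W B0] [Algebra W B1] [Algebra W B01] [Algebra B0 B01] [Algebra B1 B01]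
  [IsScalarTower W B0 B01] [IsScalarTower W B1 B01]
  (c0 : TwoChart W B0 B1 B01)
  (O : Type) [CommRing O] [Algebra W O]
  [Algebra W L] [Algebra O L] [IsScalarTower W O L]
  (E : ChartIso (c0.baseChange ↥L) t)
  [Algebra (O ⊗[W] B0) (Fbar M)] [Algebra (O ⊗[W] B1) (Fbar M)] [Algebra (O ⊗[W] B01) (Fbar M)]
  [IsScalarTower (O ⊗[W] B0) (O ⊗[W] B01) (Fbar M)]
  [IsScalarTower (O ⊗[W] B1) (O ⊗[W] B01) (Fbar M)]

/-- **`δ_hol` at one level**, JSpec-F in existence form. -/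
theorem holLog_delta_of_level_of_exists
    (hρ0 : ∀ r : O ⊗[W] B0, algebraMap (O ⊗[W] B0) (Fbar M) r =
      cL M L (E.ι0 (algebraMap (O ⊗[W] B0) (↥L ⊗[W] B0) r)))
    (hρ1 : ∀ r : O ⊗[W] B1, algebraMap (O ⊗[W] B1) (Fbar M) r =
      cL M L (E.ι1 (algebraMap (O ⊗[W] B1) (↥L ⊗[W] B1) r)))
    (ht : NonConst M t) (P00 : Subgroup (PicX c0 O)) (hinj : ExtInjective00 c0 O ↥L P00)
    {z : PicX c0 ↥L} (hz : z ∈ J0L c0 O ↥L P00) {p : ℕ} (hp : p ≠ 0) (hzp : z ^ p = 1)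
    (x : ↥(Pic0.torsion Qbar (Fbar M) p))
    (hJ : ∃ (N : QC2 ↥L (↥L ⊗[W] B0) (↥L ⊗[W] B1) (↥L ⊗[W] B01)) (hN : N.IsLine)
      (φ : Framing E N), LinePic.mk (c0.baseChange ↥L) N hN = z ∧
        LinePair.cls (framePair E hN φ) = (x : Pic0 Qbar (Fbar M)))
    -- the detector
    {A : ValuationSubring Qbar} {e : Fbar M →+* LaurentSeries Qbar} (HD : DeltaInputs A e p)
    (N' : ℕ)
    (hrange : ∀ y : ↥(gaussVal A e HD.norm),
      gaussResV A e HD.norm y ∈ modularFunctionFieldFullC (Kap A) N')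
    (φ0 : (O ⊗[W] B0) →+* ↥(gaussVal A e HD.norm))
    (hφ0 : ∀ r, algebraMap (O ⊗[W] B0) (Fbar M) r = (φ0 r : Fbar M))
    (φ1 : (O ⊗[W] B1) →+* ↥(gaussVal A e HD.norm))
    (hφ1 : ∀ r, algebraMap (O ⊗[W] B1) (Fbar M) r = (φ1 r : Fbar M))
    (τ : ↥(modularFunctionFieldFullC (Kap A) N'))
    (hint0 : ∀ r, IsIntegral (Algebra.adjoin (Kap A) {τ}) (resK HD.norm N' hrange (φ0 r)))
    (hint1 : ∀ r, IsIntegral (Algebra.adjoin (Kap A) {τ⁻¹}) (resK HD.norm N' hrange (φ1 r))) :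
    HolLog (Kap A) N' p (delta A e p HD x) := by
  obtain ⟨N, hN, φ, hNz, hx⟩ := hJ
  obtain ⟨hdeg, g, I0, J0, I1, J1, hg, hP, hIJ0, hIJ1, hI0, hI1⟩ :=
    Fermat.Agent.T1B.Hol31.HubAsmDiv.exists_isPData_frames_hub c0 O E hρ0 hρ1 ht P00 hinj hz hp hzp
      hN hNz φ
  rw [hx] at hP
  exact holLog_delta HD N' hp hrange φ0 hφ0 φ1 hφ1 τ hint0 hint1 x hP hIJ0 hIJ1 hI0 hI1

/-- **`δ_hol` at one level**, JSpec-F in universal form. -/
theorem holLog_delta_of_level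
    (hρ0 : ∀ r : O ⊗[W] B0, algebraMap (O ⊗[W] B0) (Fbar M) r =
      cL M L (E.ι0 (algebraMap (O ⊗[W] B0) (↥L ⊗[W] B0) r)))
    (hρ1 : ∀ r : O ⊗[W] B1, algebraMap (O ⊗[W] B1) (Fbar M) r =
      cL M L (E.ι1 (algebraMap (O ⊗[W] B1) (↥L ⊗[W] B1) r)))
    (ht : NonConst M t) (P00 : Subgroup (PicX c0 O)) (hinj : ExtInjective00 c0 O ↥L P00)
    {z : PicX c0 ↥L} (hz : z ∈ J0L c0 O ↥L P00) {p : ℕ} (hp : p ≠ 0) (hzp : z ^ p = 1)
    (x : ↥(Pic0.torsion Qbar (Fbar M) p))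
    (hJ : ∀ (N : QC2 ↥L (↥L ⊗[W] B0) (↥L ⊗[W] B1) (↥L ⊗[W] B01)) (hN : N.IsLine)
      (φ : Framing E N), LinePic.mk (c0.baseChange ↥L) N hN = z →
        LinePair.cls (framePair E hN φ) = (x : Pic0 Qbar (Fbar M)))
    {A : ValuationSubring Qbar} {e : Fbar M →+* LaurentSeries Qbar} (HD : DeltaInputs A e p)
    (N' : ℕ)
    (hrange : ∀ y : ↥(gaussVal A e HD.norm),
      gaussResV A e HD.norm y ∈ modularFunctionFieldFullC (Kap A) N')
    (φ0 : (O ⊗[W] B0) →+* ↥(gaussVal A e HD.norm))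
    (hφ0 : ∀ r, algebraMap (O ⊗[W] B0) (Fbar M) r = (φ0 r : Fbar M))
    (φ1 : (O ⊗[W] B1) →+* ↥(gaussVal A e HD.norm))
    (hφ1 : ∀ r, algebraMap (O ⊗[W] B1) (Fbar M) r = (φ1 r : Fbar M))
    (τ : ↥(modularFunctionFieldFullC (Kap A) N'))
    (hint0 : ∀ r, IsIntegral (Algebra.adjoin (Kap A) {τ}) (resK HD.norm N' hrange (φ0 r)))
    (hint1 : ∀ r, IsIntegral (Algebra.adjoin (Kap A) {τ⁻¹}) (resK HD.norm N' hrange (φ1 r))) :
    HolLog (Kap A) N' p (delta A e p HD x) := by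
  obtain ⟨N, hN, hzN⟩ := LinePic.exists_rep z
  obtain ⟨φ⟩ := nonempty_framing E hN
  exact holLog_delta_of_level_of_exists c0 O E hρ0 hρ1 ht P00 hinj hz hp hzp x
    ⟨N, hN, φ, hzN.symm, hJ N hN φ hzN.symm⟩ HD N' hrange φ0 hφ0 φ1 hφ1 τ hint0 hint1

end Fermat.Agent.T1B.Hol80
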