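import Mathlib
import Fermat.Agent.T1B.Hol31.FrameBCDiv
import Fermat.Agent.T1B.Hol80.HolLog

/-!
# T1B (S44), brick HOLLOG80 (helper80): `δ_hol` for a line on the integral model

Composition of helper31's S5 FRAME statement (`Hol31.FrameBCDiv.exists_isPData_frames`) with
`Hol80.holLog_delta`: for a line `Mo` on the integral two-chart `c` (over `O = O_L`) whose class is
`p`-torsion, with generic fibre `N` and ANY framing `φ` of `N`, the class `x = cls (framePair E hN φ)`
of `J₀(M)(ℚ̄)[p]` satisfies `delta A e p HD x ∈ HolLog` for every expansion `e` (side) whose Gauss ring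
contains the two integral charts.

* `isPData_mem_torsion` : a presented class is `p`-torsion;
* `holLog_delta_of_line` : the composition.
-/

set_option autoImplicit false
set_option linter.unusedSectionVars false
set_option linter.style.haveILetI false

namespace Fermat.Agent.T1B.Hol80

open Fermat.Agent.Jac Fermat.Agent.Jac.LineOps39 Fermat.Agent.Jac.JGroup85Pic
open Fermat.Agent.Jac.JSmooth85Alg
open Fermat.Agent.T1.Dict59 Fermat.Agent.T1.Adapt96 Fermat.Agent.T1B.Hol31.DictExt
open HahnSeries AlgebraicCurve ModularCurve IntermediateField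
open Fermat.Agent.RED.Interface4 Fermat.Agent.T1B.Hecke3 Fermat.Agent.T1B.Hol13

section Tors

variable {K F : Type*} [Field K] [Field F] [Algebra K F] {p : ℕ}

/-- A presented class is `p`-torsion. -/
theorem isPData_mem_torsion {x : Pic0 K F} {D : Divisor.degZero (K := K) (F := F)} {f : F}
    (h : IsPData (K := K) p x D f) : x ∈ Pic0.torsion K F p := by
  obtain ⟨rfl, hf, hD⟩ := h
  rw [Pic0.mem_torsion]
  have h1 : ((p : ℤ) • D : Divisor.degZero (K := K) (F := F)) ∈
      (Divisor.principal (K := K) (F := F)).addSubgroupOf (Divisor.degZero (K := K) (F := F)) := by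
    rw [AddSubgroup.mem_addSubgroupOf]
    refine ⟨f, hf, fun v => ?_⟩
    rw [← hD v]
    simp
  exact (QuotientAddGroup.eq_zero_iff _).2 h1

end Tors

set_option synthInstance.maxHeartbeats 400000
set_option maxHeartbeats 1000000

variable {M : ℕ} [NeZero M] {L : IntermediateField ℚ Qbar} {t : FK M L}
  {O R0 R1 R01 : Type} [CommRing O] [CommRing R0] [CommRing R1] [CommRing R01]
  [Algebra O R0] [Algebra O R1] [Algebra O R01] [Algebra R0 R01] [Algebra R1 R01]
  [IsScalarTower O R0 R01] [IsScalarTower O R1 R01]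
  {S0 S1 S01 : Type} [CommRing S0] [CommRing S1] [CommRing S01]
  [Algebra L S0] [Algebra L S1] [Algebra L S01] [Algebra S0 S01] [Algebra S1 S01]
  [IsScalarTower L S0 S01] [IsScalarTower L S1 S01]
  [Algebra R0 S0] [Algebra R1 S1] [Algebra R01 S01]
  {c' : TwoChart L S0 S1 S01} (E : ChartIso c' t)
  [Algebra R0 (Fbar M)] [Algebra R1 (Fbar M)]
  {Mo : QC2 O R0 R1 R01} {N : QC2 L S0 S1 S01}

/-- **`δ_hol` for a line on the integral model.** -/
theorem holLog_delta_of_line (c : TwoChart O R0 R1 R01)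
    (hc0 : (algebraMap S0 S01).comp (algebraMap R0 S0) =
      (algebraMap R01 S01).comp (algebraMap R0 R01))
    (hc1 : (algebraMap S1 S01).comp (algebraMap R1 S1) =
      (algebraMap R01 S01).comp (algebraMap R1 R01))
    (hρ0 : ∀ r : R0, algebraMap R0 (Fbar M) r = cL M L (E.ι0 (algebraMap R0 S0 r)))
    (hρ1 : ∀ r : R1, algebraMap R1 (Fbar M) r = cL M L (E.ι1 (algebraMap R1 S1 r)))
    (ht : NonConst M t) (hMo : Mo.IsLine) (hN : N.IsLine) (ld : LiftData Mo N) {p : ℕ}
    (hp : p ≠ 0) (h : (LinePic.mk c Mo hMo) ^ p = 1) (φ : Framing E N)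
    -- the detector
    {A : ValuationSubring Qbar} {e : Fbar M →+* LaurentSeries Qbar} (HD : DeltaInputs A e p)
    (N' : ℕ)
    (hrange : ∀ x : ↥(gaussVal A e HD.norm),
      gaussResV A e HD.norm x ∈ modularFunctionFieldFullC (Kap A) N')
    (φ0 : R0 →+* ↥(gaussVal A e HD.norm)) (hφ0 : ∀ x, algebraMap R0 (Fbar M) x = (φ0 x : Fbar M))
    (φ1 : R1 →+* ↥(gaussVal A e HD.norm)) (hφ1 : ∀ x, algebraMap R1 (Fbar M) x = (φ1 x : Fbar M))
    (τ : ↥(modularFunctionFieldFullC (Kap A) N'))
    (hint0 : ∀ x, IsIntegral (Algebra.adjoin (Kap A) {τ}) (resK HD.norm N' hrange (φ0 x)))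
    (hint1 : ∀ x, IsIntegral (Algebra.adjoin (Kap A) {τ⁻¹}) (resK HD.norm N' hrange (φ1 x))) :
    ∃ htors : LinePair.cls (framePair E hN φ) ∈ Pic0.torsion Qbar (Fbar M) p,
      HolLog (Kap A) N' p (delta A e p HD ⟨LinePair.cls (framePair E hN φ), htors⟩) := by
  obtain ⟨hdeg, g, I0, J0, I1, J1, hg, hP, hIJ0, hIJ1, hI0, hI1⟩ :=
    Fermat.Agent.T1B.Hol31.FrameBCDiv.exists_isPData_frames E c hc0 hc1 hρ0 hρ1 ht hMo hN ld hp h φ
  have htors := isPData_mem_torsion hP
  exact ⟨htors, holLog_delta HD N' hp hrange φ0 hφ0 φ1 hφ1 τ hint0 hint1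
    ⟨LinePair.cls (framePair E hN φ), htors⟩ hP hIJ0 hIJ1 hI0 hI1⟩

end Fermat.Agent.T1B.Hol80
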