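import Mathlib
import Fermat.Agent.T1B.Hol80.R1W

/-!
# T1B (S44), brick SLOPE80 (helper80), part 10: W3 (G1) AUX-NODE (i)

The order of the residue of a VERTICAL element at the node places (weak form `NodePlaceW`).

* `NodePlaceW.ord_vertical` : `h ∈ A` vertical (`h g = π ^ n`) with `v₁ h = 0`:
  `ord_v (ρA h) * K = v₂ h` (`h = x ^ a · unit`, `v₂ h = a K`, `x̄` uniformiser).
* `NodePlaceW.ord_slope` : general vertical `h`: if `z ∈ k` satisfies `z * ρA c = ρA d` for the slope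
  representation `h c = π ^ (v₁ h) d` of `Slope.exists_slope_rep`, then `ord_v z = slope h`;
  packaged as `NodePlaceW.ord_res_slope` for `z = res₁ u`, `u = ιA h / ιA π ^ (v₁ h)`.
* `ord_res_vertical` : **chart form of W3 (G1) (i).**  One chart `B ⊂ F`, nodes `𝔪 e` of the same
  thickness `K`, node places `v e` (`NodePlaceW`); `h0 ∈ B` vertical (`h0 g0 = π ^ n`) and a unit of
  `O₁`.  Then `ord_{v e} (res₁ h0) * K = ord_{O₂} h0` at EVERY node; `exists_const_ord_res_vertical`: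
  `∃ c : ℤ, c * K = ord_{O₂} h0 ∧ ∀ e, ord_{v e} (res₁ h0) = c` (so `c ≠ 0` iff `h0` is not a unit
  of `O₂`).
-/

set_option autoImplicit false
set_option linter.unusedSectionVars false

namespace Fermat.Agent.T1B.Hol80

open AlgebraicCurve Fermat.Agent.T1.Peu37.NodeClassGroup Fermat.Agent.T1B.NodeNF37.Local
  Fermat.Agent.T1B.NodeNF37.UnifOrd Fermat.Agent.T1B.Hol31.Local Fermat.Agent.T1B.Node45.Orbit
  IsLocalRing

section Place

variable {A : Type*} [CommRing A] [IsDomain A] [IsLocalRing A] [IsNoetherianRing A]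
variable {v₁ v₂ : A → ℕ} {P₁ P₂ : Ideal A} {π x y : A} {K : ℕ}
variable {κ k : Type*} [Field κ] [Field k] [Algebra κ k]

namespace NodePlaceW

variable {ρA : A →+* k} {v : Place κ k}

/-- **W3 (G1) (i), local form.**  A vertical `h` with `v₁ h = 0` has `ord_v (ρA h) * K = v₂ h`. -/
theorem ord_vertical (D : NodeData A v₁ v₂ P₁ P₂ π x y K) (H : NodePlaceW P₁ ρA v)
    {h g : A} {n : ℕ} (hg : h * g = π ^ n) (h1 : v₁ h = 0) :
    ρA h ≠ 0 ∧ v.ord (ρA h) * (K : ℤ) = (v₂ h : ℤ) := by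
  obtain ⟨a, w, hw, hh, hv2⟩ := vertical_structure_aux D hg h1
  have hx0 := H.rho_x_ne D
  have hw0 : ρA w ≠ 0 := (hw.map ρA).ne_zero
  have hρ : ρA h = ρA x ^ a * ρA w := by rw [hh, map_mul, map_pow]
  refine ⟨by rw [hρ]; exact mul_ne_zero (pow_ne_zero a hx0) hw0, ?_⟩
  rw [hρ, v.ord_mul (pow_ne_zero a hx0) hw0, Place.ord_pow', H.ord_x D, H.ord_unit hw, hv2]
  push_cast
  ring

/-- The order of a vertical `h` with `v₁ h = 0` is the slope. -/
theorem ord_vertical_slope (D : NodeData A v₁ v₂ P₁ P₂ π x y K) (H : NodePlaceW P₁ ρA v)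
    {h g : A} {n : ℕ} (hg : h * g = π ^ n) (h1 : v₁ h = 0) :
    v.ord (ρA h) = slope K v₁ v₂ h := by
  have hK : (K : ℤ) ≠ 0 := by exact_mod_cast D.K_pos.ne'
  apply mul_right_cancel₀ hK
  rw [(H.ord_vertical D hg h1).2, slope_mul_K D hg, h1]
  push_cast
  ring

/-- General vertical `h`: any `z` with `z * ρA (x ^ b) = ρA (x ^ a * w)` for the slope representation
has order `slope h`. -/
theorem ord_slope (D : NodeData A v₁ v₂ P₁ P₂ π x y K) (H : NodePlaceW P₁ ρA v)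
    {a b : ℕ} {w : A} (hw : IsUnit w) {z : k} (hz : z * ρA x ^ b = ρA x ^ a * ρA w) :
    z ≠ 0 ∧ v.ord z = (a : ℤ) - (b : ℤ) := by
  have hx0 := H.rho_x_ne D
  have hw0 : ρA w ≠ 0 := (hw.map ρA).ne_zero
  have hz0 : z ≠ 0 := by
    rintro rfl
    rw [zero_mul] at hz
    exact (mul_ne_zero (pow_ne_zero a hx0) hw0) hz.symm
  refine ⟨hz0, ?_⟩
  have := congrArg v.ord hz
  rw [v.ord_mul hz0 (pow_ne_zero b hx0), v.ord_mul (pow_ne_zero a hx0) hw0, Place.ord_pow',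
    Place.ord_pow', H.ord_x D, H.ord_unit hw] at this
  linarith

end NodePlaceW

section Res

variable {F : Type*} [Field F] {O₁ : ValuationSubring F}

/-- **The residue of a vertical element, normalised along the branch `O₁`, has order `slope` at the
node place.**  `h ∈ A` vertical; `u ∈ O₁` with `ιA h = ιA π ^ (v₁ h) * u`. -/
theorem NodePlaceW.ord_res_slope (D : NodeData A v₁ v₂ P₁ P₂ π x y K)
    (ιA : A →+* F) (hιO : ∀ a, ιA a ∈ O₁) (res₁ : ↥O₁ →+* k) {v : Place κ k}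
    (H : NodePlaceW P₁ (res₁.comp (toO O₁ ιA hιO)) v) (hπ0 : ιA π ≠ 0)
    {h h' : A} {n : ℕ} (hh : h * h' = π ^ n) (u : ↥O₁)
    (hu : ιA h = ιA π ^ (v₁ h) * (u : F)) :
    res₁ u ≠ 0 ∧ v.ord (res₁ u) = slope K v₁ v₂ h := by
  obtain ⟨a, b, w, hw, hrep, hab⟩ := exists_slope_rep D hh
  set ρA := res₁.comp (toO O₁ ιA hιO) with hρA
  have hrepF : ιA h * ιA x ^ b = ιA π ^ (v₁ h) * (ιA x ^ a * ιA w) := by
    have := congrArg ιA hrep
    simpa only [map_mul, map_pow] using this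
  -- `u * X ^ b = X ^ a * W` in `O₁`
  have hid : u * (toO O₁ ιA hιO x) ^ b = (toO O₁ ιA hιO x) ^ a * toO O₁ ιA hιO w := by
    apply Subtype.ext
    push_cast
    rw [coe_toO, coe_toO]
    have hπn : ιA π ^ (v₁ h) ≠ 0 := pow_ne_zero _ hπ0
    apply mul_left_cancel₀ hπn
    rw [← hrepF, hu]
    ring
  have hz : res₁ u * ρA x ^ b = ρA x ^ a * ρA w := by
    have := congrArg res₁ hid
    rw [map_mul, map_pow, map_mul, map_pow] at this
    exact this
  obtain ⟨hz0, hord⟩ := H.ord_slope D hw hz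
  exact ⟨hz0, by rw [hord, hab]⟩

end Res

end Place

section Global

variable {B F : Type*} [CommRing B] [IsDomain B] [IsNoetherianRing B] [Field F] [Algebra B F]
variable {κ k : Type*} [Field κ] [Field k] [Algebra κ k]

/-- **W3 (G1) (i), chart form, general vertical element.**  `h0 ∈ B` vertical (`h0 g0 = π ^ n`);
`u ∈ O₁` with `h0 = π ^ (ord_{O₁} h0) * u`.  Then at EVERY node place
`ord_{v e} (res₁ u) * K = ord_{O₂} h0 - ord_{O₁} h0`. -/
theorem ord_res_vertical_gen (hg : Function.Injective (algebraMap B F)) (π : B)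
    (O₁ O₂ : ValuationSubring F) {E : Type*} (𝔪 : E → Ideal B) [∀ e, (𝔪 e).IsPrime]
    (H₁ : ∀ e, BranchHyp (algebraMap B F) (𝔪 e) O₁ π)
    (H₂ : ∀ e, BranchHyp (algebraMap B F) (𝔪 e) O₂ π)
    (K : ℕ) (x y : ∀ e, Localization.AtPrime (𝔪 e))
    (D : ∀ e, NodeData (Localization.AtPrime (𝔪 e))
      (vv (algebraMap B F) hg (𝔪 e) O₁ π) (vv (algebraMap B F) hg (𝔪 e) O₂ π)
      (PP (algebraMap B F) hg (𝔪 e) (H₁ e)) (PP (algebraMap B F) hg (𝔪 e) (H₂ e))
      (algebraMap B (Localization.AtPrime (𝔪 e)) π) (x e) (y e) K)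
    (res₁ : ↥O₁ →+* k) (v : E → Place κ k)
    (HP : ∀ e, NodePlaceW (PP (algebraMap B F) hg (𝔪 e) (H₁ e))
      (res₁.comp (toO O₁ (iota (algebraMap B F) hg (𝔪 e))
        (iota_mem (algebraMap B F) hg (𝔪 e) (H₁ e)))) (v e))
    {h0 g0 : B} {n : ℕ} (hh : h0 * g0 = π ^ n) (u : ↥O₁)
    (hu : algebraMap B F h0 =
      algebraMap B F π ^ (ord O₁ (algebraMap B F π) (algebraMap B F h0)) * (u : F)) (e : E) :
    res₁ u ≠ 0 ∧ (v e).ord (res₁ u) * (K : ℤ) =
      (ord O₂ (algebraMap B F π) (algebraMap B F h0) : ℤ) -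
        (ord O₁ (algebraMap B F π) (algebraMap B F h0) : ℤ) := by
  have hnoeth : IsNoetherianRing (Localization.AtPrime (𝔪 e)) :=
    IsLocalization.isNoetherianRing (𝔪 e).primeCompl _ inferInstance
  set φ := algebraMap B (Localization.AtPrime (𝔪 e)) with hφ
  have hπ0 : algebraMap B F π ≠ 0 := (H₁ e).unif.ne
  have hhφ : φ h0 * φ g0 = φ π ^ n := by rw [← map_mul, hh, map_pow]
  have hv1 : vv (algebraMap B F) hg (𝔪 e) O₁ π (φ h0) =
      ord O₁ (algebraMap B F π) (algebraMap B F h0) := by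
    unfold vv
    rw [iota_algebraMap]
  have hv2 : vv (algebraMap B F) hg (𝔪 e) O₂ π (φ h0) =
      ord O₂ (algebraMap B F π) (algebraMap B F h0) := by
    unfold vv
    rw [iota_algebraMap]
  obtain ⟨h0ne, hord⟩ := NodePlaceW.ord_res_slope (D e) (iota (algebraMap B F) hg (𝔪 e))
    (iota_mem (algebraMap B F) hg (𝔪 e) (H₁ e)) res₁ (HP e)
    (by rw [iota_algebraMap]; exact hπ0) hhφ u
    (by rw [iota_algebraMap, iota_algebraMap, hv1]; exact hu)
  refine ⟨h0ne, ?_⟩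
  rw [hord, slope_mul_K (D e) hhφ, hv1, hv2]

/-- **W3 (G1) (i), chart form.**  `h0 ∈ B` vertical (`h0 g0 = π ^ n`) and a unit of `O₁`: at EVERY node
place `ord_{v e} (res₁ h0) * K = ord_{O₂} h0`. -/
theorem ord_res_vertical (hg : Function.Injective (algebraMap B F)) (π : B)
    (O₁ O₂ : ValuationSubring F) {E : Type*} (𝔪 : E → Ideal B) [∀ e, (𝔪 e).IsPrime]
    (H₁ : ∀ e, BranchHyp (algebraMap B F) (𝔪 e) O₁ π)
    (H₂ : ∀ e, BranchHyp (algebraMap B F) (𝔪 e) O₂ π)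
    (K : ℕ) (x y : ∀ e, Localization.AtPrime (𝔪 e))
    (D : ∀ e, NodeData (Localization.AtPrime (𝔪 e))
      (vv (algebraMap B F) hg (𝔪 e) O₁ π) (vv (algebraMap B F) hg (𝔪 e) O₂ π)
      (PP (algebraMap B F) hg (𝔪 e) (H₁ e)) (PP (algebraMap B F) hg (𝔪 e) (H₂ e))
      (algebraMap B (Localization.AtPrime (𝔪 e)) π) (x e) (y e) K)
    (res₁ : ↥O₁ →+* k) (v : E → Place κ k)
    (HP : ∀ e, NodePlaceW (PP (algebraMap B F) hg (𝔪 e) (H₁ e))
      (res₁.comp (toO O₁ (iota (algebraMap B F) hg (𝔪 e))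
        (iota_mem (algebraMap B F) hg (𝔪 e) (H₁ e)))) (v e))
    {h0 g0 : B} {n : ℕ} (hh : h0 * g0 = π ^ n)
    (hmem : algebraMap B F h0 ∈ O₁) (hinv : (algebraMap B F h0)⁻¹ ∈ O₁) (e : E) :
    res₁ ⟨algebraMap B F h0, hmem⟩ ≠ 0 ∧
      (v e).ord (res₁ ⟨algebraMap B F h0, hmem⟩) * (K : ℤ) =
        (ord O₂ (algebraMap B F π) (algebraMap B F h0) : ℤ) := by
  have hπ0 : algebraMap B F π ≠ 0 := (H₁ e).unif.ne
  have hπB : π ≠ 0 := fun h0' => hπ0 (by rw [h0', map_zero])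
  have hh0 : algebraMap B F h0 ≠ 0 := by
    intro h0'
    have h1 : h0 = 0 := hg (by rw [h0', map_zero])
    rw [h1, zero_mul] at hh
    exact (pow_ne_zero n hπB) hh.symm
  have hord0 : ord O₁ (algebraMap B F π) (algebraMap B F h0) = 0 := by
    have := (H₁ e).unif.ord_pow_mul_unit (n := 0) hmem hinv hh0
    rwa [pow_zero, one_mul] at this
  obtain ⟨hne, hord⟩ := ord_res_vertical_gen hg π O₁ O₂ 𝔪 H₁ H₂ K x y D res₁ v HP hh
    ⟨algebraMap B F h0, hmem⟩ (by rw [hord0, pow_zero, one_mul]) e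
  refine ⟨hne, ?_⟩
  rw [hord, hord0]
  push_cast
  ring

/-- **W3 (G1) (i): the order of `res₁ h0` is the same nonzero constant `c = ord_{O₂} h0 / K` at all the
node places** (nonzero iff `h0` is not a unit of `O₂`). -/
theorem exists_const_ord_res_vertical (hg : Function.Injective (algebraMap B F)) (π : B)
    (O₁ O₂ : ValuationSubring F) {E : Type*} [Nonempty E] (𝔪 : E → Ideal B) [∀ e, (𝔪 e).IsPrime]
    (H₁ : ∀ e, BranchHyp (algebraMap B F) (𝔪 e) O₁ π)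
    (H₂ : ∀ e, BranchHyp (algebraMap B F) (𝔪 e) O₂ π)
    (K : ℕ) (x y : ∀ e, Localization.AtPrime (𝔪 e))
    (D : ∀ e, NodeData (Localization.AtPrime (𝔪 e))
      (vv (algebraMap B F) hg (𝔪 e) O₁ π) (vv (algebraMap B F) hg (𝔪 e) O₂ π)
      (PP (algebraMap B F) hg (𝔪 e) (H₁ e)) (PP (algebraMap B F) hg (𝔪 e) (H₂ e))
      (algebraMap B (Localization.AtPrime (𝔪 e)) π) (x e) (y e) K)
    (res₁ : ↥O₁ →+* k) (v : E → Place κ k)
    (HP : ∀ e, NodePlaceW (PP (algebraMap B F) hg (𝔪 e) (H₁ e))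
      (res₁.comp (toO O₁ (iota (algebraMap B F) hg (𝔪 e))
        (iota_mem (algebraMap B F) hg (𝔪 e) (H₁ e)))) (v e))
    {h0 g0 : B} {n : ℕ} (hh : h0 * g0 = π ^ n)
    (hmem : algebraMap B F h0 ∈ O₁) (hinv : (algebraMap B F h0)⁻¹ ∈ O₁) :
    ∃ c : ℤ, c * (K : ℤ) = (ord O₂ (algebraMap B F π) (algebraMap B F h0) : ℤ) ∧
      (c ≠ 0 ↔ ord O₂ (algebraMap B F π) (algebraMap B F h0) ≠ 0) ∧
      ∀ e, (v e).ord (res₁ ⟨algebraMap B F h0, hmem⟩) = c := by
  obtain ⟨e₀⟩ := ‹Nonempty E›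
  have hK : (K : ℤ) ≠ 0 := by exact_mod_cast (D e₀).K_pos.ne'
  have key := fun e => (ord_res_vertical hg π O₁ O₂ 𝔪 H₁ H₂ K x y D res₁ v HP hh hmem hinv e).2
  refine ⟨(v e₀).ord (res₁ ⟨algebraMap B F h0, hmem⟩), key e₀, ?_, fun e => ?_⟩
  · rw [not_iff_not]
    constructor
    · intro h0'
      have := key e₀
      rw [h0', zero_mul] at this
      exact_mod_cast this.symm
    · intro h0'
      have := key e₀
      rw [h0'] at this
      push_cast at this
      rcases mul_eq_zero.1 this with h | h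
      · exact h
      · exact (hK h).elim
  · apply mul_right_cancel₀ hK
    rw [key e, key e₀]

end Global

end Fermat.Agent.T1B.Hol80
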