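import Mathlib
import Fermat.Agent.T1B.Hol80.R1Rho

/-!
# T1B (S44), brick SLOPE80 (helper80), part 13: the branch `O₁ := V₂.comap ψ`

For the top-level forms of (R1) (`R1Rho.lean`, `NodalChartHyp.lean`) the branch valuation ring at the
frame level is the pull-back `O₁ = V₂.comap ψ` of the top-level Gauss ring along
`ψ : F₁ →+* F₂` (`FK N L → Fbar N`).  Then `hO` is trivial and `hres` follows from the top level.

* `mem_of_mem_comap` : `hO` for `O₁ = V₂.comap ψ`;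
* `isUnit_of_isUnit_valHom` : a nonunit of `V₂.comap ψ` maps to a nonunit of `V₂`;
* `res_comp_valHom_eq_zero` : `hres` for `res₁ = res₂ ∘ ψ` from `hres₂` at the top level.
-/

set_option autoImplicit false
set_option linter.unusedSectionVars false

namespace Fermat.Agent.T1B.Hol80

variable {F₁ F₂ : Type*} [Field F₁] [Field F₂] (ψ : F₁ →+* F₂) (V₂ : ValuationSubring F₂)

theorem mem_of_mem_comap : ∀ z ∈ V₂.comap ψ, ψ z ∈ V₂ := fun _ hz => hz

/-- A nonunit of `V₂.comap ψ` maps to a nonunit of `V₂`. -/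
theorem isUnit_of_isUnit_valHom (z : ↥(V₂.comap ψ))
    (h : IsUnit (valHom ψ (V₂.comap ψ) V₂ (mem_of_mem_comap ψ V₂) z)) : IsUnit z := by
  obtain ⟨w, hw⟩ := h.exists_right_inv
  have h1 : ψ (z : F₁) * (w : F₂) = 1 := congrArg Subtype.val hw
  have hz0 : ψ (z : F₁) ≠ 0 := left_ne_zero_of_mul_eq_one h1
  have hz0' : (z : F₁) ≠ 0 := fun h0 => hz0 (by rw [h0, map_zero])
  have hinv : ψ ((z : F₁)⁻¹) = (w : F₂) := by
    rw [map_inv₀]
    exact (eq_inv_of_mul_eq_one_right h1).symm ▸ rfl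
  have hmem : (z : F₁)⁻¹ ∈ V₂.comap ψ := by
    show ψ ((z : F₁)⁻¹) ∈ V₂
    rw [hinv]
    exact w.2
  exact IsUnit.of_mul_eq_one (⟨(z : F₁)⁻¹, hmem⟩ : ↥(V₂.comap ψ))
    (Subtype.ext (mul_inv_cancel₀ hz0'))

/-- `hres` for `res₁ = res₂ ∘ ψ` on `O₁ = V₂.comap ψ`. -/
theorem res_comp_valHom_eq_zero {k : Type*} [Field k] (res₂ : ↥V₂ →+* k)
    (hres₂ : ∀ z : ↥V₂, ¬ IsUnit z → res₂ z = 0) (z : ↥(V₂.comap ψ)) (hz : ¬ IsUnit z) :
    (res₂.comp (valHom ψ (V₂.comap ψ) V₂ (mem_of_mem_comap ψ V₂))) z = 0 :=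
  hres₂ _ (fun h => hz (isUnit_of_isUnit_valHom ψ V₂ z h))

end Fermat.Agent.T1B.Hol80
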