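import Mathlib
import Fermat.Agent.T1B.AD74.J0a

/-!
# T1B (S44), brick HOLLOG80 (helper80): `δ_hol` — from the levels to `J0a`

Abstract union step of the `δ_hol` assembly, against helper74's `AD74.J0a.Levels`:

* `levels_d_zero`, `levels_d_nsmul`, `levels_d_pow_eq_one` : the dictionary maps `d i : G → PicX c0 (L i)`
  are additive-to-multiplicative; a class killed by `n` has `(d i x) ^ n = 1`;
* `prop_of_mem_J0a` : a property `P x` which holds as soon as `d i x` is the generic fibre of a class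
  `y ∈ P00 i` (with `(d i x) ^ n = 1` available when `n • x = 0`) holds for all `x ∈ J0a D`;
* `delta_mem_of_mem_J0a` : the form `δ x ∈ S` (`LocalGeom.δ_hol` for `x ∈ J0a`).

The per-level statement (`hlevel`) is `Hol31.LevelHol.holLog_delta_of_level` (helper31) =
`ExtInjective00` + `LinePic.exists_rep` + `Hol80.holLog_delta_of_line` + JSpec-F.
-/

set_option autoImplicit false
set_option linter.unusedSectionVars false

universe u w

open TensorProduct

namespace Fermat.Agent.T1B.Hol80

open Fermat.Agent.Jac Fermat.Agent.Jac.JGroup85Pic Fermat.Agent.Jac.BaseChange75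
open Fermat.Agent.T1.RedIface75 Fermat.Agent.T1B.RedN3 Fermat.Agent.T1B.AD74.J0a
open scoped Fermat.Agent.Jac.BaseChange75

variable {W B0 B1 B01 : Type u} [CommRing W] [CommRing B0] [CommRing B1] [CommRing B01]
  [Algebra W B0] [Algebra W B1] [Algebra W B01] [Algebra B0 B01] [Algebra B1 B01]
  [IsScalarTower W B0 B01] [IsScalarTower W B1 B01]
  {c0 : TwoChart W B0 B1 B01}
  {G : Type w} [AddCommGroup G] {ι : Type w} [Preorder ι] [IsDirected ι (· ≤ ·)] [Nonempty ι]
  {O L : ι → Type u} [∀ i, CommRing (O i)] [∀ i, IsDomain (O i)]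
  [∀ i, IsDiscreteValuationRing (O i)] [∀ i, Algebra W (O i)]
  [∀ i, CommRing (L i)] [∀ i, Algebra W (L i)] [∀ i, Algebra (O i) (L i)]
  [∀ i, IsScalarTower W (O i) (L i)]

theorem levels_d_zero (D : Levels (G := G) c0 O L) (i : ι) : D.d i 0 = 1 := by
  have h : D.d i 0 * D.d i 0 = D.d i 0 := by rw [← D.d_add, add_zero]
  exact mul_eq_left.mp h

theorem levels_d_nsmul (D : Levels (G := G) c0 O L) (i : ι) (n : ℕ) (x : G) :
    D.d i (n • x) = D.d i x ^ n := by
  induction n with
  | zero => rw [zero_smul, pow_zero, levels_d_zero]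
  | succ n ih => rw [succ_nsmul, D.d_add, ih, pow_succ]

theorem levels_d_pow_eq_one (D : Levels (G := G) c0 O L) (i : ι) {n : ℕ} {x : G}
    (hx : n • x = 0) : D.d i x ^ n = 1 := by
  rw [← levels_d_nsmul, hx, levels_d_zero]

/-- **From the levels to `J0a`.**  A property which holds for `x` as soon as, at SOME level `i`,
`d i x` is the generic fibre of a class `y ∈ P00 i`, holds on `J0a D`. -/
theorem prop_of_mem_J0a (D : Levels (G := G) c0 O L) (P : G → Prop)
    (hlevel : ∀ (i : ι) (x : G) (y : PicX c0 (O i)), y ∈ D.P00 i →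
      PicX.map c0 (O i) (L i) y = D.d i x → P x)
    {x : G} (hx : x ∈ J0a D) : P x := by
  obtain ⟨i, y, hy, hyx⟩ := mem_J0a_iff.1 hx
  exact hlevel i x y hy hyx

/-- **`δ_hol` on `J0a`**: `δ x ∈ S` for all `x ∈ J0a D`, from the per-level statement (in which the
torsion `(d i x) ^ n = 1` is available for `n • x = 0`). -/
theorem delta_mem_of_mem_J0a (D : Levels (G := G) c0 O L) {T : Type*} [AddCommGroup T]
    (S : AddSubgroup T) (δ : G → T) (n : ℕ) (hn : ∀ x : G, n • x = 0)
    (hlevel : ∀ (i : ι) (x : G) (y : PicX c0 (O i)), y ∈ D.P00 i →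
      PicX.map c0 (O i) (L i) y = D.d i x → D.d i x ^ n = 1 → δ x ∈ S)
    {x : G} (hx : x ∈ J0a D) : δ x ∈ S :=
  prop_of_mem_J0a D (fun x => δ x ∈ S)
    (fun i x y hy hyx => hlevel i x y hy hyx (levels_d_pow_eq_one D i (hn x))) hx

end Fermat.Agent.T1B.Hol80
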