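import Mathlib
import Fermat.Agent.T1B.Hol80.Inst
import Fermat.Agent.T1B.Hecke3.DlAbs

/-!
# T1B (S44), brick F8-S5 HOL (second seat: helper80), part (C3): bridge to helper3's `dl`

`Hecke3.dl O f ∈ κ((q))` (S1 DLOG-ABS, `T1B/Hecke3/{Iface,DlAbs}.lean`) is the `q`-dlog of the
reduction of a Gauss-normalisable Laurent series `f ∈ K((q))`.  For a function `x ∈ F` of the
function field with `q`-expansion `ι x`, and `V` the Gauss pull-back of `O` along `ι`:

* `dl_eq_dlog_redOf` : if `x = u * c` with `u ∈ Vˣ` and `c ∈ K` a nonzero constant, then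
  `dl O (ι x) = θ (redOf hV u) / redOf hV u`;
* `gauss_dl_mem_Hol` : **S5 HOL in the vocabulary of S4 DELTA.**  For a nodal two-chart model over
  `O ⊂ K` whose `i`-th component valuation ring is the Gauss pull-back along `ι`, and `f ≠ 0` in `F`
  such that `I_j ^ p = B_j ∙ f` for invertible `B_j`-submodules `I_j ⊂ F` (`j = 0, 1`):
  `dl O (ι f) ∈ Hol (redOf ∘ incl0) (redOf ∘ incl1) θ`.
-/

set_option autoImplicit false
set_option linter.unusedSectionVars false

universe u

noncomputable section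

namespace Fermat.Agent.T1B.Hol80

open Fermat.Agent.ES.N34.NodalCore13 Fermat.Agent.T1B.NodalFacts23
open Fermat.Agent.ES.N34.GaussEmb22 Fermat.Agent.RED.PUR.GaussGen8 Fermat.Agent.IG.PR.Theta20
open Fermat.Agent.T1B.Hecke3

section Bridge

variable {K : Type*} [Field K] {O : ValuationSubring K} [IsDiscreteValuationRing ↥O]
  {F : Type*} [Field F] [Algebra K F]
  {ι : F →ₐ[K] LaurentSeries K} {V : ValuationSubring F}

/-- `dlog g = θ g / g` for the derivation `thetaDer`. -/
theorem dlog_eq_thetaDer_div (κ : Type*) [Field κ] (g : LaurentSeries κ) :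
    dlog g = thetaDer κ g / g := by
  rw [dlog, thetaDer_apply, div_eq_mul_inv]

/-- **`dl` of a function is the `dlog` of the reduction of its unit part.** -/
theorem dl_eq_dlog_redOf (hV : IsGaussPullback O ι V) (u : (↥V)ˣ) {c : K} (hc : c ≠ 0) {x : F}
    (hx : ((u : ↥V) : F) * algebraMap K F c = x) :
    dl O (ι x) = thetaDer (Res O) (redOf hV (u : ↥V)) / redOf hV (u : ↥V) := by
  obtain ⟨a, s, hrep⟩ := (toGauss hV (u : ↥V)).2
  have hred : redOf hV (u : ↥V) = redL O a / redL O s := by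
    rw [redOf_apply]; exact gaussRed_eq O hrep
  have hne : redOf hV (u : ↥V) ≠ 0 := (u.isUnit.map (redOf hV)).ne_zero
  have hs : redL O s ≠ 0 := hrep.1
  have ha : redL O a ≠ 0 := by
    intro h0
    rw [hred, h0, zero_div] at hne
    exact hne rfl
  have hnorm : IsNormRep O (ι x) c⁻¹ a s := by
    refine ⟨inv_ne_zero hc, ha, hs, ?_⟩
    have h1 : ι x = ι ((u : ↥V) : F) * HahnSeries.C c := by
      rw [← hx, map_mul, map_algebraMap]
    have h2 : ι ((u : ↥V) : F) * embK O s = embK O a := hrep.2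
    have hcc : (HahnSeries.C c⁻¹ : LaurentSeries K) * HahnSeries.C c = 1 := by
      rw [← map_mul, inv_mul_cancel₀ hc, map_one]
    calc HahnSeries.C c⁻¹ * ι x * embA O s
        = (HahnSeries.C c⁻¹ * HahnSeries.C c) * (ι ((u : ↥V) : F) * embK O s) := by
          rw [h1]; show _ * _ * embK O s = _; ring
      _ = embA O a := by rw [hcc, one_mul, h2]; rfl
  rw [dl_eq_of_rep hnorm, ← dlog_eq_thetaDer_div, hred]
  show dlog (redL O a) - dlog (redL O s) = dlog (redL O a / redL O s)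
  rw [div_eq_mul_inv, dlog_mul ha (inv_ne_zero hs), dlog_inv, sub_eq_add_neg]

end Bridge

section Final

variable {K F : Type u} [Field K] [Field F] [Algebra K F] {O : ValuationSubring K}
  [IsDiscreteValuationRing ↥O] [Algebra ↥O F] [IsScalarTower ↥O K F]
  {π : ↥O} {t : F} {B0 B1 : Subalgebra ↥O F} {O1 O2 : ValuationSubring F}
  {ι : F →ₐ[K] LaurentSeries K}

/-- Every nonzero function is a unit of `V_i` times a nonzero constant of `K`. -/
theorem exists_unit_mul_const (M : NodalTwoChartModel ↥O F π t B0 B1 O1 O2) (i : Fin 2)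
    {f : F} (hf : f ≠ 0) :
    ∃ (u : (↥(comp O1 O2 i))ˣ) (c : K), c ≠ 0 ∧
      ((u : ↥(comp O1 O2 i)) : F) * algebraMap K F c = f := by
  obtain ⟨n, b, hb⟩ := exists_zpow_mul_unit (isUnifFor_comp M i) hf
  have hπ0 : ((π : ↥O) : K) ≠ 0 := by
    intro h0
    apply M.pi_ne
    rw [IsScalarTower.algebraMap_apply ↥O K F, show algebraMap ↥O K π = ((π : ↥O) : K) from rfl,
      h0, map_zero]
  refine ⟨b, ((π : ↥O) : K) ^ n, zpow_ne_zero n hπ0, ?_⟩
  rw [hb, map_zpow₀, mul_comm]
  congr 2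
  exact (IsScalarTower.algebraMap_apply ↥O K F π).symm

/-- **S5 HOL in the vocabulary of S4 DELTA**: `dl O (ι f) ∈ Hol_i` as soon as `B_j ∙ f` is the
`p`-th power of an invertible `B_j`-submodule of `F` for `j = 0, 1`. -/
theorem gauss_dl_mem_Hol (M : NodalTwoChartModel ↥O F π t B0 B1 O1 O2) (i : Fin 2)
    (hV : IsGaussPullback O ι (comp O1 O2 i))
    {I0 J0 : Submodule ↥B0 F} (hIJ0 : I0 * J0 = 1) {I1 J1 : Submodule ↥B1 F} (hIJ1 : I1 * J1 = 1)
    (p : ℕ) (hp : p ≠ 0) [CharP (Res O) p] {f : F} (hf : f ≠ 0)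
    (hI0 : I0 ^ p = Submodule.span ↥B0 {f}) (hI1 : I1 ^ p = Submodule.span ↥B1 {f}) :
    dl O (ι f) ∈
      Hol ((redOf hV).comp (incl0 M i)) ((redOf hV).comp (incl1 M i)) (thetaDer (Res O)) := by
  obtain ⟨u, c, hc, huc⟩ := exists_unit_mul_const (K := K) M i hf
  rw [dl_eq_dlog_redOf hV u hc huc]
  exact gauss_dlog_mem_Hol M i hV hIJ0 hIJ1 p hp hf hI0 hI1 u c huc

end Final

end Fermat.Agent.T1B.Hol80
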