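import Mathlib
import Fermat.Agent.T1B.Bal60.Mdeg

/-!
# T1B (S44), brick SLOPE80 (helper80), part 7: torsion classes have multidegree `0`

`Bal60.Mdeg hg X : LinePic c →* (ι → Multiplicative ℤ)` has a torsion-free target, so every class
`x` with `x ^ n = 1` (`n ≠ 0`) on the model lies in `P00 hg X = ker Mdeg`.  This is the last step of
(R1b): the twisted frame `I''` of `Hol80.exists_twisted_frame_of_lam` has `I'' ^ p` principal on the
model.
-/

set_option autoImplicit false
set_option linter.unusedSectionVars false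

universe u

namespace Fermat.Agent.T1B.Hol80

open Fermat.Agent.Jac Fermat.Agent.Jac.JGroup85Pic Fermat.Agent.T1B.RedN3 Fermat.Agent.T1B.Bal60

variable {A R0 R1 R01 : Type u} [CommRing A] [CommRing R0] [CommRing R1] [CommRing R01]
  [Algebra A R0] [Algebra A R1] [Algebra A R01] [Algebra R0 R01] [Algebra R1 R01]
  [IsScalarTower A R0 R01] [IsScalarTower A R1 R01]
  {c : TwoChart A R0 R1 R01} {p : A} {ι : Type} (hg : NodalGood c p ι)
  {K : Type u} [Field K]

/-- A torsion class of the model has multidegree `0`. -/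
theorem mem_P00_of_pow_eq_one (X : ∀ i, Comp c (hg.P0 i) (hg.P1 i) K) {x : LinePic c} {n : ℕ}
    (hn : n ≠ 0) (hx : x ^ n = 1) : x ∈ P00 hg X := by
  rw [P00_eq_ker, MonoidHom.mem_ker]
  funext i
  have h1 : (Mdeg hg X x) ^ n = 1 := by rw [← map_pow, hx, map_one]
  have h2 : (Mdeg hg X x i) ^ n = 1 := by
    have := congrFun h1 i
    simpa using this
  have h3 : n • Multiplicative.toAdd (Mdeg hg X x i) = 0 := by
    have := congrArg Multiplicative.toAdd h2
    simpa using this
  have h4 : Multiplicative.toAdd (Mdeg hg X x i) = 0 := by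
    rcases smul_eq_zero.1 h3 with h | h
    · exact absurd h hn
    · exact h
  show Mdeg hg X x i = 1
  rw [← ofAdd_toAdd (Mdeg hg X x i), h4]
  rfl

end Fermat.Agent.T1B.Hol80
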