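import Mathlib
import Fermat.Agent.T1B.Hol80.NodalChartHyp
import Fermat.Agent.T1B.Node45.NodeBC

/-!
# T1B (S44), brick SLOPE80 (helper80), part 17: `NodalChartHyp` under base change of the level

The chart-level hypotheses of (R1) are produced at an INERTIAL level (thickness `1`, helper37
`NodeNF37/ThickOne`) and consumed at every finite level `L` (thickness `e`).  This file is the passage:

* `frame_primes_eq_or` : the two vertical primes of a `Frame` on a local domain are the two vertical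
  primes of ANY node datum with the same `π` (possibly in the other order);
* `nodeData_of_frame` : hence the frame's own `v₁ v₂ P₁ P₂` satisfy `NodeData` with the coordinates
  `(x, y)` or `(y, x)` of that datum;
* `IsNodeAt.of_nodeData` : for a chart `B ⊂ F` with `ChartHyp`, a two-branch prime `𝔫` and ANY node
  datum on `B_𝔫` with uniformiser `π`: `IsNodeAt`;
* **`NodalChartHyp.of_bcHyp`** : along `f : S → S'` with helper45's `NodeBC.BCHyp f π π' e` (iso modulo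
  the uniformisers, `f π = π' ^ e · unit`), compatible with `φ : F → F'` mapping the branches into the
  branches: `NodalChartHyp π O₁ O₂ K` + `ChartHyp π' O₁' O₂'` ⟹ `NodalChartHyp π' O₁' O₂' (K * e)`.
-/

set_option autoImplicit false
set_option linter.unusedSectionVars false
set_option linter.style.haveILetI false

namespace Fermat.Agent.T1B.Hol80

open AlgebraicCurve Fermat.Agent.T1.Peu37.NodeClassGroup Fermat.Agent.T1B.NodeNF37.Local
  Fermat.Agent.T1B.NodeNF37.Abstract Fermat.Agent.T1B.NodeNF37.UnifOrd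
  Fermat.Agent.T1B.Node45.NodeBC IsLocalRing

section Normalise

variable {A : Type*} [CommRing A] [IsDomain A] [IsLocalRing A]
variable {v₁ v₂ v₁' v₂' : A → ℕ} {P₁ P₂ P₁' P₂' : Ideal A} {π x y : A} {K : ℕ}

/-- A frame whose vertical primes are those of a node datum satisfies `NodeData` with the coordinates
of that datum. -/
theorem nodeData_of_frame_of_eq (Fr : Frame A v₁ v₂ P₁ P₂ π)
    (D : NodeData A v₁' v₂' P₁' P₂' π x y K) (h₁ : P₁ = P₁') (h₂ : P₂ = P₂') :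
    NodeData A v₁ v₂ P₁ P₂ π x y K where
  v₁_mul := Fr.v₁_mul
  v₂_mul := Fr.v₂_mul
  v₁_pi := Fr.v₁_pi
  v₂_pi := Fr.v₂_pi
  v₁_x := by
    have hx : x ∉ P₁ := by
      rw [h₁]
      intro hx
      have := (D.mem_P₁ x D.x_ne).1 hx
      rw [D.v₁_x] at this
      omega
    have := (not_congr (Fr.mem_P₁ x D.x_ne)).1 hx
    omega
  v₂_y := by
    have hy : y ∉ P₂ := by
      rw [h₂]
      intro hy
      have := (D.mem_P₂ y D.y_ne).1 hy
      rw [D.v₂_y] at this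
      omega
    have := (not_congr (Fr.mem_P₂ y D.y_ne)).1 hy
    omega
  pi_ne := Fr.pi_ne
  rel := D.rel
  sat := Fr.sat
  mem_P₁ := Fr.mem_P₁
  mem_P₂ := Fr.mem_P₂
  prime₁ := Fr.prime₁
  prime₂ := Fr.prime₂
  max_eq := D.max_eq
  K_pos := D.K_pos

/-- **The vertical primes of a frame are those of any node datum.** -/
theorem frame_primes_eq_or (Fr : Frame A v₁ v₂ P₁ P₂ π) (D : NodeData A v₁' v₂' P₁' P₂' π x y K) :
    (P₁ = P₁' ∧ P₂ = P₂') ∨ (P₁ = P₂' ∧ P₂ = P₁') := by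
  have hx0 := D.x_ne
  have hy0 := D.y_ne
  have hK := D.K_pos
  -- membership facts of the node datum
  have hxP₁' : x ∉ P₁' := fun hx => by
    have := (D.mem_P₁ x hx0).1 hx
    rw [D.v₁_x] at this
    omega
  have hyP₂' : y ∉ P₂' := fun hy => by
    have := (D.mem_P₂ y hy0).1 hy
    rw [D.v₂_y] at this
    omega
  have hyP₁' : y ∈ P₁' := (D.mem_P₁ y hy0).2 (by rw [D.v₁_y]; exact hK)
  have hxP₂' : x ∈ P₂' := (D.mem_P₂ x hx0).2 (by rw [D.symm.v₁_y]; exact hK)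
  have hπx : ¬ π ∣ x := by
    rintro ⟨c, rfl⟩
    exact hxP₁' (Ideal.mul_mem_right _ _ ((D.mem_P₁ π D.pi_ne).2 (by rw [D.v₁_pi])))
  have hπy : ¬ π ∣ y := by
    rintro ⟨c, rfl⟩
    exact hyP₂' (Ideal.mul_mem_right _ _ ((D.mem_P₂ π D.pi_ne).2 (by rw [D.v₂_pi])))
  -- `π` lies in the four primes
  have hπ₁ : π ∈ P₁ := (Fr.mem_P₁ π Fr.pi_ne).2 (by rw [Fr.v₁_pi])
  have hπ₂ : π ∈ P₂ := (Fr.mem_P₂ π Fr.pi_ne).2 (by rw [Fr.v₂_pi])
  have hπ₁' : π ∈ P₁' := (D.mem_P₁ π D.pi_ne).2 (by rw [D.v₁_pi])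
  have hπ₂' : π ∈ P₂' := (D.mem_P₂ π D.pi_ne).2 (by rw [D.v₂_pi])
  -- the intersections are `(π)`
  have hint : ∀ f : A, f ∈ P₁ → f ∈ P₂ → π ∣ f := by
    intro f h1 h2
    by_cases hf : f = 0
    · rw [hf]; exact dvd_zero π
    · exact Fr.sat f hf ((Fr.mem_P₁ f hf).1 h1) ((Fr.mem_P₂ f hf).1 h2)
  have hint' : ∀ f : A, f ∈ P₁' → f ∈ P₂' → π ∣ f := by
    intro f h1 h2
    by_cases hf : f = 0
    · rw [hf]; exact dvd_zero π
    · exact D.sat f hf ((D.mem_P₁ f hf).1 h1) ((D.mem_P₂ f hf).1 h2)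
  -- a prime containing `π` contains one of the two vertical primes
  have hprod : ∀ Q : Ideal A, Q.IsPrime → π ∈ Q → P₁ ≤ Q ∨ P₂ ≤ Q := by
    intro Q hQ hπQ
    by_contra hcon
    rw [not_or] at hcon
    obtain ⟨a, ha, haQ⟩ := Set.not_subset.1 hcon.1
    obtain ⟨b, hb, hbQ⟩ := Set.not_subset.1 hcon.2
    have hab : a * b ∈ Q := by
      obtain ⟨c, hc⟩ := hint (a * b) (Ideal.mul_mem_right _ _ ha) (Ideal.mul_mem_left _ _ hb)
      rw [hc]
      exact Ideal.mul_mem_right _ _ hπQ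
    rcases hQ.mem_or_mem hab with h | h
    · exact haQ h
    · exact hbQ h
  have hprod' : ∀ Q : Ideal A, Q.IsPrime → π ∈ Q → P₁' ≤ Q ∨ P₂' ≤ Q := by
    intro Q hQ hπQ
    by_contra hcon
    rw [not_or] at hcon
    obtain ⟨a, ha, haQ⟩ := Set.not_subset.1 hcon.1
    obtain ⟨b, hb, hbQ⟩ := Set.not_subset.1 hcon.2
    have hab : a * b ∈ Q := by
      obtain ⟨c, hc⟩ := hint' (a * b) (Ideal.mul_mem_right _ _ ha) (Ideal.mul_mem_left _ _ hb)
      rw [hc]
      exact Ideal.mul_mem_right _ _ hπQ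
    rcases hQ.mem_or_mem hab with h | h
    · exact haQ h
    · exact hbQ h
  -- impossibilities
  have I1 : ¬ (P₁' ≤ P₁ ∧ P₁' ≤ P₂) := fun h => hπy (hint y (h.1 hyP₁') (h.2 hyP₁'))
  have I2 : ¬ (P₂' ≤ P₁ ∧ P₂' ≤ P₂) := fun h => hπx (hint x (h.1 hxP₂') (h.2 hxP₂'))
  have hxyQ : ∀ Q : Ideal A, Q.IsPrime → π ∈ Q → (∀ f ∈ Q, π ∣ f) → False := by
    intro Q hQ hπQ hall
    obtain ⟨ε, -, hrel⟩ := D.rel
    have hmem : x * y ∈ Q := by
      rw [hrel]
      exact Ideal.mul_mem_right _ _ (Ideal.pow_mem_of_mem _ hπQ K hK)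
    rcases hQ.mem_or_mem hmem with h | h
    · exact hπx (hall x h)
    · exact hπy (hall y h)
  have I3 : ¬ (P₁ ≤ P₁' ∧ P₁ ≤ P₂') := fun h =>
    hxyQ P₁ Fr.prime₁ hπ₁ (fun f hf => hint' f (h.1 hf) (h.2 hf))
  have I4 : ¬ (P₂ ≤ P₁' ∧ P₂ ≤ P₂') := fun h =>
    hxyQ P₂ Fr.prime₂ hπ₂ (fun f hf => hint' f (h.1 hf) (h.2 hf))
  -- the four alternatives
  have hA : (P₁' ≤ P₁ ∧ P₂' ≤ P₂) ∨ (P₂' ≤ P₁ ∧ P₁' ≤ P₂) := by
    rcases hprod' P₁ Fr.prime₁ hπ₁ with h | h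
    · left
      refine ⟨h, ?_⟩
      rcases hprod' P₂ Fr.prime₂ hπ₂ with h' | h'
      · exact absurd ⟨h, h'⟩ I1
      · exact h'
    · right
      refine ⟨h, ?_⟩
      rcases hprod' P₂ Fr.prime₂ hπ₂ with h' | h'
      · exact h'
      · exact absurd ⟨h, h'⟩ I2
  have hB : (P₁ ≤ P₁' ∧ P₂ ≤ P₂') ∨ (P₂ ≤ P₁' ∧ P₁ ≤ P₂') := by
    rcases hprod P₁' D.prime₁ hπ₁' with h | h
    · left
      refine ⟨h, ?_⟩
      rcases hprod P₂' D.prime₂ hπ₂' with h' | h'
      · exact absurd ⟨h, h'⟩ I3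
      · exact h'
    · right
      refine ⟨h, ?_⟩
      rcases hprod P₂' D.prime₂ hπ₂' with h' | h'
      · exact h'
      · exact absurd ⟨h, h'⟩ I4
  rcases hA with ⟨a1, a2⟩ | ⟨a1, a2⟩
  · rcases hB with ⟨b1, b2⟩ | ⟨b1, b2⟩
    · exact Or.inl ⟨le_antisymm b1 a1, le_antisymm b2 a2⟩
    · exact absurd (a1 (b1 (a2 hxP₂'))) (fun h => hxP₁' (b1 (a2 hxP₂')))
  · rcases hB with ⟨b1, b2⟩ | ⟨b1, b2⟩
    · exact absurd (b1 (a1 hxP₂')) hxP₁'
    · exact Or.inr ⟨le_antisymm b2 a1, le_antisymm b1 a2⟩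

/-- **Normalisation of a node datum to a given frame.** -/
theorem nodeData_of_frame (Fr : Frame A v₁ v₂ P₁ P₂ π) (D : NodeData A v₁' v₂' P₁' P₂' π x y K) :
    NodeData A v₁ v₂ P₁ P₂ π x y K ∨ NodeData A v₁ v₂ P₁ P₂ π y x K := by
  rcases frame_primes_eq_or Fr D with ⟨h₁, h₂⟩ | ⟨h₁, h₂⟩
  · exact Or.inl (nodeData_of_frame_of_eq Fr D h₁ h₂)
  · exact Or.inr (nodeData_of_frame_of_eq Fr D.symm h₁ h₂)

end Normalise

section IsNodeAtOf

variable {B F : Type*} [CommRing B] [IsDomain B] [Field F] [Algebra B F]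

/-- `BranchHyp` from `ChartHyp` at a prime through which the first branch passes. -/
theorem ChartHyp.branchHyp₁ {π : B} {O₁ O₂ : ValuationSubring F} (H : ChartHyp π O₁ O₂)
    {𝔫 : Ideal B} [𝔫.IsPrime] (hoff : ¬ Off π O₁ 𝔫) : BranchHyp (algebraMap B F) 𝔫 O₁ π :=
  ⟨H.le₁, H.unif₁, fun e he h => hoff ⟨e, he, h⟩⟩

/-- `BranchHyp` from `ChartHyp` at a prime through which the second branch passes. -/
theorem ChartHyp.branchHyp₂ {π : B} {O₁ O₂ : ValuationSubring F} (H : ChartHyp π O₁ O₂)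
    {𝔫 : Ideal B} [𝔫.IsPrime] (hoff : ¬ Off π O₂ 𝔫) : BranchHyp (algebraMap B F) 𝔫 O₂ π :=
  ⟨H.le₂, H.unif₂, fun e he h => hoff ⟨e, he, h⟩⟩

/-- A prime through which a branch passes contains `π`. -/
theorem pi_mem_of_not_off {π : B} {O : ValuationSubring F} {𝔫 : Ideal B} (hoff : ¬ Off π O 𝔫) :
    π ∈ 𝔫 := by
  by_contra h
  exact hoff ⟨π, h, 1, O.one_mem, by rw [mul_one]⟩

/-- **`IsNodeAt` from any node datum on `B_𝔫`.** -/
theorem IsNodeAt.of_nodeData {π : B} {O₁ O₂ : ValuationSubring F} (H : ChartHyp π O₁ O₂)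
    (𝔫 : Ideal B) [𝔫.IsPrime] (hoff₁ : ¬ Off π O₁ 𝔫) (hoff₂ : ¬ Off π O₂ 𝔫) {K : ℕ}
    (h : ∃ (v₁ v₂ : Localization.AtPrime 𝔫 → ℕ) (P₁ P₂ : Ideal (Localization.AtPrime 𝔫))
      (x y : Localization.AtPrime 𝔫),
      NodeData (Localization.AtPrime 𝔫) v₁ v₂ P₁ P₂ (algebraMap B (Localization.AtPrime 𝔫) π) x y K) :
    IsNodeAt H.inj π O₁ O₂ K 𝔫 := by
  obtain ⟨v₁, v₂, P₁, P₂, x, y, D⟩ := h
  haveI : IsDomain (Localization.AtPrime 𝔫) :=
    IsLocalization.isDomain_localization 𝔫.primeCompl_le_nonZeroDivisors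
  have H₁ := H.branchHyp₁ hoff₁
  have H₂ := H.branchHyp₂ hoff₂
  have Fr := frame (algebraMap B F) H.inj 𝔫 H₁ H₂ H.sat
  rcases nodeData_of_frame Fr D with D' | D'
  · exact ⟨H₁, H₂, x, y, D'⟩
  · exact ⟨H₁, H₂, y, x, D'⟩

end IsNodeAtOf

section BC

variable {S S' F F' : Type*} [CommRing S] [IsDomain S] [CommRing S'] [IsDomain S']
  [IsNoetherianRing S'] [Field F] [Field F'] [Algebra S F] [Algebra S' F']

/-- Under `BCHyp`, the contraction of a maximal ideal containing `π'` is maximal. -/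
theorem comap_isMaximal_of_bcHyp (f : S →+* S') {π : S} {π' : S'} {e : ℕ} (H : BCHyp f π π' e)
    (𝔫' : Ideal S') [h𝔫' : 𝔫'.IsMaximal] (hπ : π' ∈ 𝔫') : (𝔫'.comap f).IsMaximal := by
  rw [Ideal.isMaximal_iff]
  refine ⟨fun h1 => ?_, ?_⟩
  · rw [Ideal.mem_comap, map_one] at h1
    exact h𝔫'.ne_top ((Ideal.eq_top_iff_one _).2 h1)
  · intro J a hle ha haJ
    rw [Ideal.mem_comap] at ha
    obtain ⟨b', i, hi, hb'⟩ := h𝔫'.exists_inv ha
    obtain ⟨b, c, hbc⟩ := H.surj b'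
    have hmem : a * b - 1 ∈ 𝔫'.comap f := by
      rw [Ideal.mem_comap, map_sub, map_mul, map_one]
      have : f a * f b - 1 = -i - f a * (π' * c) := by
        rw [hbc] at hb'
        linear_combination hb'
      rw [this]
      exact Ideal.sub_mem _ (Ideal.neg_mem_iff _ |>.2 hi)
        (Ideal.mul_mem_left _ _ (Ideal.mul_mem_right _ _ hπ))
    have h1 : (1 : S) = a * b - (a * b - 1) := by ring
    rw [h1]
    exact Ideal.sub_mem _ (Ideal.mul_mem_right _ _ haJ) (hle hmem)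

/-- **`NodalChartHyp` under base change of the level**: the thickness is multiplied by `e`. -/
theorem NodalChartHyp.of_bcHyp (f : S →+* S') {π : S} {π' : S'} {e : ℕ} (H : BCHyp f π π' e)
    (φ : F →+* F') (hφ : ∀ s : S, algebraMap S' F' (f s) = φ (algebraMap S F s))
    {O₁ O₂ : ValuationSubring F} {O₁' O₂' : ValuationSubring F'}
    (hO₁ : ∀ z ∈ O₁, φ z ∈ O₁') (hO₂ : ∀ z ∈ O₂, φ z ∈ O₂')
    {K : ℕ} (hN : NodalChartHyp π O₁ O₂ K) (chart' : ChartHyp π' O₁' O₂') :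
    NodalChartHyp π' O₁' O₂' (K * e) where
  chart := chart'
  node := by
    intro 𝔫' h𝔫' hoff₁' hoff₂'
    have hπ𝔫' : π' ∈ 𝔫' := pi_mem_of_not_off hoff₁'
    haveI hmax : (𝔫'.comap f).IsMaximal := comap_isMaximal_of_bcHyp f H 𝔫' hπ𝔫'
    -- `f π = π' * w`
    obtain ⟨w, hw⟩ := H.dvd_map_pi
    -- the branches pass through the contraction
    have hoff : ∀ (O : ValuationSubring F) (O' : ValuationSubring F'),
        (∀ z ∈ O, φ z ∈ O') → (∀ b : S', algebraMap S' F' b ∈ O') → ¬ Off π' O' 𝔫' →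
        ¬ Off π O (𝔫'.comap f) := by
      rintro O O' hOO' hle hoff' ⟨s, hs, c, hc, heq⟩
      refine hoff' ⟨f s, hs, algebraMap S' F' w * φ c, O'.mul_mem _ _ (hle w) (hOO' c hc), ?_⟩
      rw [hφ, heq, map_mul, ← hφ, hw, map_mul]
      ring
    have hoff₁ := hoff O₁ O₁' hO₁ chart'.le₁ hoff₁'
    have hoff₂ := hoff O₂ O₂' hO₂ chart'.le₂ hoff₂'
    obtain ⟨H₁, H₂, x, y, D⟩ := hN.node (𝔫'.comap f) hoff₁ hoff₂
    have HL := H.localization f 𝔫' hπ𝔫' (𝔫'.comap f) rfl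
    have hinj' : Function.Injective (algebraMap S' (Localization.AtPrime 𝔫')) :=
      IsLocalization.injective _ 𝔫'.primeCompl_le_nonZeroDivisors
    have hπ'0 : π' ≠ 0 := chart'.pi_ne
    have h0 : algebraMap S' (Localization.AtPrime 𝔫') π' ≠ 0 := fun h =>
      hπ'0 (hinj' (h.trans (map_zero _).symm))
    have hnu : ¬ IsUnit (algebraMap S' (Localization.AtPrime 𝔫') π') := by
      intro hu
      exact (IsLocalization.AtPrime.isUnit_to_map_iff (Localization.AtPrime 𝔫') 𝔫' π').1 hu hπ𝔫'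
    haveI : IsDomain (Localization.AtPrime (𝔫'.comap f)) :=
      IsLocalization.isDomain_localization (𝔫'.comap f).primeCompl_le_nonZeroDivisors
    haveI : IsDomain (Localization.AtPrime 𝔫') :=
      IsLocalization.isDomain_localization 𝔫'.primeCompl_le_nonZeroDivisors
    have D' := nodeData_baseChange HL h0 hnu D
    exact IsNodeAt.of_nodeData chart' 𝔫' hoff₁' hoff₂' ⟨_, _, _, _, _, _, D'⟩

end BC

end Fermat.Agent.T1B.Hol80
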