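import Mathlib
import Fermat.Agent.T1B.Hol80.NodalChartBC
import Fermat.Agent.T1B.Node45.NodeBCTensor

/-!
# T1B (S44), brick SLOPE80 (helper80), part 18: `NodalChartHyp` at a ramified level, tensor form

Continuation of `NodalChartBC`.  `O → O'` an extension of discrete valuation rings with the same residue
field (`O` the DVR of the INERTIA field of a finite level `L`, `O'` the DVR of `L`), `S ⊂ F` the chart
over `O`, `S' ⊂ F'` the chart over `O'`, and `σ : O' ⊗[O] S ≃ₐ[O'] S'` (helper23 `NodalNFEquiv.equiv_jNF`).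

* `bcHyp_comp_equiv_source`, `bcHyp_comp_equiv_target`, `bcHyp_congr` : `NodeBC.BCHyp` and ring
  isomorphisms;
* `bcHyp_includeRight` : `BCHyp (algebraMap O O') π π' e` ⟹ `BCHyp (b ↦ 1 ⊗ b : B → O' ⊗[O] B)
  (algebraMap O B π) (π' ⊗ 1) e`;
* `exists_bcHyp_of_unif` : for local domains `O → O'` with principal maximal ideals `(π)`, `(π')`,
  `O'` `π'`-adically separated, `f π` a nonunit, and equal residue fields (`hsurj`): `∃ e, BCHyp f π π' e`;
* **`NodalChartHyp.of_tensorEquiv`** : `NodalChartHyp (algebraMap O S π) O₁ O₂ K` +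
  `ChartHyp (algebraMap O' S' π') O₁' O₂'` ⟹ `NodalChartHyp (algebraMap O' S' π') O₁' O₂' (K * e)`.
-/

set_option autoImplicit false
set_option linter.unusedSectionVars false
set_option linter.style.haveILetI false

open TensorProduct

namespace Fermat.Agent.T1B.Hol80

open AlgebraicCurve Fermat.Agent.T1.Peu37.NodeClassGroup Fermat.Agent.T1B.NodeNF37.Local
  Fermat.Agent.T1B.NodeNF37.Abstract Fermat.Agent.T1B.NodeNF37.UnifOrd
  Fermat.Agent.T1B.Node45.NodeBC Fermat.Agent.T1B.Node45.NodeBCTensor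
  Fermat.Agent.T1B.NodalBC53.Fibre IsLocalRing

section BCHypOps

variable {S₀ S S' S'' : Type*} [CommRing S₀] [CommRing S] [CommRing S'] [CommRing S'']
  {f : S →+* S'} {π : S} {π' : S'} {e : ℕ}

theorem bcHyp_congr (H : BCHyp f π π' e) {g : S →+* S'} (hg : ∀ a, g a = f a) : BCHyp g π π' e := by
  have : g = f := RingHom.ext hg
  rw [this]
  exact H

theorem bcHyp_comp_equiv_source (τ : S₀ ≃+* S) (H : BCHyp f π π' e) :
    BCHyp (f.comp (τ : S₀ →+* S)) (τ.symm π) π' e where
  e_pos := H.e_pos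
  map_pi := by
    obtain ⟨u, hu, h⟩ := H.map_pi
    refine ⟨u, hu, ?_⟩
    show f (τ (τ.symm π)) = _
    rw [τ.apply_symm_apply, h]
  surj := by
    intro a'
    obtain ⟨a, c, h⟩ := H.surj a'
    refine ⟨τ.symm a, c, ?_⟩
    show a' = f (τ (τ.symm a)) + _
    rw [τ.apply_symm_apply, h]
  inj := by
    intro a ha
    obtain ⟨c, hc⟩ := H.inj (τ a) ha
    refine ⟨τ.symm c, ?_⟩
    rw [← map_mul, ← hc, τ.symm_apply_apply]

theorem bcHyp_comp_equiv_target (σ : S' ≃+* S'') (H : BCHyp f π π' e) :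
    BCHyp ((σ : S' →+* S'').comp f) π (σ π') e where
  e_pos := H.e_pos
  map_pi := by
    obtain ⟨u, hu, h⟩ := H.map_pi
    refine ⟨σ u, hu.map σ, ?_⟩
    show σ (f π) = _
    rw [h, map_mul, map_pow]
  surj := by
    intro a''
    obtain ⟨a, c, h⟩ := H.surj (σ.symm a'')
    refine ⟨a, σ c, ?_⟩
    show a'' = σ (f a) + σ π' * σ c
    rw [← map_mul, ← map_add, ← h, σ.apply_symm_apply]
  inj := by
    intro a ha
    apply H.inj a
    obtain ⟨c, hc⟩ := ha
    refine ⟨σ.symm c, ?_⟩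
    have h1 : σ (f a) = σ π' * c := hc
    have := congrArg σ.symm h1
    rwa [σ.symm_apply_apply, map_mul, σ.symm_apply_apply] at this

end BCHypOps

section IncludeRight

variable {O O' : Type*} [CommRing O] [CommRing O'] [Algebra O O'] {B : Type*} [CommRing B]
  [Algebra O B]

theorem tensorMap_self_eq (x : O ⊗[O] B) :
    tensorMap O O O' B x = (1 : O') ⊗ₜ[O] (Algebra.TensorProduct.lid O B x) := by
  induction x using TensorProduct.induction_on with
  | zero => rw [map_zero, map_zero, TensorProduct.tmul_zero]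
  | add x y hx hy => rw [map_add, map_add, hx, hy, TensorProduct.tmul_add]
  | tmul a b =>
    rw [tensorMap_tmul, Algebra.TensorProduct.lid_tmul, Algebra.algebraMap_eq_smul_one,
      TensorProduct.smul_tmul]

/-- **`BCHyp` for `b ↦ 1 ⊗ b`.** -/
theorem bcHyp_includeRight {π : O} {π' : O'} {e : ℕ} (h : BCHyp (algebraMap O O') π π' e) :
    BCHyp ((Algebra.TensorProduct.includeRight : B →ₐ[O] O' ⊗[O] B) : B →+* O' ⊗[O] B)
      (algebraMap O B π) (π' ⊗ₜ[O] (1 : B)) e := by
  have h1 : BCHyp (tensorMap O O O' B).toRingHom (π ⊗ₜ[O] (1 : B)) (π' ⊗ₜ[O] (1 : B)) e :=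
    bcHyp_tensor (W := O) (O := O) (O' := O') (B := B) h
  have h2 := bcHyp_comp_equiv_source (Algebra.TensorProduct.lid O B).symm.toRingEquiv h1
  have hπ : (Algebra.TensorProduct.lid O B).symm.toRingEquiv.symm (π ⊗ₜ[O] (1 : B)) =
      algebraMap O B π := by
    show (Algebra.TensorProduct.lid O B) (π ⊗ₜ[O] (1 : B)) = _
    rw [Algebra.TensorProduct.lid_tmul, Algebra.algebraMap_eq_smul_one]
  rw [hπ] at h2
  refine bcHyp_congr h2 (fun b => ?_)
  show (1 : O') ⊗ₜ[O] b = tensorMap O O O' B ((Algebra.TensorProduct.lid O B).symm b)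
  rw [tensorMap_self_eq, AlgEquiv.apply_symm_apply]

end IncludeRight

section Unif

variable {O O' : Type*} [CommRing O] [IsLocalRing O] [CommRing O'] [IsDomain O'] [IsLocalRing O']

/-- In a local domain with principal maximal ideal `(π')`, `π'`-adically separated, every nonzero
element is `π' ^ n * unit`. -/
theorem exists_pow_mul_unit_of_unif {π' : O'} (hmax' : maximalIdeal O' = Ideal.span {π'})
    (hsep' : ∀ x : O', x ≠ 0 → ∃ n : ℕ, ¬ π' ^ (n + 1) ∣ x) {x : O'} (hx : x ≠ 0) :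
    ∃ (n : ℕ) (u : O'), IsUnit u ∧ x = π' ^ n * u := by
  classical
  obtain ⟨n₀, hn₀⟩ := hsep' x hx
  have hex : ∃ n : ℕ, ¬ π' ^ (n + 1) ∣ x := ⟨n₀, hn₀⟩
  set n := Nat.find hex with hn
  have hnot : ¬ π' ^ (n + 1) ∣ x := Nat.find_spec hex
  have hdvd : π' ^ n ∣ x := by
    rcases Nat.eq_zero_or_pos n with h0 | hpos
    · rw [h0, pow_zero]; exact one_dvd x
    · have := Nat.find_min hex (m := n - 1) (by omega)
      rw [not_not] at this
      rwa [Nat.sub_add_cancel hpos] at this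
  obtain ⟨u, hu⟩ := hdvd
  refine ⟨n, u, ?_, hu⟩
  by_contra hnu
  have : u ∈ maximalIdeal O' := (mem_maximalIdeal u).2 hnu
  rw [hmax', Ideal.mem_span_singleton] at this
  obtain ⟨c, hc⟩ := this
  exact hnot ⟨c, by rw [hu, hc, pow_succ]; ring⟩

/-- **`BCHyp` for an extension of discrete valuation rings with the same residue field.** -/
theorem exists_bcHyp_of_unif (f : O →+* O') (hf : Function.Injective f) {π : O} {π' : O'}
    (hmax : maximalIdeal O = Ideal.span {π}) (hπ0 : π ≠ 0)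
    (hmax' : maximalIdeal O' = Ideal.span {π'})
    (hsep' : ∀ x : O', x ≠ 0 → ∃ n : ℕ, ¬ π' ^ (n + 1) ∣ x)
    (hloc : ¬ IsUnit (f π))
    (hsurj : ∀ a' : O', ∃ (a : O) (c : O'), a' = f a + π' * c) :
    ∃ e : ℕ, BCHyp f π π' e := by
  have hfπ : f π ≠ 0 := fun h => hπ0 (hf (h.trans (map_zero f).symm))
  obtain ⟨e, u, hu, he⟩ := exists_pow_mul_unit_of_unif hmax' hsep' hfπ
  have hπ'nu : ¬ IsUnit π' := by
    have : π' ∈ maximalIdeal O' := by rw [hmax']; exact Ideal.mem_span_singleton_self π'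
    exact (mem_maximalIdeal π').1 this
  refine ⟨e, ?_, ⟨u, hu, he⟩, hsurj, ?_⟩
  · rcases Nat.eq_zero_or_pos e with h0 | hpos
    · exfalso
      apply hloc
      rw [he, h0, pow_zero, one_mul]
      exact hu
    · exact hpos
  · intro a ha
    have hnu : ¬ IsUnit a := fun hua => hπ'nu (isUnit_of_dvd_unit ha (hua.map f))
    have : a ∈ maximalIdeal O := (mem_maximalIdeal a).2 hnu
    rw [hmax, Ideal.mem_span_singleton] at this
    exact this

end Unif

section TensorEquiv

variable {O O' : Type*} [CommRing O] [CommRing O'] [Algebra O O']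
  {S S' F F' : Type*} [CommRing S] [IsDomain S] [Algebra O S] [CommRing S'] [IsDomain S']
  [IsNoetherianRing S'] [Algebra O' S'] [Field F] [Field F'] [Algebra S F] [Algebra S' F']

/-- **`NodalChartHyp` at a ramified level**: from the chart `S` over the inertial DVR `O` (thickness
`K`) to the chart `S' ≅ O' ⊗[O] S` over `O'` (thickness `K * e`). -/
theorem NodalChartHyp.of_tensorEquiv {π : O} {π' : O'} {e : ℕ}
    (H : BCHyp (algebraMap O O') π π' e) (σ : O' ⊗[O] S ≃ₐ[O'] S')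
    (φ : F →+* F')
    (hφ : ∀ s : S, algebraMap S' F' (σ ((1 : O') ⊗ₜ[O] s)) = φ (algebraMap S F s))
    {O₁ O₂ : ValuationSubring F} {O₁' O₂' : ValuationSubring F'}
    (hO₁ : ∀ z ∈ O₁, φ z ∈ O₁') (hO₂ : ∀ z ∈ O₂, φ z ∈ O₂')
    {K : ℕ} (hN : NodalChartHyp (algebraMap O S π) O₁ O₂ K)
    (chart' : ChartHyp (algebraMap O' S' π') O₁' O₂') :
    NodalChartHyp (algebraMap O' S' π') O₁' O₂' (K * e) := by
  have h1 := bcHyp_includeRight (B := S) H
  have h2 := bcHyp_comp_equiv_target σ.toRingEquiv h1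
  have hπ' : σ.toRingEquiv (π' ⊗ₜ[O] (1 : S)) = algebraMap O' S' π' := by
    show σ (π' ⊗ₜ[O] (1 : S)) = _
    have : (π' ⊗ₜ[O] (1 : S)) = algebraMap O' (O' ⊗[O] S) π' := by
      rw [Algebra.TensorProduct.algebraMap_apply, Algebra.algebraMap_self, RingHom.id_apply]
    rw [this, AlgEquiv.commutes]
  rw [hπ'] at h2
  exact NodalChartHyp.of_bcHyp _ h2 φ hφ hO₁ hO₂ hN chart'

end TensorEquiv

end Fermat.Agent.T1B.Hol80
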