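import Mathlib
import Fermat.Agent.T1B.Hol80.NodalChartBCTensor
import Fermat.Agent.T1B.NodalBC23.NodalNFEquiv
import Fermat.Agent.T1.Assembly41.FastInst

/-!
# T1B (S44), brick SLOPE80 (helper80), part 19: `NodalChartHyp` at every number-field level

Concrete instance of `NodalChartBCTensor` in helper23's `NodalBC23.NodalNFEquiv` vocabulary
(`A` a valuation subring of `ℚ̄`, `K ≤ L` number fields, the nodal charts `B_j A q ht` of ES/N34 over
`↥(AK A K)` and over `↥(AK A L)`).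

* `chartHyp_of_nodalModel0/1` : `ChartHyp` for the two charts of a `NodalTwoChartModel`;
* `not_isUnit_inclAK`, `exists_bcHyp_inclAK` : `∃ e, NodeBC.BCHyp (inclAK A h) π π' e` from
  `A ∩ L = (A ∩ K) + π' (A ∩ L)` (helper37 `ResEq.exists_eq_inclAK_add`);
* **`nodalChartHyp_NF0/1`** : thickness `Kth` over `K` (inertial in the application: `Kth = 1`,
  helper37 `ThickOne`) ⟹ thickness `Kth * e` on the `Subalgebra` charts over `L`;
* **`nodalChartHyp_tensor0/1`** : the same on `↥(AK A L) ⊗[↥(AK A K)] B_j^K` for ANY algebra structure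
  into `↥(FK N L)` given on pure tensors by `r ⊗ b ↦ r · cF b` (e.g. helper31's `algI_j E` for a standard
  chart isomorphism `E`), by `NodalChartHyp.of_equiv` along helper23's `equiv_jNF`.
-/

set_option autoImplicit false
set_option linter.unusedSectionVars false
set_option linter.style.haveILetI false

noncomputable section

namespace Fermat.Agent.T1B.Hol80.NodalChartNF

open TensorProduct HahnSeries ModularCurve IntermediateField
open Fermat.Agent.RED.Interface4 Fermat.Agent.RED.PUR.GaussGen8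
open Fermat.Agent.RED.BASE.EtaQuot12
open Fermat.Agent.ES.N34.ModelDefs9 Fermat.Agent.ES.N34.NumData13 Fermat.Agent.ES.N34.NodalCore13
open Fermat.Agent.T1.HubInst98
open Fermat.Agent.T1B.NodalBC23.NumField
open Fermat.Agent.T1B.NodalBC23.NodalNF Fermat.Agent.T1B.NodalBC23.NodalNFEquiv
open Fermat.Agent.T1B.Node45.NodeBC
open Fermat.Agent.T1B.Hol80
open scoped Fermat.Agent.T1.Assembly41.FastInst

/-! ### Local shortcut instances (instance search at `↥(AK A K)`, `↥(FK N K)`, `↥(B_j ..)` is slow) -/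

local instance (priority := 10000) scSMulComm80 {R F : Type*} [CommSemiring R] [Semiring F]
    [Algebra R F] (S : Subalgebra R F) : SMulCommClass R ↥S ↥S := Algebra.to_smulCommClass

local instance (priority := 10000) scTowerRight80 {R F : Type*} [CommSemiring R] [Semiring F]
    [Algebra R F] (S : Subalgebra R F) : IsScalarTower R ↥S ↥S := IsScalarTower.right

/-! ### `ChartHyp` from the model -/

section Model

variable {R F : Type*} [CommRing R] [Field F] [Algebra R F]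
  {π : R} {t : F} {B0 B1 : Subalgebra R F} {O1 O2 : ValuationSubring F}

theorem chartHyp_of_nodalModel0 (N : NodalTwoChartModel R F π t B0 B1 O1 O2) :
    ChartHyp (algebraMap R ↥B0 π) O1 O2 where
  inj := Subtype.val_injective
  le₁ b := N.le_O1_0 _ b.2
  le₂ b := N.le_O2_0 _ b.2
  unif₁ := ⟨N.pi_ne, N.pi_nonunit1, N.unif1, N.arch1⟩
  unif₂ := ⟨N.pi_ne, N.pi_nonunit2, N.unif2, N.arch2⟩
  sat b z h1 h2 h := ⟨⟨z, N.sat0 _ b.2 z h1 h2 h⟩, rfl⟩

theorem chartHyp_of_nodalModel1 (N : NodalTwoChartModel R F π t B0 B1 O1 O2) :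
    ChartHyp (algebraMap R ↥B1 π) O1 O2 where
  inj := Subtype.val_injective
  le₁ b := N.le_O1_1 _ b.2
  le₂ b := N.le_O2_1 _ b.2
  unif₁ := ⟨N.pi_ne, N.pi_nonunit1, N.unif1, N.arch1⟩
  unif₂ := ⟨N.pi_ne, N.pi_nonunit2, N.unif2, N.arch2⟩
  sat b z h1 h2 h := ⟨⟨z, N.sat1 _ b.2 z h1 h2 h⟩, rfl⟩

end Model

/-! ### `BCHyp` for `A ∩ K → A ∩ L` -/

section Arith

variable (A : ValuationSubring Qbar) {K L : IntermediateField ℚ Qbar} (h : K ≤ L)

theorem inclAK_injective : Function.Injective (inclAK A h) := by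
  intro x y hxy
  apply Subtype.ext
  apply Subtype.ext
  have := congrArg (fun z : ↥(AK A L) => (((z : ↥L)) : Qbar)) hxy
  exact this

theorem not_isUnit_inclAK {π : ↥(AK A K)} (hπ : IsUnif (AK A K) π) :
    ¬ IsUnit (inclAK A h π) := by
  intro hu
  obtain ⟨w, hw⟩ := hu.exists_right_inv
  have hπmem : π ∈ IsLocalRing.maximalIdeal ↥(AK A K) := by
    rw [hπ.max_eq]; exact Ideal.mem_span_singleton_self π
  apply (IsLocalRing.mem_maximalIdeal π).1 hπmem
  -- the inverse of `π` in `ℚ̄` lies in `A`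
  have h1 : (((π : ↥K)) : Qbar) * (((w : ↥L)) : Qbar) = 1 := by
    have := congrArg (fun z : ↥(AK A L) => (((z : ↥L)) : Qbar)) hw
    exact this
  have hπ0 : ((π : ↥K) : Qbar) ≠ 0 := left_ne_zero_of_mul_eq_one h1
  have hw' : (((w : ↥L)) : Qbar) = (((π : ↥K)) : Qbar)⁻¹ := eq_inv_of_mul_eq_one_right h1
  have hwA : (((w : ↥L)) : Qbar) ∈ A := w.2
  have hinv : ((π : ↥K))⁻¹ ∈ AK A K := by
    show algebraMap ↥K Qbar ((π : ↥K))⁻¹ ∈ A
    rw [map_inv₀]
    rw [hw'] at hwA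
    exact hwA
  refine IsUnit.of_mul_eq_one (⟨((π : ↥K))⁻¹, hinv⟩ : ↥(AK A K)) ?_
  apply Subtype.ext
  show (π : ↥K) * ((π : ↥K))⁻¹ = 1
  apply mul_inv_cancel₀
  intro h0
  apply hπ0
  rw [h0]
  rfl

/-- **`BCHyp` at number-field level** from the equality of the residue fields. -/
theorem exists_bcHyp_inclAK {π : ↥(AK A K)} {π' : ↥(AK A L)} (hπ : IsUnif (AK A K) π)
    (hπ' : IsUnif (AK A L) π')
    (hsurj : ∀ r' : ↥(AK A L), ∃ r : ↥(AK A K), ∃ s : ↥(AK A L), r' = inclAK A h r + π' * s) :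
    ∃ e : ℕ, BCHyp (inclAK A h) π π' e :=
  exists_bcHyp_of_unif (inclAK A h) (inclAK_injective A h) hπ.max_eq hπ.ne_zero hπ'.max_eq hπ'.sep
    (not_isUnit_inclAK A h hπ) hsurj

end Arith

/-! ### The charts over `L` -/

section Charts

variable (A : ValuationSubring Qbar) {K L : IntermediateField ℚ Qbar} (h : K ≤ L)
  (M' q : ℕ) [NeZero M'] [NeZero q] {n e : ℕ} [NeZero n]
  {ℓ : ℕ} (hℓ : ℓ ≠ 0) (hA : A.LiesOverPrime ℓ) [FiniteDimensional ℚ L]
  {π : ↥(AK A K)} {π' : ↥(AK A L)} (hπ : IsUnif (AK A K) π) (hπ' : IsUnif (AK A L) π')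
  (hE : FK (M' * q) K ≤ fracField (AK A K)) (hE' : FK (M' * q) L ≤ fracField (AK A L))
  (htK : tq ↥K n e ∈ FK M' K) (htL : tq ↥L n e ∈ FK M' L)
  (hK : NodalNumData ↥(AK A K) ↥K ↥(FK (M' * q) K) π (tN q htK) (B0 A q htK) (B1 A q htK)
    (O1 M' q hπ hE) (O2 M' q hπ hE))
  (hL : NodalNumData ↥(AK A L) ↥L ↥(FK (M' * q) L) π' (tN q htL) (B0 A q htL) (B1 A q htL)
    (O1 M' q hπ' hE') (O2 M' q hπ' hE'))

include hK hL hℓ hA in
/-- **Chart `0` over `L`**: thickness `Kth` over `K` ⟹ thickness `Kth * eL` over `L`. -/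
theorem nodalChartHyp_NF0 {eL Kth : ℕ} (HBC : BCHyp (inclAK A h) π π' eL)
    (hN : NodalChartHyp (algebraMap ↥(AK A K) ↥(B0 A q htK) π) (O1 M' q hπ hE) (O2 M' q hπ hE)
      Kth) :
    NodalChartHyp (algebraMap ↥(AK A L) ↥(B0 A q htL) π') (O1 M' q hπ' hE') (O2 M' q hπ' hE')
      (Kth * eL) := by
  letI := algAK A h
  haveI : IsNoetherianRing ↥(B0 A q htL) := hL.noeth0
  refine NodalChartHyp.of_tensorEquiv (O := ↥(AK A K)) (O' := ↥(AK A L)) HBC
    (equiv0NF A h M' q hℓ hA hπ hπ' hE hE' htK htL hK hL) (cF h (M' * q)) ?_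
    (fun z hz => cF_mem_O1 A h M' q hπ hπ' hE hE' hz)
    (fun z hz => cF_mem_O2 A h M' q hπ hπ' hE hE' hz) hN
    (chartHyp_of_nodalModel0 hL.model)
  intro s
  have := coe_equiv0NF_tmul A h M' q hℓ hA hπ hπ' hE hE' htK htL hK hL 1 s
  rw [map_one, one_mul] at this
  exact this

include hK hL hℓ hA in
/-- **Chart `1` over `L`.** -/
theorem nodalChartHyp_NF1 {eL Kth : ℕ} (HBC : BCHyp (inclAK A h) π π' eL)
    (hN : NodalChartHyp (algebraMap ↥(AK A K) ↥(B1 A q htK) π) (O1 M' q hπ hE) (O2 M' q hπ hE)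
      Kth) :
    NodalChartHyp (algebraMap ↥(AK A L) ↥(B1 A q htL) π') (O1 M' q hπ' hE') (O2 M' q hπ' hE')
      (Kth * eL) := by
  letI := algAK A h
  haveI : IsNoetherianRing ↥(B1 A q htL) := hL.noeth1
  refine NodalChartHyp.of_tensorEquiv (O := ↥(AK A K)) (O' := ↥(AK A L)) HBC
    (equiv1NF A h M' q hℓ hA hπ hπ' hE hE' htK htL hK hL) (cF h (M' * q)) ?_
    (fun z hz => cF_mem_O1 A h M' q hπ hπ' hE hE' hz)
    (fun z hz => cF_mem_O2 A h M' q hπ hπ' hE hE' hz) hN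
    (chartHyp_of_nodalModel1 hL.model)
  intro s
  have := coe_equiv1NF_tmul A h M' q hℓ hA hπ hπ' hE hE' htK htL hK hL 1 s
  rw [map_one, one_mul] at this
  exact this

/-! ### The tensor form -/

include hK hL hℓ hA in
/-- **Chart `0`, tensor form**: `NodalChartHyp` on `↥(AK A L) ⊗[↥(AK A K)] B0^K` for the algebra
structure `g.toAlgebra` of any ring map `g` into `↥(FK N L)` which is `r ⊗ b ↦ r · cF b` on pure
tensors. -/
theorem nodalChartHyp_tensor0 {Kth : ℕ}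
    (g : letI := algAK A h
      (↥(AK A L) ⊗[↥(AK A K)] ↥(B0 A q htK)) →+* ↥(FK (M' * q) L))
    (hg : letI := algAK A h
      ∀ (r : ↥(AK A L)) (b : ↥(B0 A q htK)),
        g (r ⊗ₜ b) =
          algebraMap ↥(AK A L) ↥(FK (M' * q) L) r * cF h (M' * q) (b : ↥(FK (M' * q) K)))
    (hNL : NodalChartHyp (algebraMap ↥(AK A L) ↥(B0 A q htL) π') (O1 M' q hπ' hE')
      (O2 M' q hπ' hE') Kth) :
    letI := algAK A h
    letI := g.toAlgebra
    haveI : IsDomain (↥(AK A L) ⊗[↥(AK A K)] ↥(B0 A q htK)) :=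
      (equiv0NF A h M' q hℓ hA hπ hπ' hE hE' htK htL hK hL).toRingEquiv.injective.isDomain
        ((equiv0NF A h M' q hℓ hA hπ hπ' hE hE' htK htL hK hL).toRingEquiv :
          _ →+* ↥(B0 A q htL))
    NodalChartHyp (algebraMap ↥(AK A L) (↥(AK A L) ⊗[↥(AK A K)] ↥(B0 A q htK)) π')
      (O1 M' q hπ' hE') (O2 M' q hπ' hE') Kth := by
  letI := algAK A h
  letI := g.toAlgebra
  set σ := equiv0NF A h M' q hℓ hA hπ hπ' hE hE' htK htL hK hL with hσ
  haveI : IsDomain (↥(AK A L) ⊗[↥(AK A K)] ↥(B0 A q htK)) :=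
    σ.toRingEquiv.injective.isDomain (σ.toRingEquiv : _ →+* ↥(B0 A q htL))
  have hcompat : ∀ x : ↥(AK A L) ⊗[↥(AK A K)] ↥(B0 A q htK),
      algebraMap ↥(B0 A q htL) ↥(FK (M' * q) L) (σ.toRingEquiv x) =
        algebraMap (↥(AK A L) ⊗[↥(AK A K)] ↥(B0 A q htK)) ↥(FK (M' * q) L) x := by
    intro x
    show algebraMap ↥(B0 A q htL) ↥(FK (M' * q) L) (σ x) = g x
    induction x using TensorProduct.induction_on with
    | zero => rw [map_zero, map_zero, map_zero]
    | add x y hx hy => rw [map_add, map_add, map_add, hx, hy]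
    | tmul r b =>
      rw [hg r b]
      exact coe_equiv0NF_tmul A h M' q hℓ hA hπ hπ' hE hE' htK htL hK hL r b
  have := NodalChartHyp.of_equiv σ.toRingEquiv hcompat hNL
  have hπeq : σ.toRingEquiv.symm (algebraMap ↥(AK A L) ↥(B0 A q htL) π') =
      algebraMap ↥(AK A L) (↥(AK A L) ⊗[↥(AK A K)] ↥(B0 A q htK)) π' := by
    show σ.symm (algebraMap ↥(AK A L) ↥(B0 A q htL) π') = _
    rw [AlgEquiv.commutes]
  rw [hπeq] at this
  exact this

include hK hL hℓ hA in
/-- **Chart `1`, tensor form.** -/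
theorem nodalChartHyp_tensor1 {Kth : ℕ}
    (g : letI := algAK A h
      (↥(AK A L) ⊗[↥(AK A K)] ↥(B1 A q htK)) →+* ↥(FK (M' * q) L))
    (hg : letI := algAK A h
      ∀ (r : ↥(AK A L)) (b : ↥(B1 A q htK)),
        g (r ⊗ₜ b) =
          algebraMap ↥(AK A L) ↥(FK (M' * q) L) r * cF h (M' * q) (b : ↥(FK (M' * q) K)))
    (hNL : NodalChartHyp (algebraMap ↥(AK A L) ↥(B1 A q htL) π') (O1 M' q hπ' hE')
      (O2 M' q hπ' hE') Kth) :
    letI := algAK A h
    letI := g.toAlgebra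
    haveI : IsDomain (↥(AK A L) ⊗[↥(AK A K)] ↥(B1 A q htK)) :=
      (equiv1NF A h M' q hℓ hA hπ hπ' hE hE' htK htL hK hL).toRingEquiv.injective.isDomain
        ((equiv1NF A h M' q hℓ hA hπ hπ' hE hE' htK htL hK hL).toRingEquiv :
          _ →+* ↥(B1 A q htL))
    NodalChartHyp (algebraMap ↥(AK A L) (↥(AK A L) ⊗[↥(AK A K)] ↥(B1 A q htK)) π')
      (O1 M' q hπ' hE') (O2 M' q hπ' hE') Kth := by
  letI := algAK A h
  letI := g.toAlgebra
  set σ := equiv1NF A h M' q hℓ hA hπ hπ' hE hE' htK htL hK hL with hσ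
  haveI : IsDomain (↥(AK A L) ⊗[↥(AK A K)] ↥(B1 A q htK)) :=
    σ.toRingEquiv.injective.isDomain (σ.toRingEquiv : _ →+* ↥(B1 A q htL))
  have hcompat : ∀ x : ↥(AK A L) ⊗[↥(AK A K)] ↥(B1 A q htK),
      algebraMap ↥(B1 A q htL) ↥(FK (M' * q) L) (σ.toRingEquiv x) =
        algebraMap (↥(AK A L) ⊗[↥(AK A K)] ↥(B1 A q htK)) ↥(FK (M' * q) L) x := by
    intro x
    show algebraMap ↥(B1 A q htL) ↥(FK (M' * q) L) (σ x) = g x
    induction x using TensorProduct.induction_on with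
    | zero => rw [map_zero, map_zero, map_zero]
    | add x y hx hy => rw [map_add, map_add, map_add, hx, hy]
    | tmul r b =>
      rw [hg r b]
      exact coe_equiv1NF_tmul A h M' q hℓ hA hπ hπ' hE hE' htK htL hK hL r b
  have := NodalChartHyp.of_equiv σ.toRingEquiv hcompat hNL
  have hπeq : σ.toRingEquiv.symm (algebraMap ↥(AK A L) ↥(B1 A q htL) π') =
      algebraMap ↥(AK A L) (↥(AK A L) ⊗[↥(AK A K)] ↥(B1 A q htK)) π' := by
    show σ.symm (algebraMap ↥(AK A L) ↥(B1 A q htL) π') = _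
    rw [AlgEquiv.commutes]
  rw [hπeq] at this
  exact this

end Charts

end Fermat.Agent.T1B.Hol80.NodalChartNF
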